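import Fermat.Agent.KummerES.Expansion
import Mathlib.NumberTheory.ModularForms.LevelOne.Basic
import Mathlib.RingTheory.RootsOfUnity.Complex
import Mathlib.NumberTheory.ModularForms.CongruenceSubgroups

/-!
# Weakly holomorphic functions of weight zero

`weak Γ L B` is the ring of holomorphic functions on the upper half plane invariant under `Γ`
whose expansion at every cusp is a Laurent series in `exp (2πiτ/L)` with coefficients in `B`.
-/

set_option autoImplicit false

noncomputable section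

open UpperHalfPlane Filter Topology CongruenceSubgroup
open scoped Real MatrixGroups Manifold ModularForm

namespace Fermat.Agent.KummerES

/-- `Gamma` reverses divisibility. -/
lemma Gamma_le_of_dvd {M L : ℕ} (h : M ∣ L) : Gamma L ≤ Gamma M := by
  intro γ hγ
  rw [Gamma_mem] at hγ ⊢
  obtain ⟨h00, h01, h10, h11⟩ := hγ
  refine ⟨?_, ?_, ?_, ?_⟩
  · rw [← map_intCast (ZMod.castHom h (ZMod M)), h00, map_one]
  · rw [← map_intCast (ZMod.castHom h (ZMod M)), h01, map_zero]
  · rw [← map_intCast (ZMod.castHom h (ZMod M)), h10, map_zero]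
  · rw [← map_intCast (ZMod.castHom h (ZMod M)), h11, map_one]

/-- `f ∘ γ`. -/
def comp (f : ℍ → ℂ) (γ : SL(2, ℤ)) : ℍ → ℂ := fun τ => f (γ • τ)

/-- Values of `comp`. -/
@[simp] lemma comp_apply (f : ℍ → ℂ) (γ : SL(2, ℤ)) (τ : ℍ) : comp f γ τ = f (γ • τ) := rfl

/-- Composition with the identity. -/
@[simp] lemma comp_one (f : ℍ → ℂ) : comp f 1 = f := by
  funext τ; simp

/-- `comp` is a right action. -/
lemma comp_comp (f : ℍ → ℂ) (γ δ : SL(2, ℤ)) : comp (comp f γ) δ = comp f (γ * δ) := by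
  funext τ; simp [mul_smul]

lemma mdiff_smul_SL (γ : SL(2, ℤ)) : MDiff (fun τ : ℍ => γ • τ) := by
  simpa [ModularGroup.sl_moeb] using mdifferentiable_smul (g := (γ : GL (Fin 2) ℝ)) (by simp)

/-- `comp` preserves holomorphy. -/
lemma mdiff_comp {f : ℍ → ℂ} (hf : MDiff f) (γ : SL(2, ℤ)) : MDiff (comp f γ) :=
  hf.comp (mdiff_smul_SL γ)

/-- Multiply the `i`-th coefficient of a Laurent series by `c ^ i`. -/
def twist {K : Type*} [Field K] (c : K) (hc : c ≠ 0) : LaurentSeries K →+* LaurentSeries K where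
  toFun s :=
    { coeff := fun i => c ^ i * s.coeff i
      isPWO_support' := s.isPWO_support.mono fun i hi h0 => hi (by simp [h0]) }
  map_one' := by
    ext i
    show c ^ i * (1 : LaurentSeries K).coeff i = (1 : LaurentSeries K).coeff i
    rcases eq_or_ne i 0 with rfl | hi <;> simp [HahnSeries.coeff_one, *]
  map_zero' := by ext i; simp
  map_add' s t := by ext i; simp [mul_add]
  map_mul' s t := by
    ext i
    simp only [HahnSeries.coeff_mul, Finset.mul_sum]
    have hsupp : ∀ (u : LaurentSeries K) (j : ℤ), c ^ j * u.coeff j ≠ 0 ↔ u.coeff j ≠ 0 :=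
      fun u j => by simp [zpow_ne_zero j hc]
    refine Finset.sum_congr ?_ fun p hp => ?_
    · ext p
      simp only [Finset.mem_antidiagonal, HahnSeries.mem_support]
      rw [hsupp, hsupp]
    · rw [← (Finset.mem_antidiagonal.mp hp).2.2, zpow_add₀ hc]
      ring

/-- Coefficients of `twist`. -/
@[simp] lemma twist_coeff {K : Type*} [Field K] (c : K) (hc : c ≠ 0) (s : LaurentSeries K) (i : ℤ) :
    (twist c hc s).coeff i = c ^ i * s.coeff i := rfl

/-- Substitution `τ ↦ u τ` with `exp (2πi uτ/L) = c * exp (2πiτ/L') ^ e`. -/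
lemma HasExp.subst {L L' : ℕ} {f : ℍ → ℂ} {s : LaurentSeries ℂ} (h : HasExp L f s) (u : ℍ → ℍ)
    {c : ℂ} (hc : c ≠ 0) (e : ℕ) [NeZero e] (hq : ∀ τ, qL L (u τ) = c * qL L' τ ^ e) :
    HasExp L' (f ∘ u) (ModularCurve.qExpand ℂ e (twist c hc s)) := fun τ => by
  have hinj : Function.Injective fun i : ℤ => (e : ℤ) * i :=
    mul_right_injective₀ (by exact_mod_cast NeZero.ne e)
  rw [← hinj.hasSum_iff, Function.comp_apply]
  · convert h (u τ) using 1
    funext i
    simp only [Function.comp_apply, ModularCurve.qExpand_coeff_mul, twist_coeff, hq, mul_zpow,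
      ← zpow_natCast, ← zpow_mul]
    ring
  · intro x hx
    rw [ModularCurve.qExpand_coeff_of_not_dvd e _ (fun ⟨i, hi⟩ => hx ⟨i, hi.symm⟩), zero_mul]

/-- `exp (2πi/L)`. -/
def zetaC (L : ℕ) : ℂ := Complex.exp (2 * π * Complex.I / L)

/-- `zetaC` is non-zero. -/
lemma zetaC_ne_zero (L : ℕ) : zetaC L ≠ 0 := Complex.exp_ne_zero _

/-- `zetaC L` is a primitive `L`-th root of unity. -/
lemma isPrimitiveRoot_zetaC (L : ℕ) [NeZero L] : IsPrimitiveRoot (zetaC L) L :=
  Complex.isPrimitiveRoot_exp L (NeZero.ne L)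

/-- Translation by `T ^ n` multiplies `qL L` by `zetaC L ^ n`. -/
lemma qL_T_zpow_smul (L : ℕ) [NeZero L] (n : ℤ) (τ : ℍ) :
    qL L (ModularGroup.T ^ n • τ) = zetaC L ^ n * qL L τ := by
  have hL : (L : ℂ) ≠ 0 := by exact_mod_cast NeZero.ne L
  rw [qL, qL, zetaC, Function.Periodic.qParam, Function.Periodic.qParam, ← Complex.exp_int_mul,
    ← Complex.exp_add, modular_T_zpow_smul, coe_vadd]
  congr 1
  push_cast
  field_simp

/-- The expansion of a translate by `T ^ n` is the twisted series. -/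
lemma HasExp.comp_T_zpow {L : ℕ} [NeZero L] {f : ℍ → ℂ} {s : LaurentSeries ℂ} (h : HasExp L f s)
    (n : ℤ) : HasExp L (comp f (ModularGroup.T ^ n))
      (twist (zetaC L ^ n) (zpow_ne_zero n (zetaC_ne_zero L)) s) := by
  have := h.subst (L' := L) (fun τ => ModularGroup.T ^ n • τ)
    (zpow_ne_zero n (zetaC_ne_zero L)) 1 (fun τ => by rw [qL_T_zpow_smul, pow_one])
  rwa [ModularCurve.qExpand_one_apply] at this

/-- The Laurent series whose coefficients all lie in the subring `B`. -/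
def coeffSubring (B : Subring ℂ) : Subring (LaurentSeries ℂ) where
  carrier := {s | ∀ i, s.coeff i ∈ B}
  one_mem' i := by
    rcases eq_or_ne i 0 with rfl | hi <;> simp [HahnSeries.coeff_one, *, zero_mem, one_mem]
  zero_mem' i := by simp [zero_mem]
  add_mem' hs ht i := by simpa using add_mem (hs i) (ht i)
  neg_mem' hs i := by simpa using neg_mem (hs i)
  mul_mem' hs ht i := by
    rw [HahnSeries.coeff_mul]
    exact sum_mem fun p _ => mul_mem (hs _) (ht _)

/-- A monomial with coefficient in `B` has coefficients in `B`. -/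
lemma single_mem_coeffSubring {B : Subring ℂ} {c : ℂ} (i : ℤ) (hc : c ∈ B) :
    (HahnSeries.single i c : LaurentSeries ℂ) ∈ coeffSubring B := fun j => by
  rcases eq_or_ne j i with rfl | hj <;> simp [*, zero_mem]

/-- Holomorphic, `Γ`-invariant functions with `B`-integral Laurent expansions at every cusp. -/
def weak (Γ : Subgroup SL(2, ℤ)) (L : ℕ) (B : Subring ℂ) : Subring (ℍ → ℂ) where
  carrier := {f | MDiff f ∧ (∀ γ ∈ Γ, comp f γ = f) ∧
    ∀ δ : SL(2, ℤ), ∃ s ∈ coeffSubring B, HasExp L (comp f δ) s}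
  one_mem' := ⟨mdifferentiable_const, fun _ _ => rfl, fun _ => ⟨1, one_mem _, HasExp.one⟩⟩
  zero_mem' := ⟨mdifferentiable_const, fun _ _ => rfl, fun _ => ⟨0, zero_mem _, HasExp.zero⟩⟩
  add_mem' := by
    rintro f g ⟨hf, hf', hf''⟩ ⟨hg, hg', hg''⟩
    refine ⟨hf.add hg, fun γ hγ => ?_, fun δ => ?_⟩
    · funext τ
      exact congrArg₂ (· + ·) (congrFun (hf' γ hγ) τ) (congrFun (hg' γ hγ) τ)
    · obtain ⟨s, hs, hs'⟩ := hf'' δ
      obtain ⟨t, ht, ht'⟩ := hg'' δ
      exact ⟨s + t, add_mem hs ht, hs'.add ht'⟩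
  neg_mem' := by
    rintro f ⟨hf, hf', hf''⟩
    refine ⟨hf.neg, fun γ hγ => ?_, fun δ => ?_⟩
    · funext τ
      exact congrArg Neg.neg (congrFun (hf' γ hγ) τ)
    · obtain ⟨s, hs, hs'⟩ := hf'' δ
      exact ⟨-s, neg_mem hs, hs'.neg⟩
  mul_mem' := by
    rintro f g ⟨hf, hf', hf''⟩ ⟨hg, hg', hg''⟩
    refine ⟨hf.mul hg, fun γ hγ => ?_, fun δ => ?_⟩
    · funext τ
      exact congrArg₂ (· * ·) (congrFun (hf' γ hγ) τ) (congrFun (hg' γ hγ) τ)
    · obtain ⟨s, hs, hs'⟩ := hf'' δ
      obtain ⟨t, ht, ht'⟩ := hg'' δ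
      exact ⟨s * t, mul_mem hs ht, hs'.mul ht'⟩

/-- Membership in `weak`. -/
lemma mem_weak {Γ : Subgroup SL(2, ℤ)} {L : ℕ} {B : Subring ℂ} {f : ℍ → ℂ} :
    f ∈ weak Γ L B ↔ MDiff f ∧ (∀ γ ∈ Γ, comp f γ = f) ∧
      ∀ δ : SL(2, ℤ), ∃ s ∈ coeffSubring B, HasExp L (comp f δ) s := Iff.rfl

/-- `weak` is antitone in the group and monotone in the coefficients. -/
lemma weak_mono {Γ Γ' : Subgroup SL(2, ℤ)} (h : Γ' ≤ Γ) {L : ℕ} {B B' : Subring ℂ} (hB : B ≤ B') :
    weak Γ L B ≤ weak Γ' L B' := fun _ ⟨h1, h2, h3⟩ =>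
  ⟨h1, fun γ hγ => h2 γ (h hγ), fun δ =>
    let ⟨s, hs, hs'⟩ := h3 δ
    ⟨s, fun i => hB (hs i), hs'⟩⟩

/-- Constants in `B` are weakly holomorphic of every level. -/
lemma const_mem_weak {Γ : Subgroup SL(2, ℤ)} {L : ℕ} {B : Subring ℂ} {c : ℂ} (hc : c ∈ B) :
    (fun _ => c) ∈ weak Γ L B :=
  ⟨mdifferentiable_const, fun _ _ => rfl,
    fun _ => ⟨_, single_mem_coeffSubring 0 hc, HasExp.const c⟩⟩

/-- For a normal group, `weak` is stable under `comp`. -/
lemma comp_mem_weak {Γ : Subgroup SL(2, ℤ)} [Γ.Normal] {L : ℕ} {B : Subring ℂ} {f : ℍ → ℂ}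
    (hf : f ∈ weak Γ L B) (γ : SL(2, ℤ)) : comp f γ ∈ weak Γ L B := by
  obtain ⟨h1, h2, h3⟩ := hf
  refine ⟨mdiff_comp h1 γ, fun α hα => ?_, fun δ => by simpa [comp_comp] using h3 (γ * δ)⟩
  rw [comp_comp, show γ * α = (γ * α * γ⁻¹) * γ by group, ← comp_comp,
    h2 _ (Subgroup.Normal.conj_mem inferInstance α hα γ)]

open Classical in
/-- The expansion of a function, if it has one. -/
def expansion (L : ℕ) (f : ℍ → ℂ) : LaurentSeries ℂ :=
  if h : ∃ s, HasExp L f s then h.choose else 0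

/-- `expansion` computes the series of an expansion. -/
lemma HasExp.expansion_eq {L : ℕ} [NeZero L] {f : ℍ → ℂ} {s : LaurentSeries ℂ} (h : HasExp L f s) :
    expansion L f = s := by
  have h' : ∃ s, HasExp L f s := ⟨s, h⟩
  rw [expansion, dif_pos h']
  exact h'.choose_spec.series_eq h

/-- A weakly holomorphic function is the sum of its expansion at each cusp. -/
lemma hasExp_expansion {Γ : Subgroup SL(2, ℤ)} {L : ℕ} [NeZero L] {B : Subring ℂ} {f : ℍ → ℂ}
    (hf : f ∈ weak Γ L B) (δ : SL(2, ℤ)) :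
    HasExp L (comp f δ) (expansion L (comp f δ)) := by
  obtain ⟨s, -, hs⟩ := hf.2.2 δ
  rwa [hs.expansion_eq]

/-- The expansion at each cusp has coefficients in `B`. -/
lemma expansion_mem {Γ : Subgroup SL(2, ℤ)} {L : ℕ} [NeZero L] {B : Subring ℂ} {f : ℍ → ℂ}
    (hf : f ∈ weak Γ L B) (δ : SL(2, ℤ)) :
    expansion L (comp f δ) ∈ coeffSubring B := by
  obtain ⟨s, hs, hs'⟩ := hf.2.2 δ
  rwa [hs'.expansion_eq]

/-- The expansion at the cusp `δ ∞`, as a ring homomorphism. -/
def expAt (Γ : Subgroup SL(2, ℤ)) (L : ℕ) [NeZero L] (B : Subring ℂ) (δ : SL(2, ℤ)) :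
    weak Γ L B →+* LaurentSeries ℂ where
  toFun f := expansion L (comp f.1 δ)
  map_one' := HasExp.expansion_eq HasExp.one
  map_zero' := HasExp.expansion_eq HasExp.zero
  map_add' f g := HasExp.expansion_eq ((hasExp_expansion f.2 δ).add (hasExp_expansion g.2 δ))
  map_mul' f g := HasExp.expansion_eq ((hasExp_expansion f.2 δ).mul (hasExp_expansion g.2 δ))

/-- Values of `expAt`. -/
lemma expAt_apply {Γ : Subgroup SL(2, ℤ)} {L : ℕ} [NeZero L] {B : Subring ℂ} (δ : SL(2, ℤ))
    (f : weak Γ L B) : expAt Γ L B δ f = expansion L (comp f.1 δ) := rfl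

/-- A function is determined by its expansion at any one cusp. -/
lemma expAt_injective {Γ : Subgroup SL(2, ℤ)} {L : ℕ} [NeZero L] {B : Subring ℂ} (δ : SL(2, ℤ)) :
    Function.Injective (expAt Γ L B δ) := fun f g h => by
  have hf := hasExp_expansion f.2 δ
  have hg := hasExp_expansion g.2 δ
  rw [← expAt_apply, h, expAt_apply] at hf
  have := hf.fun_eq hg
  refine Subtype.ext (funext fun τ => ?_)
  simpa using congrFun this (δ⁻¹ • τ)

/-- A holomorphic `SL(2,ℤ)`-invariant function with expansion free of negative powers is constant. -/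
lemma eq_const_of_invariant {L : ℕ} [NeZero L] {f : ℍ → ℂ} {s : LaurentSeries ℂ} (hf : MDiff f)
    (hinv : ∀ γ : SL(2, ℤ), comp f γ = f) (hs : HasExp L f s) (h0 : ∀ i < 0, s.coeff i = 0) :
    f = fun _ => s.coeff 0 := by
  have hbdd : IsBoundedAtImInfty f := (hs.tendsto_atImInfty h0).isBigO_one ℝ
  let F : ModularForm 𝒮ℒ 0 :=
    { toFun := f
      slash_action_eq' := by
        rintro _ ⟨γ, rfl⟩
        funext τ
        have h := congrFun (hinv γ) τ
        rw [comp_apply, ModularGroup.sl_moeb] at h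
        change (f ∣[(0 : ℤ)] (γ : SL(2, ℤ))) τ = f τ
        rw [ModularForm.SL_slash_apply]
        simpa using congrFun (hinv γ) τ
      holo' := hf
      bdd_at_cusps' := fun hc => by
        rw [OnePoint.isBoundedAt_iff_forall_SL2Z hc]
        intro γ _
        have : (f ∣[(0 : ℤ)] γ) = f := by
          funext τ
          rw [ModularForm.SL_slash_apply]
          simpa using congrFun (hinv γ) τ
        rw [this]
        exact hbdd }
  obtain ⟨c, hc⟩ := ModularFormClass.levelOne_weight_zero_const F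
  have hfc : f = fun _ => c := hc
  have := (hs.tendsto_atImInfty h0)
  rw [hfc] at this ⊢
  funext τ
  exact tendsto_nhds_unique tendsto_const_nhds this

end Fermat.Agent.KummerES
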