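import Fermat.Agent.KummerES.Weak

/-!
# Holomorphy and inversion of functions with Laurent expansions

A function with an expansion valid on the whole upper half plane is holomorphic, and if it has no
zero there then the inverse series is the expansion of its inverse.
-/

set_option autoImplicit false

noncomputable section

open UpperHalfPlane Filter Topology
open scoped Real Manifold

namespace Fermat.Agent.KummerES

namespace HasExp

variable {L : ℕ} {f : ℍ → ℂ} {s : LaurentSeries ℂ}

lemma hasSum_nat (h : HasExp L f s) (hs : ∀ i < 0, s.coeff i = 0) (τ : ℍ) :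
    HasSum (fun n : ℕ => s.coeff n * qL L τ ^ n) (f τ) := by
  refine ((Nat.cast_injective (R := ℤ)).hasSum_iff (f := fun i : ℤ => s.coeff i * qL L τ ^ i)
    ?_).mpr (h τ) |>.congr_fun fun n => by simp
  intro i hi
  have : i < 0 := not_le.mp fun h0 => hi ⟨i.toNat, Int.toNat_of_nonneg h0⟩
  simp [hs i this]

/-- Multiplying by a power of `qL` shifts the series. -/
lemma shift [NeZero L] (h : HasExp L f s) (k : ℤ) :
    HasExp L (fun τ => qL L τ ^ k * f τ) (HahnSeries.single k 1 * s) := by
  have := (HasExp.single (L := L) k 1).mul h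
  simp only [one_mul] at this
  exact this

/-- The disc function of a series without terms of negative degree. -/
lemma exists_ball [NeZero L] (h : HasExp L f s) (hs : ∀ i < 0, s.coeff i = 0) :
    ∃ G : ℂ → ℂ, DifferentiableOn ℂ G (Metric.ball 0 1) ∧ (∀ τ, G (qL L τ) = f τ) ∧
      G 0 = s.coeff 0 := by
  have hL : (0 : ℝ) < L := by exact_mod_cast Nat.pos_of_ne_zero (NeZero.ne L)
  let p : FormalMultilinearSeries ℂ ℂ ℂ := .ofScalars ℂ fun n : ℕ => s.coeff n
  have hrad : 1 ≤ p.radius := by
    refine le_of_forall_lt_imp_le_of_dense fun r hr => ?_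
    lift r to NNReal using hr.ne_top
    rcases eq_or_ne r 0 with rfl | hr'
    · simp
    refine FormalMultilinearSeries.le_radius_of_summable _ ?_
    have hr1 : ‖((r : ℝ) : ℂ)‖ < 1 := by simpa using hr
    have hr0 : ((r : ℝ) : ℂ) ≠ 0 := by simpa using hr'
    let τ : ℍ := ⟨Function.Periodic.invQParam (L : ℝ) ((r : ℝ) : ℂ),
      Function.Periodic.im_invQParam_pos_of_norm_lt_one hL hr1 hr0⟩
    have hq : qL L τ = ((r : ℝ) : ℂ) := Function.Periodic.qParam_right_inv hL.ne' hr0
    have := (h.hasSum_nat hs τ).summable.norm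
    simpa [p, hq] using this
  have hr0 : 0 < p.radius := zero_lt_one.trans_le hrad
  refine ⟨p.sum, ?_, fun τ => ?_, ?_⟩
  · refine (p.hasFPowerSeriesOnBall hr0).differentiableOn.mono fun z hz => ?_
    refine Metric.eball_subset_eball hrad ?_
    rw [← ENNReal.coe_one, Metric.eball_coe]
    exact hz
  · rw [← FormalMultilinearSeries.ofScalarsSum, FormalMultilinearSeries.ofScalars_sum_eq]
    exact (h.hasSum_nat hs τ).tsum_eq
  · rw [← FormalMultilinearSeries.ofScalarsSum, FormalMultilinearSeries.ofScalarsSum_zero]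
    simp

private lemma mdiff_aux [NeZero L] (h : HasExp L f s) (hs : ∀ i < 0, s.coeff i = 0) :
    MDiff f := by
  have hL : (0 : ℝ) < L := by exact_mod_cast Nat.pos_of_ne_zero (NeZero.ne L)
  obtain ⟨G, hG, hGf, -⟩ := h.exists_ball hs
  rw [mdifferentiable_iff]
  have hd : DifferentiableOn ℂ (fun z : ℂ => G (Function.Periodic.qParam L z))
      {z | 0 < z.im} :=
    hG.comp ((Function.Periodic.differentiable_qParam).differentiableOn) fun z hz =>
      mem_ball_zero_iff.mpr (Function.Periodic.norm_qParam_lt_one hL hz)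
  refine hd.congr fun z hz => ?_
  show f (ofComplex z) = _
  rw [ofComplex_apply_of_im_pos hz, ← hGf]
  rfl

/-- A function with an expansion is holomorphic. -/
lemma mdiff [NeZero L] (h : HasExp L f s) : MDiff f := by
  have hs : ∀ i < 0, (HahnSeries.single (-s.order) (1 : ℂ) * s).coeff i = 0 := fun i hi => by
    rw [HahnSeries.coeff_single_mul]
    rw [HahnSeries.coeff_eq_zero_of_lt_order (show i - -s.order < s.order by omega), mul_zero]
  have hfun : f = (fun τ => qL L τ ^ s.order) * fun τ => qL L τ ^ (-s.order) * f τ := by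
    funext τ
    simp [zpow_neg, ← mul_assoc, mul_inv_cancel₀ (zpow_ne_zero s.order (qL_ne_zero L τ))]
  rw [hfun]
  refine MDifferentiable.mul ?_ ((h.shift _).mdiff_aux hs)
  intro τ
  rw [UpperHalfPlane.mdifferentiableAt_iff]
  have : DifferentiableAt ℂ (fun z : ℂ => Function.Periodic.qParam (L : ℝ) z ^ s.order) (τ : ℂ) :=
    (Function.Periodic.differentiable_qParam.differentiableAt).zpow
      (Or.inl (Function.Periodic.qParam_ne_zero _))
  refine this.congr_of_eventuallyEq ?_
  filter_upwards [(isOpen_lt continuous_const Complex.continuous_im).mem_nhds τ.im_pos] with z hz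
  simp [qL, ofComplex_apply_of_im_pos hz]

/-- The inverse of a nowhere vanishing function has the inverse expansion. -/
lemma inv [NeZero L] (h : HasExp L f s) (hf : ∀ τ, f τ ≠ 0) (hs0 : s ≠ 0) :
    HasExp L f⁻¹ s⁻¹ := by
  have hL : (0 : ℝ) < L := by exact_mod_cast Nat.pos_of_ne_zero (NeZero.ne L)
  set a := s.order with ha
  have hs : ∀ i < 0, (HahnSeries.single (-a) (1 : ℂ) * s).coeff i = 0 := fun i hi => by
    rw [HahnSeries.coeff_single_mul]
    rw [HahnSeries.coeff_eq_zero_of_lt_order (show i - -a < s.order by omega), mul_zero]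
  have hc0 : (HahnSeries.single (-a) (1 : ℂ) * s).coeff 0 ≠ 0 := by
    rw [HahnSeries.coeff_single_mul]
    simpa [ha] using HahnSeries.coeff_order_eq_zero.not.mpr hs0
  obtain ⟨G, hG, hGf, hG0⟩ := (h.shift (-a)).exists_ball hs
  have hGne : ∀ z ∈ Metric.ball (0 : ℂ) 1, G z ≠ 0 := by
    intro z hz
    rcases eq_or_ne z 0 with rfl | hz0
    · rwa [hG0]
    · let τ : ℍ := ⟨Function.Periodic.invQParam (L : ℝ) z,
        Function.Periodic.im_invQParam_pos_of_norm_lt_one hL (mem_ball_zero_iff.mp hz) hz0⟩
      have hq : qL L τ = z := Function.Periodic.qParam_right_inv hL.ne' hz0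
      rw [← hq, hGf]
      exact mul_ne_zero (zpow_ne_zero _ (qL_ne_zero L τ)) (hf τ)
  have hGi : DifferentiableOn ℂ (fun z => (G z)⁻¹) (Metric.ball 0 1) := hG.inv hGne
  let d : PowerSeries ℂ :=
    PowerSeries.mk fun n => (↑n.factorial)⁻¹ * iteratedDeriv n (fun z => (G z)⁻¹) 0
  have hd : HasExp L (fun τ => (qL L τ ^ (-a) * f τ)⁻¹) (HahnSeries.ofPowerSeries ℤ ℂ d) := by
    intro τ
    have hmem : qL L τ ∈ Metric.ball (0 : ℂ) 1 := mem_ball_zero_iff.mpr (norm_qL_lt_one L τ)
    refine ((Nat.cast_injective (R := ℤ)).hasSum_iff ?_).mp ?_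
    · intro i hi
      rw [HahnSeries.ofPowerSeries_apply, HahnSeries.embDomain_of_notMem_range, zero_mul]
      rintro ⟨n, hn⟩
      exact hi ⟨n, by simpa using hn⟩
    · have := Complex.hasSum_taylorSeries_on_ball hGi hmem
      simp only [sub_zero, smul_eq_mul, hGf] at this
      refine this.congr_fun fun n => ?_
      simp [d, HahnSeries.ofPowerSeries_apply_coeff]
      ring
  have hinv : f⁻¹ = fun τ => qL L τ ^ (-a) * (qL L τ ^ (-a) * f τ)⁻¹ := by
    funext τ
    have := zpow_ne_zero a (qL_ne_zero L τ)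
    simp only [Pi.inv_apply, zpow_neg, mul_inv, inv_inv]
    field_simp
  have ht := hd.shift (-a)
  rw [← hinv] at ht
  have hone : s * (HahnSeries.single (-a) 1 * HahnSeries.ofPowerSeries ℤ ℂ d) = 1 := by
    refine (h.mul ht).series_eq ?_
    rw [show f * f⁻¹ = 1 from funext fun τ => mul_inv_cancel₀ (hf τ)]
    exact HasExp.one
  rwa [inv_eq_of_mul_eq_one_right hone]

end HasExp

end Fermat.Agent.KummerES
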