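import Fermat.Agent.KummerES.Weak

/-!
# Expansions in `q` of functions invariant under translation

A function with an expansion in `exp (2πiτ/(LM))` supported on multiples of `M` has one in
`exp (2πiτ/L)`; in particular a function invariant under `τ ↦ τ + 1` has one in `exp (2πiτ)`.
-/

set_option autoImplicit false

noncomputable section

open UpperHalfPlane
open scoped MatrixGroups

namespace Fermat.Agent.KummerES

open ModularCurve (qExpand)

/-- `∑ a i q ^ i ↦ ∑ a (ℓ i) q ^ i`. -/
def contract {R : Type*} [CommRing R] (ℓ : ℕ) [NeZero ℓ] (s : LaurentSeries R) : LaurentSeries R :=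
  HahnSeries.ofSuppBddBelow (fun i => s.coeff ((ℓ : ℤ) * i))
    (bddBelow_support_of_forall_lt (min s.order 0) fun i hi => by
      refine HahnSeries.coeff_eq_zero_of_lt_order ?_
      have h0 : i < 0 := lt_of_lt_of_le hi (min_le_right _ _)
      have h1 : i < s.order := lt_of_lt_of_le hi (min_le_left _ _)
      have : (1 : ℤ) ≤ ℓ := by exact_mod_cast Nat.pos_of_ne_zero (NeZero.ne ℓ)
      nlinarith)

/-- Coefficients of `contract`. -/
@[simp] lemma contract_coeff {R : Type*} [CommRing R] (ℓ : ℕ) [NeZero ℓ] (s : LaurentSeries R) (i : ℤ) :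
    (contract ℓ s).coeff i = s.coeff ((ℓ : ℤ) * i) := rfl

/-- A series supported on multiples of `ℓ` is the expansion in `q ^ ℓ` of its contraction. -/
lemma qExpand_contract {R : Type*} [CommRing R] {ℓ : ℕ} [NeZero ℓ] {s : LaurentSeries R}
    (h : ∀ i : ℤ, ¬ (ℓ : ℤ) ∣ i → s.coeff i = 0) : qExpand R ℓ (contract ℓ s) = s := by
  ext i
  by_cases hi : (ℓ : ℤ) ∣ i
  · obtain ⟨m, rfl⟩ := hi
    rw [ModularCurve.qExpand_coeff_mul, contract_coeff]
  · rw [ModularCurve.qExpand_coeff_of_not_dvd ℓ _ hi, h i hi]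

/-- The converse of dilation, down to expansions in `exp (2πiτ)`. -/
lemma HasExp.of_qExpand_one {L : ℕ} [NeZero L] {f : ℍ → ℂ} {t : LaurentSeries ℂ}
    (h : HasExp L f (qExpand ℂ L t)) : HasExp 1 f t := by
  have key : ∀ K : ℕ, K = 1 * L → HasExp K f (qExpand ℂ L t) → HasExp 1 f t := by
    intro K hK; subst hK; exact HasExp.of_qExpand L
  exact key L (one_mul L).symm h

/-- A function invariant under `τ ↦ τ + 1` with an expansion in `exp (2πiτ/L)` has one in
`exp (2πiτ)`. -/
lemma exists_hasExp_one {L : ℕ} [NeZero L] {f : ℍ → ℂ} {s : LaurentSeries ℂ} (hs : HasExp L f s)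
    (hT : comp f ModularGroup.T = f) :
    ∃ t : LaurentSeries ℂ, HasExp 1 f t ∧ qExpand ℂ L t = s := by
  have h1 := hs.comp_T_zpow 1
  rw [zpow_one, hT] at h1
  have h2 := hs.series_eq h1
  have hsupp : ∀ i : ℤ, ¬ (L : ℤ) ∣ i → s.coeff i = 0 := by
    intro i hi
    have h3 := congrArg (fun u : LaurentSeries ℂ => u.coeff i) h2
    rw [twist_coeff, zpow_one] at h3
    by_contra h0
    exact hi (((isPrimitiveRoot_zetaC L).zpow_eq_one_iff_dvd i).mp
      (mul_right_cancel₀ h0 (by rw [one_mul]; exact h3.symm)))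
  have ht := qExpand_contract hsupp
  exact ⟨contract L s, HasExp.of_qExpand_one (by rwa [ht]), ht⟩

end Fermat.Agent.KummerES
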