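import Fermat.Agent.KummerES.HeckeRoot
import Fermat.Agent.KummerES.LevelOne

/-!
# Hecke products of weakly holomorphic functions

The Hecke product keeps the level `L`, only the coefficient ring must contain a root of unity of
order `L * ℓ`; basic operations on Kummer roots.
-/

set_option autoImplicit false

noncomputable section

open UpperHalfPlane CongruenceSubgroup
open scoped MatrixGroups Manifold OnePoint Real

namespace Fermat.Agent.KummerES

open HeckeLattice (CosetSystem Idx rep toGL)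
open ModularCurve (qExpand)

/-- `qExpand` keeps the coefficients in `B`. -/
lemma qExpand_mem_coeffSubring {B : Subring ℂ} (M : ℕ) [NeZero M] {s : LaurentSeries ℂ}
    (hs : s ∈ coeffSubring B) : qExpand ℂ M s ∈ coeffSubring B := fun i => by
  by_cases hi : (M : ℤ) ∣ i
  · obtain ⟨m, rfl⟩ := hi
    rw [ModularCurve.qExpand_coeff_mul]; exact hs m
  · rw [ModularCurve.qExpand_coeff_of_not_dvd M s hi]; exact zero_mem _

/-- Invariance under `τ ↦ τ + L` lowers the parameter from `L * M` to `L`. -/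
lemma exists_hasExp_of_comp_T_pow {L M : ℕ} [NeZero L] [NeZero M] {B : Subring ℂ} {f : ℍ → ℂ}
    {s : LaurentSeries ℂ} (hs : HasExp (L * M) f s) (hsB : s ∈ coeffSubring B)
    (hT : comp f (ModularGroup.T ^ (L : ℤ)) = f) :
    ∃ t ∈ coeffSubring B, HasExp L f t := by
  have h1 := hs.comp_T_zpow (L : ℤ)
  rw [hT] at h1
  have h2 := hs.series_eq h1
  have hzeta : IsPrimitiveRoot (zetaC (L * M) ^ (L : ℤ)) M := by
    rw [zpow_natCast]
    exact (isPrimitiveRoot_zetaC (L * M)).pow (Nat.pos_of_ne_zero (NeZero.ne _)) rfl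
  have hsupp : ∀ i : ℤ, ¬ (M : ℤ) ∣ i → s.coeff i = 0 := by
    intro i hi
    have h3 := congrArg (fun u : LaurentSeries ℂ => u.coeff i) h2
    rw [twist_coeff] at h3
    by_contra h0
    exact hi ((hzeta.zpow_eq_one_iff_dvd i).mp
      (mul_right_cancel₀ h0 (by rw [one_mul]; exact h3.symm)))
  have ht := qExpand_contract hsupp
  exact ⟨contract M s, fun i => hsB _, HasExp.of_qExpand M (by rwa [ht])⟩

/-- Raising the level. -/
lemma weak_Gamma_le_mul (L M : ℕ) [NeZero L] [NeZero M] (B : Subring ℂ) :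
    weak (Gamma L) L B ≤ weak (Gamma (L * M)) (L * M) B := by
  rintro f ⟨h1, h2, h3⟩
  refine ⟨h1, fun γ hγ => h2 γ (Gamma_le_of_dvd (dvd_mul_right L M) hγ), fun δ => ?_⟩
  · obtain ⟨s, hs, hs'⟩ := h3 δ
    exact ⟨_, qExpand_mem_coeffSubring M hs, hs'.dilate M⟩

/-- `f ∘ δ` is invariant under `τ ↦ τ + L`. -/
lemma comp_comp_T_pow {L : ℕ} {f : ℍ → ℂ} (hf : ∀ γ ∈ Gamma L, comp f γ = f) (δ : SL(2, ℤ)) :
    comp (comp f δ) (ModularGroup.T ^ (L : ℤ)) = comp f δ := by
  rw [comp_comp, show δ * ModularGroup.T ^ (L : ℤ)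
      = (δ * ModularGroup.T ^ (L : ℤ) * δ⁻¹) * δ by group, ← comp_comp,
    hf _ ((Gamma_normal L).conj_mem _ (ModularGroup_T_pow_mem_Gamma (L : ℤ) (L : ℤ) dvd_rfl) δ)]

/-- `rootPow 1` is trivial. -/
lemma rootPow_zmod_one (x : ZMod 1) : rootPow 1 x = 1 := by
  rw [Subsingleton.elim x 0, rootPow_zero]

variable {Γ : Subgroup SL(2, ℤ)} {ℓ : ℕ} [hℓ : Fact ℓ.Prime] {D : CosetSystem Γ (Idx ℓ)}

/-- Each standard representative sends `qL L` to a unit multiple of a power of `qL (L * ℓ)`. -/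
lemma qL_rep_coeff_mem {L : ℕ} [NeZero L] (y : Idx ℓ) {B : Subring ℂ}
    (hζ : zetaC (L * ℓ) ∈ B) :
    ∃ (c : ℂ) (e : ℕ), c ≠ 0 ∧ e ≠ 0 ∧ (∀ i : ℤ, c ^ i ∈ B) ∧
      ∀ τ : ℍ, qL L (rep ℓ y • τ) = c * qL (L * ℓ) τ ^ e := by
  have hl : (ℓ : ℂ) ≠ 0 := by exact_mod_cast hℓ.out.ne_zero
  have hL : (L : ℂ) ≠ 0 := by exact_mod_cast NeZero.ne L
  cases y using OnePoint.rec with
  | infty =>
    refine ⟨1, ℓ ^ 2, one_ne_zero, pow_ne_zero _ hℓ.out.ne_zero,
      fun i => by simp [one_mem], fun τ => ?_⟩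
    rw [one_mul]
    show Function.Periodic.qParam L ((ModularForm.heckeDiagMatrix ℓ • τ : ℍ) : ℂ) = _
    rw [ModularForm.coe_heckeDiagMatrix_smul hℓ.out.ne_zero, qL, Function.Periodic.qParam,
      Function.Periodic.qParam, ← Complex.exp_nat_mul]
    congr 1
    push_cast
    field_simp
  | coe j =>
    refine ⟨zetaC (L * ℓ) ^ j.val, 1, pow_ne_zero _ (zetaC_ne_zero _), one_ne_zero,
      fun i => ?_, fun τ => ?_⟩
    · have hord := (isPrimitiveRoot_zetaC (L * ℓ)).pow_eq_one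
      have h0 : (0 : ℤ) < (L * ℓ : ℕ) := by exact_mod_cast Nat.pos_of_ne_zero (NeZero.ne _)
      rw [← zpow_natCast, ← zpow_mul,
        ← Int.mul_ediv_add_emod ((j.val : ℤ) * i) (L * ℓ : ℕ), zpow_add₀ (zetaC_ne_zero _), zpow_mul,
        zpow_natCast, hord, one_zpow, one_mul,
        ← Int.toNat_of_nonneg (Int.emod_nonneg _ h0.ne'), zpow_natCast]
      exact pow_mem hζ _
    · show Function.Periodic.qParam L ((ModularForm.heckeMatrix ℓ j.val • τ : ℍ) : ℂ) = _
      rw [ModularForm.coe_heckeMatrix_smul hℓ.out.ne_zero, pow_one, qL, zetaC,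
        Function.Periodic.qParam, Function.Periodic.qParam, ← Complex.exp_nat_mul,
        ← Complex.exp_add]
      congr 1
      push_cast
      field_simp
      ring

/-- The Hecke product of an invariant function is invariant. -/
lemma comp_heckeProd_eq {f : ℍ → ℂ} (hf : ∀ γ ∈ Γ, comp f γ = f) {γ : SL(2, ℤ)} (hγ : γ ∈ Γ) :
    comp (heckeProd D f) γ = heckeProd D f := by
  have h := heckeProd_comp D (n := 1) (χ := 0) (g := f)
    (fun α => by rw [hf _ α.2]; funext τ; rw [rootPow_zmod_one, one_mul]) ⟨γ, hγ⟩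
  rw [h]
  funext τ
  rw [rootPow_zmod_one, one_mul]

/-- The Hecke product of a `Γ`-invariant function of level `L` has level `L`. -/
theorem heckeProd_mem_weak (hD : IsStandard D) {L : ℕ} [NeZero L] (hL : Gamma L ≤ Γ)
    {B : Subring ℂ} (hζ : zetaC (L * ℓ) ∈ B) {f : ℍ → ℂ} (hf : f ∈ weak (Gamma L) L B)
    (hfΓ : ∀ γ ∈ Γ, comp f γ = f) : heckeProd D f ∈ weak (Gamma L) L B := by
  classical
  have hinv : ∀ γ ∈ Gamma L, comp (heckeProd D f) γ = heckeProd D f :=
    fun γ hγ => comp_heckeProd_eq hfΓ (hL hγ)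
  refine ⟨mdiff_heckeProd hD hf.1, hinv, fun δ => ?_⟩
  have key : ∀ x, ∃ s ∈ coeffSubring B,
      HasExp (L * ℓ) (fun τ => f (D.β x • (δ • τ))) s := by
    intro x
    obtain ⟨u, y, hy⟩ := hD x
    obtain ⟨v, z, hv⟩ := exists_rep_mul_SL y δ
    obtain ⟨c, e, hc, he, hcB, hq⟩ := qL_rep_coeff_mem (ℓ := ℓ) z hζ
    have : NeZero e := ⟨he⟩
    obtain ⟨s, hsB, hs⟩ := hf.2.2 (u * v)
    refine ⟨qExpand ℂ e (twist c hc s), qExpand_mem_coeffSubring e fun i => ?_, ?_⟩
    · rw [twist_coeff]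
      exact mul_mem (hcB i) (hsB i)
    · have h2 := hs.subst (L' := L * ℓ) (fun τ => rep ℓ z • τ) hc e hq
      have h3 : (fun τ => f (D.β x • (δ • τ))) = comp f (u * v) ∘ fun τ => rep ℓ z • τ := by
        funext τ
        show f (D.β x • (Matrix.SpecialLinearGroup.mapGL ℝ δ • τ))
          = f (Matrix.SpecialLinearGroup.mapGL ℝ (u * v) • (rep ℓ z • τ))
        rw [← mul_smul, ← mul_smul, hy, mul_assoc, hv, ← mul_assoc, map_mul]
      rw [h3]
      exact h2
  choose s hsB hs using key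
  have hprod : ∀ T : Finset (Idx ℓ),
      HasExp (L * ℓ) (fun τ => ∏ x ∈ T, f (D.β x • (δ • τ))) (∏ x ∈ T, s x) := by
    intro T
    induction T using Finset.induction_on with
    | empty => simpa [Pi.one_def] using (HasExp.one (L := L * ℓ))
    | insert a T ha ih =>
      simp only [Finset.prod_insert ha]
      exact (hs a).mul ih
  exact exists_hasExp_of_comp_T_pow (hprod Finset.univ) (prod_mem fun x _ => hsB x)
    (comp_comp_T_pow hinv δ)

namespace IsKummer

variable {L n : ℕ} [NeZero n] {χ ψ : Additive Γ →+ ZMod n} {g h : ℍ → ℂ}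

/-- The `n`-th power of a Kummer root is invariant. -/
lemma pow_comp_eq (hg : IsKummer L n χ g) {γ : SL(2, ℤ)} (hγ : γ ∈ Γ) :
    comp (g ^ n) γ = g ^ n :=
  comp_eq_of_rootPow hg.comp_eq γ hγ

/-- The power of a Kummer root has a non-zero expansion. -/
lemma exists_pow_hasExp [NeZero L] (hg : IsKummer L n χ g) :
    ∃ s : LaurentSeries ℂ, s ≠ 0 ∧ HasExp L (g ^ n) s := by
  obtain ⟨s, -, hs⟩ := hg.pow_mem.2.2 1
  rw [comp_one] at hs
  refine ⟨s, fun h0 => hg.ne_zero ?_, hs⟩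
  subst h0
  funext τ
  have := congrFun (hs.fun_eq HasExp.zero) τ
  simpa [NeZero.ne n] using this

/-- The product of roots is a root of the sum of the characters. -/
lemma mul_of_mul [NeZero L] (hg : IsKummer L n χ g) (hh : IsKummer L n ψ h) :
    IsKummer L n (χ + ψ) (g * h) where
  ne_zero h0 := by
    obtain ⟨s, hs0, hs⟩ := hg.exists_pow_hasExp
    obtain ⟨t, ht0, ht⟩ := hh.exists_pow_hasExp
    have := hs.mul ht
    rw [← mul_pow, h0, zero_pow (NeZero.ne n)] at this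
    exact mul_ne_zero hs0 ht0 this.eq_zero_of_fun_zero
  holo := hg.holo.mul hh.holo
  comp_eq γ := by
    funext τ
    show g ((γ : SL(2, ℤ)) • τ) * h ((γ : SL(2, ℤ)) • τ) = _
    rw [show g ((γ : SL(2, ℤ)) • τ) = _ from congrFun (hg.comp_eq γ) τ,
      show h ((γ : SL(2, ℤ)) • τ) = _ from congrFun (hh.comp_eq γ) τ]
    simp only [AddMonoidHom.add_apply, rootPow_add, Pi.mul_apply]
    ring
  pow_mem := by
    rw [mul_pow]
    exact mul_mem hg.pow_mem hh.pow_mem

/-- A power of a root of `χ` is a root of the multiple of `χ`. -/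
lemma pow_nat [NeZero L] (hg : IsKummer L n χ g) : ∀ m : ℕ, IsKummer L n (m • χ) (g ^ m)
  | 0 => by
    rw [pow_zero, zero_smul]
    refine ⟨fun h => one_ne_zero (congrFun h UpperHalfPlane.I), mdifferentiable_const,
      fun γ => ?_, by rw [one_pow]; exact one_mem _⟩
    funext τ
    simp
  | m + 1 => by
    rw [pow_succ, succ_nsmul]
    exact (pow_nat hg m).mul_of_mul hg

/-- Composition with a matrix normalising `Γ`. -/
lemma comp_conj (hg : IsKummer L n χ g) (δ : SL(2, ℤ)) (dia : Γ →* Γ)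
    (hdia : ∀ γ : Γ, (dia γ : SL(2, ℤ)) = δ * γ * δ⁻¹) :
    IsKummer L n (χ.comp dia.toAdditive) (comp g δ) where
  ne_zero h0 := hg.ne_zero <| funext fun τ => by simpa using congrFun h0 (δ⁻¹ • τ)
  holo := mdiff_comp hg.holo δ
  comp_eq γ := by
    rw [comp_comp, show δ * (γ : SL(2, ℤ)) = (dia γ : SL(2, ℤ)) * δ by rw [hdia]; group,
      ← comp_comp, hg.comp_eq]
    rfl
  pow_mem := by
    have : comp g δ ^ n = comp (g ^ n) δ := rfl
    rw [this]
    have : (Gamma L).Normal := Gamma_normal L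
    exact comp_mem_weak hg.pow_mem δ

end IsKummer

/-- The Hecke transform of a Kummer root, at the same level. -/
theorem isKummer_heckeProd_self (hD : IsStandard D) {L n : ℕ} [NeZero L] [NeZero n]
    (hL : Gamma L ≤ Γ) {χ : Additive Γ →+ ZMod n} {g : ℍ → ℂ} (hg : IsKummer L n χ g) :
    IsKummer L n (D.transfer χ) (heckeProd D g) := by
  have h := isKummer_heckeProd D hD hL hg
  refine ⟨h.ne_zero, h.holo, h.comp_eq, ?_⟩
  rw [← heckeProd_pow]
  exact heckeProd_mem_weak hD hL (Subring.mem_top _) hg.pow_mem fun γ hγ => hg.pow_comp_eq hγ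

end Fermat.Agent.KummerES
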