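import Mathlib.NumberTheory.ModularForms.EisensteinSeries.QExpansion
import Mathlib.Analysis.Normed.Group.Tannery

/-!
# The weight two Lipschitz formula

`∑ₙ (x + n)⁻² = (2πi)² u / (1 - u)²` for `u = exp (2πix) ≠ 1`.
-/

set_option autoImplicit false

noncomputable section

open Complex Filter Topology
open scoped Real

namespace Fermat.Agent.KummerES

/-- `u / (1 - u)²`. -/
def geomTwo (u : ℂ) : ℂ := u / (1 - u) ^ 2

/-- `geomTwo` is invariant under inversion. -/
lemma geomTwo_inv (u : ℂ) : geomTwo u⁻¹ = geomTwo u := by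
  rcases eq_or_ne u 0 with rfl | h
  · simp [geomTwo]
  · unfold geomTwo
    rw [show (1 - u⁻¹) ^ 2 = (1 - u) ^ 2 / u ^ 2 by field_simp; ring, div_div_eq_mul_div, pow_two u,
      inv_mul_cancel_left₀ h]

/-- The shifted series of inverse squares over `ℤ` converges. -/
lemma summable_inv_sq_add_int (x : ℂ) : Summable fun n : ℤ => ((x + n) ^ 2)⁻¹ :=
  (EisensteinSeries.linear_right_summable x 1 (k := 2) le_rfl).congr fun n => by simp [zpow_ofNat]

lemma tsum_inv_sq_add_int_of_im_pos {x : ℂ} (hx : 0 < x.im) :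
    ∑' n : ℤ, ((x + n) ^ 2)⁻¹ = (2 * π * I) ^ 2 * geomTwo (cexp (2 * π * I * x)) := by
  have h := EisensteinSeries.qExpansion_identity (k := 1) le_rfl ⟨x, hx⟩
  simp only [one_div, pow_one, Nat.factorial_one, Nat.cast_one, div_one, Nat.reduceAdd] at h
  rw [h, (hasSum_coe_mul_geometric_of_norm_lt_one
    (UpperHalfPlane.norm_exp_two_pi_I_lt_one ⟨x, hx⟩)).tsum_eq, geomTwo]
  ring

lemma tsum_inv_sq_add_int_neg (x : ℂ) :
    ∑' n : ℤ, ((-x + n) ^ 2)⁻¹ = ∑' n : ℤ, ((x + n) ^ 2)⁻¹ := by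
  rw [← (Equiv.neg ℤ).tsum_eq]
  refine tsum_congr fun n => ?_
  simp only [Equiv.neg_apply, Int.cast_neg]
  ring_nf

/-- The Lipschitz formula in weight two, at any nonintegral point. -/
lemma tsum_inv_sq_add_int (x : ℂ) (hx : cexp (2 * π * I * x) ≠ 1) :
    ∑' n : ℤ, ((x + n) ^ 2)⁻¹ = (2 * π * I) ^ 2 * geomTwo (cexp (2 * π * I * x)) := by
  rcases lt_trichotomy x.im 0 with h | h | h
  · rw [← tsum_inv_sq_add_int_neg, tsum_inv_sq_add_int_of_im_pos (by simpa using h),
      mul_neg, Complex.exp_neg, geomTwo_inv]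
  · have hne : ∀ n : ℤ, x + n ≠ 0 := fun n hn => hx <| by
      rw [eq_neg_of_add_eq_zero_left hn, ← Int.cast_neg, mul_comm, exp_int_mul_two_pi_mul_I]
    have hdom : ∀ (n : ℤ) (y : ℝ), ‖((x + y * I + n) ^ 2)⁻¹‖ ≤ ‖((x + n) ^ 2)⁻¹‖ := fun n y => by
      simp only [norm_inv, norm_pow]
      gcongr
      · exact pow_pos (norm_pos_iff.mpr (hne n)) 2
      · have hre : x + n = ((x + n).re : ℂ) := Complex.ext rfl (by simp [h])
        rw [hre, Complex.norm_real, Real.norm_eq_abs]
        simpa using Complex.abs_re_le_norm (x + y * I + n)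
    have hlhs : Tendsto (fun y : ℝ => ∑' n : ℤ, ((x + y * I + n) ^ 2)⁻¹) (𝓝[>] 0)
        (𝓝 (∑' n : ℤ, ((x + n) ^ 2)⁻¹)) := by
      refine tendsto_tsum_of_dominated_convergence (summable_norm_iff.mpr (summable_inv_sq_add_int x))
        (fun n => ?_) (Eventually.of_forall fun y n => hdom n y)
      have : ContinuousAt (fun y : ℝ => ((x + y * I + n) ^ 2)⁻¹) 0 :=
        ContinuousAt.inv₀ (by fun_prop) (by simpa using hne n)
      simpa using this.tendsto.mono_left nhdsWithin_le_nhds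
    have hrhs : Tendsto (fun y : ℝ => (2 * π * I) ^ 2 * geomTwo (cexp (2 * π * I * (x + y * I))))
        (𝓝[>] 0) (𝓝 ((2 * π * I) ^ 2 * geomTwo (cexp (2 * π * I * x)))) := by
      have : ContinuousAt
          (fun y : ℝ => (2 * π * I) ^ 2 * geomTwo (cexp (2 * π * I * (x + y * I)))) 0 := by
        unfold geomTwo
        refine continuousAt_const.mul (ContinuousAt.div (by fun_prop) (by fun_prop) ?_)
        simpa [sub_eq_zero] using Ne.symm hx
      simpa using this.tendsto.mono_left nhdsWithin_le_nhds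
    refine tendsto_nhds_unique hlhs (hrhs.congr' ?_)
    filter_upwards [self_mem_nhdsWithin] with y (hy : 0 < y)
    exact (tsum_inv_sq_add_int_of_im_pos (by simpa [h] using hy)).symm
  · exact tsum_inv_sq_add_int_of_im_pos h

end Fermat.Agent.KummerES
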