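import Fermat.Agent.KummerES.Wp
import Fermat.Agent.KummerES.WpLipschitz
import Mathlib.NumberTheory.TsumDivisorsAntidiagonal

/-!
# The expansion of differences of Weierstrass values at torsion points

`(℘_v - ℘_w) / (2πi)²` has expansion `wpSeries v - wpSeries w` in `exp (2πiτ/L)`.
-/

set_option autoImplicit false

noncomputable section

open UpperHalfPlane hiding I
open Complex Filter Topology
open scoped Real MatrixGroups

namespace Fermat.Agent.KummerES

variable {L : ℕ} [NeZero L]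

/-- The contribution of the row with first coordinate `j`. -/
def wpRow (v : Ind L) (τ : ℍ) (j : ℤ) : ℂ :=
  if (j : ZMod L) = v 0 then geomTwo (rootPow L (v 1) * qL L τ ^ j) else 0

/-- The terms of positive rows. -/
def wpDbl (v : Ind L) (τ : ℍ) (p : ℕ+ × ℕ+) : ℂ :=
  (p.2 : ℂ) * wpTerm v p.1 p.2 * qL L τ ^ ((p.1 : ℕ) * p.2)

/-- The exponential of a translated torsion point as a monomial in `qL`. -/
lemma exp_torsPt_add (v : Ind L) (τ : ℍ) (m : ℤ) :
    cexp (2 * π * I * (torsPt v τ + m * τ)) =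
      rootPow L (v 1) * qL L τ ^ (((v 0).val : ℤ) + L * m) := by
  have hL : (L : ℂ) ≠ 0 := by exact_mod_cast NeZero.ne L
  rw [qL, Function.Periodic.qParam, rootPow, zetaC, ← Complex.exp_nat_mul, ← Complex.exp_int_mul,
    ← Complex.exp_add]
  congr 1
  simp only [torsPt, rawPt]
  push_cast
  field_simp
  ring

/-- The monomial of a non-zero torsion point avoids `1`. -/
lemma rootPow_mul_qL_zpow_ne_one {v : Ind L} (hv : v ≠ 0) (τ : ℍ) {j : ℤ} (hj : (j : ZMod L) = v 0) :
    rootPow L (v 1) * qL L τ ^ j ≠ 1 := by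
  intro h
  have hn := congrArg (‖·‖) h
  simp only [norm_mul, norm_rootPow, one_mul, norm_zpow, norm_one] at hn
  rcases (zpow_eq_one_iff_right₀ (norm_nonneg _) (norm_qL_lt_one L τ).ne).mp hn with rfl
  have h0 : v 0 = 0 := by simpa using hj.symm
  rw [zpow_zero, mul_one, rootPow_eq_one_iff] at h
  exact hv (funext fun i => by fin_cases i <;> assumption)

/-- The sum over a row of the lattice. -/
lemma tsum_row {v : Ind L} (hv : v ≠ 0) (τ : ℍ) (m : ℤ) :
    ∑' n : ℤ, ((torsPt v τ + m * τ + n) ^ 2)⁻¹ =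
      (2 * π * I) ^ 2 * wpRow v τ (((v 0).val : ℤ) + L * m) := by
  have hj : (((v 0).val : ℤ) + L * m : ℤ) = (v 0 : ZMod L) := by simp [ZMod.natCast_val]
  rw [tsum_inv_sq_add_int, exp_torsPt_add, wpRow, if_pos hj]
  rw [exp_torsPt_add]
  exact rootPow_mul_qL_zpow_ne_one hv τ hj

lemma wpRow_neg_row (v : Ind L) (τ : ℍ) (j : ℤ) : wpRow v τ (-j) = wpRow (-v) τ j := by
  simp only [wpRow, Pi.neg_apply, Int.cast_neg, neg_eq_iff_eq_neg]
  refine if_congr Iff.rfl ?_ rfl
  rw [rootPow_neg, ← geomTwo_inv, mul_inv, zpow_neg, inv_inv]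

lemma summable_wpDbl (v : Ind L) (τ : ℍ) : Summable (wpDbl v τ) := by
  have hs := summable_prod_mul_pow 1 (norm_qL_lt_one L τ)
  refine .of_norm_bounded (summable_norm_iff.mpr hs) fun p => ?_
  simp only [wpDbl, pow_one, norm_mul]
  gcongr
  refine mul_le_of_le_one_right (norm_nonneg _) ?_
  unfold wpTerm
  split_ifs <;> simp [norm_rootPow]

lemma hasSum_wpDbl_row (v : Ind L) (τ : ℍ) (j : ℕ+) :
    HasSum (fun k : ℕ+ => wpDbl v τ (j, k)) (wpRow v τ (j : ℕ)) := by
  unfold wpRow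
  simp only [wpDbl, wpTerm, Int.cast_natCast]
  split_ifs with h
  · set u := rootPow L (v 1) * qL L τ ^ ((j : ℕ) : ℤ)
    have hu : ‖u‖ < 1 := by
      simp only [u, norm_mul, norm_rootPow, one_mul, zpow_natCast, norm_pow]
      exact pow_lt_one₀ (norm_nonneg _) (norm_qL_lt_one L τ) j.ne_zero
    have H : HasSum (fun k : ℕ => (k : ℂ) * u ^ k) (geomTwo u) := hasSum_coe_mul_geometric_of_norm_lt_one hu
    rw [← PNat.coe_injective.hasSum_iff] at H
    · refine H.congr_fun fun k => ?_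
      simp only [Function.comp_apply, u, zpow_natCast, mul_pow, ← pow_mul, rootPow_natCast_mul]
      ring
    · intro k hk
      obtain rfl : k = 0 := by
        by_contra hk0
        exact hk ⟨⟨k, Nat.pos_of_ne_zero hk0⟩, rfl⟩
      simp
  · simp

/-- The sum of all rows. -/
def wpRowSum (v : Ind L) (τ : ℍ) : ℂ :=
  wpConst v + ((∑' p, wpDbl v τ p) + ∑' p, wpDbl (-v) τ p)

lemma hasSum_wpRow_nat (v : Ind L) (τ : ℍ) :
    HasSum (fun n : ℕ => wpRow v τ ((n : ℤ) + 1)) (∑' p, wpDbl v τ p) := by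
  have h := (summable_wpDbl v τ).hasSum.prod_fiberwise (hasSum_wpDbl_row v τ)
  rw [← Equiv.pnatEquivNat.symm.hasSum_iff] at h
  refine h.congr_fun fun n => ?_
  simp [Nat.succPNat]

lemma hasSum_wpRow (v : Ind L) (τ : ℍ) : HasSum (wpRow v τ) (wpRowSum v τ) := by
  have h0 : wpRow v τ 0 = wpConst v := by
    simp [wpRow, wpConst, geomTwo, eq_comm]
  have hpos : HasSum (fun n : ℕ => wpRow v τ n) ((∑' p, wpDbl v τ p) + wpConst v) := by
    have h' : HasSum (fun n : ℕ => wpRow v τ ((n + 1 : ℕ) : ℤ)) (∑' p, wpDbl v τ p) := by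
      exact_mod_cast hasSum_wpRow_nat v τ
    simpa [h0] using (hasSum_nat_add_iff (f := fun n : ℕ => wpRow v τ n) 1).mp h'
  have hneg : HasSum (fun n : ℕ => wpRow v τ (-((n : ℤ) + 1))) (∑' p, wpDbl (-v) τ p) :=
    (hasSum_wpRow_nat (-v) τ).congr_fun fun n => wpRow_neg_row v τ _
  rw [show wpRowSum v τ = ((∑' p, wpDbl v τ p) + wpConst v) + ∑' p, wpDbl (-v) τ p by
    rw [wpRowSum]; ring]
  exact hpos.of_nat_of_neg_add_one hneg

lemma hasSum_wpRow_comp (v : Ind L) (τ : ℍ) :
    HasSum (fun m : ℤ => wpRow v τ (((v 0).val : ℤ) + L * m)) (wpRowSum v τ) := by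
  have hinj : Function.Injective fun m : ℤ => ((v 0).val : ℤ) + L * m := fun m m' h => by
    simpa [NeZero.ne L] using h
  refine (hinj.hasSum_iff (f := wpRow v τ) (a := wpRowSum v τ) fun j hj => ?_).mpr
    (hasSum_wpRow v τ)
  rw [wpRow, if_neg]
  intro h
  refine hj ?_
  have : ((((v 0).val : ℤ)) : ZMod L) = j := by simp [h, ZMod.natCast_val]
  obtain ⟨m, hm⟩ := (ZMod.intCast_eq_intCast_iff_dvd_sub ..).mp this
  exact ⟨m, by simp only; omega⟩

lemma hasExp_wpRowSum (v : Ind L) : HasExp L (wpRowSum v) (wpSeries v) := fun τ => by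
  have hinj : Function.Injective fun n : ℕ => (n : ℤ) := Nat.cast_injective
  refine (hinj.hasSum_iff fun i hi => ?_).mp ?_
  · rw [wpSeries_coeff_of_neg v, zero_mul]
    by_contra hc
    exact hi ⟨i.toNat, Int.toNat_of_nonneg (not_lt.mp hc)⟩
  · simp only [Function.comp_def, wpSeries_coeff_natCast, zpow_natCast]
    have H := ((summable_wpDbl v τ).hasSum.add (summable_wpDbl (-v) τ).hasSum)
    rw [← sigmaAntidiagonalEquivProd.hasSum_iff] at H
    have H' : HasSum (fun n : ℕ+ => wpCoeff v n * qL L τ ^ (n : ℕ))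
        ((∑' p, wpDbl v τ p) + ∑' p, wpDbl (-v) τ p) := by
      refine H.sigma fun n => ?_
      rw [wpCoeff_eq, if_neg n.ne_zero, Finset.sum_mul,
        ← Finset.sum_coe_sort]
      refine (hasSum_fintype _).congr_fun fun p => ?_
      have hp := (Nat.mem_divisorsAntidiagonal.mp p.2).1
      simp only [Function.comp_apply, wpDbl, sigmaAntidiagonalEquivProd, Equiv.coe_fn_mk,
        divisorsAntidiagonalFactors, PNat.mk_coe]
      rw [hp]
      ring
    rw [← Equiv.pnatEquivNat.symm.hasSum_iff] at H'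
    have := (hasSum_nat_add_iff (f := fun n : ℕ => wpCoeff v n * qL L τ ^ n) 1).mp
      (H'.congr_fun fun n => by simp [Nat.succPNat])
    simpa [wpRowSum, wpCoeff_eq v 0, add_comm] using this

omit [NeZero L] in
lemma hasSum_wp_sub (v w : Ind L) (τ : ℍ) :
    HasSum (fun p : ℤ × ℤ => ((torsPt v τ + p.1 * τ + p.2) ^ 2)⁻¹
      - ((torsPt w τ + p.1 * τ + p.2) ^ 2)⁻¹) (wp v τ - wp w τ) := by
  have h := ((latticePair τ).hasSum_weierstrassP (torsPt v τ)).sub
    ((latticePair τ).hasSum_weierstrassP (torsPt w τ))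
  rw [← ((Equiv.neg (ℤ × ℤ)).trans (latticePair τ).latticeEquivProd.symm.toEquiv).hasSum_iff] at h
  refine h.congr_fun fun p => ?_
  have e : (((latticePair τ).latticeEquivProd.symm.toEquiv (-p) : (latticePair τ).lattice) : ℂ) =
      -((p.1 : ℂ) * τ + p.2) := by
    rw [LinearEquiv.coe_toEquiv, PeriodPair.latticeEquiv_symm_apply]
    simp [latticePair]
    ring
  simp only [Function.comp_apply, Equiv.trans_apply, Equiv.neg_apply, e]
  ring

/-- The expansion of a difference of Weierstrass values. -/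
theorem wp_sub_hasExp {v w : Ind L} (hv : v ≠ 0) (hw : w ≠ 0) :
    HasExp L (fun τ => (wp v τ - wp w τ) / (2 * π * I) ^ 2) (wpSeries v - wpSeries w) := by
  have hc : (2 * (π : ℂ) * I) ^ 2 ≠ 0 := by simp [Real.pi_ne_zero]
  suffices h : (fun τ => (wp v τ - wp w τ) / (2 * π * I) ^ 2) = wpRowSum v - wpRowSum w from
    h ▸ (hasExp_wpRowSum v).sub (hasExp_wpRowSum w)
  funext τ
  rw [div_eq_iff hc, Pi.sub_apply, sub_mul]
  have h1 := (hasSum_wp_sub v w τ).prod_fiberwise fun m =>
    ((summable_inv_sq_add_int (torsPt v τ + m * τ)).hasSum.sub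
      (summable_inv_sq_add_int (torsPt w τ + m * τ)).hasSum)
  simp only [tsum_row hv, tsum_row hw] at h1
  refine h1.unique ?_
  simp only [mul_comm _ ((2 * (π : ℂ) * I) ^ 2)]
  exact ((hasSum_wpRow_comp v τ).mul_left _).sub ((hasSum_wpRow_comp w τ).mul_left _)

end Fermat.Agent.KummerES
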