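import Fermat.Agent.KummerES.Wp
import Mathlib.Analysis.Analytic.Uniqueness
import Mathlib.Analysis.Complex.CauchyIntegral
import Mathlib.Analysis.Calculus.Deriv.Shift
import Mathlib.Analysis.Normed.Module.Connected

/-!
# `℘` separates torsion points up to sign

If `℘ z = ℘ w` then `z = ± w` modulo periods: `℘` solves a second order equation, so the
translates of `℘` by `z` and `±w` agree, hence have the same poles.
-/

set_option autoImplicit false

noncomputable section

open UpperHalfPlane hiding I
open Filter Topology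

namespace Fermat.Agent.KummerES

variable (Q : PeriodPair)

/-- Near any point, all other points avoid the lattice. -/
lemma eventually_notMem_lattice (p : ℂ) : ∀ᶠ z in 𝓝[≠] p, z ∉ Q.lattice := by
  filter_upwards [mem_nhdsWithin_of_mem_nhds (Q.compl_lattice_sdiff_singleton_mem_nhds p),
    self_mem_nhdsWithin] with z hz hzp hzL
  exact hz ⟨hzL, hzp⟩

lemma countable_lattice : (Q.lattice : Set ℂ).Countable :=
  Set.countable_coe_iff.mp (inferInstanceAs (Countable Q.lattice))

/-- The complement of the lattice is connected. -/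
lemma isPreconnected_compl_lattice : IsPreconnected (Q.lattice : Set ℂ)ᶜ :=
  ((countable_lattice Q).isConnected_compl_of_one_lt_rank
    (by simp [Complex.rank_real_complex])).isPreconnected

lemma analyticOrderAt_derivP_ne_top {z : ℂ} (hz : z ∉ Q.lattice) :
    analyticOrderAt Q.derivWeierstrassP z ≠ ⊤ := by
  intro h
  have h0 : Set.EqOn Q.derivWeierstrassP 0 (Q.lattice : Set ℂ)ᶜ :=
    Q.analyticOnNhd_derivWeierstrassP.eqOn_zero_of_preconnected_of_eventuallyEq_zero
      (isPreconnected_compl_lattice Q) hz (analyticOrderAt_eq_top.mp h)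
  have hconst : Set.EqOn Q.weierstrassP (fun _ => Q.weierstrassP z) (Q.lattice : Set ℂ)ᶜ :=
    Q.isClosed_lattice.isOpen_compl.eqOn_of_deriv_eq (isPreconnected_compl_lattice Q)
      Q.differentiableOn_weierstrassP (by fun_prop)
      (fun x hx => by simpa using h0 hx) hz rfl
  have h2 := meromorphicOrderAt_congr (f₁ := Q.weierstrassP) (x := 0)
    ((eventually_notMem_lattice Q 0).mono fun x hx => hconst hx)
  rw [Q.order_weierstrassP 0 (zero_mem _)] at h2
  exact absurd (h2 ▸ (analyticAt_const (v := Q.weierstrassP z)).meromorphicOrderAt_nonneg) (by decide)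

/-- `℘'' = 6 ℘² - g₂ / 2`. -/
lemma deriv_derivWeierstrassP {z : ℂ} (hz : z ∉ Q.lattice) :
    deriv Q.derivWeierstrassP z = 6 * Q.weierstrassP z ^ 2 - Q.g₂ / 2 := by
  set K : ℂ → ℂ := fun x => deriv Q.derivWeierstrassP x - (6 * Q.weierstrassP x ^ 2 - Q.g₂ / 2)
  have hP' : AnalyticAt ℂ Q.derivWeierstrassP z := Q.analyticOnNhd_derivWeierstrassP z hz
  have hK : AnalyticAt ℂ K z := by
    have := Q.analyticOnNhd_weierstrassP z hz
    have := hP'.deriv
    fun_prop
  have hprod : analyticOrderAt (Q.derivWeierstrassP * K) z = ⊤ := by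
    refine analyticOrderAt_eq_top.mpr ?_
    filter_upwards [Q.isClosed_lattice.isOpen_compl.mem_nhds hz] with x hx
    have hd : HasDerivAt Q.weierstrassP (Q.derivWeierstrassP x) x := by
      simpa using (Q.analyticOnNhd_weierstrassP x hx).differentiableAt.hasDerivAt
    have hd' := (Q.analyticOnNhd_derivWeierstrassP x hx).differentiableAt.hasDerivAt
    have hl := hd'.fun_pow 2
    have hr := (((hd.fun_pow 3).const_mul 4).sub (hd.const_mul Q.g₂)).sub_const Q.g₃
    have heq : (fun y => Q.derivWeierstrassP y ^ 2) =ᶠ[𝓝 x]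
        fun y => 4 * Q.weierstrassP y ^ 3 - Q.g₂ * Q.weierstrassP y - Q.g₃ :=
      eventually_of_mem (Q.isClosed_lattice.isOpen_compl.mem_nhds hx)
        fun y hy => Q.derivWeierstrassP_sq y hy
    have := hl.unique (hr.congr_of_eventuallyEq heq)
    simp only [Pi.mul_apply, K]
    push_cast at this
    linear_combination this / 2
  rw [analyticOrderAt_mul hP' hK] at hprod
  have h : analyticOrderAt K z = ⊤ := by
    simpa [analyticOrderAt_derivP_ne_top Q hz] using hprod
  exact sub_eq_zero.mp (analyticOrderAt_eq_top.mp h).self_of_nhds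

/-- If `℘` and `℘'` agree at `z` and `w` then `z - w` is a period. -/
lemma sub_mem_lattice_of_eq {z w : ℂ} (hz : z ∉ Q.lattice) (hw : w ∉ Q.lattice)
    (h0 : Q.weierstrassP z = Q.weierstrassP w)
    (h1 : Q.derivWeierstrassP z = Q.derivWeierstrassP w) : z - w ∈ Q.lattice := by
  set d := z - w
  set h : ℂ → ℂ := fun v => Q.weierstrassP (v + d) - Q.weierstrassP v
  set K : ℂ → ℂ := fun v => 6 * (Q.weierstrassP (v + d) + Q.weierstrassP v)
  have hwd : w + d = z := by simp [d]
  have hanP : AnalyticAt ℂ (fun v => Q.weierstrassP (v + d)) w :=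
    (Q.analyticOnNhd_weierstrassP z hz).comp_of_eq (by fun_prop) hwd
  have han : AnalyticAt ℂ h w := hanP.sub (Q.analyticOnNhd_weierstrassP w hw)
  have hanK : AnalyticAt ℂ K w :=
    analyticAt_const.mul (hanP.add (Q.analyticOnNhd_weierstrassP w hw))
  have hnhds : ∀ᶠ v in 𝓝 w, v + d ∉ Q.lattice ∧ v ∉ Q.lattice := by
    refine Filter.Eventually.and ?_ (Q.isClosed_lattice.isOpen_compl.mem_nhds hw)
    exact (continuous_add_const d).continuousAt.preimage_mem_nhds
      (Q.isClosed_lattice.isOpen_compl.mem_nhds (by rwa [Set.mem_compl_iff, hwd]))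
  have hdh : ∀ᶠ v in 𝓝 w,
      deriv h v = Q.derivWeierstrassP (v + d) - Q.derivWeierstrassP v := by
    filter_upwards [hnhds] with v hv
    have e1 : HasDerivAt Q.weierstrassP (Q.derivWeierstrassP (v + d)) (v + d) := by
      simpa using (Q.analyticOnNhd_weierstrassP _ hv.1).differentiableAt.hasDerivAt
    have e2 : HasDerivAt Q.weierstrassP (Q.derivWeierstrassP v) v := by
      simpa using (Q.analyticOnNhd_weierstrassP _ hv.2).differentiableAt.hasDerivAt
    exact ((e1.comp_add_const v d).sub e2).deriv
  have hddh : deriv (deriv h) =ᶠ[𝓝 w] K * h := by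
    filter_upwards [hdh.eventually_nhds, hnhds] with v hv hv'
    rw [EventuallyEq.deriv_eq hv, ← Pi.sub_def,
      (((Q.analyticOnNhd_derivWeierstrassP _ hv'.1).differentiableAt.hasDerivAt.comp_add_const v d).sub
        (Q.analyticOnNhd_derivWeierstrassP _ hv'.2).differentiableAt.hasDerivAt).deriv,
      deriv_derivWeierstrassP Q hv'.1, deriv_derivWeierstrassP Q hv'.2]
    simp only [Pi.mul_apply, K, h]
    ring
  have ha := han.analyticOrderAt_deriv_add_one
  have hb := han.deriv.analyticOrderAt_deriv_add_one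
  have hdw : deriv h w = 0 := by rw [hdh.self_of_nhds, hwd, h1, sub_self]
  have hhw : h w = 0 := by simp [h, hwd, h0]
  simp only [hdw, sub_zero] at hb
  simp only [hhw, sub_zero] at ha
  rw [analyticOrderAt_congr hddh, analyticOrderAt_mul hanK han] at hb
  have htop : analyticOrderAt h w = ⊤ := by
    generalize analyticOrderAt h w = a at ha hb
    generalize analyticOrderAt K w = k at hb
    generalize analyticOrderAt (deriv h) w = b at ha hb
    rw [← hb] at ha
    cases a with
    | top => rfl
    | coe a =>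
      cases k with
      | top => simp at ha
      | coe k =>
        norm_cast at ha
        omega
  by_contra hd
  -- `℘ (· + d) = ℘` away from both sets of poles
  set s : Set ℂ := (Q.lattice : Set ℂ) ∪ (fun v => v + d) ⁻¹' Q.lattice
  have hcount : s.Countable :=
    (countable_lattice Q).union ((countable_lattice Q).preimage (add_left_injective d))
  have hpre : IsPreconnected sᶜ :=
    (hcount.isConnected_compl_of_one_lt_rank (by simp [Complex.rank_real_complex])).isPreconnected
  have hf : AnalyticOnNhd ℂ h sᶜ := fun v hv =>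
    ((Q.analyticOnNhd_weierstrassP (v + d) fun h' => hv (Or.inr h')).comp_of_eq
      (f := fun v => v + d) (x := v) (by fun_prop) rfl).sub
      (Q.analyticOnNhd_weierstrassP v fun h' => hv (Or.inl h'))
  have hws : w ∈ sᶜ := by rintro (h' | h') <;> simp_all
  have hzero := hf.eqOn_zero_of_preconnected_of_eventuallyEq_zero hpre hws
    (analyticOrderAt_eq_top.mp htop)
  have hev : (fun v => Q.weierstrassP (v + d)) =ᶠ[𝓝[≠] 0] Q.weierstrassP := by
    have hd' : ∀ᶠ v in 𝓝 (0 : ℂ), v + d ∉ Q.lattice :=
      (continuous_add_const d).continuousAt.preimage_mem_nhds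
        (Q.isClosed_lattice.isOpen_compl.mem_nhds (by simpa using hd))
    filter_upwards [eventually_notMem_lattice Q 0, hd'.filter_mono nhdsWithin_le_nhds] with v hv hv'
    refine sub_eq_zero.mp (hzero (x := v) ?_)
    rintro (h' | h')
    · exact hv h'
    · exact hv' h'
  have h2 := meromorphicOrderAt_congr hev
  rw [Q.order_weierstrassP 0 (zero_mem _)] at h2
  have h3 : AnalyticAt ℂ (fun v => Q.weierstrassP (v + d)) 0 :=
    (Q.analyticOnNhd_weierstrassP d hd).comp_of_eq (by fun_prop) (zero_add d)
  exact absurd (h2 ▸ h3.meromorphicOrderAt_nonneg) (by decide)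

/-- `℘ z = ℘ w` only for `z = ± w` modulo periods. -/
theorem weierstrassP_eq_imp {z w : ℂ} (hz : z ∉ Q.lattice) (hw : w ∉ Q.lattice)
    (h0 : Q.weierstrassP z = Q.weierstrassP w) : z - w ∈ Q.lattice ∨ z + w ∈ Q.lattice := by
  have hsq : Q.derivWeierstrassP z ^ 2 = Q.derivWeierstrassP w ^ 2 := by
    rw [Q.derivWeierstrassP_sq z hz, Q.derivWeierstrassP_sq w hw, h0]
  rcases sq_eq_sq_iff_eq_or_eq_neg.mp hsq with h1 | h1
  · exact Or.inl (sub_mem_lattice_of_eq Q hz hw h0 h1)
  · refine Or.inr ?_
    rw [← sub_neg_eq_add]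
    exact sub_mem_lattice_of_eq Q hz (fun h => hw (by simpa using neg_mem h))
      (by rw [Q.weierstrassP_neg, h0]) (by rw [Q.derivWeierstrassP_neg, h1])

variable {L : ℕ} [NeZero L]

/-- Values at distinct pairs of torsion points differ. -/
theorem wp_ne {v w : Ind L} (h : IsPair v w) (τ : ℍ) : wp v τ ≠ wp w τ := by
  intro he
  rcases weierstrassP_eq_imp (latticePair τ) ((torsPt_mem_iff v τ).not.mpr h.left_ne_zero)
      ((torsPt_mem_iff w τ).not.mpr h.right_ne_zero) he with hm | hm
  · rw [torsPt, torsPt, rawPt_sub_mem_iff (L := L)] at hm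
    refine h.ne (funext fun i => ?_)
    fin_cases i
    · simpa [ZMod.natCast_val] using hm.1
    · simpa [ZMod.natCast_val] using hm.2
  · rw [← sub_neg_eq_add, show -torsPt w τ = rawPt L (-(w 0).val) (-(w 1).val) τ by
      simp [torsPt, rawPt]; ring, torsPt, rawPt_sub_mem_iff (L := L)] at hm
    refine h.ne_neg (funext fun i => ?_)
    fin_cases i
    · simpa [ZMod.natCast_val] using hm.1
    · simpa [ZMod.natCast_val] using hm.2

end Fermat.Agent.KummerES
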