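import Fermat.Agent.KummerES.RatioAlgebra
import Fermat.Agent.KummerES.RatioExp
import Fermat.Agent.KummerES.WpExpansion
import Fermat.Agent.KummerES.WpInjective

/-!
# The ratios of differences of Weierstrass values

The structure `ratioData L : RatioData L`, given by `(℘_v - ℘_w) / (℘_a - ℘_b)`.
-/

set_option autoImplicit false

noncomputable section

open UpperHalfPlane CongruenceSubgroup
open scoped Real MatrixGroups Manifold

namespace Fermat.Agent.KummerES

variable {L : ℕ} [NeZero L]

/-- `(℘_v - ℘_w) / (℘_a - ℘_b)`. -/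
def wpRatio (v w a b : Ind L) (τ : ℍ) : ℂ := (wp v τ - wp w τ) / (wp a τ - wp b τ)

/-- The expansion of `wpRatio v w a b`. -/
def wpRatioSeries (v w a b : Ind L) : LaurentSeries ℂ :=
  (wpSeries v - wpSeries w) * (wpSeries a - wpSeries b)⁻¹

lemma wpRatioSeries_mem {v w a b : Ind L} (h : IsPair v w) (h' : IsPair a b) :
    wpRatioSeries v w a b ∈ coeffSubring (zetaRing L) :=
  mul_mem (wpSeries_sub_mem h.left_ne_zero h.right_ne_zero) (wpSeries_sub_inv_mem h')

lemma wp_sub_ne_zero {a b : Ind L} (h : IsPair a b) (τ : ℍ) : wp a τ - wp b τ ≠ 0 :=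
  sub_ne_zero.mpr (wp_ne h τ)

lemma hasExp_wpRatio {v w a b : Ind L} (h : IsPair v w) (h' : IsPair a b) :
    HasExp L (wpRatio v w a b) (wpRatioSeries v w a b) := by
  have hpi : (2 * π * Complex.I : ℂ) ^ 2 ≠ 0 := pow_ne_zero _ Complex.two_pi_I_ne_zero
  have hnum := wp_sub_hasExp h.left_ne_zero h.right_ne_zero
  have hden := (wp_sub_hasExp h'.left_ne_zero h'.right_ne_zero).inv
    (fun τ => div_ne_zero (wp_sub_ne_zero h' τ) hpi) (wpSeries_sub_ne_zero h')
  have := hnum.mul hden
  rw [wpRatioSeries]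
  convert this using 1
  funext τ
  simp only [wpRatio, Pi.mul_apply, Pi.inv_apply]
  rw [← div_eq_mul_inv, div_div_div_cancel_right₀ hpi]

lemma comp_wpRatio (γ : SL(2, ℤ)) (v w a b : Ind L) :
    comp (wpRatio v w a b) γ = wpRatio (vAct v γ) (vAct w γ) (vAct a γ) (vAct b γ) := by
  funext τ
  have : ((γ 1 0 : ℂ) * τ + γ 1 1) ^ 2 ≠ 0 := pow_ne_zero _ (by
    have := UpperHalfPlane.denom_ne_zero (γ : GL (Fin 2) ℝ) τ
    simpa [UpperHalfPlane.denom] using this)
  simp only [comp_apply, wpRatio, wp_smul, ← mul_sub, mul_div_mul_left _ _ this]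

lemma expansion_wpRatio {v w a b : Ind L} (h : IsPair v w) (h' : IsPair a b) :
    expansion L (wpRatio v w a b) = wpRatioSeries v w a b :=
  (hasExp_wpRatio h h').expansion_eq

lemma wpRatio_mem_weak {v w a b : Ind L} (h : IsPair v w) (h' : IsPair a b) :
    wpRatio v w a b ∈ weak (Gamma L) L (zetaRing L) := by
  refine ⟨(hasExp_wpRatio h h').mdiff, fun γ hγ => ?_, fun δ => ?_⟩
  · simp [comp_wpRatio, vAct_of_mem_Gamma _ hγ]
  · rw [comp_wpRatio]
    exact ⟨_, wpRatioSeries_mem (h.vAct δ) (h'.vAct δ), hasExp_wpRatio (h.vAct δ) (h'.vAct δ)⟩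

variable (L) in
/-- The ratios of differences of Weierstrass values form a `RatioData`. -/
def ratioData : RatioData L where
  ratio := wpRatio
  mem_weak := wpRatio_mem_weak
  ratio_self := fun h => funext fun τ => div_self (wp_sub_ne_zero h τ)
  trans := fun _ h' _ => funext fun τ => div_mul_div_cancel₀ (wp_sub_ne_zero h' τ)
  add_eq := fun _ _ _ _ => funext fun τ => by
    simp only [Pi.add_apply, wpRatio, ← add_div, sub_add_sub_cancel]
  neg_left := funext fun τ => by simp only [wpRatio, wp_neg]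
  swap := funext fun τ => by simp only [wpRatio, Pi.neg_apply, ← neg_div, neg_sub]
  comp_eq := fun γ {v w a b} _ _ => comp_wpRatio γ v w a b
  conj_eq := fun σ c hc {v w a b} h h' => by
    have hu : IsUnit (c : ZMod L) := (ZMod.isUnit_iff_coprime c L).mpr (coprime_of_conj hc)
    rw [expansion_wpRatio h h', expansion_wpRatio (h.diagTwist hu) (h'.diagTwist hu),
      wpRatioSeries, wpRatioSeries, map_mul, map_inv₀, map_sub, map_sub, map_wpSeries hc,
      map_wpSeries hc, map_wpSeries hc, map_wpSeries hc]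

@[simp] lemma ratioData_ratio : (ratioData L).ratio = wpRatio := rfl

/-- The expansion of a ratio, cleared of denominators. -/
lemma expansion_ratio_mul {v w a b : Ind L} (h : IsPair v w) (h' : IsPair a b) :
    expansion L ((ratioData L).ratio v w a b) * (wpSeries a - wpSeries b) =
      wpSeries v - wpSeries w := by
  rw [ratioData_ratio, expansion_wpRatio h h', wpRatioSeries, mul_assoc,
    inv_mul_cancel₀ (wpSeries_sub_ne_zero h'), mul_one]

end Fermat.Agent.KummerES
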