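import Fermat.Agent.KummerES.BaseQuad
import Fermat.Agent.KummerES.Ratio

/-!
# The coordinate of level `M = 2, 3`

`baseData`, the coordinate of the curve of level `M` with its properties: `t = (℘_A - ℘_B) / (℘_C - ℘_B)` with `A = (0,1)`, `B = (1,0)`, `C = (1,1)`.
-/

set_option autoImplicit false

noncomputable section

open UpperHalfPlane CongruenceSubgroup
open scoped Real MatrixGroups Manifold

namespace Fermat.Agent.KummerES

/-- The matrix `(x -1; 1 0)`, sending `∞` to `x`. -/
def cuspMat (x : ℤ) : SL(2, ℤ) := ⟨!![x, -1; 1, 0], by simp [Matrix.det_fin_two]⟩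

/-- The quadruple of the coordinate. -/
def tQuad (M : ℕ) : Quad M := ⟨![0, 1], ![1, 0], ![1, 1], ![1, 0]⟩

/-- The quadruple of `1 / (t - t(x))`, up to a constant. -/
def wQuad (M : ℕ) (x : Fin M) : Quad M :=
  if x.1 = 0 then ⟨![1, 1], ![1, 0], ![0, 1], ![1, 1]⟩
  else if x.1 + 1 = M then ⟨![1, 1], ![1, 0], ![0, 1], ![1, 0]⟩
  else ⟨![1, 0], ![1, -1], ![0, 1], ![1, 0]⟩

lemma cover_of_le_three {M : ℕ} (hM : M = 2 ∨ M = 3) (g : SL(2, ℤ)) :
    ∃ (i : Option (Fin M)) (y : ℤ) (γ : SL(2, ℤ)), γ ∈ Gamma M ∧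
      (g = γ * i.elim 1 (fun x => cuspMat x.1) * ModularGroup.T ^ y ∨
        g = -(γ * i.elim 1 (fun x => cuspMat x.1) * ModularGroup.T ^ y)) := by
  have hfin : (∀ a b c d : ZMod M, a * d - b * c = 1 → c = 0 →
      d = a ∧ (a = 1 ∨ a = -1)) ∧ ∀ c : ZMod M, c ≠ 0 → c * c = 1 := by
    rcases hM with rfl | rfl <;> decide
  have : NeZero M := ⟨by omega⟩
  -- upper triangular modulo `M`
  have htri : ∀ h : SL(2, ℤ), (h 1 0 : ZMod M) = 0 → ∃ (y : ℤ) (γ : SL(2, ℤ)), γ ∈ Gamma M ∧
      (h = γ * ModularGroup.T ^ y ∨ h = -(γ * ModularGroup.T ^ y)) := by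
    intro h hc
    have hdet : (h 0 0 : ZMod M) * (h 1 1 : ZMod M) - (h 0 1 : ZMod M) * (h 1 0 : ZMod M) = 1 := by
      have := congrArg (Int.cast (R := ZMod M)) h.det_coe
      rw [Matrix.det_fin_two] at this
      simpa using this
    obtain ⟨hd, ha⟩ := hfin.1 _ _ _ _ hdet hc
    set y : ℤ := h 0 0 * h 0 1
    rcases ha with ha | ha
    · refine ⟨y, h * ModularGroup.T ^ (-y), ?_, Or.inl (by group)⟩
      rw [Gamma_mem]
      simp [Matrix.SpecialLinearGroup.coe_mul, ModularGroup.coe_T_zpow, Matrix.mul_apply,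
        Fin.sum_univ_two, y, ha, hc, hd]
    · refine ⟨y, -(h * ModularGroup.T ^ (-y)), ?_, Or.inr ?_⟩
      · rw [Gamma_mem]
        simp [Matrix.SpecialLinearGroup.coe_mul, ModularGroup.coe_T_zpow, Matrix.mul_apply,
          Fin.sum_univ_two, y, ha, hc, hd]
      · rw [neg_mul, neg_neg]; group
  by_cases hc : (g 1 0 : ZMod M) = 0
  · obtain ⟨y, γ, hγ, h⟩ := htri g hc
    exact ⟨none, y, γ, hγ, by simpa using h⟩
  · let x : Fin M := ⟨((g 0 0 : ZMod M) * (g 1 0 : ZMod M)).val, ZMod.val_lt _⟩
    have hx : (((cuspMat x.1)⁻¹ * g) 1 0 : ZMod M) = 0 := by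
      simp [cuspMat, Matrix.SpecialLinearGroup.coe_inv, Matrix.SpecialLinearGroup.coe_mul,
        Matrix.adjugate_fin_two, Matrix.mul_apply, Fin.sum_univ_two, x, mul_assoc,
        hfin.2 _ hc]
    obtain ⟨y, γ, hγ, h⟩ := htri _ hx
    refine ⟨some x, y, cuspMat x.1 * γ * (cuspMat x.1)⁻¹, (Gamma_normal M).conj_mem _ hγ _, ?_⟩
    simp only [Option.elim_some]
    rw [show cuspMat x.1 * γ * (cuspMat x.1)⁻¹ * cuspMat x.1 * ModularGroup.T ^ y =
      cuspMat x.1 * (γ * ModularGroup.T ^ y) by group]
    rcases h with h | h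
    · left; rw [← h]; group
    · right; rw [← mul_neg, ← h]; group

/-- The finitely many facts about orders used below. -/
lemma quad_facts {M : ℕ} (hM : M = 2 ∨ M = 3) :
    ((tQuad M).Valid ∧ (tQuad M).ord = -1 ∧
      ∀ x : Fin M, 0 ≤ ((tQuad M).act (cuspMat x.1)).ord) ∧
    ∀ x : Fin M, (wQuad M x).Valid ∧ (wQuad M x).ord = 1 ∧
      ((wQuad M x).act (cuspMat x.1)).ord = -1 ∧
      ∀ y : Fin M, y ≠ x → 0 ≤ ((wQuad M x).act (cuspMat y.1)).ord := by
  rcases hM with rfl | rfl <;> decide

variable {M L : ℕ} [NeZero L] (hM : M = 2 ∨ M = 3) (hML : M ∣ L) (D : RatioData L)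
  (hexp : ∀ {v w a b : Ind L}, IsPair v w → IsPair a b →
    expansion L (D.ratio v w a b) * (wpSeries a - wpSeries b) = wpSeries v - wpSeries w)

include hM hexp in
lemma quad_regular {e : ℕ} (hL : L = e * M) (he : 0 < e) {q : Quad M} (hq : q.Valid) (g : SL(2, ℤ))
    (h : 0 ≤ (q.act g).ord) : ∀ i < 0, (expansion L (comp (q.fn D e) g)).coeff i = 0 := by
  have : NeZero M := ⟨by omega⟩
  rw [Quad.fn_comp hL he hq g]
  exact (Quad.fn_lead hL he (hq.act g) hexp).nonneg_below (mul_nonneg (Int.natCast_nonneg e) h)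

include hM hexp in
/-- The coordinate minus its value at a finite cusp has an inverse with its only pole there. -/
lemma exists_inverse {e : ℕ} (hL : L = e * M) (he : 0 < e) (x : Fin M) :
    let c := (expansion L (comp ((tQuad M).fn D e) (cuspMat x.1))).coeff 0
    ∃ u ∈ weak (Gamma M) L (zetaRing L),
      c ∈ zetaRing L ∧ ((tQuad M).fn D e - fun _ => c) * u = 1 ∧
      HasLead (zetaRing L) (expansion L (comp u (cuspMat x.1))) (-(e : ℤ)) ∧
      ∀ i : Option (Fin M), i ≠ some x →
        ∀ j < 0, (expansion L (comp u (i.elim 1 fun y => cuspMat y.1))).coeff j = 0 := by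
  intro c
  have : NeZero M := ⟨by omega⟩
  obtain ⟨⟨htv, htinf, htreg⟩, hw⟩ := quad_facts hM
  obtain ⟨hwv, hwinf, hwx, hwreg⟩ := hw x
  set t := (tQuad M).fn D e
  set w := (wQuad M x).fn D e
  have htm : t ∈ weak (Gamma M) L (zetaRing L) := Quad.fn_mem hL he htv
  have hwm : w ∈ weak (Gamma M) L (zetaRing L) := Quad.fn_mem hL he hwv
  have hc : c ∈ zetaRing L := expansion_mem htm _ 0
  have hsm : t - (fun _ => c) ∈ weak (Gamma M) L (zetaRing L) := sub_mem htm (const_mem_weak hc)
  have hsexp : ∀ g, expansion L (comp (t - fun _ => c) g) =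
      expansion L (comp t g) - HahnSeries.single 0 c := fun g =>
    ((hasExp_expansion htm g).sub (HasExp.const c) :
      HasExp L (comp (t - fun _ => c) g) _).expansion_eq
  have hGexp : ∀ g, expansion L (comp ((t - fun _ => c) * w) g) =
      expansion L (comp (t - fun _ => c) g) * expansion L (comp w g) := fun g =>
    ((hasExp_expansion hsm g).mul (hasExp_expansion hwm g) :
      HasExp L (comp ((t - fun _ => c) * w) g) _).expansion_eq
  have htlead : HasLead (zetaRing L) (expansion L (comp (t - fun _ => c) 1)) (-(e : ℤ)) := by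
    have h := Quad.fn_lead hL he htv hexp
    rw [htinf, mul_neg_one] at h
    rw [hsexp, comp_one]
    refine ⟨fun i hi => ?_, ?_⟩
    · rw [HahnSeries.coeff_sub, h.below i hi, HahnSeries.coeff_single_of_ne (by omega), sub_zero]
    · rw [HahnSeries.coeff_sub, HahnSeries.coeff_single_of_ne (by omega), sub_zero]
      exact h.lead
  have hwlead : HasLead (zetaRing L) (expansion L (comp w 1)) (e : ℤ) := by
    have h := Quad.fn_lead hL he hwv hexp
    rwa [hwinf, mul_one, ← comp_one ((wQuad M x).fn D e)] at h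
  have hwpole : HasLead (zetaRing L) (expansion L (comp w (cuspMat x.1))) (-(e : ℤ)) := by
    have h := Quad.fn_lead hL he (hwv.act (cuspMat x.1)) hexp
    rw [hwx, mul_neg_one, ← Quad.fn_comp hL he hwv] at h
    exact h
  have hwr : ∀ y : Fin M, y ≠ x → ∀ j < 0, (expansion L (comp w (cuspMat y.1))).coeff j = 0 :=
    fun y hy => quad_regular hM D hexp hL he hwv _ (hwreg y hy)
  have hsx : ∀ j < (e : ℤ), (expansion L (comp (t - fun _ => c) (cuspMat x.1))).coeff j = 0 := by
    intro j hj
    rcases lt_trichotomy j 0 with h | rfl | h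
    · rw [hsexp, HahnSeries.coeff_sub, quad_regular hM D hexp hL he htv _ (htreg x) j h,
        HahnSeries.coeff_single_of_ne h.ne, sub_zero]
    · rw [hsexp, HahnSeries.coeff_sub, HahnSeries.coeff_single_same, sub_self]
    · refine coeff_eq_zero_of_not_dvd hL hsm _ fun hd => ?_
      exact absurd (Int.le_of_dvd h hd) (by omega)
  have hreg : ∀ (i : Option (Fin M)), ∀ j < 0, (expansion L
      (comp ((t - fun _ => c) * w) (i.elim 1 fun y => cuspMat y.1))).coeff j = 0 := by
    intro i j hj
    rw [hGexp, HahnSeries.coeff_mul]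
    refine Finset.sum_eq_zero fun p hp => ?_
    have hp' := (Finset.mem_antidiagonal.mp hp).2.2
    cases i with
    | none =>
      rcases lt_or_ge p.2 (e : ℤ) with h | h
      · rw [show (none : Option (Fin M)).elim 1 (fun y => cuspMat y.1) = 1 from rfl,
          hwlead.below _ h, mul_zero]
      · rw [show (none : Option (Fin M)).elim 1 (fun y => cuspMat y.1) = 1 from rfl,
          htlead.below _ (show p.1 < -(e : ℤ) by omega), zero_mul]
    | some y =>
      simp only [Option.elim_some]
      rcases eq_or_ne y x with rfl | hy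
      · rcases lt_or_ge p.1 (e : ℤ) with h | h
        · rw [hsx _ h, zero_mul]
        · rw [hwpole.below _ (show p.2 < -(e : ℤ) by omega), mul_zero]
      · rcases lt_or_ge p.2 0 with h | h
        · rw [hwr y hy _ h, mul_zero]
        · rw [hsexp, HahnSeries.coeff_sub,
            quad_regular hM D hexp hL he htv _ (htreg y) _ (show p.1 < 0 by omega),
            HahnSeries.coeff_single_of_ne (by omega), sub_zero, zero_mul]
  let C₀ : SL(2, ℤ) → Prop := fun g => ∀ j < 0,
    (expansion L (comp ((t - fun _ => c) * w) g)).coeff j = 0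
  have hall : ∀ g, C₀ g := by
    intro g j hj
    obtain ⟨i, y, γ, hγ, hg⟩ := cover_of_le_three hM g
    have hG := mul_mem hsm hwm
    have hkey : ∀ h : SL(2, ℤ), comp ((t - fun _ => c) * w) (γ * h) =
        comp ((t - fun _ => c) * w) h := fun h => by rw [← comp_comp, hG.2.1 γ hγ]
    have hcomp : comp ((t - fun _ => c) * w) g = comp (comp ((t - fun _ => c) * w)
        (i.elim 1 fun y => cuspMat y.1)) (ModularGroup.T ^ y) := by
      rcases hg with rfl | rfl
      · rw [comp_comp, mul_assoc, hkey]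
      · rw [comp_neg, comp_comp, mul_assoc, hkey]
    rw [hcomp, expansion_comp_T_zpow (hasExp_expansion hG _) y, twist_coeff, hreg i j hj, mul_zero]
  obtain ⟨k, hk⟩ := eq_const_of_bounded (M := M) (mul_mem hsm hwm).1 (mul_mem hsm hwm).2.1 fun g =>
    ((hasExp_expansion (mul_mem hsm hwm) g).tendsto_atImInfty (hall g)).isBigO_one ℝ
  have hkunit : UnitIn (zetaRing L) k := by
    have h := (htlead.mul hwlead).lead
    rw [← hGexp, hk, show comp (fun _ : ℍ => k) 1 = fun _ => k from rfl,
      (HasExp.const (L := L) k).expansion_eq] at h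
    simpa using h
  refine ⟨(fun _ => k⁻¹) * w, mul_mem (const_mem_weak hkunit.inv_mem) hwm, hc, ?_, ?_, ?_⟩
  · rw [mul_comm (fun _ => k⁻¹) w, ← mul_assoc, hk]
    funext τ
    simp [mul_inv_cancel₀ hkunit.ne_zero]
  · have h := (HasLead.single hkunit.inv 0).mul hwpole
    rw [zero_add] at h
    have hexpx : HasExp L (comp ((fun _ => k⁻¹) * w) (cuspMat x.1)) _ :=
      (HasExp.const k⁻¹).mul (hasExp_expansion hwm (cuspMat x.1))
    rwa [← hexpx.expansion_eq] at h
  · intro i hi j hj
    have hexpi : HasExp L (comp ((fun _ => k⁻¹) * w) (i.elim 1 fun y => cuspMat y.1)) _ :=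
      (HasExp.const k⁻¹).mul (hasExp_expansion hwm _)
    rw [hexpi.expansion_eq, HahnSeries.coeff_single_mul, sub_zero]
    refine mul_eq_zero_of_right _ ?_
    cases i with
    | none => exact hwlead.below j (by omega)
    | some y => exact hwr y (fun h => hi (congrArg some h)) j hj

/-- The chart at level `M`. -/
def baseChart : Chart M L := by
  have : NeZero M := ⟨by omega⟩
  have hL : L = L / M * M := (Nat.div_mul_cancel hML).symm
  have he : 0 < L / M := Nat.div_pos (Nat.le_of_dvd (Nat.pos_of_ne_zero (NeZero.ne L)) hML)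
    (Nat.pos_of_ne_zero (NeZero.ne M))
  exact
  { e := L / M
    e_pos := he
    hL := hL
    t := (tQuad M).fn D (L / M)
    t_mem := Quad.fn_mem hL he (quad_facts hM).1.1
    δ := fun x => cuspMat x.1
    cover := cover_of_le_three hM
    val := fun x => (expansion L (comp ((tQuad M).fn D (L / M)) (cuspMat x.1))).coeff 0
    val_mem := fun x => (exists_inverse hM D hexp hL he x).choose_spec.2.1
    inv := fun x => (exists_inverse hM D hexp hL he x).choose
    inv_mem := fun x => (exists_inverse hM D hexp hL he x).choose_spec.1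
    inv_mul := fun x => (exists_inverse hM D hexp hL he x).choose_spec.2.2.1
    t_inf := by
      have h := Quad.fn_lead hL he (quad_facts hM).1.1 hexp
      rwa [(quad_facts hM).1.2.1, mul_neg_one] at h
    t_reg := fun x => quad_regular hM D hexp hL he (quad_facts hM).1.1 _ ((quad_facts hM).1.2.2 x)
    inv_pole := fun x => (exists_inverse hM D hexp hL he x).choose_spec.2.2.2.1
    inv_reg := fun x => (exists_inverse hM D hexp hL he x).choose_spec.2.2.2.2 }

/-- The base data at level `M = 2, 3` of any family of ratios with the Weierstrass expansions. -/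
def baseDataOf : BaseData M L :=
  (baseChart hM hML D hexp).toBaseData (6 - M) (by rcases hM with rfl | rfl <;> rfl)
    (by rcases hM with rfl | rfl <;> rfl)

variable (M L) in
/-- The coordinate on the curve of level `M`, read at level `L`. -/
def baseData : BaseData M L :=
  baseDataOf hM hML (ratioData L) (fun h h' => expansion_ratio_mul h h')

end Fermat.Agent.KummerES
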