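import Fermat.Agent.KummerES.ReductionSeries
import Mathlib.RingTheory.Polynomial.Basic
import Mathlib.RingTheory.Localization.Away.Basic
import Mathlib.RingTheory.Ideal.Quotient.Operations

/-!
# Local generators of the level `L` ring

The level `L` ring is Noetherian and, at every maximal ideal, is cut out by `π` and one
polynomial in the level `M` coordinate.
-/

set_option autoImplicit false

noncomputable section

open UpperHalfPlane CongruenceSubgroup Polynomial
open scoped MatrixGroups

namespace Fermat.Agent.KummerES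

open ModularCurve (coeffMap)

/-- A series with a nonzero coefficient in nonzero degree is transcendental over the constants. -/
lemma eval₂_C_ne_zero {k : Type*} [Field k] {T : LaurentSeries k} {i : ℤ} (hi : i ≠ 0)
    (hT : T.coeff i ≠ 0) {p : k[X]} (hp : p ≠ 0) : p.eval₂ HahnSeries.C T ≠ 0 := by
  classical
  set U := T - HahnSeries.C (T.coeff 0) with hU
  have hUi : U.coeff i = T.coeff i := by simp [hU, HahnSeries.C_apply, hi]
  have hU0 : U ≠ 0 := fun h => hT (by rw [← hUi, h]; rfl)
  have hd : U.order ≠ 0 := fun h => by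
    have := HahnSeries.coeff_order_eq_zero.not.mpr hU0
    rw [h] at this
    simp [hU, HahnSeries.C_apply] at this
  set p' := p.comp (X + Polynomial.C (T.coeff 0)) with hp'
  have hp0 : p' ≠ 0 := fun h => hp ((comp_X_add_C_eq_zero_iff (t := T.coeff 0)).mp h)
  have heval : p.eval₂ HahnSeries.C T = p'.eval₂ HahnSeries.C U := by
    rw [hp', eval₂_comp, eval₂_add, eval₂_X, eval₂_C, hU, sub_add_cancel]
  have hne : p'.support.Nonempty := support_nonempty.mpr hp0
  have hinj : Function.Injective fun j : ℕ => (j : ℤ) * U.order := fun a b h => by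
    simpa [hd] using h
  obtain ⟨j₀, hj₀, hmin⟩ := p'.support.exists_min_image (fun j => (j : ℤ) * U.order) hne
  rw [heval, eval₂_eq_sum, sum_def]
  intro h
  have h' := congrArg (fun s : LaurentSeries k => s.coeff ((j₀ : ℤ) * U.order)) h
  simp only [HahnSeries.coeff_sum, HahnSeries.coeff_zero, HahnSeries.C_mul_eq_smul,
    HahnSeries.coeff_smul, smul_eq_mul] at h'
  rw [Finset.sum_eq_single j₀] at h'
  · refine mul_ne_zero (mem_support_iff.mp hj₀) ?_ h'
    have hh := HahnSeries.coeff_order_eq_zero.not.mpr (pow_ne_zero j₀ hU0)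
    rwa [HahnSeries.order_pow, nsmul_eq_mul] at hh
  · intro j hj hne'
    rw [HahnSeries.coeff_eq_zero_of_lt_order, mul_zero]
    rw [HahnSeries.order_pow, nsmul_eq_mul]
    exact lt_of_le_of_ne (hmin j hj) fun e => hne' (hinj e.symm)
  · exact fun hh => absurd hj₀ hh

/-- Pseudo division by an element of least degree of an ideal. -/
lemma exists_C_mul_mem_span {B : Type*} [CommRing B] [IsDomain B] {P : Ideal B[X]} {g : B[X]}
    (hg : g ∈ P) (hg0 : g ≠ 0) (hmin : ∀ a ∈ P, a ≠ 0 → g.natDegree ≤ a.natDegree) (a : B[X])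
    (ha : a ∈ P) : ∃ k : ℕ, Polynomial.C (g.leadingCoeff ^ k) * a ∈ Ideal.span {g} := by
  induction hn : a.natDegree using Nat.strong_induction_on generalizing a with
  | _ d ih =>
    rcases eq_or_ne a 0 with rfl | ha0
    · exact ⟨0, by simp⟩
    have hle := hmin a ha ha0
    set q : B[X] := Polynomial.C a.leadingCoeff * X ^ (a.natDegree - g.natDegree)
    set a' := Polynomial.C g.leadingCoeff * a - q * g with ha'
    have ha'P : a' ∈ P := P.sub_mem (P.mul_mem_left _ ha) (P.mul_mem_left _ hg)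
    have key : a' = 0 ∨ a'.natDegree < d := by
      rcases eq_or_ne a' 0 with h | h
      · exact Or.inl h
      refine Or.inr ?_
      have hlc : g.leadingCoeff ≠ 0 := leadingCoeff_ne_zero.mpr hg0
      have hla : a.leadingCoeff ≠ 0 := leadingCoeff_ne_zero.mpr ha0
      have hq : q * g ≠ 0 := mul_ne_zero (mul_ne_zero (by simpa using hla)
        (pow_ne_zero _ X_ne_zero)) hg0
      have hd : (Polynomial.C g.leadingCoeff * a).natDegree = (q * g).natDegree := by
        rw [natDegree_C_mul hlc, natDegree_mul (left_ne_zero_of_mul hq) hg0,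
          natDegree_C_mul hla, natDegree_X_pow]
        omega
      have hne : Polynomial.C g.leadingCoeff * a ≠ 0 := mul_ne_zero (by simpa using hlc) ha0
      have hdeg := degree_sub_lt_left (p := Polynomial.C g.leadingCoeff * a) (q := q * g)
        (by rw [degree_eq_natDegree hne, degree_eq_natDegree hq, hd]) hne
        (by simp only [q, leadingCoeff_mul, leadingCoeff_C, leadingCoeff_X_pow]; ring)
      have := natDegree_lt_natDegree h hdeg
      rwa [natDegree_C_mul hlc, hn] at this
    have hmem : ∃ k : ℕ, Polynomial.C (g.leadingCoeff ^ k) * a' ∈ Ideal.span {g} := by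
      rcases key with h | h
      · exact ⟨0, by simp [h]⟩
      · exact ih _ h a' ha'P rfl
    obtain ⟨k, hk⟩ := hmem
    refine ⟨k + 1, ?_⟩
    have e : Polynomial.C (g.leadingCoeff ^ (k + 1)) * a =
        Polynomial.C (g.leadingCoeff ^ k) * a' + (Polynomial.C (g.leadingCoeff ^ k) * q) * g := by
      rw [ha', pow_succ, map_mul]; ring
    rw [e]
    exact Ideal.add_mem _ hk (Ideal.mul_mem_left _ _ (Ideal.mem_span_singleton_self g))

section base

variable {M L : ℕ} [NeZero L] {B : Subring ℂ} (H : LevelHyp M L B)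

/-- The constants of the level `M` ring. -/
def constM : B →+* MRing M L B where
  toFun c := ⟨fun _ => (c : ℂ), const_mem_weak c.2⟩
  map_one' := rfl
  map_mul' _ _ := rfl
  map_zero' := rfl
  map_add' _ _ := rfl

/-- The coordinate as an element of the level `M` ring. -/
def tM : MRing M L B := ⟨H.T.t, weak_mono le_rfl H.le H.T.t_mem⟩

/-- Evaluation of polynomials at the coordinate. -/
def evalT : B[X] →+* MRing M L B := eval₂RingHom constM (tM H)

/-- The polynomial with roots the finite cusp values. -/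
def badPoly : B[X] :=
  ∏ c ∈ H.T.bad.attach, (X - Polynomial.C (⟨c.1, H.le (H.T.bad_mem c.1 c.2)⟩ : B))

/-- The bad polynomial is monic. -/
lemma badPoly_monic : (badPoly H).Monic := monic_prod_of_monic _ _ fun _ _ => monic_X_sub_C _

/-- The bad polynomial becomes a unit in the level `M` ring. -/
lemma isUnit_evalT_badPoly : IsUnit (evalT H (badPoly H)) := by
  rw [badPoly, map_prod]
  refine IsUnit.prod_iff.mpr fun c _ => ?_
  obtain ⟨u, hu, hu'⟩ := H.T.inv_mem c.1 c.2
  refine isUnit_iff_exists_inv.mpr ⟨(⟨u, weak_mono le_rfl H.le hu⟩ : MRing M L B), Subtype.ext ?_⟩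
  simp only [evalT, map_sub, coe_eval₂RingHom, eval₂_X, eval₂_C, Subring.coe_mul,
    AddSubgroupClass.coe_sub]
  exact hu'

/-- Values of `evalT`. -/
lemma evalT_apply (P : B[X]) (τ : ℍ) : (evalT H P).1 τ = P.eval₂ B.subtype (H.T.t τ) := by
  induction P using Polynomial.induction_on' with
  | add p q hp hq => simp [map_add, eval₂_add, hp, hq]
  | monomial k c => simp [evalT, constM, tM]

/-- Every level `M` function is a polynomial in `t` up to powers of the bad polynomial. -/
lemma exists_evalT (a : MRing M L B) :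
    ∃ (P : B[X]) (n : ℕ), a * evalT H (badPoly H) ^ n = evalT H P := by
  obtain ⟨n, P, hP⟩ := H.T.generated B H.le a.1 a.2
  refine ⟨P, n, Subtype.ext (funext fun τ => ?_)⟩
  rw [evalT_apply, ← hP τ, Subring.coe_mul, Pi.mul_apply, SubmonoidClass.coe_pow, Pi.pow_apply,
    evalT_apply]
  congr 2
  rw [badPoly, eval₂_finsetProd, ← Finset.prod_attach H.T.bad]
  simp

/-- Every level `M` function is a polynomial in `t` times a unit. -/
lemma exists_mul_unit_eq (a : MRing M L B) :
    ∃ P : B[X], ∃ w : (MRing M L B)ˣ, a = evalT H P * w := by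
  obtain ⟨P, n, hP⟩ := exists_evalT H a
  exact ⟨P, ((isUnit_evalT_badPoly H).pow n).unit⁻¹, (Units.eq_mul_inv_iff_mul_eq _).mpr
    (by rw [IsUnit.unit_spec]; exact hP)⟩

include H in
lemma isNoetherianRing_MRing [IsNoetherianRing B] : IsNoetherianRing (MRing M L B) := by
  let Φ : Localization.Away (badPoly H) →+* MRing M L B :=
    IsLocalization.Away.lift (badPoly H) (g := evalT H) (isUnit_evalT_badPoly H)
  have : IsNoetherianRing (Localization.Away (badPoly H)) :=
    IsLocalization.isNoetherianRing (Submonoid.powers (badPoly H)) _ inferInstance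
  refine isNoetherianRing_of_surjective _ _ Φ fun a => ?_
  obtain ⟨P, n, hP⟩ := exists_evalT H a
  refine ⟨algebraMap _ _ P * (IsLocalization.Away.invSelf (badPoly H)) ^ n, ?_⟩
  have h1 : Φ (algebraMap _ _ P) = evalT H P := IsLocalization.Away.lift_eq _ _ _
  have h2 : evalT H (badPoly H) * Φ (IsLocalization.Away.invSelf (badPoly H)) = 1 := by
    rw [← IsLocalization.Away.lift_eq (S := Localization.Away (badPoly H)) (badPoly H)
      (isUnit_evalT_badPoly H) (badPoly H), ← map_mul, IsLocalization.Away.mul_invSelf, map_one]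
  rw [map_mul, map_pow, h1, ← hP, mul_assoc, ← mul_pow, h2, one_pow, mul_one]

end base

section reduction

variable {M L n : ℕ} [NeZero L] {B : Subring ℂ} {π : ℂ} (H : LevelHyp M L B) (hπ : π ∈ B)

/-- The residue ring. -/
abbrev Resid : Type := B ⧸ Ideal.span {(⟨π, hπ⟩ : B)}

/-- The expansion at `δ ∞` modulo `π`. -/
def redExp (δ : SL(2, ℤ)) : LRing L B →+* LaurentSeries (Resid hπ) :=
  (coeffMap (Ideal.Quotient.mk _)).comp (expB L B δ)

lemma redExp_eq_zero {δ : SL(2, ℤ)} {f : LRing L B} (hf : kerAt B π δ f) :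
    redExp hπ δ f = 0 := by
  obtain ⟨u, hu⟩ := (kerAt_iff_dvd hπ δ f).mp hf
  rw [redExp, RingHom.comp_apply, hu, map_mul, HahnSeries.C_apply, ModularCurve.coeffMap_single,
    Ideal.Quotient.eq_zero_iff_mem.mpr (Ideal.mem_span_singleton_self _)]
  simp

lemma redExp_evalT (δ : SL(2, ℤ)) (P : B[X]) :
    redExp hπ δ (inclLevel H.dvd (evalT H P)) = (P.map (Ideal.Quotient.mk _)).eval₂ HahnSeries.C
      (redExp hπ δ (inclLevel H.dvd (tM H))) := by
  rw [eval₂_map]
  induction P using Polynomial.induction_on' with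
  | add p q hp hq => simp only [map_add, eval₂_add, hp, hq]
  | monomial k c =>
    rw [eval₂_monomial, evalT, coe_eval₂RingHom, eval₂_monomial, map_mul, map_mul, map_pow, map_pow]
    congr 1
    show coeffMap _ (expB L B δ (constL (L := L) c.1 c.2)) = _
    rw [expB_constL, HahnSeries.C_apply, ModularCurve.coeffMap_single]
    rfl

lemma redExp_t_coeff (δ : SL(2, ℤ)) [Nontrivial (Resid hπ)] :
    ∃ i ≠ (0 : ℤ), (redExp hπ δ (inclLevel H.dvd (tM H))).coeff i ≠ 0 := by
  obtain ⟨i, hi, u, hu, hiu⟩ := H.T.nonconst δ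
  refine ⟨i, hi, fun h0 => ?_⟩
  let c : B := (expB L B δ (inclLevel H.dvd (tM H))).coeff i
  have hc : (c : ℂ) * u = 1 := hiu
  have h1 : Ideal.Quotient.mk (Ideal.span {(⟨π, hπ⟩ : B)}) c = 0 := h0
  have h2 := congrArg (Ideal.Quotient.mk (Ideal.span {(⟨π, hπ⟩ : B)}))
    (show c * ⟨u, H.le hu⟩ = 1 from Subtype.ext hc)
  rw [map_mul, h1, zero_mul, map_one] at h2
  exact zero_ne_one h2

end reduction

section main

variable {M L n : ℕ} [NeZero L] {B : Subring ℂ} {π : ℂ} (H : LevelHyp M L B) (hπ : π ∈ B)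

/-- The coordinate is transcendental over the residue ring at every cusp: a polynomial which is
nonzero modulo `π` has nonzero reduced expansions. -/
lemma redExp_evalT_ne_zero [(Ideal.span {(⟨π, hπ⟩ : B)}).IsMaximal] (δ : SL(2, ℤ)) {P : B[X]}
    (hP : P.map (Ideal.Quotient.mk (Ideal.span {(⟨π, hπ⟩ : B)})) ≠ 0) :
    redExp hπ δ (inclLevel H.dvd (evalT H P)) ≠ 0 := by
  let : Field (Resid hπ) := Ideal.Quotient.field _
  obtain ⟨i, hi, hci⟩ := redExp_t_coeff H hπ δ
  rw [redExp_evalT]
  exact eval₂_C_ne_zero hi hci hP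

/-- The constant `π` reduces to zero at every cusp. -/
lemma redExp_constM_eq_zero (δ : SL(2, ℤ)) :
    redExp hπ δ (inclLevel H.dvd (constM (M := M) (⟨π, hπ⟩ : B))) = 0 := by
  refine redExp_eq_zero hπ ?_
  rw [show inclLevel H.dvd (constM (M := M) (⟨π, hπ⟩ : B)) = constL (L := L) π hπ from rfl]
  refine ⟨1, one_mem _, ?_⟩
  rw [expAt_constL, sub_zero, pow_one, mul_one]

/-- A polynomial lies in the preimage of an ideal of the level `M` ring as soon as a unit multiple
of its value does. -/
lemma mem_comap_evalT_of_mul_mem {P₀ : Ideal (MRing M L B)} {P : B[X]} (w : (MRing M L B)ˣ)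
    (h : evalT H P * w ∈ P₀) : P ∈ P₀.comap (evalT H) :=
  (P₀.mul_unit_mem_iff_mem w.isUnit).mp h

/-- A maximal ideal of the level `M` ring contains the value of a polynomial which is nonzero
modulo `π`. -/
lemma exists_mem_comap_map_ne_zero [(Ideal.span {(⟨π, hπ⟩ : B)}).IsMaximal]
    (P₀ : Ideal (MRing M L B)) [P₀.IsMaximal] :
    ∃ a ∈ P₀.comap (evalT H), a.map (Ideal.Quotient.mk (Ideal.span {(⟨π, hπ⟩ : B)})) ≠ 0 := by
  let : Field (Resid hπ) := Ideal.Quotient.field _
  set mk := Ideal.Quotient.mk (Ideal.span {(⟨π, hπ⟩ : B)})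
  by_contra hcon
  push Not at hcon
  -- otherwise `1 + X * badPoly` would be invertible modulo the ideal
  set q : B[X] := 1 + X * badPoly H
  have hq : q ∉ P₀.comap (evalT H) := fun hqQ => by
    have := congrArg (fun f => f.coeff 0) (hcon q hqQ)
    simp [q] at this
  obtain ⟨r, i, hi, hri⟩ := ‹P₀.IsMaximal›.exists_inv (x := evalT H q) hq
  obtain ⟨P, k, hP⟩ := exists_evalT H r
  obtain ⟨P', w, hP'⟩ := exists_mul_unit_eq H i
  have hzero : redExp hπ 1 (inclLevel H.dvd i) = 0 := by
    rw [hP', map_mul, map_mul, redExp_evalT,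
      hcon P' (mem_comap_evalT_of_mul_mem H w (hP' ▸ hi)), eval₂_zero, zero_mul]
  have hrel := congrArg
    (fun a => redExp hπ 1 (inclLevel H.dvd (a * evalT H (badPoly H) ^ k))) hri
  simp only [add_mul, map_add, one_mul] at hrel
  rw [map_mul (inclLevel H.dvd) i, map_mul (redExp hπ 1), hzero, zero_mul, add_zero,
    mul_right_comm, hP, ← map_mul (evalT H), ← map_pow (evalT H)] at hrel
  refine redExp_evalT_ne_zero H hπ 1 (P := P * q - badPoly H ^ k) (fun h => ?_)
    (by rw [map_sub, map_sub, map_sub, hrel, sub_self])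
  rw [Polynomial.map_sub, Polynomial.map_mul, Polynomial.map_pow, sub_eq_zero] at h
  have hcop : IsCoprime (q.map mk) ((badPoly H).map mk) := ⟨1, -X, by simp [q]⟩
  have hunit : IsUnit (q.map mk) :=
    hcop.pow_right.isUnit_of_dvd' dvd_rfl ⟨P.map mk, by rw [← h, mul_comm]⟩
  have hb := (badPoly_monic H).map mk
  have hdeg : (q.map mk).natDegree = ((badPoly H).map mk).natDegree + 1 := by
    rw [Polynomial.map_add, Polynomial.map_one, Polynomial.map_mul, Polynomial.map_X,
      add_comm, natDegree_add_eq_left_of_natDegree_lt] <;>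
      rw [natDegree_mul X_ne_zero hb.ne_zero, natDegree_X]
    · ring
    · simp
  rw [natDegree_eq_zero_of_isUnit hunit] at hdeg
  omega

/-- A maximal ideal of the level `M` ring containing `π` is generated by `π` and the value of one
polynomial which is nonzero modulo `π`. -/
lemma exists_eq_span_of_pi_mem [(Ideal.span {(⟨π, hπ⟩ : B)}).IsMaximal]
    (P₀ : Ideal (MRing M L B)) [P₀.IsMaximal] :
    ∃ g : B[X], g.map (Ideal.Quotient.mk (Ideal.span {(⟨π, hπ⟩ : B)})) ≠ 0 ∧ evalT H g ∈ P₀ ∧
      P₀ ≤ Ideal.span {constM (⟨π, hπ⟩ : B), evalT H g} := by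
  let : Field (Resid hπ) := Ideal.Quotient.field _
  set p : B := ⟨π, hπ⟩
  set φ := Polynomial.mapRingHom (Ideal.Quotient.mk (Ideal.span {p})) with hφ
  set Q : Ideal B[X] := P₀.comap (evalT H)
  have : (Q.map φ).IsPrincipal := IsPrincipalIdealRing.principal _
  obtain ⟨gbar, hgbar⟩ := Submodule.IsPrincipal.principal (S := Q.map φ)
  have hsurj : Function.Surjective φ := Polynomial.map_surjective _ Ideal.Quotient.mk_surjective
  obtain ⟨g, hgQ, hg⟩ := (Ideal.mem_map_iff_of_surjective _ hsurj).mp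
    (hgbar ▸ Submodule.mem_span_singleton_self gbar : gbar ∈ Q.map φ)
  have hQ : ∀ a ∈ Q, φ a ∈ Ideal.span {gbar} := fun a ha => by
    show _ ∈ Submodule.span _ {gbar}
    rw [← hgbar]
    exact Ideal.mem_map_of_mem _ ha
  refine ⟨g, fun h0 => ?_, hgQ, fun r hr => ?_⟩
  · obtain ⟨a, ha, ha0⟩ := exists_mem_comap_map_ne_zero H hπ P₀
    have := hQ a ha
    rw [← hg, show φ g = 0 from h0, Ideal.span_singleton_eq_bot.mpr rfl, Ideal.mem_bot] at this
    exact ha0 this
  obtain ⟨P, w, rfl⟩ := exists_mul_unit_eq H r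
  obtain ⟨b, hb⟩ := Ideal.mem_span_singleton'.mp (hQ P (mem_comap_evalT_of_mul_mem H w hr))
  obtain ⟨b', hb'⟩ := hsurj b
  have hker : P - b' * g ∈ RingHom.ker φ := by
    rw [RingHom.mem_ker, map_sub, map_mul, hb', hg, hb, sub_self]
  rw [hφ, Polynomial.ker_mapRingHom, Ideal.mk_ker, Ideal.map_span, Set.image_singleton,
    Ideal.mem_span_singleton'] at hker
  obtain ⟨x, hx⟩ := hker
  refine Ideal.mul_mem_right _ _ (Ideal.mem_span_pair.mpr ⟨evalT H x, evalT H b', ?_⟩)
  rw [show constM p = evalT H (Polynomial.C p) by simp [evalT], ← map_mul, ← map_mul, ← map_add,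
    hx, sub_add_cancel]

/-- Polynomial expressions in the coordinate vanish only for the zero polynomial. -/
lemma evalT_ne_zero {g : B[X]} (hg : g ≠ 0) : inclLevel H.dvd (evalT H g) ≠ 0 := by
  intro h0
  obtain ⟨i, hi, u, -, hiu⟩ := H.T.nonconst 1
  have hT : (expAt (Gamma L) L B 1 (inclLevel H.dvd (tM H))).coeff i ≠ 0 :=
    left_ne_zero_of_mul_eq_one hiu
  refine eval₂_C_ne_zero hi hT
    (Polynomial.map_ne_zero_iff (f := B.subtype) Subtype.coe_injective |>.mpr hg) ?_
  rw [eval₂_map]
  refine Eq.trans ?_ ((congrArg (expAt (Gamma L) L B 1) h0).trans (map_zero _))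
  clear h0 hg
  induction g using Polynomial.induction_on' with
  | add p q hp hq => simp only [map_add, eval₂_add, hp, hq]
  | monomial k c =>
    rw [eval₂_monomial, evalT, coe_eval₂RingHom, eval₂_monomial, map_mul, map_mul, map_pow,
      map_pow]
    congr 1
    exact (expAt_constL c.1 c.2 1).symm

/-- A maximal ideal of the level `M` ring not containing `π` is, up to an element outside it,
generated by the value of a nonzero polynomial. -/
lemma exists_mul_mem_span_of_pi_notMem (hB : CoeffHyp B π n) (P₀ : Ideal (MRing M L B))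
    [P₀.IsMaximal] (hP₀ : constM (⟨π, hB.mem⟩ : B) ∉ P₀) :
    ∃ g : B[X], g ≠ 0 ∧ evalT H g ∈ P₀ ∧ ∃ s ∉ P₀, ∀ a ∈ P₀, s * a ∈ Ideal.span {evalT H g} := by
  classical
  have := hB.dvr
  have hprime : P₀.IsPrime := Ideal.IsMaximal.isPrime inferInstance
  set Q : Ideal B[X] := P₀.comap (evalT H)
  have hQne : ∃ a ∈ Q, a ≠ 0 := by
    by_contra hcon
    push Not at hcon
    obtain ⟨r, i, hi, hri⟩ := ‹P₀.IsMaximal›.exists_inv hP₀
    obtain ⟨P', w, hP'⟩ := exists_mul_unit_eq H i
    rw [hP', hcon P' (mem_comap_evalT_of_mul_mem H w (hP' ▸ hi)), map_zero, zero_mul,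
      add_zero] at hri
    have := congrArg (fun a => redExp hB.mem 1 (inclLevel H.dvd a)) hri
    simp only [map_mul, redExp_constM_eq_zero H hB.mem, mul_zero, map_one] at this
    have hnt : Nontrivial (Resid hB.mem) := Ideal.Quotient.nontrivial_iff.mpr
      (PrincipalIdealRing.isMaximal_of_irreducible hB.irred).ne_top
    exact zero_ne_one this
  obtain ⟨a₀, ha₀, ha₀'⟩ := hQne
  have hex : ∃ d, ∃ g ∈ Q, g ≠ 0 ∧ g.natDegree = d := ⟨_, a₀, ha₀, ha₀', rfl⟩
  obtain ⟨g, hgQ, hg0, hgd⟩ := Nat.find_spec hex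
  have hmin : ∀ a ∈ Q, a ≠ 0 → g.natDegree ≤ a.natDegree := fun a ha ha' =>
    hgd ▸ Nat.find_le ⟨a, ha, ha', rfl⟩
  -- the leading coefficient is a unit times a power of `π`, hence lies outside the ideal
  have hlu : evalT H (Polynomial.C g.leadingCoeff) ∉ P₀ := by
    obtain ⟨j, e, he⟩ := IsDiscreteValuationRing.eq_unit_mul_pow_irreducible
      (leadingCoeff_ne_zero.mpr hg0) hB.irred
    rw [evalT, coe_eval₂RingHom, eval₂_C, he, map_mul, map_pow,
      P₀.unit_mul_mem_iff_mem (e.isUnit.map constM)]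
    exact fun h => hP₀ (hprime.mem_of_pow_mem _ h)
  choose! k hk using exists_C_mul_mem_span hgQ hg0 hmin
  obtain ⟨T, hT⟩ := (IsNoetherian.noetherian Q : Q.FG)
  have hTQ : ∀ a ∈ T, a ∈ Q := fun a ha => hT ▸ Submodule.subset_span ha
  set K := ∑ a ∈ T, k a
  refine ⟨g, hg0, hgQ, evalT H (Polynomial.C g.leadingCoeff) ^ K,
    fun h => hlu (hprime.mem_of_pow_mem _ h), fun r hr => ?_⟩
  obtain ⟨P, w, rfl⟩ := exists_mul_unit_eq H r
  rw [← mul_assoc, ← map_pow, ← map_mul]
  refine Ideal.mul_mem_right _ _ ?_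
  suffices hQ : Q ≤ Submodule.comap
      (LinearMap.mulLeft B[X] (Polynomial.C g.leadingCoeff ^ K)) (Ideal.span {g}) by
    have hP : Polynomial.C g.leadingCoeff ^ K * P ∈ Ideal.span {g} :=
      hQ (mem_comap_evalT_of_mul_mem H w hr)
    have := Ideal.mem_map_of_mem (evalT H) hP
    rwa [Ideal.map_span, Set.image_singleton] at this
  rw [← hT, Submodule.span_le]
  intro b hb
  show Polynomial.C g.leadingCoeff ^ K * b ∈ Ideal.span {g}
  rw [show K = (K - k b) + k b from
      (Nat.sub_add_cancel (Finset.single_le_sum (fun a _ => Nat.zero_le (k a)) hb)).symm,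
    pow_add, mul_assoc, ← map_pow]
  exact Ideal.mul_mem_left _ _ (by simpa using hk b (hTQ b hb))

/-- The level `L` ring is Noetherian and locally cut out by `π` and one element. -/
theorem localGen (H : LevelHyp M L B) (hB : CoeffHyp B π n) : LocalGen L B π hB.mem := by
  classical
  have := hB.dvr
  set p : B := ⟨π, hB.mem⟩ with hp
  have hmaxp : (Ideal.span {p}).IsMaximal :=
    PrincipalIdealRing.isMaximal_of_irreducible hB.irred
  let : Algebra (MRing M L B) (LRing L B) := (inclLevel H.dvd).toAlgebra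
  have : SMulCommClass H.G (MRing M L B) (LRing L B) := ⟨fun g r a => by
    show g • (inclLevel H.dvd r * a) = inclLevel H.dvd r * g • a
    rw [smul_mul', smul_inclLevel]⟩
  have : Algebra.IsInvariant (MRing M L B) (LRing L B) H.G :=
    ⟨fun f hf => ⟨⟨f.1, mem_level_of_fixed f hf⟩, Subtype.ext rfl⟩⟩
  have hincl : Function.Injective (inclLevel (B := B) (L := L) H.dvd) := fun a b h =>
    Subtype.ext (congrArg (fun f : LRing L B => f.1) h :)
  have : FaithfulSMul (MRing M L B) (LRing L B) :=
    (faithfulSMul_iff_algebraMap_injective _ _).mpr hincl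
  obtain ⟨ι, _, C, -⟩ := H.exists_coords
  have : Module.Finite (MRing M L B) (LRing L B) := C.finite (MRing M L B)
  have := isNoetherianRing_MRing H
  have : Algebra.IsIntegral (MRing M L B) (LRing L B) := Algebra.IsIntegral.of_finite _ _
  refine ⟨isNoetherian_of_tower (MRing M L B) inferInstance, ?_, ?_⟩ <;> intro m hm hπm <;>
    have hP₀ : (m.comap (inclLevel (B := B) (L := L) H.dvd)).IsMaximal :=
      Ideal.isMaximal_comap_of_isIntegral_of_isMaximal (R := MRing M L B) m
  · obtain ⟨g, hg, hgm, hle⟩ := exists_eq_span_of_pi_mem H hB.mem (m.comap (inclLevel H.dvd))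
    obtain ⟨s, hs, hs'⟩ := C.exists_mul_mem_map (MRing M L B) m
    refine ⟨inclLevel H.dvd (evalT H g), hgm,
      fun δ hk => redExp_evalT_ne_zero H hB.mem δ hg (redExp_eq_zero hB.mem hk),
      s, hs, fun a ha => (Ideal.map_le_iff_le_comap.mpr fun r hr => ?_) (hs' a ha)⟩
    have := Ideal.mem_map_of_mem (inclLevel H.dvd) (hle hr)
    rwa [Ideal.map_span, Set.image_pair] at this
  · obtain ⟨g, hg, hgm, t, ht, ht'⟩ :=
      exists_mul_mem_span_of_pi_notMem H hB (m.comap (inclLevel H.dvd)) hπm
    obtain ⟨s, hs, hs'⟩ := C.exists_mul_mem_map (MRing M L B) m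
    refine ⟨inclLevel H.dvd (evalT H g), hgm, evalT_ne_zero H hg, inclLevel H.dvd t * s,
      fun h => (hm.isPrime.mem_or_mem h).elim ht hs, fun a ha => ?_⟩
    rw [mul_assoc]
    let J : Ideal (LRing L B) := Submodule.comap
      (LinearMap.mulLeft (LRing L B) (inclLevel H.dvd t))
      (Ideal.span {inclLevel H.dvd (evalT H g)})
    suffices hJ : (m.under (MRing M L B)).map (algebraMap (MRing M L B) (LRing L B)) ≤ J from
      hJ (hs' a ha)
    refine Ideal.map_le_iff_le_comap.mpr fun r hr => ?_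
    show inclLevel H.dvd t * inclLevel H.dvd r ∈ Ideal.span {inclLevel H.dvd (evalT H g)}
    rw [← map_mul]
    have := Ideal.mem_map_of_mem (inclLevel H.dvd) (ht' r hr)
    rwa [Ideal.map_span, Set.image_singleton] at this

end main

end Fermat.Agent.KummerES
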