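import Fermat.Agent.KummerES.SpecialFibre
import Fermat.Agent.KummerES.LocalGen

/-!
# The special fibre of a level structure

For every level structure the special fibre of the level `L` ring is irreducible with normal local
rings, and the ring is locally factorial (`LevelHyp.specialFibre`).
-/

set_option autoImplicit false

namespace Fermat.Agent.KummerES

/-- The properties of the special fibre hold for every level structure. -/
theorem LevelHyp.specialFibre {M L n : ℕ} [NeZero L] {B : Subring ℂ} {π : ℂ}
    (H : LevelHyp M L B) (hB : CoeffHyp B π n) : SpecialFibre L B π hB.mem :=
  Fermat.Agent.KummerES.specialFibre H hB (localGen H hB)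

end Fermat.Agent.KummerES
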