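import Mathlib.RingTheory.Invariant.Basic
import Mathlib.RingTheory.Ideal.GoingUp
import Mathlib.RingTheory.Finiteness.Basic
import Mathlib.Algebra.BigOperators.Ring.Finset

/-!
# Galois coordinates of a freely acting finite group

If every `g ≠ 1` moves some element by a unit, there are `x i, y i` with
`∑ x i * g • y i = δ g 1`; consequently the ring is finite over the invariants and unramified.
-/

set_option autoImplicit false

open scoped Pointwise

namespace Fermat.Agent.KummerES

variable {A : Type*} [CommRing A] (G : Type*) [Group G] [MulSemiringAction G A]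

/-- Galois coordinates. -/
structure GaloisCoords (ι : Type*) [Fintype ι] (A : Type*) [CommRing A] [MulSemiringAction G A] where
  x : ι → A
  y : ι → A
  self : ∑ i, x i * y i = 1
  orth : ∀ g : G, g ≠ 1 → ∑ i, x i * g • y i = 0

/-- Separation by elements of a stable subring gives Galois coordinates in that subring. -/
lemma exists_galoisCoords_mem [Finite G] (P : Subring A)
    (hP : ∀ (g : G), ∀ a ∈ P, g • a ∈ P)
    (hsep : ∀ g : G, g ≠ 1 → ∃ a ∈ P, ∃ b ∈ P, b * (a - g • a) = 1) :
    ∃ (ι : Type) (_ : Fintype ι) (C : GaloisCoords G ι A), ∀ i, C.x i ∈ P ∧ C.y i ∈ P := by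
  classical
  cases nonempty_fintype G
  choose a haP b hbP hab using hsep
  obtain ⟨n, ⟨e⟩⟩ := Finite.exists_equiv_fin {g : G // g ≠ 1}
  let a' : Fin n → A := fun k => a (e.symm k).1 (e.symm k).2
  let d : Fin n → A := fun k => b (e.symm k).1 (e.symm k).2
  let c : Fin n → A := fun k => d k * a' k
  let w : Fin n → A := fun k => -((e.symm k).1 • a' k)
  have key : ∀ h : G, ∏ k, (c k + d k * h • w k) = ∑ t : Finset (Fin n),
      ((∏ k ∈ t, c k) * ∏ k ∈ Finset.univ \ t, d k) * h • ∏ k ∈ Finset.univ \ t, w k := by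
    intro h
    rw [Finset.prod_add, Finset.powerset_univ]
    exact Finset.sum_congr rfl fun t _ => by
      simp only [Finset.prod_mul_distrib, Finset.smul_prod']; ring
  refine ⟨Finset (Fin n), inferInstance, {
    x := fun t => (∏ k ∈ t, c k) * ∏ k ∈ Finset.univ \ t, d k
    y := fun t => ∏ k ∈ Finset.univ \ t, w k
    self := ?_
    orth := ?_ }, fun t => ⟨?_, ?_⟩⟩
  · have h1 := key 1
    simp only [one_smul] at h1
    rw [← h1]
    refine Finset.prod_eq_one fun k _ => ?_
    simp only [c, w, d, a']
    rw [← mul_add, ← sub_eq_add_neg]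
    exact hab _ _
  · intro h hh
    rw [← key h]
    refine Finset.prod_eq_zero (i := e ⟨h⁻¹, inv_ne_one.mpr hh⟩) (Finset.mem_univ _) ?_
    simp [c, w, smul_neg, smul_smul]
  · exact mul_mem (prod_mem fun k _ => mul_mem (hbP _ _) (haP _ _)) (prod_mem fun k _ => hbP _ _)
  · exact prod_mem fun k _ => neg_mem (hP _ _ (haP _ _))

variable {G} {ι : Type*} [Fintype ι]

/-- Reconstruction from traces. -/
lemma GaloisCoords.eq_sum [Fintype G] (C : GaloisCoords G ι A) (a : A) :
    a = ∑ i, C.x i * ∑ g : G, g • (C.y i * a) := by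
  classical
  symm
  calc ∑ i, C.x i * ∑ g : G, g • (C.y i * a)
      = ∑ g : G, (∑ i, C.x i * g • C.y i) * g • a := by
        simp only [smul_mul', Finset.mul_sum, Finset.sum_mul, ← mul_assoc]
        exact Finset.sum_comm
    _ = a := by
        rw [Finset.sum_eq_single 1]
        · simp [C.self]
        · exact fun g _ hg => by rw [C.orth g hg, zero_mul]
        · exact fun h => absurd (Finset.mem_univ 1) h

variable (R : Type*) [CommRing R] [Algebra R A] [Algebra.IsInvariant R A G]

/-- Traces over `G` come from `R`. -/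
lemma exists_trace [Fintype G] (a : A) : ∃ r : R, algebraMap R A r = ∑ g : G, g • a :=
  Algebra.IsInvariant.isInvariant (A := R) (G := G) _ fun h => by
    rw [Finset.smul_sum]
    exact Fintype.sum_equiv (Equiv.mulLeft h) _ _ fun g => by simp [smul_smul]

/-- Galois coordinates make the algebra module-finite. -/
lemma GaloisCoords.finite [Finite G] (C : GaloisCoords G ι A) : Module.Finite R A := by
  classical
  cases nonempty_fintype G
  refine ⟨⟨Finset.univ.image C.x, eq_top_iff.mpr fun a _ => ?_⟩⟩
  rw [C.eq_sum a]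
  refine Submodule.sum_mem _ fun i _ => ?_
  obtain ⟨r, hr⟩ := exists_trace (G := G) R (C.y i * a)
  rw [← hr, mul_comm, ← Algebra.smul_def]
  exact Submodule.smul_mem _ r (Submodule.subset_span (by simp))

variable [SMulCommClass G R A]

/-- Maximal ideals of the invariants generate radical ideals. -/
lemma GaloisCoords.isRadical_map [Finite G] [FaithfulSMul R A] (C : GaloisCoords G ι A)
    (P : Ideal R) [P.IsMaximal] : (P.map (algebraMap R A)).IsRadical := by
  classical
  cases nonempty_fintype G
  intro a ha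
  have : Algebra.IsIntegral R A := Algebra.IsInvariant.isIntegral R A G
  obtain ⟨Q, hQ, hQP⟩ := Ideal.exists_ideal_over_maximal_of_isIntegral (S := A) P
    (by simp [(RingHom.injective_iff_ker_eq_bot _).mp (FaithfulSMul.algebraMap_injective R A)])
  have hPA : P.map (algebraMap R A) ≤ Q := Ideal.map_le_iff_le_comap.mpr hQP.ge
  have hstable : ∀ (g : G) (b : A), b ∈ P.map (algebraMap R A) →
      g • b ∈ P.map (algebraMap R A) := by
    intro g b hb
    have : P.map (algebraMap R A) ≤
        (P.map (algebraMap R A)).comap (MulSemiringAction.toRingHom G A g) := by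
      rw [Ideal.map_le_iff_le_comap]
      intro r hr
      simp only [Ideal.mem_comap, MulSemiringAction.toRingHom_apply, smul_algebraMap]
      exact Ideal.mem_map_of_mem _ hr
    exact this hb
  have htr : ∀ b : A, b ∈ (P.map (algebraMap R A)).radical →
      (∑ g : G, g • b) ∈ P.map (algebraMap R A) := by
    intro b hb
    obtain ⟨r, hr⟩ := exists_trace (G := G) R b
    have hrad : (∑ g : G, g • b) ∈ (P.map (algebraMap R A)).radical := by
      refine Ideal.sum_mem _ fun g _ => ?_
      obtain ⟨n, hn⟩ := hb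
      exact ⟨n, by rw [← smul_pow']; exact hstable g _ hn⟩
    rw [← hr] at hrad ⊢
    obtain ⟨n, hn⟩ := hrad
    refine Ideal.mem_map_of_mem _ ?_
    have hp : P.IsPrime := Ideal.IsMaximal.isPrime inferInstance
    refine hp.mem_of_pow_mem n ?_
    have : r ^ n ∈ Q.comap (algebraMap R A) := by
      rw [Ideal.mem_comap, map_pow]
      exact hPA hn
    rwa [hQP] at this
  rw [C.eq_sum a]
  exact Ideal.sum_mem _ fun i _ => Ideal.mul_mem_left _ _ (htr _ (Ideal.mul_mem_left _ _ ha))

/-- A maximal ideal above `P` is locally generated by `P`. -/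
lemma GaloisCoords.exists_mul_mem_map [Finite G] [FaithfulSMul R A] (C : GaloisCoords G ι A)
    (m : Ideal A) [m.IsMaximal] :
    ∃ s ∉ m, ∀ a ∈ m, s * a ∈ (m.under R).map (algebraMap R A) := by
  classical
  cases nonempty_fintype G
  have : Algebra.IsIntegral R A := Algebra.IsInvariant.isIntegral R A G
  have : (m.under R).IsMaximal := Ideal.isMaximal_comap_of_isIntegral_of_isMaximal m
  let T : Finset (Ideal A) := (Finset.univ.image fun g : G => g • m).erase m
  have hmax : ∀ Q ∈ T, Q.IsMaximal := by
    intro Q hQ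
    obtain ⟨g, -, rfl⟩ := Finset.mem_image.mp (Finset.mem_of_mem_erase hQ)
    have : (g • m).IsPrime := (Ideal.IsMaximal.isPrime ‹_›).smul g
    exact Ideal.isMaximal_of_isIntegral_of_isMaximal_comap (R := R) _
      (by rw [← Ideal.under_def, Ideal.under_smul]; infer_instance)
  have hex : ∀ Q ∈ T, ∃ s ∈ Q, s ∉ m := by
    intro Q hQ
    by_contra h
    push Not at h
    exact Finset.ne_of_mem_erase hQ ((hmax Q hQ).eq_of_le (Ideal.IsMaximal.ne_top inferInstance) h)
  choose! s hsQ hsm using hex
  refine ⟨∏ Q ∈ T, s Q, ?_, fun a ha => ?_⟩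
  · intro h
    obtain ⟨Q, hQ, hQm⟩ := ((Ideal.IsMaximal.isPrime ‹m.IsMaximal›).prod_mem_iff).mp h
    exact hsm Q hQ hQm
  · rw [← (C.isRadical_map R (m.under R)).radical, Ideal.radical_eq_sInf, Submodule.mem_sInf]
    rintro (Q : Ideal A) ⟨hle, hQp⟩
    have := hQp
    have hQu : Q.under R = m.under R :=
      ((Ideal.IsMaximal.eq_of_le (inferInstance : (m.under R).IsMaximal)
        (Ideal.IsPrime.ne_top inferInstance) (Ideal.map_le_iff_le_comap.mp hle))).symm
    obtain ⟨g, hg⟩ := Algebra.IsInvariant.exists_smul_of_under_eq R A G m Q hQu.symm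
    by_cases hQm : Q = m
    · exact hQm ▸ Ideal.mul_mem_left _ _ ha
    · have hQT : Q ∈ T := Finset.mem_erase.mpr
        ⟨hQm, Finset.mem_image.mpr ⟨g, Finset.mem_univ _, hg.symm⟩⟩
      exact Ideal.mul_mem_right _ _
        (Ideal.mem_of_dvd Q (Finset.dvd_prod_of_mem s hQT) (hsQ Q hQT))

end Fermat.Agent.KummerES
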