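import Fermat.Agent.KummerES.Interface
import Fermat.Agent.KummerES.GaloisCoords

/-!
# The ring of level `L` over level `M`

The finite group `levelGroup` acts freely on `weak (Gamma L) L B` with invariants
`weak (Gamma M) L B`; consequently the level `L` ring is generated by the Weierstrass quotients,
and a family of Laurent series which is approximated by expansions of elements is an expansion.
-/

set_option autoImplicit false

noncomputable section

open UpperHalfPlane CongruenceSubgroup
open scoped MatrixGroups Manifold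

namespace Fermat.Agent.KummerES

instance instNormalGamma (L : ℕ) : (Gamma L).Normal := Gamma_normal L

section action

variable (L : ℕ) (B : Subring ℂ)

/-- The action of `SL(2, ℤ)` on the level `L` ring. -/
def actAut : SL(2, ℤ) →* RingAut (weak (Gamma L) L B) where
  toFun γ :=
    { toFun := fun f => ⟨comp f.1 γ⁻¹, comp_mem_weak f.2 _⟩
      invFun := fun f => ⟨comp f.1 γ, comp_mem_weak f.2 _⟩
      left_inv := fun f => Subtype.ext (by simp [comp_comp])
      right_inv := fun f => Subtype.ext (by simp [comp_comp])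
      map_mul' := fun _ _ => Subtype.ext rfl
      map_add' := fun _ _ => Subtype.ext rfl }
  map_one' := RingEquiv.ext fun f => Subtype.ext (by simp)
  map_mul' γ δ := RingEquiv.ext fun f => Subtype.ext (by simp [comp_comp, RingAut.mul_apply])

/-- Underlying function of `actAut`. -/
@[simp] lemma coe_actAut (γ : SL(2, ℤ)) (f : weak (Gamma L) L B) :
    (actAut L B γ f).1 = comp f.1 γ⁻¹ := rfl

variable (M : ℕ)

/-- The image of `Γ(M)` in the automorphisms of the level `L` ring. -/
def levelGroup : Subgroup (RingAut (weak (Gamma L) L B)) := (Gamma M).map (actAut L B)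

instance instFiniteLevelGroup [NeZero L] : Finite (levelGroup L B M) := by
  have : (actAut L B).ker.FiniteIndex := Subgroup.finiteIndex_of_le (H := Gamma L) fun γ hγ => by
    rw [MonoidHom.mem_ker]
    exact RingEquiv.ext fun f => Subtype.ext (f.2.2.1 γ⁻¹ (inv_mem hγ))
  have : Finite (actAut L B).range :=
    Finite.of_equiv _ (QuotientGroup.quotientKerEquivRange (actAut L B)).toEquiv
  exact Finite.of_injective (fun g : levelGroup L B M => (⟨g.1, by
      obtain ⟨γ, -, hγ⟩ := g.2
      exact ⟨γ, hγ⟩⟩ : (actAut L B).range))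
    fun g h hgh => Subtype.ext (congrArg Subtype.val hgh :)

/-- Every element of the level group is composition with a matrix of `Gamma M`. -/
lemma exists_rep (g : levelGroup L B M) :
    ∃ γ ∈ Gamma M, ∀ f : weak (Gamma L) L B, (g • f).1 = comp f.1 γ := by
  obtain ⟨γ, hγ, hg⟩ := g.2
  exact ⟨γ⁻¹, inv_mem hγ, fun f => by
    show (g.1 f).1 = _
    rw [← hg, coe_actAut]⟩

end action

/-- The ring of level `L`. -/
abbrev LRing (L : ℕ) (B : Subring ℂ) : Type := weak (Gamma L) L B

/-- The ring of level `M`, read at level `L`. -/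
abbrev MRing (M L : ℕ) (B : Subring ℂ) : Type := weak (Gamma M) L B

variable {M L : ℕ} [NeZero L] {B : Subring ℂ}

/-- The inclusion of level `M` into level `L`. -/
def inclLevel (hML : M ∣ L) : MRing M L B →+* LRing L B :=
  Subring.inclusion (weak_mono (Gamma_le_of_dvd hML) le_rfl)

omit [NeZero L] in
@[simp] lemma coe_inclLevel (hML : M ∣ L) (a : MRing M L B) : (inclLevel hML a).1 = a.1 := rfl

omit [NeZero L] in
/-- An element fixed by `levelGroup` is of level `M`. -/
lemma mem_level_of_fixed (f : LRing L B) (h : ∀ g : levelGroup L B M, g • f = f) :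
    f.1 ∈ weak (Gamma M) L B := by
  refine ⟨f.2.1, fun γ hγ => ?_, f.2.2.2⟩
  have h1 : comp f.1 γ⁻¹⁻¹ = f.1 :=
    congrArg Subtype.val (h ⟨actAut L B γ⁻¹, ⟨γ⁻¹, inv_mem hγ, rfl⟩⟩)
  rwa [inv_inv] at h1

omit [NeZero L] in
/-- The level group fixes functions of level `M`. -/
lemma smul_inclLevel (hML : M ∣ L) (g : levelGroup L B M) (a : MRing M L B) :
    g • inclLevel hML a = inclLevel hML a := by
  obtain ⟨γ, hγ, hg⟩ := exists_rep L B M g
  refine Subtype.ext ?_
  rw [hg]
  exact a.2.2.1 γ hγ

section separation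

variable (D : RatioData L)

omit [NeZero L] in
/-- `vAct` is a right action. -/
lemma vAct_vAct (v : Ind L) (γ δ : SL(2, ℤ)) : vAct (vAct v γ) δ = vAct v (γ * δ) := by
  simp [vAct, Matrix.vecMul_vecMul, Matrix.map_mul_intCast]

/-- `Gamma M` fixes the torsion vectors of level `M`. -/
lemma vAct_torsionVec {γ : SL(2, ℤ)} (hML : M ∣ L) (hγ : γ ∈ Gamma M) (v : Fin 2 → ℤ) :
    vAct (torsionVec M L v : Ind L) γ = torsionVec M L v := by
  obtain ⟨k, rfl⟩ := hML
  have hM : M ≠ 0 := fun h => NeZero.ne (M * k) (by simp [h])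
  have hk : M * k / M = k := Nat.mul_div_cancel_left _ (Nat.pos_of_ne_zero hM)
  rw [Gamma_mem] at hγ
  obtain ⟨h00, h01, h10, h11⟩ := hγ
  have key : ∀ a b : ℤ, ((a : ZMod M) = (b : ZMod M)) →
      ((k : ℕ) : ZMod (M * k)) * (a : ZMod (M * k)) = (k : ZMod (M * k)) * (b : ZMod (M * k)) := by
    intro a b hab
    obtain ⟨c, hc⟩ := (ZMod.intCast_eq_intCast_iff_dvd_sub a b M).mp hab
    have : ((b : ZMod (M * k))) = a + (M : ℕ) * (c : ℤ) := by
      have : b = a + (M : ℤ) * c := by omega
      exact_mod_cast congrArg (Int.cast : ℤ → ZMod (M * k)) this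
    rw [this, mul_add, ← mul_assoc, ← Nat.cast_mul, mul_comm k M, ZMod.natCast_self, zero_mul,
      add_zero]
  have e00 := key (γ 0 0) 1 (by simpa using h00)
  have e01 := key (γ 0 1) 0 (by simpa using h01)
  have e10 := key (γ 1 0) 0 (by simpa using h10)
  have e11 := key (γ 1 1) 1 (by simpa using h11)
  simp only [Int.cast_one, Int.cast_zero, mul_one, mul_zero] at e00 e01 e10 e11
  refine funext (Fin.forall_fin_two.mpr ⟨?_, ?_⟩)
  · simp only [vAct, torsionVec, hk, Matrix.vecMul, dotProduct, Fin.sum_univ_two,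
      Matrix.map_apply, eq_intCast]
    linear_combination (v 0 : ZMod (M * k)) * e00 + (v 1 : ZMod (M * k)) * e10
  · simp only [vAct, torsionVec, hk, Matrix.vecMul, dotProduct, Fin.sum_univ_two,
      Matrix.map_apply, eq_intCast]
    linear_combination (v 0 : ZMod (M * k)) * e01 + (v 1 : ZMod (M * k)) * e11

lemma torsion_natCast_ne_zero (hM : 2 ≤ M) (hML : M ∣ L) : ((L / M : ℕ) : ZMod L) ≠ 0 := by
  rw [Ne, ZMod.natCast_eq_zero_iff]
  have hL := Nat.pos_of_ne_zero (NeZero.ne L)
  exact fun h => absurd (Nat.le_of_dvd (Nat.div_pos (Nat.le_of_dvd hL hML) (by omega)) h)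
    (not_le.mpr (Nat.div_lt_self hL hM))

/-- The base vectors form a pair. -/
lemma isPair_base (hM : 2 ≤ M) (hML : M ∣ L) :
    IsPair (RatioData.base (L := L) M).1 (RatioData.base (L := L) M).2 := by
  have h := torsion_natCast_ne_zero hM hML
  constructor <;> intro h' <;>
    first
      | (have := congrFun h' 0; simp [RatioData.base, torsionVec] at this; exact h this)
      | (have := congrFun h' 1; simp [RatioData.base, torsionVec] at this; exact h this)

/-- A matrix acting on every vector by a sign is `± 1` modulo `L`. -/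
lemma mem_or_neg_mem_Gamma {γ : SL(2, ℤ)}
    (h : ∀ v : Ind L, v ≠ 0 → vAct v γ = v ∨ vAct v γ = -v) : γ ∈ Gamma L ∨ -γ ∈ Gamma L := by
  rcases eq_or_ne L 1 with rfl | hL
  · exact Or.inl (by simp [Gamma_one_top])
  have : Fact (1 < L) := ⟨by have := NeZero.ne L; omega⟩
  have h10 : (![1, 0] : Ind L) ≠ 0 := fun h => by simpa using congrFun h 0
  have h01 : (![0, 1] : Ind L) ≠ 0 := fun h => by simpa using congrFun h 1
  have h11 : (![1, 1] : Ind L) ≠ 0 := fun h => by simpa using congrFun h 0
  set A := (γ : Matrix (Fin 2) (Fin 2) ℤ).map (Int.castRingHom (ZMod L)) with hA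
  have hv : ∀ (x y : ZMod L) (j : Fin 2), vAct ![x, y] γ j = x * A 0 j + y * A 1 j := fun x y j => by
    simp [vAct, hA, Matrix.vecMul, dotProduct, Fin.sum_univ_two]
  have e : ∀ (x y : ZMod L), (![x, y] : Ind L) ≠ 0 →
      (x * A 0 0 + y * A 1 0 = x ∧ x * A 0 1 + y * A 1 1 = y) ∨
        (x * A 0 0 + y * A 1 0 = -x ∧ x * A 0 1 + y * A 1 1 = -y) := fun x y hxy => by
    refine (h _ hxy).imp (fun hh => ⟨?_, ?_⟩) (fun hh => ⟨?_, ?_⟩) <;> rw [← hv, hh] <;> simp
  obtain ⟨hp, hq⟩ : (A 0 0 = 1 ∨ A 0 0 = -1) ∧ A 0 1 = 0 := by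
    have := e 1 0 h10
    simp only [one_mul, zero_mul, add_zero, neg_zero] at this
    tauto
  obtain ⟨-, hr⟩ : (A 1 1 = 1 ∨ A 1 1 = -1) ∧ A 1 0 = 0 := by
    have := e 0 1 h01
    simp only [one_mul, zero_mul, zero_add, neg_zero] at this
    tauto
  have hps : A 1 1 = A 0 0 := by
    have := e 1 1 h11
    simp only [one_mul, hr, hq, add_zero, zero_add] at this
    rcases this with ⟨u, v⟩ | ⟨u, v⟩ <;> rw [u, v]
  simp only [Gamma_mem, Matrix.SpecialLinearGroup.coe_neg, Matrix.neg_apply, Int.cast_neg]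
  simp only [hA, Matrix.map_apply, eq_intCast] at hp hq hr hps
  rcases hp with hp | hp
  · exact Or.inl ⟨hp, hq, hr, hps.trans hp⟩
  · exact Or.inr ⟨by rw [hp, neg_neg], by rw [hq, neg_zero], by rw [hr, neg_zero],
      by rw [hps, hp, neg_neg]⟩

end separation

end Fermat.Agent.KummerES
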