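import Fermat.Agent.KummerLocal.UFDRoot
import Fermat.Prelude.Def_ModularCurve_LaurentCoeff
import Mathlib.RingTheory.PowerSeries.Ideal
import Mathlib.RingTheory.LaurentSeries
import Mathlib.RingTheory.DiscreteValuationRing.Basic
import Mathlib.RingTheory.RootsOfUnity.PrimitiveRoots
import Mathlib.Dynamics.Newton
import Fermat.Prelude.Def_ModularCurve_X0
import Mathlib.Tactic

/-!
# Roots of Laurent series over a discrete valuation ring

A series `f ∈ O((q))` which is locally (on a covering of the bounded functions on the punctured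
disc) a unit times an `n`-th power, and whose reduction is a nonzero `n`-th power `hbar ^ n`, has
an `n`-th root in `O((q))` reducing to `hbar`, provided it has one over a field containing `O`
whose leading coefficient lies in the fraction field of `O`.
-/

set_option autoImplicit false

noncomputable section

namespace Fermat.Agent.KummerES

open PowerSeries

section PowerRoot

variable {R : Type*} [CommRing R]

/-- A series with constant term `1` has an `n`-th root with constant term `1` when `n` is a unit. -/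
theorem exists_pow_eq_of_constantCoeff_one (n : ℕ) (hn : IsUnit (n : R)) (u : R⟦X⟧)
    (hu : constantCoeff u = 1) : ∃ w : R⟦X⟧, w ^ n = u ∧ constantCoeff w = 1 := by
  classical
  let step : ℕ → R⟦X⟧ → R⟦X⟧ := fun m w => w + C (↑hn.unit⁻¹ * coeff m (u - w ^ n)) * X ^ m
  let seq : ℕ → R⟦X⟧ := fun m => Nat.rec 1 (fun m w => step (m + 1) w) m
  have hseq : ∀ m, X ^ (m + 1) ∣ u - seq m ^ n ∧ constantCoeff (seq m) = 1 := by
    intro m
    induction m with
    | zero => exact ⟨by simp [seq, pow_one, X_dvd_iff, hu], by simp [seq]⟩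
    | succ m IH =>
      obtain ⟨⟨r, hr⟩, hc⟩ := IH
      set w := seq m
      have hw : seq (m + 1) = step (m + 1) w := rfl
      refine ⟨?_, by simp [hw, step, hc]⟩
      rw [hw]
      set c := ↑hn.unit⁻¹ * coeff (m + 1) (u - w ^ n) with hcdef
      obtain ⟨k, hk⟩ : X ^ (m + 1 + 1) ∣ (w + C c * X ^ (m + 1)) ^ n - w ^ n -
          (n : R⟦X⟧) * w ^ (n - 1) * (C c * X ^ (m + 1)) := by
        obtain ⟨k, hk⟩ := Polynomial.binomExpansion ((Polynomial.X : Polynomial R⟦X⟧) ^ n) w
          (C c * X ^ (m + 1))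
        simp only [Polynomial.eval_pow, Polynomial.eval_X, Polynomial.derivative_X_pow,
          Polynomial.eval_mul, Polynomial.eval_C] at hk
        refine Dvd.dvd.trans (pow_dvd_pow X (show m + 1 + 1 ≤ (m + 1) * 2 by omega))
          ⟨k * C c ^ 2, ?_⟩
        rw [hk, pow_mul]
        ring
      have hlin : X ^ (m + 1 + 1) ∣ u - w ^ n - (n : R⟦X⟧) * w ^ (n - 1) * (C c * X ^ (m + 1)) := by
        have hz : X ∣ r - (n : R⟦X⟧) * w ^ (n - 1) * C c := by
          rw [X_dvd_iff]
          have hr0 : coeff (m + 1) (u - w ^ n) = constantCoeff r := by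
            rw [hr, coeff_X_pow_mul', if_pos le_rfl, Nat.sub_self, coeff_zero_eq_constantCoeff]
          simp [hc, hcdef, hr0, ← mul_assoc, IsUnit.mul_val_inv hn]
        have : u - w ^ n - (n : R⟦X⟧) * w ^ (n - 1) * (C c * X ^ (m + 1)) =
            X ^ (m + 1) * (r - (n : R⟦X⟧) * w ^ (n - 1) * C c) := by rw [hr]; ring
        rw [this, pow_succ]
        exact mul_dvd_mul_left _ hz
      have := dvd_sub hlin ⟨k, hk⟩
      rw [show u - w ^ n - (n : R⟦X⟧) * w ^ (n - 1) * (C c * X ^ (m + 1)) -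
        ((w + C c * X ^ (m + 1)) ^ n - w ^ n - (n : R⟦X⟧) * w ^ (n - 1) * (C c * X ^ (m + 1))) =
        u - (w + C c * X ^ (m + 1)) ^ n by ring] at this
      exact this
  let W : R⟦X⟧ := mk fun m => coeff m (seq m)
  have hstable : ∀ m i, i ≤ m → coeff i (seq m) = coeff i W := by
    intro m
    induction m with
    | zero => intro i hi; simp [Nat.le_zero.mp hi, W]
    | succ m IH =>
      intro i hi
      rcases hi.lt_or_eq with hlt | rfl
      · rw [← IH i (Nat.lt_succ_iff.mp hlt)]
        show coeff i (step (m + 1) (seq m)) = _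
        simp only [step, map_add, coeff_C_mul_X_pow, if_neg hlt.ne, add_zero]
      · simp [W]
  refine ⟨W, ?_, ?_⟩
  · ext i
    have hd : X ^ (i + 1) ∣ W - seq i := X_pow_dvd_iff.mpr fun j hj => by
      rw [map_sub, hstable i j (Nat.lt_succ_iff.mp hj), sub_self]
    have hd' := dvd_sub (hd.trans (sub_dvd_pow_sub_pow W (seq i) n)) (hseq i).1
    have := X_pow_dvd_iff.mp hd' i (Nat.lt_succ_self i)
    rw [show W ^ n - seq i ^ n - (u - seq i ^ n) = W ^ n - u by ring, map_sub, sub_eq_zero] at this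
    exact this
  · rw [← coeff_zero_eq_constantCoeff, ← hstable 0 0 le_rfl]
    simp [seq]

/-- An `n`-th root of `1 + e` for nilpotent `e`, congruent to `1` modulo `e`. -/
theorem exists_pow_eq_one_add_of_isNilpotent (n : ℕ) (hn : IsUnit (n : R)) {e : R}
    (he : IsNilpotent e) : ∃ y : R, y ^ n = 1 + e ∧ IsNilpotent (y - 1) ∧ e ∣ y - 1 := by
  have haev : Polynomial.aeval (1 : R) ((Polynomial.X : Polynomial R) ^ n - Polynomial.C (1 + e)) = -e := by
    simp
  obtain ⟨y, ⟨hy, hy0⟩, -⟩ := Polynomial.existsUnique_nilpotent_sub_and_aeval_eq_zero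
    (P := (Polynomial.X : Polynomial R) ^ n - Polynomial.C (1 + e)) (x := (1 : R))
    (by rw [haev]; exact he.neg) (by simpa [Polynomial.derivative_X_pow] using hn)
  have hy' : IsNilpotent (y - 1) := by simpa using hy.neg
  have hpow : y ^ n = 1 + e := sub_eq_zero.mp (by simpa using hy0)
  refine ⟨y, hpow, hy', ?_⟩
  have hgeom : (y - 1) * ∑ i ∈ Finset.range n, y ^ i = e := by
    rw [mul_geom_sum, hpow]; ring
  have hu : IsUnit (∑ i ∈ Finset.range n, y ^ i) := by
    have hsum : IsNilpotent ((∑ i ∈ Finset.range n, y ^ i) - (n : R)) := by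
      have : (∑ i ∈ Finset.range n, y ^ i) - (n : R) =
          (y - 1) * ∑ i ∈ Finset.range n, ∑ j ∈ Finset.range i, y ^ j := by
        rw [Finset.mul_sum]
        simp [mul_geom_sum, Finset.sum_sub_distrib]
      rw [this]
      exact Commute.isNilpotent_mul_right (Commute.all _ _) hy'
    have := hsum.isUnit_add_left_of_commute hn (Commute.all _ _)
    simpa using this
  exact ⟨↑hu.unit⁻¹, by rw [← hgeom, mul_assoc, IsUnit.mul_val_inv, mul_one]⟩

end PowerRoot

section LaurentRoot

open HahnSeries ModularCurve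

variable {O : Type*} [CommRing O] [IsDomain O] [IsDiscreteValuationRing O]

local notation "k" => IsLocalRing.ResidueField O

omit [IsDomain O] [IsDiscreteValuationRing O] in
/-- A series with order at least `-A` becomes a power series after multiplication by `q ^ A`. -/
theorem exists_shift (A : ℕ) (s : LaurentSeries O) (h : -(A : ℤ) ≤ s.order ∨ s = 0) :
    ∃ s0 : O⟦X⟧, (s0 : LaurentSeries O) = HahnSeries.single (A : ℤ) 1 * s := by
  by_cases hs : s = 0
  · exact ⟨0, by simp [hs]⟩
  have hle : 0 ≤ (A : ℤ) + s.order := by have := h.resolve_right hs; omega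
  obtain ⟨m, hm⟩ : ∃ m : ℕ, (A : ℤ) + s.order = m := ⟨_, (Int.toNat_of_nonneg hle).symm⟩
  refine ⟨X ^ m * s.powerSeriesPart, ?_⟩
  conv_rhs => rw [← LaurentSeries.single_order_mul_powerSeriesPart s, ← mul_assoc,
    HahnSeries.single_mul_single, hm, one_mul]
  simp [HahnSeries.ofPowerSeries_X, HahnSeries.single_pow]

omit [IsDomain O] [IsDiscreteValuationRing O] in
/-- An injective map of coefficients is injective on series. -/
lemma coeffMap_injective_of_injective {F : Type*} [Field F] {φ : O →+* F}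
    (hφ : Function.Injective φ) : Function.Injective (coeffMap φ) := fun a a' h => by
  ext i; exact hφ (by simpa using congrArg (fun z => z.coeff i) h)

/-- A series which is locally a unit times an `n`-th power is, after a shift, a unit times a power
of `q` times an `n`-th power in `O⟦q⟧`. -/
lemma exists_eq_unit_mul_single_mul_pow {n : ℕ} (hn0 : n ≠ 0) {ι : Type*} [Fintype ι]
    (f : LaurentSeries O) (hfne : f ≠ 0) (s s' x c : ι → LaurentSeries O)
    (hsum : ∑ i, c i * (s i * s' i) = 1) (hloc : ∀ i, s i * f = s' i * x i ^ n) :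
    ∃ (A : ℕ) (U : O⟦X⟧ˣ) (e : ℕ) (b : O⟦X⟧), b ≠ 0 ∧
      HahnSeries.single ((n * A : ℕ) : ℤ) 1 * f =
        ((U : O⟦X⟧) : LaurentSeries O) * HahnSeries.single (e : ℤ) 1 *
          (b : LaurentSeries O) ^ n := by
  classical
  let ord0 : LaurentSeries O → ℕ := fun t => (-t.order).toNat
  let A : ℕ := ord0 f + ∑ i, (ord0 (s i) + ord0 (s' i) + ord0 (x i) + ord0 (c i))
  have hA : ∀ i, ord0 (s i) ≤ A ∧ ord0 (s' i) ≤ A ∧ ord0 (x i) ≤ A ∧ ord0 (c i) ≤ A := by
    intro i
    have := Finset.single_le_sum (f := fun i => ord0 (s i) + ord0 (s' i) + ord0 (x i) + ord0 (c i))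
      (fun j _ => Nat.zero_le _) (Finset.mem_univ i)
    simp only [A]
    omega
  have hsh : ∀ (B : ℕ) (t : LaurentSeries O), ord0 t ≤ B →
      ∃ t0 : O⟦X⟧, (t0 : LaurentSeries O) = HahnSeries.single (B : ℤ) 1 * t := fun B t ht =>
    exists_shift B t (Or.inl (by simp only [ord0] at ht; omega))
  choose s0 hs0 using fun i => hsh A (s i) (hA i).1
  choose s0' hs0' using fun i => hsh A (s' i) (hA i).2.1
  choose x0 hx0 using fun i => hsh A (x i) (hA i).2.2.1
  choose c0 hc0 using fun i => hsh A (c i) (hA i).2.2.2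
  obtain ⟨f0, hf0⟩ := hsh (n * A) f (by
    have : A ≤ n * A := Nat.le_mul_of_pos_left A (Nat.pos_of_ne_zero hn0)
    simp only [A] at this ⊢; omega)
  have hinj : Function.Injective (HahnSeries.ofPowerSeries ℤ O) := HahnSeries.ofPowerSeries_injective
  have hsum0 : ∑ i, c0 i * (s0 i * s0' i) = X ^ (3 * A) := hinj (by
    simp only [map_sum, map_mul, map_pow, hs0, hs0', hc0]
    rw [HahnSeries.ofPowerSeries_X, HahnSeries.single_pow, one_pow, nsmul_eq_mul, mul_one]
    calc ∑ i, HahnSeries.single (A : ℤ) (1 : O) * c i *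
          (HahnSeries.single (A : ℤ) 1 * s i * (HahnSeries.single (A : ℤ) 1 * s' i))
        = HahnSeries.single (A : ℤ) 1 ^ 3 * ∑ i, c i * (s i * s' i) := by
          rw [Finset.mul_sum]; exact Finset.sum_congr rfl fun i _ => by ring
      _ = _ := by rw [hsum, mul_one, HahnSeries.single_pow, one_pow, nsmul_eq_mul]; push_cast; rfl)
  have hloc0 : ∀ i, s0 i * f0 = s0' i * x0 i ^ n := fun i => hinj (by
    simp only [map_mul, map_pow, hs0, hs0', hx0, hf0, mul_pow, HahnSeries.single_pow, one_pow,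
      nsmul_eq_mul, Nat.cast_mul]
    linear_combination HahnSeries.single (A : ℤ) (1 : O) * HahnSeries.single ((n : ℤ) * A) (1 : O) *
      hloc i)
  have hf0ne : f0 ≠ 0 := fun h => hfne (by
    rw [h, map_zero] at hf0
    exact (mul_eq_zero.mp hf0.symm).resolve_left (by simp [HahnSeries.single_eq_zero_iff]))
  obtain ⟨t, b, htb, htne, ht⟩ := KummerLocal.exists_eq_mul_pow_of_local hn0 (s := (X : O⟦X⟧)) f0
    hf0ne fun q hq hqX => by
      obtain ⟨i, hi⟩ : ∃ i, ¬ q ∣ s0 i * s0' i := by
        by_contra h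
        push Not at h
        exact hqX (hq.dvd_of_dvd_pow (hsum0 ▸ Finset.dvd_sum fun i _ => (h i).mul_left _))
      exact ⟨s0 i, s0' i, x0 i, fun h => hi (h.mul_right _), fun h => hi (h.mul_left _), hloc0 i⟩
  obtain ⟨U, i₁, j₁, rfl⟩ := KummerLocal.exists_eq_unit_mul_pow_mul_pow (x := (X : O⟦X⟧))
    (y := (X : O⟦X⟧)) t htne fun q hq hqt => Or.inl (hq.associated_of_dvd PowerSeries.X_prime (ht q hq hqt))
  refine ⟨A, U, i₁ + j₁, b, fun h => hf0ne (by rw [htb, h, zero_pow hn0, mul_zero]), ?_⟩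
  rw [← hf0, htb]
  simp only [map_mul, map_pow, HahnSeries.ofPowerSeries_X, mul_assoc, ← pow_add]
  simp [HahnSeries.single_pow]

/-- An element whose ratio of `n`-th powers lies in `O` has an `n`-th root in `O`. -/
lemma exists_pow_eq_of_pow_eq_mul_pow {n : ℕ} (hn0 : n ≠ 0) {a b u : O} (hb : b ≠ 0)
    (h : a ^ n = u * b ^ n) : ∃ w : O, w ^ n = u := by
  let K := FractionRing O
  have hKz : (algebraMap O K a / algebraMap O K b) ^ n = algebraMap O K u := by
    rw [div_pow, div_eq_iff (pow_ne_zero _ (by simpa using hb)), ← map_pow, ← map_pow, ← map_mul, h]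
  obtain ⟨w, hw⟩ := IsIntegrallyClosed.exists_algebraMap_eq_of_isIntegral_pow (R := O) (K := K)
    (Nat.pos_of_ne_zero hn0) (x := algebraMap O K a / algebraMap O K b)
    (hKz ▸ isIntegral_algebraMap)
  exact ⟨w, IsFractionRing.injective O K (by rw [map_pow, hw, hKz])⟩

/-- If `q ^ (n A) f = U q ^ e b ^ n` and `f` has an `n`-th root over a field with leading
coefficient in the fraction field of `O`, then `n ∣ e` and the constant term of `U` is an
`n`-th power in `O`. -/
lemma dvd_and_exists_pow_eq_constantCoeff {n : ℕ} (hn0 : n ≠ 0) {F : Type*} [Field F]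
    {φ : O →+* F} (hφ : Function.Injective φ) {f : LaurentSeries O} (hfne : f ≠ 0)
    {A e : ℕ} {U : O⟦X⟧ˣ} {b : O⟦X⟧} (hbne : b ≠ 0)
    (hf0' : HahnSeries.single ((n * A : ℕ) : ℤ) 1 * f =
      ((U : O⟦X⟧) : LaurentSeries O) * HahnSeries.single (e : ℤ) 1 * (b : LaurentSeries O) ^ n)
    {g : LaurentSeries F} (hg : g ^ n = coeffMap φ f)
    (hlead : ∃ a b : O, b ≠ 0 ∧ φ b * g.leadingCoeff = φ a) :
    (n : ℤ) ∣ (e : ℤ) ∧ ∃ w : O, w ^ n = constantCoeff (U : O⟦X⟧) := by
  have hinj : Function.Injective (HahnSeries.ofPowerSeries ℤ O) :=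
    HahnSeries.ofPowerSeries_injective
  have hφs : ∀ (i : ℤ), coeffMap φ (HahnSeries.single i (1 : O)) = HahnSeries.single i 1 :=
    fun i => by simp
  have hU0 : φ (constantCoeff (U : O⟦X⟧)) ≠ 0 := fun h => by
    have := (PowerSeries.isUnit_constantCoeff _ U.isUnit)
    exact (this.map φ).ne_zero h
  set UF : LaurentSeries F := coeffMap φ ((U : O⟦X⟧) : LaurentSeries O) with hUF
  set bF : LaurentSeries F := coeffMap φ (b : LaurentSeries O) with hbF
  have hUF0 : UF.coeff 0 = φ (constantCoeff (U : O⟦X⟧)) := by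
    rw [hUF, coeffMap_coeff, show ((0 : ℤ)) = ((0 : ℕ) : ℤ) from rfl,
      LaurentSeries.coeff_coe_powerSeries, coeff_zero_eq_constantCoeff]
  have hUne : UF ≠ 0 := fun h => hU0 (by rw [← hUF0, h]; simp)
  have hUord : UF.order = 0 := by
    refine le_antisymm (HahnSeries.order_le_of_coeff_ne_zero (by rw [hUF0]; exact hU0)) ?_
    by_contra hlt
    push Not at hlt
    have := HahnSeries.coeff_order_eq_zero.not.mpr hUne
    apply this
    rw [hUF, coeffMap_coeff]
    rw [ofPowerSeries_coeff_of_neg _ hlt, map_zero]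
  have hbFne : bF ≠ 0 := fun h => hbne (hinj (by
    rw [map_zero]; exact coeffMap_injective_of_injective hφ (h.trans (map_zero _).symm)))
  have hgeq : HahnSeries.single ((n * A : ℕ) : ℤ) 1 * g ^ n = UF * HahnSeries.single (e : ℤ) 1 * bF ^ n := by
    rw [hg, ← hφs, ← map_mul, hf0', map_mul, map_mul, map_pow, hφs]
  have hgne : g ≠ 0 := fun h => hfne (by
    exact coeffMap_injective_of_injective hφ (by rw [← hg, h, zero_pow hn0, map_zero]))
  have hsne : ∀ i : ℤ, (HahnSeries.single i (1 : F)) ≠ 0 := fun i => by simp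
  have hord := congrArg HahnSeries.order hgeq
  rw [HahnSeries.order_mul (hsne _) (pow_ne_zero _ hgne), HahnSeries.order_mul
    (mul_ne_zero hUne (hsne _)) (pow_ne_zero _ hbFne), HahnSeries.order_mul hUne (hsne _),
    HahnSeries.order_pow, HahnSeries.order_pow, HahnSeries.order_single one_ne_zero,
    HahnSeries.order_single one_ne_zero, hUord] at hord
  simp only [nsmul_eq_mul, Nat.cast_mul] at hord
  refine ⟨⟨(A : ℤ) + g.order - bF.order, by linarith⟩, ?_⟩
  have hlc := congrArg HahnSeries.leadingCoeff hgeq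
  have hpowlc : ∀ (z : LaurentSeries F) (m : ℕ), (z ^ m).leadingCoeff = z.leadingCoeff ^ m :=
    fun z m => by
      induction m with
      | zero => simp
      | succ m IH => rw [pow_succ, HahnSeries.leadingCoeff_mul, IH, pow_succ]
  simp only [HahnSeries.leadingCoeff_mul, hpowlc, HahnSeries.leadingCoeff_of_single, one_mul,
    mul_one] at hlc
  have hUlc : UF.leadingCoeff = φ (constantCoeff (U : O⟦X⟧)) := by
    rw [HahnSeries.leadingCoeff_eq, hUord, hUF0]
  rw [hUlc] at hlc
  obtain ⟨a', b', hb', hab⟩ := hlead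
  -- a root of the constant term in `O`
  obtain ⟨beta, hbeta, hbeta0⟩ : ∃ beta : O, bF.leadingCoeff = φ beta ∧ beta ≠ 0 := by
    refine ⟨(b : LaurentSeries O).coeff bF.order, ?_, fun h => ?_⟩
    · rw [HahnSeries.leadingCoeff_eq, hbF, coeffMap_coeff]
    · apply HahnSeries.coeff_order_eq_zero.not.mpr hbFne
      rw [hbF, coeffMap_coeff]; rw [hbF] at h; rw [h, map_zero]
  have hconst : a' ^ n = constantCoeff (U : O⟦X⟧) * (b' * beta) ^ n := hφ (by
    rw [map_pow, ← hab, mul_pow, hlc, hbeta]; simp [mul_pow]; ring)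
  exact exists_pow_eq_of_pow_eq_mul_pow hn0 (mul_ne_zero hb' hbeta0) hconst

/-- If `q ^ (n A) f = U q ^ e b ^ n` with `n ∣ e` and the constant term of `U` an `n`-th power,
then `f` is an `n`-th power. -/
lemma exists_root_of_eq {n : ℕ} (hn0 : n ≠ 0) (hnu : IsUnit (n : O)) {f : LaurentSeries O}
    {A e : ℕ} {U : O⟦X⟧ˣ} {b : O⟦X⟧}
    (hf0' : HahnSeries.single ((n * A : ℕ) : ℤ) 1 * f =
      ((U : O⟦X⟧) : LaurentSeries O) * HahnSeries.single (e : ℤ) 1 * (b : LaurentSeries O) ^ n)
    (hdvd : (n : ℤ) ∣ (e : ℤ)) {w0 : O} (hw0 : w0 ^ n = constantCoeff (U : O⟦X⟧)) :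
    ∃ R0 : LaurentSeries O, R0 ^ n = f := by
  obtain ⟨d, hd⟩ := hdvd
  have hw0u : IsUnit w0 := (isUnit_pow_iff hn0).mp (hw0 ▸ PowerSeries.isUnit_constantCoeff _ U.isUnit)
  obtain ⟨W, hW, -⟩ := exists_pow_eq_of_constantCoeff_one n hnu
    (PowerSeries.C ((↑hw0u.unit⁻¹ : O) ^ n) * (U : O⟦X⟧)) (by
      rw [map_mul, constantCoeff_C, ← hw0, ← mul_pow, IsUnit.val_inv_mul, one_pow])
  let R0 : LaurentSeries O := HahnSeries.single (d - (A : ℤ)) 1 * ((PowerSeries.C w0 * W : O⟦X⟧) : LaurentSeries O) *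
    (b : LaurentSeries O)
  refine ⟨R0, ?_⟩
  have hCW : (PowerSeries.C w0 * W) ^ n = (U : O⟦X⟧) := by
    rw [mul_pow, hW, ← map_pow, ← mul_assoc, ← map_mul, ← mul_pow, IsUnit.mul_val_inv, one_pow,
      (PowerSeries.C : O →+* O⟦X⟧).map_one, one_mul]
  have hpow : R0 ^ n = HahnSeries.single ((n : ℤ) * (d - A)) 1 *
      ((U : O⟦X⟧) : LaurentSeries O) * (b : LaurentSeries O) ^ n := by
    simp only [R0, mul_pow, ← map_pow, hCW]
    rw [HahnSeries.single_pow, one_pow, nsmul_eq_mul]
  have hs1 : HahnSeries.single ((n * A : ℕ) : ℤ) (1 : O) * HahnSeries.single ((n : ℤ) * (d - A)) 1 =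
      HahnSeries.single (e : ℤ) 1 := by
    rw [HahnSeries.single_mul_single, one_mul, hd]
    congr 2
    push_cast
    ring
  apply mul_left_cancel₀ (a := HahnSeries.single ((n * A : ℕ) : ℤ) (1 : O))
    (by simp [HahnSeries.single_eq_zero_iff])
  rw [hf0', hpow, ← mul_assoc, ← mul_assoc, hs1]
  ring

omit [IsDomain O] [IsDiscreteValuationRing O] in
/-- When `n` is a unit, a primitive `n`-th root of unity stays primitive in the residue field. -/
lemma isPrimitiveRoot_residue [IsDomain O] [IsLocalRing O] {n : ℕ} (hn0 : n ≠ 0)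
    (hnu : IsUnit (n : O)) {ζ : O} (hζ : IsPrimitiveRoot ζ n) :
    IsPrimitiveRoot (IsLocalRing.residue O ζ) n := by
  refine IsPrimitiveRoot.mk_of_lt _ (Nat.pos_of_ne_zero hn0)
    (by rw [← map_pow, hζ.pow_eq_one, map_one]) ?_
  intro l hl hln h
  -- `n` would vanish in the residue field
  have hgeo : (∑ i ∈ Finset.range n, (ζ ^ l) ^ i) = 0 := by
    refine (mul_eq_zero.mp (?_ : (ζ ^ l - 1) * _ = 0)).resolve_left
      (sub_ne_zero.mpr (hζ.pow_ne_one_of_pos_of_lt hl.ne' hln))
    rw [mul_geom_sum, ← pow_mul, mul_comm, pow_mul, hζ.pow_eq_one, one_pow, sub_self]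
  have := congrArg (IsLocalRing.residue O) hgeo
  simp only [map_sum, map_pow, map_zero] at this
  rw [h] at this
  simp only [one_pow, Finset.sum_const, Finset.card_range, nsmul_eq_mul, mul_one] at this
  rw [← map_natCast (IsLocalRing.residue O)] at this
  exact IsLocalRing.residue_ne_zero_iff_isUnit _ |>.mpr hnu this

/-- **Roots in `O((q))`**: a series which is locally a unit times an `n`-th power, with reduction a
nonzero `n`-th power `hbar ^ n`, has an `n`-th root reducing to `hbar` if it has one over a field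
containing `O` whose leading coefficient lies in the fraction field of `O`. -/
theorem exists_root_of_certificate {n : ℕ} (hnu : IsUnit (n : O)) {ζ : O}
    (hζ : IsPrimitiveRoot ζ n)
    {F : Type*} [Field F] {φ : O →+* F} (hφ : Function.Injective φ)
    {ι : Type*} [Fintype ι] (f : LaurentSeries O) (s s' x c : ι → LaurentSeries O)
    (hsum : ∑ i, c i * (s i * s' i) = 1) (hloc : ∀ i, s i * f = s' i * x i ^ n)
    (hbar : LaurentSeries k) (hfbar : coeffMap (IsLocalRing.residue O) f = hbar ^ n)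
    (hne : hbar ≠ 0) (g : LaurentSeries F) (hg : g ^ n = coeffMap φ f)
    (hlead : ∃ a b : O, b ≠ 0 ∧ φ b * g.leadingCoeff = φ a) :
    ∃ r : LaurentSeries O, r ^ n = f ∧ coeffMap (IsLocalRing.residue O) r = hbar := by
  set red := coeffMap (IsLocalRing.residue O) with hred
  have hn0 : n ≠ 0 := by
    rintro rfl
    exact not_isUnit_zero (Nat.cast_zero (R := O) ▸ hnu)
  have : NeZero n := ⟨hn0⟩
  have hfne : f ≠ 0 := fun h => hne (pow_eq_zero_iff hn0 |>.mp (by rw [← hfbar, h, map_zero]))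
  obtain ⟨A, U, e, b, hbne, heq⟩ :=
    exists_eq_unit_mul_single_mul_pow hn0 f hfne s s' x c hsum hloc
  obtain ⟨hdvd, w0, hw0⟩ := dvd_and_exists_pow_eq_constantCoeff hn0 hφ hfne hbne heq hg hlead
  obtain ⟨R0, hR0⟩ := exists_root_of_eq hn0 hnu heq hdvd hw0
  -- adjust by a root of unity
  have hredne : red R0 ≠ 0 := fun h => hne (pow_eq_zero_iff hn0 |>.mp (by
    rw [← hfbar, ← hR0, map_pow, h, zero_pow hn0]))
  have hζbar := isPrimitiveRoot_residue hn0 hnu hζ
  have hquot : (hbar / red R0) ^ n = 1 := by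
    rw [div_pow, ← map_pow, hR0, hfbar, div_self (pow_ne_zero _ hne)]
  obtain ⟨l, -, hl⟩ := (hζbar.map_of_injective
    (HahnSeries.C_injective (Γ := ℤ) (R := k))).eq_pow_of_pow_eq_one hquot
  refine ⟨HahnSeries.C (ζ ^ l) * R0, ?_, ?_⟩
  · rw [mul_pow, ← map_pow, ← pow_mul, mul_comm l, pow_mul, hζ.pow_eq_one, one_pow, map_one, one_mul,
      hR0]
  · rw [map_mul, show red (HahnSeries.C (ζ ^ l)) = HahnSeries.C (IsLocalRing.residue O ζ) ^ l by
      rw [← map_pow, ← map_pow, hred, HahnSeries.C_apply, coeffMap_single]; rfl,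
      hl, div_mul_cancel₀ _ hredne]

end LaurentRoot

end Fermat.Agent.KummerES

end
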