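import Fermat.Agent.KummerES.LevelRing

/-!
# Consequences of the free action of level `L` over level `M`

Galois coordinates inside the generated subring, generation of the level `L` ring, and the
completion lemma.
-/

set_option autoImplicit false

noncomputable section

open UpperHalfPlane CongruenceSubgroup
open scoped MatrixGroups Manifold

namespace Fermat.Agent.KummerES

variable {M L : ℕ} [NeZero L] {B : Subring ℂ}

/-- The parameters of a level `L` structure over level `M`. -/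
structure LevelHyp (M L : ℕ) [NeZero L] (B : Subring ℂ) where
  D : RatioData L
  T : BaseData M L
  le : zetaRing L ≤ B
  two_le : 2 ≤ M
  dvd : M ∣ L

namespace LevelHyp

variable (H : LevelHyp M L B)

/-- The functions generating the level `L` ring. -/
def gens (H : LevelHyp M L B) : Set (ℍ → ℂ) :=
  {f | (∃ c ∈ B, f = fun _ => c) ∨ (∃ v w a b, IsPair v w ∧ IsPair a b ∧ f = H.D.ratio v w a b) ∨
    f = H.T.t ∨ ∃ c ∈ H.T.bad, f ∈ weak (Gamma M) L (zetaRing L) ∧ (H.T.t - fun _ => c) * f = 1}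

/-- The subring generated by `gens`. -/
def genRing (H : LevelHyp M L B) : Subring (ℍ → ℂ) := Subring.closure H.gens

/-- The generators are functions of level `L`. -/
lemma gens_subset : H.gens ⊆ weak (Gamma L) L B := by
  rintro f (⟨c, hc, rfl⟩ | ⟨v, w, a, b, hvw, hab, rfl⟩ | rfl | ⟨c, -, hf, -⟩)
  · exact const_mem_weak hc
  · exact weak_mono le_rfl H.le (H.D.mem_weak hvw hab)
  · exact weak_mono (Gamma_le_of_dvd H.dvd) H.le H.T.t_mem
  · exact weak_mono (Gamma_le_of_dvd H.dvd) H.le hf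

lemma genRing_le : H.genRing ≤ weak (Gamma L) L B := Subring.closure_le.mpr H.gens_subset

lemma const_mem_genRing {c : ℂ} (hc : c ∈ B) : (fun _ => c) ∈ H.genRing :=
  Subring.subset_closure (Or.inl ⟨c, hc, rfl⟩)

lemma ratio_mem_genRing {v w a b : Ind L} (hvw : IsPair v w) (hab : IsPair a b) :
    H.D.ratio v w a b ∈ H.genRing :=
  Subring.subset_closure (Or.inr (Or.inl ⟨v, w, a, b, hvw, hab, rfl⟩))

omit [NeZero L] in
/-- `vAct` by a matrix is injective. -/
lemma vAct_injective (γ : SL(2, ℤ)) : Function.Injective fun v : Ind L => vAct v γ := fun v w h => by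
  have h1 := congrArg (fun u => vAct u γ⁻¹) h
  simp only [vAct_vAct, mul_inv_cancel] at h1
  simpa [vAct] using h1

omit [NeZero L] in
/-- `vAct` commutes with negation. -/
lemma vAct_neg (v : Ind L) (γ : SL(2, ℤ)) : vAct (-v) γ = -vAct v γ := Matrix.neg_vecMul v _

omit [NeZero L] in
/-- `vAct` preserves pairs. -/
lemma isPair_vAct {v w : Ind L} (h : IsPair v w) (γ : SL(2, ℤ)) : IsPair (vAct v γ) (vAct w γ) := by
  have h0 : vAct (0 : Ind L) γ = 0 := Matrix.zero_vecMul _
  refine ⟨fun e => h.left_ne_zero (vAct_injective γ (e.trans h0.symm)),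
    fun e => h.right_ne_zero (vAct_injective γ (e.trans h0.symm)),
    fun e => h.ne (vAct_injective γ e), fun e => h.ne_neg (vAct_injective γ ?_)⟩
  show vAct v γ = vAct (-w) γ
  rw [e]; exact (vAct_neg w γ).symm

lemma comp_mem_genRing {f : ℍ → ℂ} (hf : f ∈ H.genRing) {γ : SL(2, ℤ)} (hγ : γ ∈ Gamma M) :
    comp f γ ∈ H.genRing := by
  induction hf using Subring.closure_induction with
  | mem f hf =>
    rcases hf with ⟨c, hc, rfl⟩ | ⟨v, w, a, b, hvw, hab, rfl⟩ | rfl | ⟨c, hc, hf, hf'⟩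
    · exact H.const_mem_genRing hc
    · rw [H.D.comp_eq γ hvw hab]
      exact H.ratio_mem_genRing (isPair_vAct hvw γ) (isPair_vAct hab γ)
    · rw [H.T.t_mem.2.1 γ hγ]; exact Subring.subset_closure (Or.inr (Or.inr (Or.inl rfl)))
    · rw [hf.2.1 γ hγ]
      exact Subring.subset_closure (Or.inr (Or.inr (Or.inr ⟨c, hc, hf, hf'⟩)))
  | zero => exact zero_mem _
  | one => exact one_mem _
  | add f g _ _ hf hg => exact add_mem hf hg
  | neg f _ hf => exact neg_mem hf
  | mul f g _ _ hf hg => exact mul_mem hf hg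

omit [NeZero L] in
/-- `-1` acts trivially. -/
lemma comp_eq_of_neg_mem {Γ : Subgroup SL(2, ℤ)} {f : ℍ → ℂ} (hf : ∀ γ ∈ Γ, comp f γ = f)
    {γ : SL(2, ℤ)} (hγ : γ ∈ Γ ∨ -γ ∈ Γ) : comp f γ = f := by
  rcases hγ with h | h
  · exact hf γ h
  · conv_rhs => rw [← hf _ h]
    funext τ
    simp only [comp_apply, ModularGroup.SL_neg_smul]

lemma exists_separation {γ : SL(2, ℤ)} (hγ : γ ∈ Gamma M) :
    (∀ f ∈ weak (Gamma L) L B, comp f γ = f) ∨
      ∃ a ∈ H.genRing, ∃ b ∈ H.genRing, b * (a - comp a γ) = 1 := by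
  by_cases hall : ∀ v : Ind L, v ≠ 0 → vAct v γ = v ∨ vAct v γ = -v
  · exact Or.inl fun f hf => comp_eq_of_neg_mem hf.2.1 (mem_or_neg_mem_Gamma hall)
  right
  push Not at hall
  obtain ⟨v, hv0, hv1, hv2⟩ := hall
  set a₀ := (RatioData.base (L := L) M).1
  set b₀ := (RatioData.base (L := L) M).2
  have hab : IsPair a₀ b₀ := isPair_base H.two_le H.dvd
  have ha : vAct a₀ γ = a₀ := vAct_torsionVec H.dvd hγ _
  have hb : vAct b₀ γ = b₀ := vAct_torsionVec H.dvd hγ _
  have hva : v ≠ a₀ := fun h => hv1 (h ▸ ha)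
  have hva' : v ≠ -a₀ := fun h => hv1 (by rw [h, vAct_neg, ha])
  have p1 : IsPair v a₀ := ⟨hv0, hab.left_ne_zero, hva, hva'⟩
  have hγv0 : vAct v γ ≠ 0 := fun h =>
    hv0 (vAct_injective γ (h.trans (Matrix.zero_vecMul _).symm))
  have p2 : IsPair v (vAct v γ) :=
    ⟨hv0, hγv0, fun h => hv1 h.symm, fun h => hv2 (neg_eq_iff_eq_neg.mp h.symm)⟩
  have p3 : IsPair (vAct v γ) a₀ := by simpa [ha] using isPair_vAct p1 γ
  refine ⟨H.D.ratio v a₀ a₀ b₀, H.ratio_mem_genRing p1 hab,
    H.D.ratio a₀ b₀ v (vAct v γ), H.ratio_mem_genRing hab p2, ?_⟩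
  rw [H.D.comp_eq γ p1 hab, ha, hb, ← H.D.add_eq p2 p3 p1 hab, add_sub_cancel_right,
    H.D.trans hab p2 hab, H.D.ratio_self hab]

/-- The level group of `H`. -/
abbrev G (_H : LevelHyp M L B) : Type := levelGroup L B M

/-- Galois coordinates with entries in the generated ring. -/
lemma exists_coords : ∃ (ι : Type) (_ : Fintype ι) (C : GaloisCoords H.G ι (LRing L B)),
    ∀ i, (C.x i).1 ∈ H.genRing ∧ (C.y i).1 ∈ H.genRing := by
  refine exists_galoisCoords_mem (A := LRing L B) H.G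
    (H.genRing.comap (weak (Gamma L) L B).subtype) (fun g f hf => ?_) fun g hg => ?_
  · obtain ⟨γ, hγ, hg⟩ := exists_rep L B M g
    show (g • f).1 ∈ H.genRing
    rw [hg]; exact H.comp_mem_genRing hf hγ
  · obtain ⟨γ, hγ, hgf⟩ := exists_rep L B M g
    rcases H.exists_separation hγ with h | ⟨a, ha, b, hb, hab⟩
    · refine absurd ?_ hg
      exact Subtype.ext (RingEquiv.ext fun f => Subtype.ext ((hgf f).trans (h f.1 f.2)))
    · refine ⟨⟨a, H.genRing_le ha⟩, ha, ⟨b, H.genRing_le hb⟩, hb, Subtype.ext ?_⟩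
      show b * (a - (g • (⟨a, H.genRing_le ha⟩ : LRing L B)).1) = 1
      rw [hgf]; exact hab

/-- The trace to level `M`. -/
def trace [Fintype (levelGroup L B M)] (f : LRing L B) : LRing L B :=
  ∑ g : levelGroup L B M, g • f

omit [NeZero L] in
/-- The trace lands in level `M`. -/
lemma trace_mem [Fintype (levelGroup L B M)] (f : LRing L B) :
    (trace (M := M) f).1 ∈ weak (Gamma M) L B :=
  mem_level_of_fixed _ fun h => by
    rw [trace, Finset.smul_sum]
    exact Fintype.sum_equiv (Equiv.mulLeft h) _ _ fun g => by simp [smul_smul]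

lemma inv_bad_mem_genRing {c : ℂ} (hc : c ∈ H.T.bad) :
    ∃ u ∈ H.genRing, (H.T.t - fun _ => c) * u = 1 := by
  obtain ⟨u, hu, hu'⟩ := H.T.inv_mem c hc
  exact ⟨u, Subring.subset_closure (Or.inr (Or.inr (Or.inr ⟨c, hc, hu, hu'⟩))), hu'⟩

/-- Level `M` functions lie in the generated ring. -/
lemma level_mem_genRing {a : ℍ → ℂ} (ha : a ∈ weak (Gamma M) L B) : a ∈ H.genRing := by
  classical
  obtain ⟨n, P, hP⟩ := H.T.generated B H.le a ha
  choose! u hu hu' using fun c (hc : c ∈ H.T.bad) => H.inv_bad_mem_genRing hc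
  have ht : H.T.t ∈ H.genRing := Subring.subset_closure (Or.inr (Or.inr (Or.inl rfl)))
  have hPt : (fun τ => P.eval₂ B.subtype (H.T.t τ)) ∈ H.genRing := by
    clear hP
    induction P using Polynomial.induction_on' with
    | add p q hp hq =>
      simp only [Polynomial.eval₂_add]
      exact add_mem hp hq
    | monomial k c =>
      simp only [Polynomial.eval₂_monomial]
      exact mul_mem (H.const_mem_genRing c.2) (pow_mem ht k)
  have : a = (fun τ => P.eval₂ B.subtype (H.T.t τ)) * (∏ c ∈ H.T.bad, u c) ^ n := by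
    funext τ
    have h1 : ∏ c ∈ H.T.bad, ((H.T.t τ - c) * u c τ) = 1 :=
      Finset.prod_eq_one fun c hc => congrFun (hu' c hc) τ
    rw [Finset.prod_mul_distrib] at h1
    simp only [Pi.mul_apply, Pi.pow_apply, Finset.prod_apply, ← hP τ]
    rw [mul_assoc, ← mul_pow, h1, one_pow, mul_one]
  rw [this]
  exact mul_mem hPt (pow_mem (prod_mem fun c hc => hu c hc) n)

/-- The level `L` ring is generated by `gens`. -/
theorem genRing_eq : H.genRing = weak (Gamma L) L B := by
  refine le_antisymm H.genRing_le fun f hf => ?_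
  obtain ⟨ι, _, C, hC⟩ := H.exists_coords
  let := Fintype.ofFinite (levelGroup L B M)
  have := congrArg Subtype.val (C.eq_sum ⟨f, hf⟩)
  rw [show f = _ from this, AddSubmonoidClass.coe_finsetSum]
  refine sum_mem fun i _ => ?_
  rw [Subring.coe_mul]
  exact mul_mem (hC i).1 (H.level_mem_genRing (trace_mem _))

/-- Congruence of Laurent series modulo `π ^ r`. -/
def Cong (B : Subring ℂ) (π : ℂ) (r : ℕ) (s t : LaurentSeries ℂ) : Prop :=
  ∃ u ∈ coeffSubring B, s - t = HahnSeries.single 0 (π ^ r) * u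

/-- `π` is separated in `B`. -/
def IsSeparated (B : Subring ℂ) (π : ℂ) : Prop :=
  ∀ x ∈ B, (∀ r : ℕ, ∃ y ∈ B, x = π ^ r * y) → x = 0

omit [NeZero L] in
lemma eq_of_forall_cong {π : ℂ} (hπ : IsSeparated B π) {s t : LaurentSeries ℂ}
    (hs : s ∈ coeffSubring B) (ht : t ∈ coeffSubring B) (h : ∀ r, Cong B π r s t) : s = t := by
  refine sub_eq_zero.mp (HahnSeries.ext (funext fun i => ?_))
  refine hπ _ (sub_mem hs ht i) fun r => ?_
  obtain ⟨u, hu, hst⟩ := h r
  exact ⟨_, hu i, by rw [hst, HahnSeries.coeff_single_zero_mul]⟩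

/-- Traces of congruent families are congruent. -/
lemma cong_trace [Fintype (levelGroup L B M)] {π : ℂ} {r : ℕ} {γ : levelGroup L B M → SL(2, ℤ)}
    (hγ : ∀ g (f : LRing L B), (g • f).1 = comp f.1 (γ g)) {s : SL(2, ℤ) → LaurentSeries ℂ}
    (y a : LRing L B) (ha : ∀ δ, Cong B π r (s δ) (expAt (Gamma L) L B δ a)) (δ : SL(2, ℤ)) :
    Cong B π r (∑ g : levelGroup L B M, expAt (Gamma L) L B δ (g • y) * s (γ g * δ))
      (expAt (Gamma L) L B δ (trace (M := M) (y * a))) := by
  have e : ∀ g : levelGroup L B M,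
      expAt (Gamma L) L B δ (g • a) = expAt (Gamma L) L B (γ g * δ) a := fun g => by
    rw [expAt_apply, expAt_apply, hγ, comp_comp]
  choose u hu hu' using fun g => ha (γ g * δ)
  refine ⟨∑ g : levelGroup L B M, expAt (Gamma L) L B δ (g • y) * u g,
    sum_mem fun g _ => mul_mem (expansion_mem (g • y).2 δ) (hu g), ?_⟩
  rw [trace, map_sum, ← Finset.sum_sub_distrib, Finset.mul_sum]
  refine Finset.sum_congr rfl fun g _ => ?_
  rw [smul_mul', map_mul, e, ← mul_sub, hu', mul_left_comm]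

include H in
/-- **Completion lemma**: a family of series approximated modulo every power of `π` by expansions
of level `L` functions is the family of expansions of one function. -/
theorem complete {π : ℂ} (hπB : π ∈ B) (hπ : IsSeparated B π)
    (s : SL(2, ℤ) → LaurentSeries ℂ) (hs : ∀ δ, s δ ∈ coeffSubring B)
    (happ : ∀ r : ℕ, ∃ a ∈ weak (Gamma L) L B, ∀ δ, Cong B π r (s δ) (expansion L (comp a δ))) :
    ∃ a ∈ weak (Gamma L) L B, ∀ δ, expansion L (comp a δ) = s δ := by
  classical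
  obtain ⟨ι, _, C, -⟩ := H.exists_coords
  have _inst : Fintype (levelGroup L B M) := Fintype.ofFinite _
  choose γ hγ hγf using exists_rep L B M
  have hC : ∀ i, ∃ c : LRing L B, ∀ δ, expAt (Gamma L) L B δ c =
      ∑ g : levelGroup L B M, expAt (Gamma L) L B δ (g • C.y i) * s (γ g * δ) := fun i => by
    obtain ⟨c, hc, hc'⟩ := H.T.complete B H.le π hπB hπ
      (fun δ => ∑ g : levelGroup L B M, expAt (Gamma L) L B δ (g • C.y i) * s (γ g * δ))
      (fun δ => sum_mem fun g _ => mul_mem (expansion_mem (g • C.y i).2 δ) (hs _)) (fun r => by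
        obtain ⟨a, ha, ha'⟩ := happ r
        refine ⟨(trace (M := M) (C.y i * (⟨a, ha⟩ : LRing L B))).1, trace_mem _, fun δ => ?_⟩
        obtain ⟨u, hu, hu'⟩ := cong_trace hγf (C.y i) (⟨a, ha⟩ : LRing L B) (π := π) (r := r)
          (s := s) (fun δ' => ha' δ') δ
        rw [expAt_apply] at hu'
        exact ⟨u, hu, hu'⟩)
    exact ⟨⟨c, weak_mono (Gamma_le_of_dvd H.dvd) le_rfl hc⟩, hc'⟩
  choose c hc' using hC
  refine ⟨(∑ i, C.x i * c i).1, (∑ i, C.x i * c i).2, fun δ => ?_⟩
  rw [← expAt_apply]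
  refine eq_of_forall_cong hπ (expansion_mem (∑ i, C.x i * c i).2 δ) (hs δ) fun r => ?_
  obtain ⟨a, ha, ha'⟩ := happ r
  choose u hu hu' using fun i => cong_trace hγf (C.y i) ⟨a, ha⟩ ha' δ
  obtain ⟨w, hw, hw'⟩ := ha' δ
  refine ⟨∑ i, expAt (Gamma L) L B δ (C.x i) * u i - w,
    sub_mem (sum_mem fun i _ => mul_mem (expansion_mem (C.x i).2 δ) (hu i)) hw, ?_⟩
  set φ := expAt (Gamma L) L B δ with hφ
  rw [← expAt_apply δ (⟨a, ha⟩ : LRing L B), ← hφ] at hw'
  have he : φ ⟨a, ha⟩ = ∑ i, φ (C.x i) * φ (trace (M := M) (C.y i * ⟨a, ha⟩)) :=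
    (congrArg φ (C.eq_sum ⟨a, ha⟩)).trans (by rw [map_sum]; simp only [map_mul, trace])
  rw [map_sum, mul_sub, Finset.mul_sum, ← hw', he, ← sub_add, sub_add_eq_add_sub,
    sub_eq_sub_iff_add_eq_add, ← sub_eq_iff_eq_add']
  rw [show (∑ i, φ (C.x i * c i)) = ∑ i, (φ (C.x i) * φ (trace (M := M) (C.y i * ⟨a, ha⟩))
      + HahnSeries.single 0 (π ^ r) * (φ (C.x i) * u i)) from
    Finset.sum_congr rfl fun i _ => by
      rw [map_mul, hc']
      linear_combination (φ (C.x i)) * hu' i, Finset.sum_add_distrib]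
  ring

end LevelHyp

end Fermat.Agent.KummerES
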