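import Fermat.Agent.KummerES.ReductionHyp
import Fermat.Prelude.Def_ModularCurve_LaurentCoeff
import Mathlib.RingTheory.LaurentSeries
import Mathlib.RingTheory.Filtration

/-!
# Expansions with coefficients in `B`, and reduction modulo `π`

The expansions of the level `L` ring as Laurent series over `B`, their reductions, and the
separatedness of `π`.
-/

set_option autoImplicit false

noncomputable section

open UpperHalfPlane CongruenceSubgroup
open scoped MatrixGroups

namespace Fermat.Agent.KummerES

open LevelHyp (Cong IsSeparated)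
open ModularCurve (coeffMap)

variable {L n : ℕ} [NeZero L] {B : Subring ℂ} {π : ℂ}

/-- The series with coefficients in `B` underlying an element of `coeffSubring B`. -/
def liftCoeff (B : Subring ℂ) : coeffSubring B →+* LaurentSeries B :=
  let F : coeffSubring B → LaurentSeries B := fun s =>
    { coeff := fun i => ⟨(s : LaurentSeries ℂ).coeff i, s.2 i⟩
      isPWO_support' := (s : LaurentSeries ℂ).isPWO_support.mono fun i hi h0 => hi (Subtype.ext h0) }
  have hF : ∀ s, coeffMap B.subtype (F s) = s := fun s => HahnSeries.ext (funext fun i => rfl)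
  have hinj : Function.Injective (coeffMap B.subtype) := fun s t h =>
    HahnSeries.ext (funext fun i => Subtype.ext (congrArg (fun z => z.coeff i) h :))
  { toFun := F
    map_one' := hinj (by rw [hF, map_one]; rfl)
    map_zero' := hinj (by rw [hF, map_zero]; rfl)
    map_add' := fun s t => hinj (by rw [hF, map_add, hF, hF]; rfl)
    map_mul' := fun s t => hinj (by rw [hF, map_mul, hF, hF]; rfl) }

@[simp] lemma coe_liftCoeff_coeff (s : coeffSubring B) (i : ℤ) :
    (((liftCoeff B s).coeff i : B) : ℂ) = (s : LaurentSeries ℂ).coeff i := rfl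

/-- Lifting the coefficients and mapping back is the identity. -/
lemma coeffMap_liftCoeff (s : coeffSubring B) : coeffMap B.subtype (liftCoeff B s) = s :=
  HahnSeries.ext (funext fun _ => rfl)

/-- The expansion at `δ ∞` as a series with coefficients in `B`. -/
def expB (L : ℕ) [NeZero L] (B : Subring ℂ) (δ : SL(2, ℤ)) : LRing L B →+* LaurentSeries B :=
  (liftCoeff B).comp ((expAt (Gamma L) L B δ).codRestrict (coeffSubring B) fun f => expansion_mem f.2 δ)

/-- `expB` lifts `expAt`. -/
lemma coeffMap_expB (δ : SL(2, ℤ)) (f : LRing L B) :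
    coeffMap B.subtype (expB L B δ f) = expAt (Gamma L) L B δ f :=
  HahnSeries.ext (funext fun _ => rfl)

/-- `expB` of a constant. -/
lemma expB_constL (c : ℂ) (hc : c ∈ B) (δ : SL(2, ℤ)) :
    expB L B δ (constL c hc) = HahnSeries.C (⟨c, hc⟩ : B) := by
  refine HahnSeries.ext (funext fun i => Subtype.ext ?_)
  show (expAt (Gamma L) L B δ (constL c hc)).coeff i = _
  rw [expAt_constL, HahnSeries.C_apply]
  rcases eq_or_ne i 0 with rfl | hi <;> simp [*]

/-- Congruence modulo `π ^ r` is divisibility of the lifted series. -/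
lemma cong_iff_dvd (hπ : π ∈ B) (r : ℕ) (s t : LaurentSeries B) :
    Cong B π r (coeffMap B.subtype s) (coeffMap B.subtype t) ↔
      HahnSeries.C (⟨π, hπ⟩ : B) ^ r ∣ s - t := by
  have hsingle : coeffMap B.subtype (HahnSeries.C (⟨π, hπ⟩ : B) ^ r) =
      HahnSeries.single 0 (π ^ r) := by
    rw [← map_pow, HahnSeries.C_apply]
    refine HahnSeries.ext (funext fun i => ?_)
    rcases eq_or_ne i 0 with rfl | hi <;> simp [*]
  constructor
  · rintro ⟨u, hu, h⟩
    refine ⟨liftCoeff B ⟨u, hu⟩, HahnSeries.ext (funext fun i => Subtype.ext ?_)⟩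
    have h' := congrArg (fun z => HahnSeries.coeff z i) h
    simp only [← map_pow, HahnSeries.C_mul_eq_smul, HahnSeries.coeff_sub,
      HahnSeries.coeff_single_zero_mul, HahnSeries.coeff_smul] at h' ⊢
    simpa using h'
  · rintro ⟨u, hu⟩
    refine ⟨coeffMap B.subtype u, fun i => (u.coeff i).2, ?_⟩
    rw [← map_sub, hu, map_mul, hsingle]

/-- `kerAt` is divisibility of the lifted expansion by `π`. -/
lemma kerAt_iff_dvd (hπ : π ∈ B) (δ : SL(2, ℤ)) (f : LRing L B) :
    kerAt B π δ f ↔ HahnSeries.C (⟨π, hπ⟩ : B) ∣ expB L B δ f := by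
  have h := cong_iff_dvd hπ 1 (expB L B δ f) 0
  rw [map_zero, coeffMap_expB, pow_one, sub_zero] at h
  exact h

namespace CoeffHyp

variable (hB : CoeffHyp B π n)
include hB

/-- The uniformiser is non-zero. -/
lemma pi_ne_zero : π ≠ 0 := fun h => hB.irred.ne_zero (Subtype.ext h)

/-- `π` is separated in `B`. -/
lemma isSeparated : IsSeparated B π := by
  have := hB.dvr
  intro x hx h
  have hmem : (⟨x, hx⟩ : B) ∈ ⨅ r : ℕ, Ideal.span {(⟨π, hB.mem⟩ : B)} ^ r := by
    refine Submodule.mem_iInf _ |>.mpr fun r => ?_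
    obtain ⟨y, hy, hxy⟩ := h r
    rw [Ideal.span_singleton_pow]
    exact Ideal.mem_span_singleton'.mpr ⟨⟨y, hy⟩, Subtype.ext (by simp [hxy, mul_comm])⟩
  rw [Ideal.iInf_pow_eq_bot_of_isLocalRing] at hmem
  · exact congrArg Subtype.val (Ideal.mem_bot.mp hmem)
  · exact fun htop => hB.irred.not_isUnit (Ideal.span_singleton_eq_top.mp htop)

/-- `π` generates a prime ideal of the series over `B`. -/
lemma prime_C : Prime (HahnSeries.C (⟨π, hB.mem⟩ : B) : LaurentSeries B) := by
  have := hB.dvr
  have : (Ideal.span {(⟨π, hB.mem⟩ : B)}).IsPrime :=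
    (Ideal.span_singleton_prime hB.irred.ne_zero).mpr hB.irred.prime
  have hker : ∀ s : LaurentSeries B, HahnSeries.C (⟨π, hB.mem⟩ : B) ∣ s ↔
      coeffMap (Ideal.Quotient.mk (Ideal.span {(⟨π, hB.mem⟩ : B)})) s = 0 := by
    intro s
    constructor
    · rintro ⟨u, rfl⟩
      rw [map_mul, HahnSeries.C_apply, ModularCurve.coeffMap_single,
        Ideal.Quotient.eq_zero_iff_mem.mpr (Ideal.mem_span_singleton_self _)]
      simp
    · intro hs
      have hd : ∀ i, ∃ c, s.coeff i = ⟨π, hB.mem⟩ * c ∧ (s.coeff i = 0 → c = 0) := by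
        intro i
        have hi := congrArg (fun z => HahnSeries.coeff z i) hs
        simp only [ModularCurve.coeffMap_coeff, HahnSeries.coeff_zero,
          Ideal.Quotient.eq_zero_iff_mem, Ideal.mem_span_singleton] at hi
        obtain ⟨c, hc⟩ := hi
        exact ⟨c, hc, fun h0 => (mul_eq_zero.mp (hc.symm.trans h0)).resolve_left hB.irred.ne_zero⟩
      choose c hc hc0 using hd
      refine ⟨⟨c, s.isPWO_support.mono fun i hi h0 => hi (hc0 i h0)⟩, ?_⟩
      ext i
      rw [HahnSeries.C_mul_eq_smul, HahnSeries.coeff_smul, smul_eq_mul, hc]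
  refine ⟨fun h => hB.irred.ne_zero (HahnSeries.C_injective (h.trans (map_zero _).symm)),
    fun hu => ?_, fun s t h => ?_⟩
  · have := (hker _).mp (isUnit_iff_dvd_one.mp hu)
    rw [map_one] at this
    exact one_ne_zero this
  · rw [hker, map_mul] at h
    rw [hker, hker]
    exact mul_eq_zero.mp h

end CoeffHyp

end Fermat.Agent.KummerES
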