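import Fermat.Agent.KummerES.ReductionSeries
import Fermat.Agent.KummerES.LocalSeries

/-!
# Roots of the expansions of locally `n`-th power functions

At every cusp, a function which is locally an `n`-th power and congruent to `h ^ n` modulo `π` has
an `n`-th root in `B((q))` congruent to the expansion of `h`.
-/

set_option autoImplicit false

noncomputable section

open UpperHalfPlane CongruenceSubgroup
open scoped MatrixGroups

namespace Fermat.Agent.KummerES

open ModularCurve (coeffMap)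

/-- Divisibility by a constant generating the maximal ideal is vanishing of the reduction. -/
lemma C_dvd_iff_residue_eq_zero {O : Type*} [CommRing O] [IsDomain O] [IsLocalRing O] {ϖ : O}
    (hϖ : IsLocalRing.maximalIdeal O = Ideal.span {ϖ}) (hϖ0 : ϖ ≠ 0) (s : LaurentSeries O) :
    HahnSeries.C ϖ ∣ s ↔ coeffMap (IsLocalRing.residue O) s = 0 := by
  have hmem : ∀ z : O, IsLocalRing.residue O z = 0 ↔ ϖ ∣ z := fun z => by
    rw [IsLocalRing.residue_eq_zero_iff, hϖ, Ideal.mem_span_singleton]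
  constructor
  · rintro ⟨u, rfl⟩
    rw [map_mul, HahnSeries.C_apply, ModularCurve.coeffMap_single, (hmem ϖ).mpr dvd_rfl]
    simp
  · intro hs
    have hd : ∀ i, ∃ c, s.coeff i = ϖ * c ∧ (s.coeff i = 0 → c = 0) := by
      intro i
      have hi := congrArg (fun z => HahnSeries.coeff z i) hs
      simp only [ModularCurve.coeffMap_coeff, HahnSeries.coeff_zero] at hi
      obtain ⟨c, hc⟩ := (hmem _).mp hi
      exact ⟨c, hc, fun h0 => (mul_eq_zero.mp (hc.symm.trans h0)).resolve_left hϖ0⟩
    choose c hc hc0 using hd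
    refine ⟨⟨c, s.isPWO_support.mono fun i hi h0 => hi (hc0 i h0)⟩, ?_⟩
    ext i
    rw [HahnSeries.C_mul_eq_smul, HahnSeries.coeff_smul, smul_eq_mul, hc]

variable {M L n : ℕ} [NeZero L] {B : Subring ℂ} {π : ℂ}

omit [NeZero L] in
/-- The products `s * s'` of a local power structure generate the unit ideal. -/
lemma exists_certificate [NeZero L] {f : LRing L B} (hloc : IsLocalPow n f) :
    ∃ (k : ℕ) (c s s' x : Fin k → LRing L B),
      ∑ i, c i * (s i * s' i) = 1 ∧ ∀ i, s i * f = s' i * x i ^ n := by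
  set S : Set (LRing L B) :=
    {z | ∃ s s' x : LRing L B, s * f = s' * x ^ n ∧ z = s * s'}
  have htop : Ideal.span S = ⊤ := by
    by_contra hne
    obtain ⟨m, hm, hle⟩ := Ideal.exists_le_maximal _ hne
    obtain ⟨s, hs, s', hs', x, hx⟩ := hloc m hm
    rcases hm.isPrime.mem_or_mem (hle (Ideal.subset_span ⟨s, s', x, hx, rfl⟩)) with h | h
    · exact hs h
    · exact hs' h
  obtain ⟨k, c, z, hz⟩ := Submodule.mem_span_set'.mp ((Ideal.eq_top_iff_one _).mp htop)
  choose s s' x hx hzs using fun i => (z i).2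
  refine ⟨k, c, s, s', x, ?_, hx⟩
  rw [← hz]
  exact Finset.sum_congr rfl fun i _ => by rw [smul_eq_mul, hzs]

/-- Roots of expansions of locally `n`-th power functions. -/
theorem exists_series_root (_H : LevelHyp M L B) (hB : CoeffHyp B π n)
    (hS : SpecialFibre L B π hB.mem) {f h : LRing L B} (hloc : IsLocalPow n f)
    (hfh : constL (L := L) π hB.mem ∣ f - h ^ n) (hh : ¬ constL (L := L) π hB.mem ∣ h)
    (δ : SL(2, ℤ))
    (hg : ∃ G : LaurentSeries ℂ, G ^ n = expAt (Gamma L) L B δ f ∧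
      ∃ a ∈ B, ∃ b ∈ B, b ≠ 0 ∧ b * G.leadingCoeff = a) :
    ∃ s : LaurentSeries B, s ^ n = expB L B δ f ∧
      HahnSeries.C (⟨π, hB.mem⟩ : B) ∣ s - expB L B δ h := by
  have := hB.dvr
  have hn : NeZero n := ⟨hB.ne_zero⟩
  have hmax : IsLocalRing.maximalIdeal B = Ideal.span {⟨π, hB.mem⟩} := hB.irred.maximalIdeal_eq
  have hdvd := C_dvd_iff_residue_eq_zero hmax hB.irred.ne_zero
  have hnu : IsUnit (n : B) := IsUnit.of_mul_eq_one ⟨(n : ℂ)⁻¹, hB.unit⟩
    (Subtype.ext (by simp [hB.ne_zero]))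
  have hζ : IsPrimitiveRoot (⟨zetaC n, hB.zeta⟩ : B) n :=
    IsPrimitiveRoot.of_map_of_injective (f := B.subtype) (isPrimitiveRoot_zetaC n)
      Subtype.val_injective
  obtain ⟨k, c, s, s', x, hsum, hx⟩ := exists_certificate hloc
  obtain ⟨G, hG, a, ha, b, hb, hb0, hab⟩ := hg
  have hfbar : coeffMap (IsLocalRing.residue B) (expB L B δ f)
      = coeffMap (IsLocalRing.residue B) (expB L B δ h) ^ n := by
    rw [← map_pow, ← map_pow, ← sub_eq_zero, ← map_sub, ← map_sub, ← hdvd,
      ← expB_constL (L := L) π hB.mem δ]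
    exact map_dvd _ hfh
  have hne : coeffMap (IsLocalRing.residue B) (expB L B δ h) ≠ 0 := fun h0 =>
    hh (Ideal.mem_span_singleton.mp (hS.mem_span δ h
      ((kerAt_iff_dvd hB.mem δ h).mpr ((hdvd _).mpr h0))))
  obtain ⟨r, hr, hr'⟩ := exists_root_of_certificate hnu hζ (φ := B.subtype) Subtype.val_injective
    (expB L B δ f) (fun i => expB L B δ (s i)) (fun i => expB L B δ (s' i))
    (fun i => expB L B δ (x i)) (fun i => expB L B δ (c i))
    (by simp only [← map_mul, ← map_sum, hsum, map_one])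
    (fun i => by simp only [← map_mul, ← map_pow, hx i])
    _ hfbar hne G (by rw [coeffMap_expB]; exact hG)
    ⟨⟨a, ha⟩, ⟨b, hb⟩, fun h0 => hb0 (congrArg Subtype.val h0), hab⟩
  refine ⟨r, hr, (hdvd _).mpr ?_⟩
  rw [map_sub, hr', sub_self]

end Fermat.Agent.KummerES
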