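import Fermat.Agent.KummerES.Weak
import Mathlib.NumberTheory.ModularForms.QExpansion
import Mathlib.RingTheory.HahnSeries.PowerSeries

/-!
# Expansions of roots

A periodic holomorphic function one of whose powers has a Laurent expansion has one itself; an
invariant root of a weakly holomorphic function is weakly holomorphic.
-/

set_option autoImplicit false

noncomputable section

open UpperHalfPlane Filter Topology CongruenceSubgroup Function
open scoped Real MatrixGroups Manifold

namespace Fermat.Agent.KummerES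

lemma periodic_of_comp_T {L : ℕ} {u : ℍ → ℂ} (hu : comp u (ModularGroup.T ^ (L : ℤ)) = u) :
    Periodic (u ∘ ofComplex) (L : ℝ) := by
  intro w
  by_cases hw : 0 < w.im
  · have : 0 < (w + ((L : ℝ) : ℂ)).im := by simpa using hw
    simp only [comp_def, ofComplex_apply_of_im_pos this, ofComplex_apply_of_im_pos hw]
    conv_rhs => rw [← hu]
    rw [comp_apply, modular_T_zpow_smul]
    congr 1
    ext
    simp [add_comm]
  · push Not at hw
    have : (w + (L : ℂ)).im ≤ 0 := by simpa using hw
    simp [ofComplex_apply_of_im_nonpos this, ofComplex_apply_of_im_nonpos hw]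

/-- A periodic holomorphic function, bounded at `i∞`, has an expansion. -/
lemma exists_hasExp_of_bounded {L : ℕ} [NeZero L] {u : ℍ → ℂ} (hu : MDiff u)
    (hper : comp u (ModularGroup.T ^ (L : ℤ)) = u) (hb : IsBoundedAtImInfty u) :
    ∃ S, HasExp L u S := by
  have hL : (0 : ℝ) < L := by exact_mod_cast Nat.pos_of_ne_zero (NeZero.ne L)
  refine ⟨HahnSeries.ofPowerSeries ℤ ℂ (qExpansion L u), fun τ => ?_⟩
  have h := hasSum_qExpansion hL (periodic_of_comp_T hper) hu hb τ
  rw [← (Nat.cast_injective (R := ℤ)).hasSum_iff]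
  · convert h using 1
    funext m
    simp [HahnSeries.ofPowerSeries_apply_coeff, qL]
  · intro i hi
    rw [HahnSeries.ofPowerSeries_apply, HahnSeries.embDomain_of_notMem_range, zero_mul]
    simpa using hi

/-- A periodic holomorphic function one of whose powers has an expansion has an expansion. -/
lemma exists_hasExp_of_periodic_pow {L n : ℕ} [NeZero L] (hn : n ≠ 0) {u : ℍ → ℂ}
    {s : LaurentSeries ℂ} (hu : MDiff u) (hper : comp u (ModularGroup.T ^ (L : ℤ)) = u)
    (hs : HasExp L (u ^ n) s) : ∃ S, HasExp L u S := by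
  set K : ℤ := min s.order 0 with hK
  let v : ℍ → ℂ := (fun τ => (1 : ℂ) * qL L τ ^ (-K)) * u
  have hlow : ∀ i < 0, (HahnSeries.single (-K * n) (1 : ℂ) * s).coeff i = 0 := by
    intro i hi
    rw [HahnSeries.coeff_single_mul, one_mul]
    have hKn : K * n ≤ K := by
      nlinarith [min_le_right s.order 0, (show (1 : ℤ) ≤ n by exact_mod_cast Nat.one_le_iff_ne_zero.mpr hn)]
    exact HahnSeries.coeff_eq_zero_of_lt_order (by linarith [min_le_left s.order 0])
  have hvn : HasExp L (v ^ n) (HahnSeries.single (-K * n) 1 * s) := by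
    rw [mul_pow]
    refine HasExp.mul ?_ hs
    simpa [mul_comm] using (HasExp.single (L := L) (-K) 1).pow n
  have hqper : ∀ i : ℤ, comp (fun τ => (1 : ℂ) * qL L τ ^ i) (ModularGroup.T ^ (L : ℤ))
      = fun τ => (1 : ℂ) * qL L τ ^ i := fun i => funext fun τ => by
    show (1 : ℂ) * qL L (ModularGroup.T ^ (L : ℤ) • τ) ^ i = 1 * qL L τ ^ i
    rw [qL_T_zpow_smul, zpow_natCast, (isPrimitiveRoot_zetaC L).pow_eq_one]
    simp
  have hper' : comp v (ModularGroup.T ^ (L : ℤ)) = v := funext fun τ =>
    congrArg₂ (· * ·) (congrFun (hqper (-K)) τ) (congrFun hper τ)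
  have hqd : MDiff (fun τ : ℍ => (1 : ℂ) * qL L τ ^ (-K)) := by
    rw [UpperHalfPlane.mdifferentiable_iff]
    intro z hz
    refine DifferentiableAt.differentiableWithinAt ?_
    have hd : DifferentiableAt ℂ (fun w => (1 : ℂ) * Function.Periodic.qParam (L : ℝ) w ^ (-K)) z :=
      (((Function.Periodic.differentiable_qParam) z).zpow
        (Or.inl (Function.Periodic.qParam_ne_zero _))).const_mul _
    refine hd.congr_of_eventuallyEq ?_
    filter_upwards [isOpen_upperHalfPlaneSet.mem_nhds hz] with w hw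
    simp [qL, ofComplex_apply_of_im_pos hw]
  have hv : MDiff v := hqd.mul hu
  have hb : IsBoundedAtImInfty v := by
    obtain ⟨C, hC⟩ := ((hvn.tendsto_atImInfty hlow).isBigO_one ℝ).bound
    refine Asymptotics.IsBigO.of_bound (max 1 C) ?_
    filter_upwards [hC] with τ hτ
    simp only [Pi.pow_apply, norm_pow, norm_one, mul_one, Pi.one_apply] at hτ ⊢
    rcases le_total ‖v τ‖ 1 with h | h
    · exact h.trans (le_max_left _ _)
    · exact ((le_self_pow₀ h hn).trans hτ).trans (le_max_right _ _)
  obtain ⟨S, hS⟩ := exists_hasExp_of_bounded hv hper' hb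
  refine ⟨HahnSeries.single K 1 * S, ?_⟩
  have h := (HasExp.single (L := L) K 1).mul hS
  convert h using 1
  funext τ
  simp [v, ← mul_assoc, mul_inv_cancel₀ (zpow_ne_zero K (qL_ne_zero L τ))]

/-- The multiplier of a root under the translation by `L` is trivial when `n` divides the order. -/
lemma multiplier_T_eq_one {L n : ℕ} [NeZero L] [NeZero n] {u : ℍ → ℂ} {s : LaurentSeries ℂ}
    (hu : MDiff u) (hu0 : u ≠ 0) (hs : HasExp L (u ^ n) s) (hord : (n : ℤ) ∣ s.order) {μ : ℂ}
    (hμ : comp u (ModularGroup.T ^ (L : ℤ)) = fun τ => μ * u τ) : μ = 1 := by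
  obtain ⟨τ₀, hτ₀⟩ : ∃ τ, u τ ≠ 0 := by
    by_contra h
    push Not at h
    exact hu0 (funext h)
  have : NeZero (L * n) := ⟨mul_ne_zero (NeZero.ne L) (NeZero.ne n)⟩
  have hstep : ∀ j : ℕ, comp u (ModularGroup.T ^ ((L : ℤ) * j)) = fun τ => μ ^ j * u τ := by
    intro j
    induction j with
    | zero => simp
    | succ j ih =>
      rw [Nat.cast_succ, mul_add, mul_one, zpow_add, ← comp_comp, ih]
      funext τ
      have := congrFun hμ τ
      simp only [comp_apply] at this ⊢
      rw [this, pow_succ, mul_assoc]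
  have hsper : comp (u ^ n) (ModularGroup.T ^ (L : ℤ)) = u ^ n := by
    have h := hs.comp_T_zpow (L : ℤ)
    refine h.fun_eq ?_
    convert hs using 1
    ext i
    simp [(isPrimitiveRoot_zetaC L).pow_eq_one]
  have hμn : μ ^ n = 1 := by
    have h := congrFun hsper τ₀
    simp only [comp_apply, Pi.pow_apply] at h
    have hμ' := congrFun hμ τ₀
    simp only [comp_apply] at hμ'
    rw [hμ', mul_pow] at h
    exact (mul_eq_right₀ (pow_ne_zero n hτ₀)).mp h
  obtain ⟨S, hS⟩ := exists_hasExp_of_periodic_pow (L := L * n) (NeZero.ne n) hu (by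
    rw [Nat.cast_mul, hstep n, hμn]
    simp) (hs.dilate n)
  have hpow : S ^ n = ModularCurve.qExpand ℂ n s := (hS.pow n).series_eq (hs.dilate n)
  have hS0 : S ≠ 0 := by
    rintro rfl
    refine hτ₀ ?_
    simpa using hS τ₀ |>.unique (by simp)
  have hs0 : s ≠ 0 := by
    rintro rfl
    rw [map_zero] at hpow
    exact hS0 (eq_zero_of_pow_eq_zero hpow)
  have hord' : (n : ℤ) * S.order = n * s.order := by
    have h1 := congrArg HahnSeries.order hpow
    rw [HahnSeries.order_pow, nsmul_eq_mul] at h1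
    rw [h1]
    refine le_antisymm (HahnSeries.order_le_of_coeff_ne_zero ?_) ?_
    · rw [ModularCurve.qExpand_coeff_mul]
      exact HahnSeries.coeff_order_eq_zero.not.mpr hs0
    · by_contra hlt
      push Not at hlt
      have hne := HahnSeries.coeff_order_eq_zero.not.mpr
        ((map_ne_zero_iff _ (ModularCurve.qExpand_injective (R := ℂ) n)).mpr hs0)
      by_cases hd : (n : ℤ) ∣ (ModularCurve.qExpand ℂ n s).order
      · obtain ⟨i, hi⟩ := hd
        rw [hi, ModularCurve.qExpand_coeff_mul] at hne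
        rw [hi] at hlt
        exact hne (HahnSeries.coeff_eq_zero_of_lt_order
          (lt_of_mul_lt_mul_left hlt (Int.natCast_nonneg n)))
      · exact hne (ModularCurve.qExpand_coeff_of_not_dvd n s hd)
  have hSord : S.order = s.order :=
    mul_left_cancel₀ (by exact_mod_cast NeZero.ne n) hord'
  have htw := hS.comp_T_zpow (L : ℤ)
  have hμS : HasExp (L * n) (comp u (ModularGroup.T ^ (L : ℤ))) (HahnSeries.single 0 μ * S) := by
    rw [hμ]
    exact (HasExp.const μ).mul hS
  have h := congrArg (fun t : LaurentSeries ℂ => t.coeff S.order) (htw.series_eq hμS)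
  simp only [twist_coeff, HahnSeries.coeff_single_mul, sub_zero] at h
  rw [← mul_right_cancel₀ (HahnSeries.coeff_order_eq_zero.not.mpr hS0) h, hSord]
  obtain ⟨j, hj⟩ := hord
  rw [hj, ← zpow_mul, show (L : ℤ) * ((n : ℤ) * j) = ((L * n : ℕ) : ℤ) * j by push_cast; ring,
    zpow_mul, zpow_natCast, (isPrimitiveRoot_zetaC (L * n)).pow_eq_one, one_zpow]

/-- An invariant root of a weakly holomorphic function is weakly holomorphic. -/
lemma root_mem_weak {Γ : Subgroup SL(2, ℤ)} {L n : ℕ} [NeZero L] (hn : n ≠ 0)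
    (hΓ : Gamma L ≤ Γ) {u : ℍ → ℂ} (hu : MDiff u) (hinv : ∀ γ ∈ Γ, comp u γ = u)
    (hpow : u ^ n ∈ weak (Gamma L) L ⊤) : u ∈ weak Γ L ⊤ := by
  refine ⟨hu, hinv, fun δ => ?_⟩
  obtain ⟨s, -, hs⟩ := hpow.2.2 δ
  have hper : comp (comp u δ) (ModularGroup.T ^ (L : ℤ)) = comp u δ := by
    have hmem : δ * ModularGroup.T ^ (L : ℤ) * δ⁻¹ ∈ Gamma L :=
      (Gamma_normal L).conj_mem _ (by
        rw [Gamma_mem']
        ext i j
        rw [SL_reduction_mod_hom_val, ModularGroup.coe_T_zpow]
        fin_cases i <;> fin_cases j <;> simp) δ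
    rw [comp_comp, show δ * ModularGroup.T ^ (L : ℤ) =
      δ * ModularGroup.T ^ (L : ℤ) * δ⁻¹ * δ by group, ← comp_comp, hinv _ (hΓ hmem)]
  obtain ⟨S, hS⟩ := exists_hasExp_of_periodic_pow hn (mdiff_comp hu δ) hper hs
  exact ⟨S, fun i => trivial, hS⟩

end Fermat.Agent.KummerES
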