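import Fermat.Agent.KummerES.ConjugateRel

/-!
# Change of level

A weakly holomorphic function of level `L` has every multiple level, conjugation does not depend
on the level, and `IsDiagStable` expresses stability of a group under twisting by `diag (1, c)`.
-/

set_option autoImplicit false

noncomputable section

open UpperHalfPlane CongruenceSubgroup Matrix
open scoped MatrixGroups Manifold

namespace Fermat.Agent.KummerES

open ModularCurve (coeffMap qExpand)

/-- `Gamma` reverses divisibility. -/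
lemma gamma_le_of_dvd {L L' : ℕ} (h : L ∣ L') : Gamma L' ≤ Gamma L :=
  Gamma_le_of_dvd h

/-- `Gamma L` is the kernel of reduction modulo `L`. -/
lemma redMat_eq_one_iff {L : ℕ} {γ : SL(2, ℤ)} : γ ∈ Gamma L ↔ redMat L γ = 1 := by
  rw [Gamma_mem']
  exact ⟨fun h => congrArg Subtype.val h, fun h => Subtype.ext h⟩

/-- A weakly holomorphic function of level `L` is one of any multiple level. -/
lemma weak_level {L L' : ℕ} [NeZero L] [NeZero L'] (h : L ∣ L') {f : ℍ → ℂ}
    (hf : f ∈ weak (Gamma L) L ⊤) : f ∈ weak (Gamma L') L' ⊤ := by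
  obtain ⟨M, rfl⟩ := h
  have : NeZero M := ⟨right_ne_zero_of_mul (NeZero.ne (L * M))⟩
  exact ⟨hf.1, fun γ hγ => hf.2.1 γ (gamma_le_of_dvd (dvd_mul_right L M) hγ), fun δ =>
    ⟨_, fun i => trivial, (hasExp_expansion hf δ).dilate M⟩⟩

/-- Raising the level dilates the expansion. -/
lemma expansion_level {L M : ℕ} [NeZero L] [NeZero M] {f : ℍ → ℂ}
    (hf : f ∈ weak (Gamma L) L ⊤) (δ : SL(2, ℤ)) :
    expansion (L * M) (comp f δ) = qExpand ℂ M (expansion L (comp f δ)) :=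
  ((hasExp_expansion hf δ).dilate M).expansion_eq

lemma expansion_level_coeffMap {L L' c : ℕ} [NeZero L] [NeZero L'] (h : L ∣ L') {σ : ℂ →+* ℂ}
    {f f' : ℍ → ℂ} (hf : IsConj L c σ f f') :
    expansion L' f' = coeffMap σ (expansion L' f) := by
  obtain ⟨M, rfl⟩ := h
  have : NeZero M := ⟨right_ne_zero_of_mul (NeZero.ne (L * M))⟩
  have h1 := expansion_level (M := M) hf.2.1 1
  have h2 := expansion_level (M := M) hf.1 1
  rw [comp_one] at h1 h2
  rw [h1, h2, hf.expansion_eq, ModularCurve.coeffMap_qExpand]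

/-- Conjugates do not depend on the level. -/
lemma IsConj.eq_of_level {L L' c c' : ℕ} [NeZero L] [NeZero L'] (h : L ∣ L') {σ : ℂ →+* ℂ}
    {f f' f'' : ℍ → ℂ} (hf : IsConj L c σ f f') (hf' : IsConj L' c' σ f f'') : f'' = f' :=
  eq_of_expansion_eq hf'.2.1 (weak_level h hf.2.1)
    (hf'.expansion_eq.trans (expansion_level_coeffMap h hf).symm)

/-- `Γ` is stable under conjugation by all `diag (1, c)`, `c` prime to `N`, modulo `N`. -/
def IsDiagStable (Γ : Subgroup SL(2, ℤ)) (N : ℕ) : Prop :=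
  Gamma N ≤ Γ ∧ ∀ c : ℕ, c.Coprime N → ∀ γ γ' : SL(2, ℤ), TwistRel N c γ γ' → γ ∈ Γ → γ' ∈ Γ

/-- A diagonally stable group of level `N` contains `Gamma L` for `N ∣ L`. -/
lemma IsDiagStable.gamma_le {Γ : Subgroup SL(2, ℤ)} {N L : ℕ} (h : IsDiagStable Γ N)
    (hNL : N ∣ L) : Gamma L ≤ Γ :=
  (gamma_le_of_dvd hNL).trans h.1

/-- Conjugates of invariant functions are invariant. -/
lemma IsDiagStable.comp_eq {Γ : Subgroup SL(2, ℤ)} {N L c : ℕ} [NeZero L]
    (h : IsDiagStable Γ N) (hNL : N ∣ L) (hc : c.Coprime L) {σ : ℂ →+* ℂ} {f f' : ℍ → ℂ}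
    (hf : IsConj L c σ f f') (hinv : ∀ γ ∈ Γ, comp f γ = f) {γ : SL(2, ℤ)} (hγ : γ ∈ Γ) :
    comp f' γ = f' := by
  obtain ⟨γ', hγ'⟩ := exists_twistRel_of_coprime hc γ
  exact hf.comp_eq hγ' (hinv γ' (h.2 c (hc.coprime_dvd_right hNL) γ γ' (hγ'.mono hNL) hγ))

/-- `Γ₀(N)` is stable. -/
theorem isDiagStable_gamma0 (N : ℕ) : IsDiagStable (Gamma0 N) N := by
  refine ⟨fun γ hγ => ?_, fun c hc γ γ' h hγ => ?_⟩
  · rw [Gamma_mem] at hγ
    exact Gamma0_mem.mpr hγ.2.2.1
  · rw [Gamma0_mem] at hγ ⊢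
    have h10 := congrFun (congrFun h 1) 0
    simp [redMat, diagMat, Matrix.mul_apply, Fin.sum_univ_two, hγ] at h10
    exact h10

end Fermat.Agent.KummerES
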