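import Fermat.Agent.KummerES.HeckeWeak
import Fermat.Agent.KummerES.ConjugateLevel
import Fermat.Agent.EichlerShimura.Primitive

/-!
# Multipliers of roots

A root of an invariant function transforms by roots of unity; the multiplier is parabolic exactly
when the orders at the cusps allow it, and this is preserved by conjugation.
-/

set_option autoImplicit false

noncomputable section

open UpperHalfPlane CongruenceSubgroup ModularCurve.Period
open scoped MatrixGroups Manifold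

namespace Fermat.Agent.KummerES

open ModularCurve (coeffMap)

variable {Γ : Subgroup SL(2, ℤ)} {n : ℕ} [NeZero n] {g : ℍ → ℂ}

/-- Two holomorphic functions with the same `n`-th power differ by a root of unity. -/
lemma eq_rootPow_mul_of_pow_eq {u v : ℍ → ℂ} (hu : MDiff u) (hv : MDiff v) (h : v ^ n = u ^ n) :
    ∃ x : ZMod n, v = fun τ => rootPow n x * u τ := by
  classical
  have h0 : (∏ x : ZMod n, (v - fun τ => rootPow n x * u τ)) = 0 := by
    funext τ
    rw [Finset.prod_apply, Pi.zero_apply, Finset.prod_eq_zero_iff]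
    have h := congrFun h τ
    simp only [Pi.pow_apply] at h
    by_cases hτ : u τ = 0
    · rw [hτ, zero_pow (NeZero.ne n)] at h
      exact ⟨0, Finset.mem_univ _, by simp [hτ, eq_zero_of_pow_eq_zero h]⟩
    · obtain ⟨i, -, hi⟩ := (isPrimitiveRoot_zetaC n).eq_pow_of_pow_eq_one
        (ξ := v τ / u τ) (by rw [div_pow, h, div_self (pow_ne_zero n hτ)])
      exact ⟨(i : ZMod n), Finset.mem_univ _, by simp [rootPow_natCast, hi, hτ]⟩
  obtain ⟨x, -, hx⟩ := (UpperHalfPlane.prod_eq_zero_iff fun x _ =>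
    hv.sub (mdifferentiable_const.mul hu)).mp h0
  exact ⟨x, sub_eq_zero.mp hx⟩

/-- A root of an invariant function has a multiplier. -/
theorem exists_multiplier (hg : MDiff g) (hg0 : g ≠ 0) (hinv : ∀ γ ∈ Γ, comp (g ^ n) γ = g ^ n) :
    ∃ ψ : Additive Γ →+ ZMod n,
      ∀ γ : Γ, comp g γ = fun τ => rootPow n (ψ (Additive.ofMul γ)) * g τ := by
  have hex : ∀ γ : Γ, ∃ x : ZMod n, comp g γ = fun τ => rootPow n x * g τ := fun γ =>
    eq_rootPow_mul_of_pow_eq hg (mdiff_comp hg _) (hinv γ γ.2)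
  choose ψ hψ using hex
  obtain ⟨τ₀, hτ₀⟩ := Function.ne_iff.mp hg0
  have hinj : ∀ x y : ZMod n, rootPow n x * g τ₀ = rootPow n y * g τ₀ → x = y := fun x y h => by
    have h' := mul_right_cancel₀ hτ₀ h
    refine sub_eq_zero.mp ((rootPow_eq_one_iff _).mp ?_)
    rw [sub_eq_add_neg, rootPow_add, rootPow_neg, h', mul_inv_cancel₀ (rootPow_ne_zero y)]
  refine ⟨AddMonoidHom.mk' (fun γ => ψ γ.toMul) fun a b => hinj _ _ ?_, hψ⟩
  obtain ⟨a, rfl⟩ : ∃ a', Additive.ofMul a' = a := ⟨a.toMul, rfl⟩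
  obtain ⟨b, rfl⟩ : ∃ b', Additive.ofMul b' = b := ⟨b.toMul, rfl⟩
  rw [← ofMul_mul]
  simp only [toMul_ofMul]
  have h1 : g (((a * b : Γ) : SL(2, ℤ)) • τ₀) = _ := congrFun (hψ (a * b)) τ₀
  have h2 : g ((a : SL(2, ℤ)) • ((b : SL(2, ℤ)) • τ₀)) = _ := congrFun (hψ a) _
  have h3 : g ((b : SL(2, ℤ)) • τ₀) = _ := congrFun (hψ b) τ₀
  rw [Subgroup.coe_mul, mul_smul, h2, h3] at h1
  rw [← h1, rootPow_add, mul_assoc]

/-- The multiplier of a root is unique. -/
theorem multiplier_unique (hg0 : g ≠ 0) {χ ψ : Additive Γ →+ ZMod n}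
    (hχ : ∀ γ : Γ, comp g γ = fun τ => rootPow n (χ (Additive.ofMul γ)) * g τ)
    (hψ : ∀ γ : Γ, comp g γ = fun τ => rootPow n (ψ (Additive.ofMul γ)) * g τ) : χ = ψ := by
  obtain ⟨τ₀, hτ₀⟩ := Function.ne_iff.mp hg0
  refine AddMonoidHom.ext fun x => sub_eq_zero.mp ((rootPow_eq_one_iff _).mp ?_)
  have h := mul_right_cancel₀ hτ₀ (congrFun ((hχ x.toMul).symm.trans (hψ x.toMul)) τ₀)
  rw [sub_eq_add_neg, rootPow_add, rootPow_neg, show χ x = χ (Additive.ofMul x.toMul) from rfl, h]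
  exact mul_inv_cancel₀ (rootPow_ne_zero _)

/-- Conjugates of powers of `T` have trace `2`. -/
lemma trace_conj_T_zpow (δ : SL(2, ℤ)) (m : ℤ) :
    ((δ * ModularGroup.T ^ m * δ⁻¹ : SL(2, ℤ)) : Matrix (Fin 2) (Fin 2) ℤ).trace = 2 := by
  rw [Matrix.SpecialLinearGroup.coe_mul, Matrix.trace_mul_comm,
    ← Matrix.SpecialLinearGroup.coe_mul, inv_mul_cancel_left, ModularGroup.coe_T_zpow]
  simp [Matrix.trace_fin_two]

/-- Conjugates of `T ^ L` lie in `Gamma L`. -/
lemma T_zpow_conj_mem_Gamma (L : ℕ) (δ : SL(2, ℤ)) :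
    δ * ModularGroup.T ^ (L : ℤ) * δ⁻¹ ∈ Gamma L :=
  (Gamma_normal L).conj_mem _ (by
    rw [Gamma_mem']
    ext i j
    rw [SL_reduction_mod_hom_val, ModularGroup.coe_T_zpow]
    fin_cases i <;> fin_cases j <;> simp) δ

/-- At a cusp where a root is periodic, the order of its power is divisible by `n` and determines
how the root changes under translations. -/
lemma exists_order_multiplier {L : ℕ} [NeZero L] (hg : MDiff g) (hg0 : g ≠ 0)
    (hgn : g ^ n ∈ weak (Gamma L) L ⊤) (δ : SL(2, ℤ))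
    (hper : comp g (δ * ModularGroup.T ^ (L : ℤ) * δ⁻¹) = g) :
    ∃ j : ℤ, (expansion L (comp (g ^ n) δ)).order = n * j ∧
      ∀ (m : ℤ) (μ : ℂ), (comp g (δ * ModularGroup.T ^ m * δ⁻¹) = fun τ => μ * g τ) →
        μ = zetaC L ^ (m * j) := by
  have hs : HasExp L (comp g δ ^ n) (expansion L (comp (g ^ n) δ)) := hasExp_expansion hgn δ
  have hper' : comp (comp g δ) (ModularGroup.T ^ (L : ℤ)) = comp g δ := by
    rw [comp_comp, show δ * ModularGroup.T ^ (L : ℤ) =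
      δ * ModularGroup.T ^ (L : ℤ) * δ⁻¹ * δ by group, ← comp_comp, hper]
  obtain ⟨S, hS⟩ := exists_hasExp_of_periodic_pow (NeZero.ne n) (mdiff_comp hg δ) hper' hs
  have hS0 : S ≠ 0 := by
    rintro rfl
    refine hg0 (funext fun τ => ?_)
    simpa using congrFun (hS.fun_eq HasExp.zero) (δ⁻¹ • τ)
  refine ⟨S.order, ?_, fun m μ hμ => ?_⟩
  · rw [← (hS.pow n).series_eq hs, HahnSeries.order_pow, nsmul_eq_mul]
  · have h1 := hS.comp_T_zpow m
    have h2 : comp (comp g δ) (ModularGroup.T ^ m) = (fun _ => μ) * comp g δ := by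
      rw [comp_comp, show δ * ModularGroup.T ^ m = δ * ModularGroup.T ^ m * δ⁻¹ * δ by group,
        ← comp_comp, hμ]
      rfl
    rw [h2] at h1
    have h := congrArg (fun t : LaurentSeries ℂ => t.coeff S.order)
      (h1.series_eq ((HasExp.const μ).mul hS))
    simp only [twist_coeff, HahnSeries.coeff_single_mul, sub_zero, ← zpow_mul] at h
    exact (mul_right_cancel₀ (HahnSeries.coeff_order_eq_zero.not.mpr hS0) h).symm

/-- An injective change of coefficients keeps the order. -/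
lemma order_coeffMap {K K' : Type*} [Field K] [Field K'] (σ : K →+* K') (s : LaurentSeries K) :
    (coeffMap σ s).order = s.order := by
  rcases eq_or_ne s 0 with rfl | hs
  · simp
  have hs' : coeffMap σ s ≠ 0 := (map_ne_zero _).mpr hs
  refine le_antisymm (HahnSeries.order_le_of_coeff_ne_zero ?_)
    (HahnSeries.order_le_of_coeff_ne_zero ?_)
  · simpa using HahnSeries.coeff_order_eq_zero.not.mpr hs
  · have := HahnSeries.coeff_order_eq_zero.not.mpr hs'
    simpa using this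

/-- A root of the conjugate of the power of a Kummer root is a Kummer root. -/
theorem exists_isKummer_conj {N L c : ℕ} [NeZero L] (hΓ : IsDiagStable Γ N) (hNL : N ∣ L)
    (hc : c.Coprime L) {σ : ℂ →+* ℂ} {χ : parabolicHoms ℤ Γ (ZMod n)} (hg : IsKummer L n χ.1 g)
    {g' : ℍ → ℂ} (hg' : MDiff g') (hg0' : g' ≠ 0) (hconj : IsConj L c σ (g ^ n) (g' ^ n)) :
    ∃ ψ : parabolicHoms ℤ Γ (ZMod n), IsKummer L n ψ.1 g' := by
  have hinv : ∀ γ ∈ Γ, comp (g' ^ n) γ = g' ^ n := fun γ hγ =>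
    hΓ.comp_eq hNL hc hconj (fun γ hγ => hg.pow_comp_eq hγ) hγ
  obtain ⟨ψ, hψ⟩ := exists_multiplier hg' hg0' hinv
  have hLΓ : Gamma L ≤ Γ := hΓ.gamma_le hNL
  have hfix : ∀ γ : SL(2, ℤ), γ ∈ Γ → (γ : Matrix (Fin 2) (Fin 2) ℤ).trace ^ 2 = 4 →
      comp g γ = g := by
    intro γ hγ htr
    rw [show comp g γ = _ from hg.comp_eq ⟨γ, hγ⟩, χ.2 ⟨γ, hγ⟩ htr]
    simp
  have hper : ∀ δ, comp g (δ * ModularGroup.T ^ (L : ℤ) * δ⁻¹) = g := fun δ =>
    hfix _ (hLΓ (T_zpow_conj_mem_Gamma L δ)) (by rw [trace_conj_T_zpow]; norm_num)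
  have horder : ∀ δ δ', TwistRel L c δ δ' → (expansion L (comp (g' ^ n) δ)).order =
      (expansion L (comp (g ^ n) δ')).order := fun δ δ' h => by
    rw [hconj.2.2 δ δ' h, order_coeffMap]
  have hper' : ∀ δ, comp g' (δ * ModularGroup.T ^ (L : ℤ) * δ⁻¹) = g' := by
    intro δ
    obtain ⟨δ', hδ'⟩ := exists_twistRel_of_coprime hc δ
    obtain ⟨j, hj, -⟩ := exists_order_multiplier hg.holo hg.ne_zero hg.pow_mem δ' (hper δ')
    obtain ⟨μ, h⟩ : ∃ μ : ℂ, comp g' (δ * ModularGroup.T ^ (L : ℤ) * δ⁻¹) = fun τ => μ * g' τ :=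
      ⟨_, hψ ⟨_, hLΓ (T_zpow_conj_mem_Gamma L δ)⟩⟩
    have hμ : comp (comp g' δ) (ModularGroup.T ^ (L : ℤ)) = fun τ => μ * comp g' δ τ := by
      rw [comp_comp, show δ * ModularGroup.T ^ (L : ℤ) =
        δ * ModularGroup.T ^ (L : ℤ) * δ⁻¹ * δ by group, ← comp_comp, h]
      rfl
    have h1 := multiplier_T_eq_one (mdiff_comp hg' δ)
      (fun h0 => hg0' (funext fun τ => by simpa using congrFun h0 (δ⁻¹ • τ)))
      (hasExp_expansion hconj.2.1 δ) ⟨j, by rw [horder δ δ' hδ', hj]⟩ hμ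
    rw [h, h1]
    simp
  refine ⟨⟨ψ, fun γ htr => ?_⟩, hg0', hg', hψ, hconj.2.1⟩
  obtain ⟨δ, m, hm⟩ := EichlerShimura.exists_conj_eq_T_zpow _ htr
  obtain ⟨δ', hδ'⟩ := exists_twistRel_of_coprime hc δ
  obtain ⟨x, hx⟩ : ∃ x : ℤ, ((x * c : ℤ) : ZMod L) = (m : ZMod L) := by
    obtain ⟨a, b, hab⟩ := Nat.isCoprime_iff_coprime.mpr hc
    refine ⟨m * a, ?_⟩
    have := congrArg (Int.cast : ℤ → ZMod L) hab
    push_cast at this ⊢
    simp only [ZMod.natCast_self, mul_zero, add_zero] at this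
    rw [mul_assoc, this, mul_one]
  have hT : TwistRel L c (δ * ModularGroup.T ^ m * δ⁻¹) (δ' * ModularGroup.T ^ x * δ'⁻¹) :=
    (hδ'.mul (TwistRel.T_zpow hx)).mul hδ'.inv
  obtain ⟨j, hj, hjμ⟩ := exists_order_multiplier hg.holo hg.ne_zero hg.pow_mem δ' (hper δ')
  obtain ⟨j', hj', hjμ'⟩ := exists_order_multiplier hg' hg0' hconj.2.1 δ (hper' δ)
  rw [horder δ δ' hδ', hj] at hj'
  obtain rfl : j = j' := mul_left_cancel₀ (by exact_mod_cast NeZero.ne n) hj'
  have hgx : comp g (δ' * ModularGroup.T ^ x * δ'⁻¹) = g := by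
    rcases hm with hm | hm
    · exact hfix _ (hΓ.2 c (hc.coprime_dvd_right hNL) _ _ (hT.mono hNL) (hm ▸ γ.2))
        (by rw [trace_conj_T_zpow]; norm_num)
    · have := hfix _ (hΓ.2 c (hc.coprime_dvd_right hNL) _ _ (hT.neg.mono hNL) (hm ▸ γ.2))
        (by rw [Matrix.SpecialLinearGroup.coe_neg, Matrix.trace_neg, trace_conj_T_zpow]; norm_num)
      funext τ
      simpa using congrFun this τ
  have h1 : zetaC L ^ (x * j) = 1 := (hjμ x 1 (by simpa using hgx)).symm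
  have h2 : zetaC L ^ (m * j) = 1 := by
    rw [(isPrimitiveRoot_zetaC L).zpow_eq_one_iff_dvd, ← ZMod.intCast_zmod_eq_zero_iff_dvd] at h1 ⊢
    push_cast at h1 hx ⊢
    rw [← hx, mul_right_comm, h1, zero_mul]
  have hγ : comp g' (γ : SL(2, ℤ)) = comp g' (δ * ModularGroup.T ^ m * δ⁻¹) := by
    rcases hm with hm | hm <;> rw [hm]
    funext τ
    simp
  have h3 := hjμ' m _ (hγ ▸ hψ γ)
  rw [h2] at h3
  exact (rootPow_eq_one_iff _).mp h3

end Fermat.Agent.KummerES
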