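import Mathlib.Analysis.Analytic.Order
import Mathlib.Analysis.Complex.HasPrimitives
import Mathlib.Analysis.Complex.UpperHalfPlane.Manifold
import Mathlib.Analysis.Calculus.Deriv.Pow
import Mathlib.RingTheory.RootsOfUnity.Complex
import Mathlib.Analysis.Complex.Polynomial.Basic

/-!
# Holomorphic `n`-th roots on the upper half plane

A holomorphic function on the upper half plane whose zero orders are all divisible by `n` is the
`n`-th power of a holomorphic function.
-/

set_option autoImplicit false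

noncomputable section

open UpperHalfPlane Filter Topology Metric
open scoped Manifold

namespace Fermat.Agent.KummerES

lemma eqOn_zero_of_deriv_eq {W F : ℂ → ℂ} {c : ℂ} {r : ℝ}
    (hW : ∀ z ∈ ball c r, HasDerivAt W (deriv F z / F z) z)
    (hF : DifferentiableOn ℂ F (ball c r)) (h0 : ∀ z ∈ ball c r, F z ≠ 0) {z : ℂ}
    (hz : z ∈ ball c r) : F z = F c * Complex.exp (-W c) * Complex.exp (W z) := by
  have hd : ∀ x ∈ ball c r, HasDerivAt (fun y => F y * Complex.exp (-W y)) 0 x := by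
    intro x hx
    have h1 := (hF.differentiableAt (isOpen_ball.mem_nhds hx)).hasDerivAt.mul ((hW x hx).neg.cexp)
    refine HasDerivAt.congr_deriv h1 ?_
    have := h0 x hx
    field_simp
    ring
  have hc : c ∈ ball c r := mem_ball_self (dist_nonneg.trans_lt (mem_ball.mp hz))
  have := (convex_ball c r).is_const_of_fderivWithin_eq_zero (𝕜 := ℂ)
    (fun x hx => (hd x hx).differentiableAt.differentiableWithinAt)
    (fun x hx => by
      rw [fderivWithin_of_isOpen isOpen_ball hx, (hd x hx).hasFDerivAt.fderiv]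
      ext; simp) hc hz
  rw [this, mul_assoc, ← Complex.exp_add, neg_add_cancel, Complex.exp_zero, mul_one]

lemma exists_root_on_ball_of_ne_zero {F : ℂ → ℂ} {c : ℂ} {r : ℝ} {n : ℕ} (hn : n ≠ 0)
    (hF : AnalyticOnNhd ℂ F (ball c r)) (h0 : ∀ z ∈ ball c r, F z ≠ 0) :
    ∃ g : ℂ → ℂ, AnalyticOnNhd ℂ g (ball c r) ∧ ∀ z ∈ ball c r, g z ^ n = F z := by
  have hlog : DifferentiableOn ℂ (fun z => deriv F z / F z) (ball c r) :=
    (hF.deriv.differentiableOn).div hF.differentiableOn h0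
  obtain ⟨W, hW⟩ := hlog.isExactOn_ball
  obtain ⟨w, hw⟩ := IsAlgClosed.exists_pow_nat_eq (F c * Complex.exp (-W c)) (Nat.pos_of_ne_zero hn)
  refine ⟨fun z => w * Complex.exp (W z / n), ?_, fun z hz => ?_⟩
  · refine DifferentiableOn.analyticOnNhd (fun z hz => ?_) isOpen_ball
    exact (((hW z hz).differentiableAt.div_const _).cexp.const_mul w).differentiableWithinAt
  · have hn' : (n : ℂ) ≠ 0 := Nat.cast_ne_zero.mpr hn
    rw [mul_pow, ← Complex.exp_nat_mul, mul_div_cancel₀ _ hn', hw,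
      eqOn_zero_of_deriv_eq hW hF.differentiableOn h0 hz]

lemma exists_root_on_ball {c : ℂ} {r : ℝ} {n : ℕ} (hn : n ≠ 0) (Z : Finset ℂ) :
    ∀ {F : ℂ → ℂ}, AnalyticOnNhd ℂ F (ball c r) → (∀ z ∈ ball c r, F z = 0 → z ∈ Z) →
      (∀ z ∈ ball c r, ∃ e : ℕ, analyticOrderAt F z = ((n * e : ℕ) : ℕ∞)) →
      ∃ g : ℂ → ℂ, AnalyticOnNhd ℂ g (ball c r) ∧ ∀ z ∈ ball c r, g z ^ n = F z := by
  classical
  induction Z using Finset.induction_on with
  | empty =>
    intro F hF hZ _
    exact exists_root_on_ball_of_ne_zero hn hF fun z hz h => by simpa using hZ z hz h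
  | @insert a Z ha ih =>
    intro F hF hZ hord
    by_cases haB : a ∈ ball c r
    swap
    · exact ih hF (fun z hz h => (Finset.mem_insert.mp (hZ z hz h)).resolve_left
        fun h' => haB (h' ▸ hz)) hord
    obtain ⟨e, he⟩ := hord a haB
    obtain ⟨g0, hg0, hg00, hev⟩ := (hF a haB).analyticOrderAt_eq_natCast.mp he
    let F1 : ℂ → ℂ := fun z => if z = a then g0 a else F z / (z - a) ^ (n * e)
    have hF1a : ∀ᶠ z in 𝓝 a, F1 z = g0 z := by
      filter_upwards [hev] with z hz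
      rcases eq_or_ne z a with rfl | hne
      · simp [F1]
      · simp only [F1, if_neg hne, hz, smul_eq_mul]
        field_simp [sub_ne_zero.mpr hne]
    have hfac : ∀ z ∈ ball c r, F z = (z - a) ^ (n * e) * F1 z := fun z hz => by
      rcases eq_or_ne z a with rfl | hne
      · simp only [F1, if_true]
        simpa using hev.self_of_nhds
      · simp only [F1, if_neg hne]
        field_simp [sub_ne_zero.mpr hne]
    have hF1 : AnalyticOnNhd ℂ F1 (ball c r) := by
      intro z hz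
      rcases eq_or_ne z a with rfl | hne
      · exact hg0.congr (hF1a.mono fun _ h => h.symm)
      · have hp : AnalyticAt ℂ (fun w => (w - a) ^ (n * e)) z :=
          (analyticAt_id.sub analyticAt_const).pow _
        refine AnalyticAt.congr ((hF z hz).div hp (pow_ne_zero _ (sub_ne_zero.mpr hne))) ?_
        filter_upwards [isOpen_ne.mem_nhds hne] with w hw
        simp [F1, hw]
    obtain ⟨g1, hg1, hg1'⟩ := ih hF1 (fun z hz h => by
        rcases eq_or_ne z a with rfl | hne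
        · exact absurd h (by simpa [F1] using hg00)
        · exact (Finset.mem_insert.mp (hZ z hz (by rw [hfac z hz, h, mul_zero]))).resolve_left hne)
      fun z hz => by
        rcases eq_or_ne z a with rfl | hne
        · exact ⟨0, by
            rw [mul_zero, Nat.cast_zero, (hF1 z hz).analyticOrderAt_eq_zero]
            simpa [F1] using hg00⟩
        · obtain ⟨e', he'⟩ := hord z hz
          refine ⟨e', ?_⟩
          rw [← he']
          have hp : AnalyticAt ℂ (fun w => (w - a) ^ (n * e)) z :=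
            (analyticAt_id.sub analyticAt_const).pow _
          have hcg : F =ᶠ[𝓝 z] (fun w => (w - a) ^ (n * e)) * F1 := by
            filter_upwards [isOpen_ball.mem_nhds hz] with w hw
            exact hfac w hw
          rw [analyticOrderAt_congr hcg, analyticOrderAt_mul hp (hF1 z hz),
            hp.analyticOrderAt_eq_zero.mpr (pow_ne_zero _ (sub_ne_zero.mpr hne)), zero_add]
    refine ⟨fun z => (z - a) ^ e * g1 z, fun z hz => ((analyticAt_id.sub analyticAt_const).pow _).mul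
      (hg1 z hz), fun z hz => ?_⟩
    rw [mul_pow, hg1' z hz, ← pow_mul, mul_comm e n, ← hfac z hz]

lemma eqOn_root_of_eq_at {U : Set ℂ} (hU : IsPreconnected U) {g g' : ℂ → ℂ} {n : ℕ}
    (hn : n ≠ 0) (hg : AnalyticOnNhd ℂ g U) (hg' : AnalyticOnNhd ℂ g' U)
    (h : ∀ z ∈ U, g z ^ n = g' z ^ n) {z₀ : ℂ} (hUo : IsOpen U) (hz₀ : z₀ ∈ U)
    (hne : g z₀ ≠ 0) (heq : g z₀ = g' z₀) : Set.EqOn g g' U := by
  refine hg.eqOn_of_preconnected_of_eventuallyEq hg' hU hz₀ ?_
  have : NeZero n := ⟨hn⟩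
  let T := (Polynomial.nthRootsFinset n (1 : ℂ)).erase 1
  have hT : ∀ᶠ z in 𝓝 z₀, ∀ ζ ∈ T, g' z ≠ ζ * g z := by
    refine (eventually_all_finset T).mpr fun ζ hζ => ?_
    refine (((hg' z₀ hz₀).continuousAt.ne_iff_eventually_ne
      ((hg z₀ hz₀).continuousAt.const_mul ζ)).mp ?_)
    intro h1
    rw [← heq] at h1
    exact (Finset.mem_erase.mp hζ).1 (mul_right_cancel₀ hne (by rw [← h1, one_mul]))
  filter_upwards [hT, hUo.mem_nhds hz₀, (hg z₀ hz₀).continuousAt.eventually_ne hne] with z hz hzU hz0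
  by_contra hne'
  have hζ : g' z / g z ∈ T := Finset.mem_erase.mpr
    ⟨fun h1 => hne' ((div_eq_one_iff_eq hz0).mp h1).symm,
      (Polynomial.mem_nthRootsFinset (Nat.pos_of_ne_zero hn) 1).mpr
        (by rw [div_pow, ← h z hzU, div_self (pow_ne_zero n hz0)])⟩
  exact hz _ hζ (by field_simp)

/-- Zeros of a nonzero holomorphic function on a compact subset of the half plane are finite. -/
lemma finite_zeros_of_isCompact {F : ℂ → ℂ} {U K : Set ℂ} (hU : IsPreconnected U)
    (hF : AnalyticOnNhd ℂ F U) (hne : ∃ z ∈ U, F z ≠ 0) (hK : IsCompact K) (hKU : K ⊆ U) :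
    {z ∈ K | F z = 0}.Finite := by
  by_contra hinf
  obtain ⟨x, hxK, hx⟩ := Set.Infinite.exists_accPt_of_subset_isCompact hinf hK fun z hz => hz.1
  have hfr : ∃ᶠ z in 𝓝[≠] x, F z = 0 := by
    rw [accPt_iff_frequently_nhdsNE] at hx
    exact hx.mono fun z hz => hz.2
  obtain ⟨z, hz, hz0⟩ := hne
  exact hz0 (hF.eqOn_zero_of_preconnected_of_frequently_eq_zero hU (hKU hxK) hfr hz)

/-- A holomorphic function on the upper half plane with all zero orders divisible by `n` has a
holomorphic `n`-th root. -/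
theorem exists_mdiff_pow_eq {f : ℍ → ℂ} (hf : MDiff f) (hf0 : f ≠ 0) {n : ℕ} (hn : n ≠ 0)
    (hord : ∀ τ : ℍ, ∃ e : ℕ, analyticOrderAt (f ∘ ofComplex) (τ : ℂ) = ((n * e : ℕ) : ℕ∞)) :
    ∃ g : ℍ → ℂ, MDiff g ∧ g ^ n = f := by
  classical
  let F : ℂ → ℂ := f ∘ ofComplex
  let U : Set ℂ := {z | 0 < z.im}
  have hUo : IsOpen U := isOpen_lt continuous_const Complex.continuous_im
  have hUc : IsPreconnected U := (convex_halfSpace_im_gt 0).isPreconnected
  have hF : AnalyticOnNhd ℂ F U :=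
    (UpperHalfPlane.mdifferentiable_iff.mp hf).analyticOnNhd hUo
  obtain ⟨τ₀, hτ₀⟩ : ∃ τ, f τ ≠ 0 := by
    by_contra h
    push Not at h
    exact hf0 (funext h)
  have hF0 : F τ₀ ≠ 0 := by simpa [F, ofComplex_apply] using hτ₀
  let B : ℕ → Set ℂ := fun k => ball ((k + 2 : ℕ) * Complex.I) ((k + 2 : ℕ) - 1 / (k + 2 : ℕ))
  have hK : ∀ k : ℕ, closedBall (((k + 2 : ℕ) : ℂ) * Complex.I)
      ((k + 2 : ℕ) - 1 / (k + 2 : ℕ)) ⊆ U := by
    intro k z hz
    rw [mem_closedBall, Complex.dist_eq] at hz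
    have h := (abs_le.mp ((Complex.abs_im_le_norm _).trans hz)).1
    have : (0 : ℝ) < 1 / (k + 2 : ℕ) := by positivity
    simp only [Complex.sub_im, Complex.mul_im, Complex.natCast_re, Complex.natCast_im,
      Complex.I_im, Complex.I_re] at h
    show 0 < z.im
    linarith
  have hBU : ∀ k, B k ⊆ U := fun k => ball_subset_closedBall.trans (hK k)
  have hmono : Monotone B := by
    intro j k hjk z hz
    rw [mem_ball] at hz ⊢
    refine lt_of_le_of_lt (dist_triangle _ (((j + 2 : ℕ) : ℂ) * Complex.I) _) ?_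
    have h1 : dist (((j + 2 : ℕ) : ℂ) * Complex.I) (((k + 2 : ℕ) : ℂ) * Complex.I) = (k : ℝ) - j := by
      rw [Complex.dist_eq, ← sub_mul, norm_mul, Complex.norm_I, mul_one]
      have : ((j + 2 : ℕ) : ℂ) - ((k + 2 : ℕ) : ℂ) = (((j : ℝ) - k : ℝ) : ℂ) := by push_cast; ring
      rw [this, Complex.norm_real, Real.norm_eq_abs, abs_of_nonpos (by
        have : (j : ℝ) ≤ k := by exact_mod_cast hjk
        linarith)]
      ring
    have h2 : (1 : ℝ) / (k + 2 : ℕ) ≤ 1 / (j + 2 : ℕ) :=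
      one_div_le_one_div_of_le (by positivity) (by exact_mod_cast Nat.add_le_add_right hjk 2)
    rw [h1]
    push_cast at hz h2 ⊢
    linarith
  have hcover : ∀ z ∈ U, ∃ k, z ∈ B k := by
    intro z hz
    have hy : 0 < z.im := hz
    obtain ⟨k, hk⟩ := exists_nat_ge ((z.re ^ 2 + z.im ^ 2 + 2) / z.im)
    refine ⟨k, ?_⟩
    rw [div_le_iff₀ hy] at hk
    set R : ℝ := ((k + 2 : ℕ) : ℝ) with hR
    have hR2 : (2 : ℝ) ≤ R := by rw [hR]; push_cast; linarith [(Nat.cast_nonneg k : (0:ℝ) ≤ k)]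
    have hkR : (k : ℝ) ≤ R := by rw [hR]; push_cast; linarith
    have hpos : 0 ≤ R - 1 / R := by
      have : 1 / R ≤ 1 := by rw [div_le_one (by linarith)]; linarith
      linarith
    rw [mem_ball, Complex.dist_eq, Complex.norm_def, Real.sqrt_lt' (lt_of_le_of_ne hpos ?_)]
    · simp only [Complex.normSq_apply, Complex.sub_re, Complex.sub_im, Complex.mul_re,
        Complex.mul_im, Complex.natCast_re, Complex.natCast_im, Complex.I_re, Complex.I_im,
        mul_zero, mul_one, sub_zero, add_zero, ← hR]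
      have h1 : (R - 1 / R) ^ 2 = R ^ 2 - 2 + (1 / R) ^ 2 := by field_simp; ring
      rw [h1]
      nlinarith [sq_nonneg (1 / R), mul_le_mul_of_nonneg_right hkR hy.le]
    · intro h
      have : R = 1 / R := by linarith
      field_simp at this
      nlinarith
  obtain ⟨k₀, hk₀⟩ := hcover τ₀ τ₀.im_pos
  have hloc : ∀ k, ∃ g : ℂ → ℂ, AnalyticOnNhd ℂ g (B k) ∧ ∀ z ∈ B k, g z ^ n = F z := fun k =>
    exists_root_on_ball hn (finite_zeros_of_isCompact hUc hF ⟨_, τ₀.im_pos, hF0⟩
        (isCompact_closedBall _ _) (hK k)).toFinset (hF.mono (hBU k))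
      (fun z hz h => (Set.Finite.mem_toFinset _).mpr ⟨ball_subset_closedBall hz, h⟩)
      (fun z hz => hord ⟨z, hBU k hz⟩)
  choose G hG hG' using hloc
  obtain ⟨w, hw⟩ := IsAlgClosed.exists_pow_nat_eq (F τ₀) (Nat.pos_of_ne_zero hn)
  have hk₀' : ∀ k, (τ₀ : ℂ) ∈ B (k + k₀) := fun k => hmono (Nat.le_add_left _ _) hk₀
  let H : ℕ → ℂ → ℂ := fun k z => w / G (k + k₀) τ₀ * G (k + k₀) z
  have hG0 : ∀ k, G (k + k₀) τ₀ ≠ 0 := fun k h => hF0 (by
    rw [← hG' _ _ (hk₀' k), h, zero_pow hn])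
  have hH : ∀ k, AnalyticOnNhd ℂ (H k) (B (k + k₀)) := fun k z hz =>
    analyticAt_const.mul (hG _ z hz)
  have hH' : ∀ k, ∀ z ∈ B (k + k₀), H k z ^ n = F z := fun k z hz => by
    simp only [H]
    rw [mul_pow, div_pow, hw, hG' _ _ hz, hG' _ _ (hk₀' k)]
    field_simp [hF0]
  have hcompat : ∀ j k, j ≤ k → Set.EqOn (H j) (H k) (B (j + k₀)) := by
    intro j k hjk
    have hw0 : w ≠ 0 := by rintro rfl; exact hF0 (by simpa [zero_pow hn] using hw.symm)
    refine eqOn_root_of_eq_at (convex_ball _ _).isPreconnected hn (hH j)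
      ((hH k).mono (hmono (by omega))) (fun z hz => ?_) isOpen_ball (hk₀' j) ?_ ?_
    · rw [hH' j z hz, hH' k z (hmono (by omega) hz)]
    · simp [H, hG0, hw0]
    · simp [H, hG0]
  have hcover' : ∀ τ : ℍ, ∃ k, (τ : ℂ) ∈ B (k + k₀) := fun τ => by
    obtain ⟨k, hk⟩ := hcover τ τ.im_pos
    exact ⟨k, hmono (Nat.le_add_right _ _) hk⟩
  let g : ℍ → ℂ := fun τ => H (Nat.find (hcover' τ)) τ
  have hgk : ∀ (τ : ℍ) (k : ℕ), (τ : ℂ) ∈ B (k + k₀) → g τ = H k τ := fun τ k hk =>
    hcompat _ _ (Nat.find_min' (hcover' τ) hk) (Nat.find_spec (hcover' τ))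
  refine ⟨g, fun τ => ?_, funext fun τ => ?_⟩
  · rw [UpperHalfPlane.mdifferentiableAt_iff]
    obtain ⟨k, hk⟩ := hcover' τ
    refine (hH k τ hk).differentiableAt.congr_of_eventuallyEq ?_
    filter_upwards [isOpen_ball.mem_nhds hk] with z hz
    have hzim : 0 < z.im := hBU _ hz
    simp only [Function.comp_apply, ofComplex_apply_of_im_pos hzim]
    exact hgk ⟨z, hzim⟩ k hz
  · rw [Pi.pow_apply, hH' _ _ (Nat.find_spec (hcover' τ))]
    simp [F, ofComplex_apply]

end Fermat.Agent.KummerES
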