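import Fermat.Agent.KummerES.ConjugateHom
import Fermat.Agent.KummerES.RootAnalytic

/-!
# Conjugation preserves the orders of zeros

For an automorphism `σ` of `ℂ` fixing the expansion of the coordinate `t`, every point `τ'` is
matched with a point `τ` such that the conjugate of `f` vanishes at `τ'` to the order of `f` at
`τ`. In particular conjugates of `n`-th powers are `n`-th powers.
-/

set_option autoImplicit false

noncomputable section

open UpperHalfPlane CongruenceSubgroup Filter Topology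
open scoped MatrixGroups Manifold

namespace Fermat.Agent.KummerES

open ModularCurve (coeffMap)

/-- The order of vanishing. -/
def ordAt (f : ℍ → ℂ) (τ : ℍ) : ℕ∞ := analyticOrderAt (f ∘ ofComplex) (τ : ℂ)

/-- A holomorphic function on `ℍ` is analytic in the ambient coordinate. -/
lemma analyticAt_comp_ofComplex {f : ℍ → ℂ} (hf : MDiff f) (τ : ℍ) :
    AnalyticAt ℂ (f ∘ ofComplex) (τ : ℂ) :=
  ((UpperHalfPlane.mdifferentiable_iff.mp hf).analyticOnNhd isOpen_upperHalfPlaneSet) _ τ.im_pos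

/-- Orders at a point add under multiplication. -/
lemma ordAt_mul {f g : ℍ → ℂ} (hf : MDiff f) (hg : MDiff g) (τ : ℍ) :
    ordAt (f * g) τ = ordAt f τ + ordAt g τ :=
  analyticOrderAt_mul (analyticAt_comp_ofComplex hf τ) (analyticAt_comp_ofComplex hg τ)

/-- The order vanishes exactly where the function does not. -/
lemma ordAt_eq_zero_iff {f : ℍ → ℂ} (hf : MDiff f) (τ : ℍ) : ordAt f τ = 0 ↔ f τ ≠ 0 := by
  rw [ordAt, (analyticAt_comp_ofComplex hf τ).analyticOrderAt_eq_zero]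
  simp [ofComplex_apply]

/-- The order of a power. -/
lemma ordAt_pow {f : ℍ → ℂ} (hf : MDiff f) (n : ℕ) (τ : ℍ) :
    ordAt (f ^ n) τ = n • ordAt f τ :=
  analyticOrderAt_pow (analyticAt_comp_ofComplex hf τ) n

/-- A non-zero holomorphic function has finite order everywhere. -/
lemma ordAt_ne_top {f : ℍ → ℂ} (hf : MDiff f) (hf0 : f ≠ 0) (τ : ℍ) : ordAt f τ ≠ ⊤ := by
  intro h
  have hU : IsPreconnected {z : ℂ | 0 < z.im} := (convex_halfSpace_im_gt 0).isPreconnected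
  have hA := (UpperHalfPlane.mdifferentiable_iff.mp hf).analyticOnNhd isOpen_upperHalfPlaneSet
  refine hf0 (funext fun z => ?_)
  have := hA.eqOn_zero_of_preconnected_of_eventuallyEq_zero hU τ.im_pos
    (analyticOrderAt_eq_top.mp h) z.im_pos
  simpa [ofComplex_apply] using this

/-- `t - t τ` has a simple zero at `τ` when the derivative of `t` is non-zero there. -/
lemma ordAt_sub_const_eq_one {t : ℍ → ℂ} (ht : MDiff t) {τ : ℍ}
    (h : deriv (t ∘ ofComplex) τ ≠ 0) : ordAt (t - fun _ => t τ) τ = 1 := by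
  have := (analyticAt_comp_ofComplex ht τ).analyticOrderAt_sub_eq_one_of_deriv_ne_zero h
  convert this using 1
  simp [ordAt, Function.comp_def, ofComplex_apply]

variable {M L c : ℕ} [NeZero L]

local notation "𝔸" => weak (Gamma L) L ⊤

/-- Conjugation as a ring homomorphism. -/
def conjHom (hC : HasConj L) (σ : ℂ →+* ℂ) (hσ : σ (zetaC L) = zetaC L ^ c) : 𝔸 →+* 𝔸 where
  toFun f := ⟨(hC σ c hσ f.1 f.2).choose, (hC σ c hσ f.1 f.2).choose_spec.2.1⟩
  map_one' := Subtype.ext ((hC σ c hσ _ (1 : 𝔸).2).choose_spec.unique IsConj.one)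
  map_zero' := Subtype.ext ((hC σ c hσ _ (0 : 𝔸).2).choose_spec.unique IsConj.zero)
  map_add' f g := Subtype.ext ((hC σ c hσ _ (f + g).2).choose_spec.unique
    ((hC σ c hσ f.1 f.2).choose_spec.add (hC σ c hσ g.1 g.2).choose_spec))
  map_mul' f g := Subtype.ext ((hC σ c hσ _ (f * g).2).choose_spec.unique
    ((hC σ c hσ f.1 f.2).choose_spec.mul (hC σ c hσ g.1 g.2).choose_spec))

lemma isConj_conjHom (hC : HasConj L) (σ : ℂ →+* ℂ) (hσ : σ (zetaC L) = zetaC L ^ c) (f : 𝔸) :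
    IsConj L c σ f (conjHom hC σ hσ f : 𝔸) :=
  (hC σ c hσ f.1 f.2).choose_spec

/-- Orders of zeros are preserved by conjugation. -/
theorem exists_ordAt_conj (B : BaseData M L) (hML : M ∣ L) (hC : HasConj L) (σ : ℂ ≃+* ℂ)
    (hσ : (σ : ℂ →+* ℂ) (zetaC L) = zetaC L ^ c)
    (hfix : coeffMap (σ : ℂ →+* ℂ) (expansion L B.t) = expansion L B.t) (τ' : ℍ) :
    ∃ τ : ℍ, ∀ f f' : ℍ → ℂ, IsConj L c (σ : ℂ →+* ℂ) f f' → ordAt f' τ' = ordAt f τ := by
  set φ := conjHom hC (σ : ℂ →+* ℂ) hσ with hφ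
  set T : 𝔸 := ⟨B.t, t_mem_levelL B hML⟩
  let e : 𝔸 →+* ℂ := (σ.symm : ℂ →+* ℂ).comp ((evalHom τ').comp φ)
  have he : ∀ a, e (constHom a) = a := by
    intro a
    have : (φ (constHom a) : ℍ → ℂ) = fun _ => σ a :=
      (isConj_conjHom hC _ hσ (constHom a)).unique (IsConj.const a)
    simp [e, this]
  obtain ⟨τ₁, hτ₁⟩ := exists_t_eq B hML e he
  obtain ⟨ι, _, p, -, hp1, hp⟩ := exists_norm (M := M) (L := L)
  obtain ⟨i, hi⟩ := exists_eq_eval B hML hp1 hp e he hτ₁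
  set τ := p i • τ₁
  have hval : ∀ f : 𝔸, (φ f : ℍ → ℂ) τ' = σ ((f : ℍ → ℂ) τ) := fun f => by
    rw [← hi f]
    simp [e]
  have hT : φ T = T :=
    Subtype.ext ((isConj_conjHom hC _ hσ T).unique ((isConj_conjHom hC _ hσ T).of_fixed hfix))
  have ht : B.t τ' = σ (B.t τ) := by
    have := hval T
    rwa [hT] at this
  have key : ∀ (k : ℕ) (a : 𝔸), ordAt (a : ℍ → ℂ) τ = k →
      ordAt (φ a : ℍ → ℂ) τ' = k := by
    intro k
    induction k with
    | zero =>
      intro a ha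
      rw [Nat.cast_zero, ordAt_eq_zero_iff a.2.1] at ha
      rw [Nat.cast_zero, ordAt_eq_zero_iff (φ a).2.1, hval]
      simpa using ha
    | succ k ih =>
      intro a ha
      have ha0 : (a : ℍ → ℂ) τ = 0 := by
        by_contra h
        rw [(ordAt_eq_zero_iff a.2.1 τ).mpr h] at ha
        exact_mod_cast absurd ha.symm (Nat.cast_ne_zero.mpr k.succ_ne_zero)
      obtain ⟨s, b, hs, hb, hsτ, hsab⟩ := exists_param B hML a.2 ha0
      have hw : ∀ z : ℍ, ordAt (B.t - fun _ => B.t z) z = 1 := fun z =>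
        ordAt_sub_const_eq_one B.t_mem.1 (B.deriv_ne z)
      have hwd : ∀ x : ℂ, MDiff (B.t - fun _ : ℍ => x) := fun x =>
        B.t_mem.1.sub mdifferentiable_const
      have hbk : ordAt b τ = k := by
        have h := congrArg (fun F => ordAt F τ) hsab
        simp only [ordAt_mul hs.1 a.2.1, ordAt_mul (hwd _) hb.1,
          (ordAt_eq_zero_iff hs.1 τ).mpr hsτ, zero_add, hw, ha, Nat.cast_succ] at h
        rw [add_comm] at h
        exact (WithTop.add_left_inj WithTop.one_ne_top).mp h.symm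
      have hsab' : φ ⟨s, hs⟩ * φ a = (T - constHom (σ (B.t τ))) * φ ⟨b, hb⟩ := by
        have hc : φ (constHom (B.t τ)) = constHom (σ (B.t τ)) :=
          Subtype.ext ((isConj_conjHom hC _ hσ _).unique (IsConj.const _))
        rw [← map_mul, show (⟨s, hs⟩ : 𝔸) * a = (T - constHom (B.t τ)) * ⟨b, hb⟩ from
          Subtype.ext hsab, map_mul, map_sub, hT, hc]
      have hsτ' : (φ ⟨s, hs⟩ : ℍ → ℂ) τ' ≠ 0 := by
        rw [hval]; simpa using hsτ
      have h := congrArg (fun F : 𝔸 => ordAt (F : ℍ → ℂ) τ') hsab'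
      simp only [MulMemClass.coe_mul, AddSubgroupClass.coe_sub, coe_constHom, ← ht, T,
        ordAt_mul (φ ⟨s, hs⟩).2.1 (φ a).2.1, ordAt_mul (hwd _) (φ ⟨b, hb⟩).2.1,
        (ordAt_eq_zero_iff (φ ⟨s, hs⟩).2.1 τ').mpr hsτ', zero_add, hw,
        ih ⟨b, hb⟩ hbk] at h
      rw [h, Nat.cast_succ, add_comm]
  refine ⟨τ, fun f f' hf => ?_⟩
  have hf' : f' = (φ ⟨f, hf.1⟩ : ℍ → ℂ) := hf.unique (isConj_conjHom hC _ hσ ⟨f, hf.1⟩)
  by_cases hf0 : f = 0
  · subst hf0
    have : f' = 0 := hf.unique IsConj.zero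
    rw [this]
    exact (analyticOrderAt_eq_top.mpr (Eventually.of_forall fun _ => rfl)).trans
      (analyticOrderAt_eq_top.mpr (Eventually.of_forall fun _ => rfl)).symm
  · obtain ⟨k, hk⟩ := ENat.ne_top_iff_exists.mp (ordAt_ne_top hf.1.1 hf0 τ)
    rw [hf', ← hk]
    exact key k ⟨f, hf.1⟩ hk.symm

/-- The conjugate of an `n`-th power of a holomorphic function is an `n`-th power. -/
theorem exists_root_conj (B : BaseData M L) (hML : M ∣ L) (hC : HasConj L) (σ : ℂ ≃+* ℂ)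
    (hσ : (σ : ℂ →+* ℂ) (zetaC L) = zetaC L ^ c)
    (hfix : coeffMap (σ : ℂ →+* ℂ) (expansion L B.t) = expansion L B.t)
    {n : ℕ} (hn : n ≠ 0) {g f' : ℍ → ℂ} (hg : MDiff g) (hg0 : g ≠ 0)
    (hf : IsConj L c (σ : ℂ →+* ℂ) (g ^ n) f') :
    ∃ g' : ℍ → ℂ, MDiff g' ∧ g' ≠ 0 ∧ g' ^ n = f' := by
  have hex : ∀ τ' : ℍ, ∃ e : ℕ, ordAt f' τ' = ((n * e : ℕ) : ℕ∞) := fun τ' => by
    obtain ⟨τ, hτ⟩ := exists_ordAt_conj B hML hC σ hσ hfix τ'
    obtain ⟨e, he⟩ := ENat.ne_top_iff_exists.mp (ordAt_ne_top hg hg0 τ)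
    exact ⟨e, by rw [hτ _ _ hf, ordAt_pow hg, ← he, nsmul_eq_mul, Nat.cast_mul]⟩
  have hf0 : f' ≠ 0 := by
    intro h
    obtain ⟨e, he⟩ := hex UpperHalfPlane.I
    rw [h] at he
    exact ENat.natCast_ne_top _ (he.symm.trans
      (analyticOrderAt_eq_top.mpr (Eventually.of_forall fun _ => rfl)))
  obtain ⟨g', hg', hgn⟩ := exists_mdiff_pow_eq hf.2.1.1 hf0 hn hex
  exact ⟨g', hg', fun h => hf0 (by rw [← hgn, h, zero_pow hn]), hgn⟩

end Fermat.Agent.KummerES
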