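import Fermat.Agent.KummerES.ConjugateSpec
import Fermat.Agent.KummerES.Base
import Fermat.Agent.KummerES.LevelMain

/-!
# Conjugation at even levels

At an even level the coordinate on the curve of level `2` and its values at the cusps are fixed by
all automorphisms of `ℂ`, so that every weakly holomorphic function has conjugates.
-/

set_option autoImplicit false

noncomputable section

open UpperHalfPlane CongruenceSubgroup
open scoped MatrixGroups Manifold

namespace Fermat.Agent.KummerES

open ModularCurve (coeffMap)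

variable {L c : ℕ} [NeZero L]

omit [NeZero L] in
lemma natCast_two_eq_one_of_coprime (hc : c.Coprime L) (h2 : 2 ∣ L) : (c : ZMod 2) = 1 := by
  have hodd : c % 2 = 1 := by
    have := hc.coprime_dvd_right h2
    rw [Nat.coprime_two_right, Nat.odd_iff] at this
    exact this
  rw [← Nat.cast_one, ZMod.natCast_eq_natCast_iff, Nat.ModEq, hodd]

omit [NeZero L] in
lemma mul_inv_mem_Gamma_two (h2 : 2 ∣ L) (hc : c.Coprime L) {δ δ' : SL(2, ℤ)}
    (h : TwistRel L c δ δ') : δ' * δ⁻¹ ∈ Gamma 2 := by
  have h' := h.mono h2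
  have hD : diagMat 2 c = 1 := by
    ext i j; fin_cases i <;> fin_cases j <;> simp [diagMat, natCast_two_eq_one_of_coprime hc h2]
  rw [TwistRel, hD, mul_one, one_mul] at h'
  rw [redMat_eq_one_iff, redMat_mul, h', ← redMat_mul, mul_inv_cancel, redMat_one]

omit [NeZero L] in
/-- A self-conjugate function of level `2` has fixed expansions at every cusp. -/
lemma coeffMap_expansion_of_level_two (h2 : 2 ∣ L) (hc : c.Coprime L) {σ : ℂ →+* ℂ} {f : ℍ → ℂ}
    (hf : ∀ γ ∈ Gamma 2, comp f γ = f) (hconj : IsConj L c σ f f) (δ : SL(2, ℤ)) :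
    coeffMap σ (expansion L (comp f δ)) = expansion L (comp f δ) := by
  obtain ⟨δ', hδ⟩ := exists_twistRel_of_coprime hc δ
  have h := hconj.2.2 δ δ' hδ
  have : comp f δ' = comp f δ := by
    rw [show δ' = δ' * δ⁻¹ * δ by group, ← comp_comp, hf _ (mul_inv_mem_Gamma_two h2 hc hδ)]
  rw [this] at h
  exact h.symm

omit [NeZero L] in
lemma diagTwist_tv_two (h2 : 2 ∣ L) (hc : c.Coprime L) (v : Ind 2) :
    diagTwist (c : ZMod L) (tv L (L / 2) v) = tv L (L / 2) v := by
  obtain ⟨k, hk⟩ : ∃ k, c = 2 * k + 1 := by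
    have := hc.coprime_dvd_right h2
    rwa [Nat.coprime_two_right] at this
  have h0 : ((L / 2 : ℕ) : ZMod L) * 2 = 0 := by
    rw [show (2 : ZMod L) = ((2 : ℕ) : ZMod L) from Nat.cast_two.symm, ← Nat.cast_mul,
      Nat.div_mul_cancel h2, ZMod.natCast_self]
  ext i
  fin_cases i
  · simp [diagTwist]
  · have hy : ∀ y : ZMod 2, (c : ZMod L) * tmap L (L / 2) y = tmap L (L / 2) y := fun y => by
      rw [tmap, hk]
      push_cast
      linear_combination ((k : ZMod L) * (y.val : ZMod L)) * h0
    simpa [diagTwist, tv] using hy (v 1)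

section

variable (h2 : 2 ∣ L)

/-- The coordinate is self-conjugate. -/
lemma isConj_baseTwo_t {σ : ℂ →+* ℂ} (hσ : σ (zetaC L) = zetaC L ^ c) :
    IsConj L c σ (baseData 2 L (.inl rfl) h2).t (baseData 2 L (.inl rfl) h2).t := by
  have hc : c.Coprime L := coprime_of_conj hσ
  have hL : L = L / 2 * 2 := (Nat.div_mul_cancel h2).symm
  have he : 0 < L / 2 := Nat.div_pos (Nat.le_of_dvd (Nat.pos_of_ne_zero (NeZero.ne L)) h2) two_pos
  have hv := (quad_facts (M := 2) (.inl rfl)).1.1
  have h := (ratioData L).isConj_ratio hσ hc (isPair_tv hL hv.left he) (isPair_tv hL hv.right he)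
  rw [diagTwist_tv_two h2 hc, diagTwist_tv_two h2 hc, diagTwist_tv_two h2 hc,
    diagTwist_tv_two h2 hc] at h
  exact h

lemma map_baseTwo_bad {σ : ℂ →+* ℂ} (hσ : σ (zetaC L) = zetaC L ^ c) {b : ℂ}
    (hb : b ∈ (baseData 2 L (.inl rfl) h2).bad) : σ b = b := by
  obtain ⟨x, -, rfl⟩ := Finset.mem_image.mp hb
  have h := coeffMap_expansion_of_level_two h2 (coprime_of_conj hσ)
    (baseData 2 L (.inl rfl) h2).t_mem.2.1 (isConj_baseTwo_t h2 hσ) (cuspMat x.1)
  have h' := congrArg (fun s : LaurentSeries ℂ => s.coeff 0) h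
  simp only [ModularCurve.coeffMap_coeff] at h'
  exact h'

/-- Every weakly holomorphic function of even level has conjugates. -/
theorem hasConj_of_two_dvd (h2 : 2 ∣ L) : HasConj L := by
  let H : LevelHyp 2 L (⊤ : Subring ℂ) :=
    { D := ratioData L, T := baseData 2 L (.inl rfl) h2, le := le_top, two_le := le_rfl, dvd := h2 }
  refine hasConj_of_generators H.gens (fun σ c hσ f hf => ?_) fun f hf => ?_
  · have hc : c.Coprime L := coprime_of_conj hσ
    rcases hf with ⟨a, -, rfl⟩ | ⟨v, w, a, b, hvw, hab, rfl⟩ | rfl | ⟨b, hb, hu, hub⟩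
    · exact ⟨_, IsConj.const a⟩
    · exact ⟨_, (ratioData L).isConj_ratio hσ hc hvw hab⟩
    · exact ⟨_, isConj_baseTwo_t h2 hσ⟩
    · refine ⟨f, weak_mono (gamma_le_of_dvd h2) le_top hu, weak_mono (gamma_le_of_dvd h2) le_top hu,
        fun δ δ' hδ => ?_⟩
      have ht := isConj_baseTwo_t h2 hσ
      have htc : IsConj L c σ (H.T.t - fun _ => b) (H.T.t - fun _ => b) := by
        have := ht.add (IsConj.const (L := L) (c := c) (σ := σ) b).neg
        simp only [map_baseTwo_bad h2 hσ hb] at this
        simpa [sub_eq_add_neg] using this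
      have hone : ∀ η : SL(2, ℤ),
          expansion L (comp (H.T.t - fun _ => b) η) * expansion L (comp f η) = 1 := fun η => by
        refine (((hasExp_expansion htc.1 η).mul (hasExp_expansion hu η)).series_eq ?_)
        have : comp (H.T.t - fun _ => b) η * comp f η = 1 := by
          rw [show comp (H.T.t - fun _ => b) η * comp f η = comp ((H.T.t - fun _ => b) * f) η
            from rfl, hub]
          rfl
        rw [this]
        exact HasExp.one
      refine mul_left_cancel₀ (left_ne_zero_of_mul_eq_one (hone δ)) ?_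
      rw [hone, htc.2.2 δ δ' hδ, ← map_mul, hone, map_one]
  · refine Subring.closure_mono (fun x hx => Set.mem_union_right _ hx) ?_
    show f ∈ H.genRing
    rw [H.genRing_eq]
    exact hf

/-- Conjugation data at an even level. -/
def conjLevelTwo {Γ : Subgroup SL(2, ℤ)} {N : ℕ} (h2 : 2 ∣ L) (hΓ : IsDiagStable Γ N)
    (hNL : N ∣ L) : ConjLevel Γ N L where
  M := 2
  base := baseData 2 L (.inl rfl) h2
  dvd_M := h2
  hasConj := hasConj_of_two_dvd h2
  fixed σ := by
    obtain ⟨c, -, hσ⟩ := exists_pow_zetaC L (σ : ℂ →+* ℂ)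
    exact (isConj_baseTwo_t h2 hσ).expansion_eq.symm
  stable := hΓ
  dvd_N := hNL

end

end Fermat.Agent.KummerES
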