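import Fermat.Agent.KummerES.ConjugateRep
import Mathlib.FieldTheory.Galois.Infinite
import Mathlib.FieldTheory.Normal.Closure

/-!
# Kummer roots with powers defined over a number field

The canonical roots have, at every cusp, expansions with coefficients in one number field.
-/

set_option autoImplicit false

noncomputable section

open UpperHalfPlane CongruenceSubgroup ModularCurve.Period
open scoped MatrixGroups Manifold

local notation "GQ" => AlgebraicClosure ℚ ≃ₐ[ℚ] AlgebraicClosure ℚ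

namespace Fermat.Agent.KummerES

open ModularCurve (coeffMap)

variable {Γ : Subgroup SL(2, ℤ)} {N L n : ℕ} [NeZero L] [NeZero n]

omit [NeZero L] in
lemma exists_twistRel_right {c : ℕ} (hc : c.Coprime L) (δ' : SL(2, ℤ)) :
    ∃ δ, TwistRel L c δ δ' := by
  obtain ⟨d, hd⟩ : ∃ d : ℕ, c * d ≡ 1 [MOD L] := by
    rcases L with _ | _ | m
    · exact ⟨1, by rw [show c = 1 by simpa using hc]⟩
    · exact ⟨1, Nat.modEq_one⟩
    · obtain ⟨d, -, hd⟩ := Nat.exists_mul_mod_eq_one_of_coprime (k := m + 2) hc (by omega)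
      exact ⟨d, by rw [Nat.ModEq, hd, Nat.one_mod]⟩
  have hcd : ((c * d : ℕ) : ZMod L) = 1 := by
    rw [← Nat.cast_one, ZMod.natCast_eq_natCast_iff]; exact hd
  have hd' : d.Coprime L := (ZMod.isUnit_iff_coprime d L).mp
    (IsUnit.of_mul_eq_one (c : ZMod L) (by rw [mul_comm, ← Nat.cast_mul, hcd]))
  obtain ⟨δ, hδ⟩ := exists_twistRel_of_coprime hd' δ'
  refine ⟨δ, ?_⟩
  have h1 : diagMat L c * diagMat L d = 1 := by
    ext i j
    fin_cases i <;> fin_cases j <;>
      simp [diagMat, Matrix.mul_apply, Fin.sum_univ_two, ← Nat.cast_mul, hcd]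
  have h2 : diagMat L d * diagMat L c = 1 := mul_eq_one_comm.mp h1
  unfold TwistRel at hδ ⊢
  calc redMat L δ' * diagMat L c
      = diagMat L c * (diagMat L d * redMat L δ') * diagMat L c := by
        rw [← mul_assoc (diagMat L c), h1, one_mul]
    _ = diagMat L c * (redMat L δ * diagMat L d) * diagMat L c := by rw [hδ]
    _ = diagMat L c * redMat L δ := by rw [mul_assoc, mul_assoc, h2, mul_one]

omit [NeZero L] in
lemma comp_eq_comp_out {f : ℍ → ℂ} (hf : f ∈ weak (Gamma L) L ⊤) (δ : SL(2, ℤ)) :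
    comp f δ = comp f (δ : SL(2, ℤ) ⧸ Gamma L).out := by
  have : (Gamma L).Normal := Gamma_normal L
  set q : SL(2, ℤ) ⧸ Gamma L := (δ : SL(2, ℤ) ⧸ Gamma L) with hq
  have hmem : δ * q.out⁻¹ ∈ Gamma L := by
    rw [← QuotientGroup.eq_one_iff, QuotientGroup.mk_mul, QuotientGroup.mk_inv,
      QuotientGroup.out_eq', hq, mul_inv_cancel]
  conv_lhs => rw [show δ = δ * q.out⁻¹ * q.out by group, ← comp_comp, hf.2.1 _ hmem]

namespace ConjLevel

variable (S : ConjLevel Γ N L)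

include S in
lemma exists_isConj_canon (σ : ℂ ≃+* ℂ) {K c : ℕ}
    (hσ : (σ : ℂ →+* ℂ) (zetaC L) = zetaC L ^ c) {χ : parabolicHoms ℤ Γ (ZMod n)} {g : ℍ → ℂ}
    (hg : IsCanon L K χ g) :
    ∃ g', IsCanon L K (S.conjChar σ χ) g' ∧ IsConj L c (σ : ℂ →+* ℂ) (g ^ n) (g' ^ n) := by
  obtain ⟨g', hg', hexp⟩ := S.exists_isCanon_conj σ hg
  obtain ⟨f', hf'⟩ := S.hasConj _ c hσ _ hg.kummer.pow_mem
  have : g' ^ n = f' :=
    eq_of_expansion_eq hg'.kummer.pow_mem hf'.2.1 (hexp.trans hf'.expansion_eq.symm)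
  exact ⟨g', hg', this ▸ hf'⟩

include S in
lemma isAlgebraic_coeff_canon {K : ℕ} {χ : parabolicHoms ℤ Γ (ZMod n)} {g : ℍ → ℂ}
    (hg : IsCanon L K χ g) (δ' : SL(2, ℤ)) (i : ℤ) :
    IsAlgebraic ℚ ((expansion L (comp (g ^ n) δ')).coeff i) := by
  classical
  have := finite_parabolicHoms (n := n) S.gamma_le
  refine isAlgebraic_of_finite_orbit (Set.Finite.subset (Set.finite_iUnion
    (fun x : parabolicHoms ℤ Γ (ZMod n) × (SL(2, ℤ) ⧸ Gamma L) => Set.Subsingleton.finite
      (s := {z : ℂ | ∃ h, IsCanon L K x.1 h ∧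
        z = (expansion L (comp (h ^ n) x.2.out)).coeff i}) ?_)) ?_)
  · rintro z ⟨h, hh, rfl⟩ w ⟨h', hh', rfl⟩
    rw [hh.pow_eq S.gamma_le hh']
  · rintro _ ⟨σ, rfl⟩
    obtain ⟨c, hc, hσ⟩ := exists_pow_zetaC L (σ : ℂ →+* ℂ)
    obtain ⟨g', hg', hconj⟩ := S.exists_isConj_canon σ hσ hg
    obtain ⟨δ, hδ⟩ := exists_twistRel_right hc δ'
    refine Set.mem_iUnion.mpr ⟨(_, (δ : SL(2, ℤ) ⧸ Gamma L)), g', hg', ?_⟩
    rw [← comp_eq_comp_out hg'.kummer.pow_mem, hconj.2.2 δ δ' hδ]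
    simp

include S in
/-- Roots whose powers have, at all cusps, coefficients in one number field. -/
theorem exists_numberField_roots : ∃ E : IntermediateField ℚ (AlgebraicClosure ℚ),
    FiniteDimensional ℚ E ∧ Normal ℚ E ∧ ∀ χ : parabolicHoms ℤ Γ (ZMod n), ∃ g,
      IsKummer L n χ.1 g ∧
        g ^ n ∈ weak (Gamma L) L (E.toSubalgebra.toSubring.map complexEmbedding.toRingHom) := by
  classical
  have := finite_parabolicHoms (n := n) S.gamma_le
  let := Fintype.ofFinite (parabolicHoms ℤ Γ (ZMod n))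
  choose T hT hfix using fun χ : parabolicHoms ℤ Γ (ZMod n) => S.exists_finset_fixing χ
  obtain ⟨ζ, hζ⟩ := mem_range_complexEmbedding (z := zetaC L) (IsIntegral.isAlgebraic
    ⟨Polynomial.X ^ L - 1, Polynomial.monic_X_pow_sub_C 1 (NeZero.ne L), by
      simp [zetaC_pow_self]⟩)
  let U : Set (AlgebraicClosure ℚ) :=
    insert ζ (complexEmbedding ⁻¹' ((Finset.univ.biUnion T : Finset ℂ) : Set ℂ))
  have hU : U.Finite := Set.Finite.insert _
    ((Finset.finite_toSet _).preimage complexEmbedding.toRingHom.injective.injOn)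
  have := hU.to_subtype
  let E₀ := IntermediateField.adjoin ℚ U
  have : FiniteDimensional ℚ E₀ := IntermediateField.finiteDimensional_adjoin
    fun x _ => ((AlgebraicClosure.isAlgebraic ℚ).isAlgebraic x).isIntegral
  have : Algebra.IsAlgebraic ℚ (AlgebraicClosure ℚ) := AlgebraicClosure.isAlgebraic ℚ
  have : IsAlgClosure ℚ (AlgebraicClosure ℚ) := ⟨inferInstance, inferInstance⟩
  have : Normal ℚ (AlgebraicClosure ℚ) := IsAlgClosure.normal ℚ _
  have : IsGalois ℚ (AlgebraicClosure ℚ) := IsGalois.mk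
  refine ⟨IntermediateField.normalClosure ℚ E₀ (AlgebraicClosure ℚ), inferInstance,
    by convert normalClosure.normal ℚ E₀ (AlgebraicClosure ℚ); exact Subsingleton.elim _ _,
    fun χ => ?_⟩
  obtain ⟨g₀, hg₀⟩ := exists_isKummer S.gamma_le χ
  obtain ⟨K, hK⟩ := exists_poleBound hg₀.pow_mem
  obtain ⟨g, hg⟩ := exists_isCanon S.gamma_le hg₀ hK
  refine ⟨g, hg.kummer, hg.kummer.holo.pow n, hg.kummer.pow_mem.2.1, fun δ =>
    ⟨_, fun i => ?_, hasExp_expansion hg.kummer.pow_mem δ⟩⟩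
  obtain ⟨x, hx⟩ := mem_range_complexEmbedding (S.isAlgebraic_coeff_canon hg δ i)
  refine ⟨x, IntermediateField.le_normalClosure E₀ ?_, hx⟩
  rw [← InfiniteGalois.fixedField_fixingSubgroup E₀, IntermediateField.mem_fixedField_iff]
  intro s hs
  rw [IntermediateField.mem_fixingSubgroup_iff] at hs
  obtain ⟨σ, hσ⟩ := exists_aut_extend_galois s
  have hσT : ∀ z ∈ T χ, σ z = z := fun z hz => by
    obtain ⟨y, rfl⟩ := mem_range_complexEmbedding (hT χ z hz)
    rw [hσ, hs y (IntermediateField.subset_adjoin ℚ U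
      (Set.mem_insert_of_mem _ (Finset.mem_biUnion.mpr ⟨χ, Finset.mem_univ _, hz⟩)))]
  have hσζ : (σ : ℂ →+* ℂ) (zetaC L) = zetaC L ^ 1 := by
    rw [pow_one, ← hζ, RingEquiv.coe_toRingHom, hσ,
      hs ζ (IntermediateField.subset_adjoin ℚ U (Set.mem_insert _ _))]
  obtain ⟨g', hg', hconj⟩ := S.exists_isConj_canon σ hσζ hg
  rw [hfix χ σ hσT] at hg'
  rw [hg'.pow_eq S.gamma_le hg] at hconj
  have h1 : TwistRel L 1 δ δ := by
    have hD : diagMat L 1 = 1 := by
      ext i j; fin_cases i <;> fin_cases j <;> simp [diagMat]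
    rw [TwistRel, hD, mul_one, one_mul]
  have h2 := congrArg (fun t : LaurentSeries ℂ => t.coeff i) (hconj.2.2 δ δ h1)
  refine complexEmbedding.toRingHom.injective ?_
  show complexEmbedding (s x) = complexEmbedding x
  rw [← hσ, hx]
  simpa using h2.symm

end ConjLevel

end Fermat.Agent.KummerES
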