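import Fermat.Agent.KummerES.HeckeRoot
import Fermat.Agent.KummerES.LevelOne
import Fermat.Prelude.Thm_ModularCurve_coeffMap_qExpand
import Mathlib.RingTheory.PowerSeries.Expand

/-!
# The congruence for the expansion of a Hecke product

For `f` with expansion `s` and `f'` with expansion `s'` in `q`, with coefficients in a ring `B`
reducing to a field `k` of characteristic `ℓ`, the series `t` with
`∏_j f ((τ + j)/ℓ) * f' (ℓ τ) = t(q)` reduces to `φ s̄ * s̄'(q^ℓ)`, where `φ` is the Frobenius on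
coefficients; hence `φ t̄ = φ² s̄ * s̄' ^ ℓ`.
-/

set_option autoImplicit false

noncomputable section

open UpperHalfPlane CongruenceSubgroup
open scoped MatrixGroups Manifold OnePoint Real

namespace Fermat.Agent.KummerES

open HeckeLattice (CosetSystem Idx rep toGL)
open ModularCurve (qExpand coeffMap)

section series

variable {R : Type*} [CommRing R] (ℓ : ℕ)

/-- `contract` is a left inverse of `qExpand`. -/
lemma contract_qExpand [NeZero ℓ] (s : LaurentSeries R) : contract ℓ (qExpand R ℓ s) = s := by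
  ext i; rw [contract_coeff, ModularCurve.qExpand_coeff_mul]

/-- `contract` commutes with maps of coefficients. -/
lemma coeffMap_contract [NeZero ℓ] {S : Type*} [CommRing S] (f : R →+* S) (s : LaurentSeries R) :
    coeffMap f (contract ℓ s) = contract ℓ (coeffMap f s) := by
  ext i; simp

/-- The twist of a series by a power of `z`, with nonnegative exponents. -/
def twistMod (z : R) (s : LaurentSeries R) : LaurentSeries R :=
  HahnSeries.ofSuppBddBelow (fun i => z ^ (i % (ℓ : ℤ)).toNat * s.coeff i)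
    (bddBelow_support_of_forall_lt s.order fun i hi => by
      simp [HahnSeries.coeff_eq_zero_of_lt_order hi])

@[simp] lemma twistMod_coeff (z : R) (s : LaurentSeries R) (i : ℤ) :
    (twistMod ℓ z s).coeff i = z ^ (i % (ℓ : ℤ)).toNat * s.coeff i := rfl

lemma twistMod_one (s : LaurentSeries R) : twistMod ℓ 1 s = s := by
  ext i; simp

/-- `twistMod` commutes with maps of coefficients. -/
lemma coeffMap_twistMod {S : Type*} [CommRing S] (f : R →+* S) (z : R) (s : LaurentSeries R) :
    coeffMap f (twistMod ℓ z s) = twistMod ℓ (f z) (coeffMap f s) := by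
  ext i; simp

lemma twist_eq_twistMod {K : Type*} [Field K] [NeZero ℓ] (c : K) (hc : c ≠ 0) (h : c ^ ℓ = 1)
    (s : LaurentSeries K) : twist c hc s = twistMod ℓ c s := by
  ext i
  rw [twist_coeff, twistMod_coeff]
  congr 1
  have h0 : 0 ≤ i % (ℓ : ℤ) := Int.emod_nonneg _ (by exact_mod_cast NeZero.ne ℓ)
  conv_lhs => rw [← Int.mul_ediv_add_emod i ℓ]
  rw [zpow_add₀ hc, zpow_mul, zpow_natCast, h, one_zpow, one_mul, ← zpow_natCast,
    Int.toNat_of_nonneg h0]

variable {k : Type*} [Field k] [hℓ : Fact ℓ.Prime] [CharP k ℓ]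

/-- In characteristic `ℓ`, `s(q) ^ ℓ = (φ s)(q ^ ℓ)`. -/
lemma pow_eq_qExpand_frobenius (s : LaurentSeries k) :
    s ^ ℓ = qExpand k ℓ (coeffMap (frobenius k ℓ) s) := by
  have hP : ∀ P : PowerSeries k, (P : LaurentSeries k) ^ ℓ
      = qExpand k ℓ (coeffMap (frobenius k ℓ) (P : LaurentSeries k)) := by
    intro P
    have hpow : P ^ ℓ = PowerSeries.map (frobenius k ℓ) (PowerSeries.expand ℓ hℓ.out.ne_zero P) :=
      (MvPowerSeries.map_frobenius_expand ℓ hℓ.out.ne_zero (f := P)).symm
    rw [← map_pow]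
    ext i
    by_cases hi : (ℓ : ℤ) ∣ i
    · obtain ⟨m, rfl⟩ := hi
      rw [ModularCurve.qExpand_coeff_mul, ModularCurve.coeffMap_coeff]
      rcases lt_or_ge m 0 with hm | hm
      · have h1 : (ℓ : ℤ) * m < 0 := by
          have : (1 : ℤ) ≤ ℓ := by exact_mod_cast hℓ.out.one_le
          nlinarith
        rw [PowerSeries.coeff_coe, PowerSeries.coeff_coe]
        simp only [hm, h1, if_true]
        rw [map_zero]
      · lift m to ℕ using hm
        rw [← Nat.cast_mul, LaurentSeries.coeff_coe_powerSeries,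
          LaurentSeries.coeff_coe_powerSeries, hpow, PowerSeries.coeff_map,
          PowerSeries.coeff_expand_mul]
    · rw [ModularCurve.qExpand_coeff_of_not_dvd ℓ _ hi]
      rcases lt_or_ge i 0 with hm | hm
      · rw [PowerSeries.coeff_coe]; simp [hm]
      · lift i to ℕ using hm
        rw [LaurentSeries.coeff_coe_powerSeries, hpow, PowerSeries.coeff_map,
          PowerSeries.coeff_expand_of_not_dvd ℓ _ _ (fun h => hi (by exact_mod_cast h)), map_zero]
  conv_lhs => rw [← s.single_order_mul_powerSeriesPart, mul_pow, hP]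
  conv_rhs => rw [← s.single_order_mul_powerSeriesPart, map_mul, map_mul]
  congr 1
  simp [HahnSeries.single_pow]

end series

section congruence

variable (ℓ : ℕ) [hℓ : Fact ℓ.Prime]

/-- `qL 1` at a translated point, for the upper triangular representatives. -/
lemma qL_one_heckeMatrix (j : ℕ) (τ : ℍ) :
    qL 1 (ModularForm.heckeMatrix ℓ j • τ) = zetaC ℓ ^ j * qL ℓ τ ^ 1 := by
  have hl : (ℓ : ℂ) ≠ 0 := by exact_mod_cast hℓ.out.ne_zero
  show Function.Periodic.qParam _ ((ModularForm.heckeMatrix ℓ j • τ : ℍ) : ℂ) = _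
  rw [ModularForm.coe_heckeMatrix_smul hℓ.out.ne_zero, pow_one, qL, zetaC,
    Function.Periodic.qParam, Function.Periodic.qParam, ← Complex.exp_nat_mul, ← Complex.exp_add]
  congr 1
  push_cast
  field_simp
  ring

/-- `qL 1` at a translated point, for the diagonal representative. -/
lemma qL_one_heckeDiagMatrix (τ : ℍ) :
    qL 1 (ModularForm.heckeDiagMatrix ℓ • τ) = 1 * qL ℓ τ ^ (ℓ * ℓ) := by
  have hl : (ℓ : ℂ) ≠ 0 := by exact_mod_cast hℓ.out.ne_zero
  show Function.Periodic.qParam _ ((ModularForm.heckeDiagMatrix ℓ • τ : ℍ) : ℂ) = _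
  rw [ModularForm.coe_heckeDiagMatrix_smul hℓ.out.ne_zero, one_mul, qL, Function.Periodic.qParam,
    Function.Periodic.qParam, ← Complex.exp_nat_mul]
  congr 1
  push_cast
  field_simp

/-- The product `∏_j f ((τ + j)/ℓ) * f' (ℓ τ)`. -/
def heckePair (f f' : ℍ → ℂ) : ℍ → ℂ := fun τ =>
  (∏ j : ZMod ℓ, f (ModularForm.heckeMatrix ℓ j.val • τ))
    * f' (ModularForm.heckeDiagMatrix ℓ • τ)

/-- The expansion of a Hecke pair. -/
lemma heckePair_hasExp {f f' : ℍ → ℂ} {s s' : LaurentSeries ℂ} (hs : HasExp 1 f s)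
    (hs' : HasExp 1 f' s') :
    HasExp ℓ (heckePair ℓ f f')
      ((∏ j : ZMod ℓ, twistMod ℓ (zetaC ℓ ^ j.val) s) * qExpand ℂ (ℓ * ℓ) s') := by
  classical
  have hfac : ∀ j : ZMod ℓ, HasExp ℓ (fun τ => f (ModularForm.heckeMatrix ℓ j.val • τ))
      (twistMod ℓ (zetaC ℓ ^ j.val) s) := by
    intro j
    have h := hs.subst (L' := ℓ) (fun τ => ModularForm.heckeMatrix ℓ j.val • τ)
      (pow_ne_zero j.val (zetaC_ne_zero ℓ)) 1 (qL_one_heckeMatrix ℓ j.val)
    rw [ModularCurve.qExpand_one_apply, twist_eq_twistMod ℓ _ _ (by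
      rw [← pow_mul, mul_comm, pow_mul, (isPrimitiveRoot_zetaC ℓ).pow_eq_one, one_pow])] at h
    exact h
  have hV : HasExp ℓ (fun τ => f' (ModularForm.heckeDiagMatrix ℓ • τ))
      (qExpand ℂ (ℓ * ℓ) s') := by
    have h := hs'.subst (L' := ℓ) (fun τ => ModularForm.heckeDiagMatrix ℓ • τ) one_ne_zero (ℓ * ℓ)
      (qL_one_heckeDiagMatrix ℓ)
    have ht : twist (1 : ℂ) one_ne_zero s' = s' := by ext i; simp
    rwa [ht] at h
  have hprod : ∀ T : Finset (ZMod ℓ),
      HasExp ℓ (fun τ => ∏ j ∈ T, f (ModularForm.heckeMatrix ℓ j.val • τ))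
        (∏ j ∈ T, twistMod ℓ (zetaC ℓ ^ j.val) s) := by
    intro T
    induction T using Finset.induction_on with
    | empty => simpa [Pi.one_def] using (HasExp.one (L := ℓ))
    | insert a T ha ih =>
      simp only [Finset.prod_insert ha]
      exact (hfac a).mul ih
  exact (hprod Finset.univ).mul hV

variable {k : Type*} [Field k] [CharP k ℓ]

lemma map_rootOfUnity_eq_one {B : Subring ℂ} (red : B →+* k) (hζ : zetaC ℓ ∈ B) :
    red ⟨zetaC ℓ, hζ⟩ = 1 := by
  apply frobenius_inj k ℓ
  rw [frobenius_def, map_one, ← map_pow,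
    show (⟨zetaC ℓ, hζ⟩ : B) ^ ℓ = 1 from Subtype.ext (isPrimitiveRoot_zetaC ℓ).pow_eq_one, map_one]

/-- The reduction of the expansion of a Hecke product. -/
theorem exists_reduction_heckePair {B : Subring ℂ} (red : B →+* k) (hζ : zetaC ℓ ∈ B)
    {f f' : ℍ → ℂ} {S S' : LaurentSeries B} (hs : HasExp 1 f (coeffMap B.subtype S))
    (hs' : HasExp 1 f' (coeffMap B.subtype S')) {t : LaurentSeries ℂ}
    (ht : HasExp 1 (heckePair ℓ f f') t) :
    ∃ T : LaurentSeries B, coeffMap B.subtype T = t ∧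
      coeffMap red T = coeffMap (frobenius k ℓ) (coeffMap red S)
        * qExpand k ℓ (coeffMap red S') ∧
      coeffMap (frobenius k ℓ) (coeffMap red T)
        = coeffMap (frobenius k ℓ) (coeffMap (frobenius k ℓ) (coeffMap red S))
          * coeffMap red S' ^ ℓ := by
  set P : LaurentSeries B :=
    (∏ j : ZMod ℓ, twistMod ℓ ((⟨zetaC ℓ, hζ⟩ : B) ^ j.val) S) * qExpand B (ℓ * ℓ) S' with hP
  have hP' : HasExp ℓ (heckePair ℓ f f') (coeffMap B.subtype P) := by
    rw [hP, map_mul, map_prod, ModularCurve.coeffMap_qExpand]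
    simp only [coeffMap_twistMod, map_pow]
    exact heckePair_hasExp ℓ hs hs'
  have htl : HasExp ℓ (heckePair ℓ f f') (qExpand ℂ ℓ t) := by
    have h1 : ∀ (L : ℕ), L = 1 * ℓ → HasExp L (heckePair ℓ f f') (qExpand ℂ ℓ t) := by
      intro L hL; subst hL; exact ht.dilate ℓ
    exact h1 ℓ (one_mul ℓ).symm
  have hsub := hP'.series_eq htl
  refine ⟨contract ℓ P, ?_, ?_⟩
  · rw [coeffMap_contract, hsub, contract_qExpand]
  have hred : coeffMap red P
      = qExpand k ℓ (coeffMap (frobenius k ℓ) (coeffMap red S)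
          * qExpand k ℓ (coeffMap red S')) := by
    rw [hP, map_mul, map_prod, ModularCurve.coeffMap_qExpand]
    simp only [coeffMap_twistMod, map_pow, map_rootOfUnity_eq_one ℓ red hζ, one_pow, twistMod_one,
      Finset.prod_const, Finset.card_univ, ZMod.card]
    rw [pow_eq_qExpand_frobenius, map_mul, ModularCurve.qExpand_qExpand]
  have hT : coeffMap red (contract ℓ P)
      = coeffMap (frobenius k ℓ) (coeffMap red S) * qExpand k ℓ (coeffMap red S') := by
    rw [coeffMap_contract, hred, contract_qExpand]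
  refine ⟨hT, ?_⟩
  rw [hT, map_mul, ModularCurve.coeffMap_qExpand, ← pow_eq_qExpand_frobenius]

/-- The Hecke product over the standard representatives of `Γ₀(N)`. -/
lemma heckeProd_gamma0System {N : ℕ} (hℓN : ¬ ℓ ∣ N) (f : ℍ → ℂ) :
    heckeProd (HeckeLattice.gamma0System N ℓ hℓN) f = heckePair ℓ f f := by
  funext τ
  show ∏ x : Option (ZMod ℓ), f (rep ℓ x • τ) = _
  rw [Fintype.prod_option, mul_comm]
  rfl

end congruence

end Fermat.Agent.KummerES
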