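import Fermat.Agent.KummerES.HeckeWeak
import Fermat.Agent.KummerES.HeckeSeries
import Fermat.Agent.KummerES.LevelOne

/-!
# Conjugation and Hecke products; Kummer roots witnessing the Eichler–Shimura relation

If `g'` is a conjugate of the Kummer root `g` (the expansion of `g' ^ n` is the conjugate of the
one of `g ^ n`), then the same holds for the Hecke products; if moreover the conjugation reduces
to the Frobenius of a field of characteristic `ℓ`, then `g'' * (g ∘ δ) ^ ℓ * (T g') ^ (n - 1)` is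
a Kummer root with multiplier `χ'' + ℓ χ^δ - T χ'` whose `n`-th power reduces to an `n`-th power.
-/

set_option autoImplicit false

noncomputable section

open UpperHalfPlane CongruenceSubgroup
open scoped MatrixGroups Manifold OnePoint Real

namespace Fermat.Agent.KummerES

open HeckeLattice (CosetSystem Idx rep toGL)
open ModularCurve (qExpand coeffMap)

/-- An injective map of coefficients preserves non-zero series. -/
lemma coeffMap_map_ne_zero {R S : Type*} [CommRing R] [CommRing S] {f : R →+* S}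
    (hf : Function.Injective f) {s : LaurentSeries R} (hs : s ≠ 0) : coeffMap f s ≠ 0 :=
  fun h => hs <| HahnSeries.ext <| funext fun i => hf <| by
    rw [← ModularCurve.coeffMap_coeff, h]; simp

variable (ℓ : ℕ) [hℓ : Fact ℓ.Prime]

/-- A ring endomorphism of `ℂ` raises `ζ_ℓ` to a power prime to `ℓ`. -/
lemma exists_map_zetaC (σ : ℂ →+* ℂ) :
    ∃ c : ℕ, (c : ZMod ℓ) ≠ 0 ∧ σ (zetaC ℓ) = zetaC ℓ ^ c := by
  have hz := isPrimitiveRoot_zetaC ℓ
  obtain ⟨c, -, hc⟩ := hz.eq_pow_of_pow_eq_one (ξ := σ (zetaC ℓ))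
    (by rw [← map_pow, hz.pow_eq_one, map_one])
  refine ⟨c, fun h0 => hz.ne_one hℓ.out.one_lt (σ.injective ?_), hc.symm⟩
  obtain ⟨m, rfl⟩ := (ZMod.natCast_eq_zero_iff c ℓ).mp h0
  rw [← hc, map_one, pow_mul, hz.pow_eq_one, one_pow]

/-- Conjugation of expansions commutes with Hecke products. -/
theorem hasExp_heckePair_map (σ : ℂ →+* ℂ) {f f' F F' : ℍ → ℂ} {s u t : LaurentSeries ℂ}
    (hs : HasExp 1 f s) (hs' : HasExp 1 f' (coeffMap σ s)) (hu : HasExp 1 F u)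
    (hu' : HasExp 1 F' (coeffMap σ u)) (ht : HasExp 1 (heckePair ℓ f F) t) :
    HasExp 1 (heckePair ℓ f' F') (coeffMap σ t) := by
  have key : ∀ (L : ℕ), L = 1 * ℓ → ∀ (G : ℍ → ℂ) (v : LaurentSeries ℂ),
      (HasExp 1 G v → HasExp L G (qExpand ℂ ℓ v)) ∧
      (HasExp L G (qExpand ℂ ℓ v) → HasExp 1 G v) := by
    intro L hL G v; subst hL; exact ⟨fun h => h.dilate ℓ, HasExp.of_qExpand ℓ⟩
  have htl := (key ℓ (one_mul ℓ).symm _ _).1 ht
  have hP := (heckePair_hasExp ℓ hs hu).series_eq htl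
  refine (key ℓ (one_mul ℓ).symm _ _).2 ?_
  rw [← ModularCurve.coeffMap_qExpand, ← hP, map_mul, map_prod, ModularCurve.coeffMap_qExpand]
  obtain ⟨c, hc0, hc⟩ := exists_map_zetaC ℓ σ
  have hre : (∏ j : ZMod ℓ, coeffMap σ (twistMod ℓ (zetaC ℓ ^ j.val) s))
      = ∏ j : ZMod ℓ, twistMod ℓ (zetaC ℓ ^ j.val) (coeffMap σ s) := by
    refine Eq.trans ?_ (Equiv.prod_comp (Equiv.mulLeft₀ (c : ZMod ℓ) hc0)
      (fun j => twistMod ℓ (zetaC ℓ ^ j.val) (coeffMap σ s)))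
    refine Finset.prod_congr rfl fun j _ => ?_
    rw [coeffMap_twistMod]
    exact congrArg (fun z => twistMod ℓ z (coeffMap σ s)) (map_rootPow hc j)
  rw [hre]
  exact heckePair_hasExp ℓ hs' hu'

variable {ℓ} {Γ : Subgroup SL(2, ℤ)} {D : CosetSystem Γ (Idx ℓ)} {L n : ℕ} [NeZero L] [NeZero n]

lemma IsKummer.exists_pow_hasExp_one (hT : ModularGroup.T ∈ Γ) {χ : Additive Γ →+ ZMod n}
    {g : ℍ → ℂ} (hg : IsKummer L n χ g) : ∃ t, t ≠ 0 ∧ HasExp 1 (g ^ n) t := by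
  obtain ⟨s, hs0, hs⟩ := hg.exists_pow_hasExp
  obtain ⟨t, ht, hts⟩ := exists_hasExp_one hs (hg.pow_comp_eq hT)
  exact ⟨t, fun h => hs0 (by rw [← hts, h, map_zero]), ht⟩

/-- Hecke products of conjugate Kummer roots are conjugate Kummer roots. -/
theorem exists_conj_heckeProd (hD : IsStandard D) (δ : SL(2, ℤ))
    (hDδ : ∀ F, heckeProd D F = heckePair ℓ F (comp F δ)) (hT : ModularGroup.T ∈ Γ)
    (hL : Gamma L ≤ Γ) (σ : ℂ →+* ℂ) {χ χ' : Additive Γ →+ ZMod n} {g g' : ℍ → ℂ}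
    (hg : IsKummer L n χ g) (hg' : IsKummer L n χ' g') {s u : LaurentSeries ℂ}
    (hs : HasExp 1 (g ^ n) s) (hs' : HasExp 1 (g' ^ n) (coeffMap σ s))
    (hu : HasExp 1 (comp (g ^ n) δ) u) (hu' : HasExp 1 (comp (g' ^ n) δ) (coeffMap σ u)) :
    IsKummer L n (D.transfer χ) (heckeProd D g) ∧ IsKummer L n (D.transfer χ') (heckeProd D g') ∧
      ∃ t, t ≠ 0 ∧ HasExp 1 (heckeProd D g ^ n) t ∧
        HasExp 1 (heckeProd D g' ^ n) (coeffMap σ t) := by
  have hK := isKummer_heckeProd_self hD hL hg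
  have hK' := isKummer_heckeProd_self hD hL hg'
  obtain ⟨t, ht0, ht⟩ := hK.exists_pow_hasExp_one hT
  refine ⟨hK, hK', t, ht0, ht, ?_⟩
  rw [← heckeProd_pow, hDδ] at ht ⊢
  exact hasExp_heckePair_map ℓ σ hs hs' hu hu' ht

/-- `(n - 1) • x = -x` for characters with values in `ℤ/n`. -/
lemma pred_nsmul_eq_neg (x : Additive Γ →+ ZMod n) : (n - 1) • x = -x := by
  refine eq_neg_of_add_eq_zero_left ?_
  rw [← succ_nsmul, Nat.sub_add_cancel (Nat.one_le_iff_ne_zero.mpr (NeZero.ne n))]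
  ext γ
  simp [AddMonoidHom.smul_apply, nsmul_eq_mul]

variable {k : Type*} [Field k] [CharP k ℓ]

/-- The Kummer root witnessing `χ'' + ℓ χ^δ = T χ'`. -/
theorem exists_kummer_frobenius (hD : IsStandard D) (δ : SL(2, ℤ))
    (hDδ : ∀ F, heckeProd D F = heckePair ℓ F (comp F δ)) (dia : Γ →* Γ)
    (hdia : ∀ γ : Γ, (dia γ : SL(2, ℤ)) = δ * γ * δ⁻¹) (hT : ModularGroup.T ∈ Γ)
    (hL : Gamma L ≤ Γ) {B : Subring ℂ} (red : B →+* k) (hζ : zetaC (L * ℓ) ∈ B)
    {χ χ' χ'' : Additive Γ →+ ZMod n} {g g' g'' : ℍ → ℂ}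
    (hg : IsKummer L n χ g) (hg' : IsKummer L n χ' g') (hg'' : IsKummer L n χ'' g'')
    (hgB : g ^ n ∈ weak (Gamma L) L B) (hg'B : g' ^ n ∈ weak (Gamma L) L B)
    (hg''B : g'' ^ n ∈ weak (Gamma L) L B)
    {U S' U' S'' : LaurentSeries B}
    (hU : HasExp 1 (comp (g ^ n) δ) (coeffMap B.subtype U))
    (hS' : HasExp 1 (g' ^ n) (coeffMap B.subtype S'))
    (hU' : HasExp 1 (comp (g' ^ n) δ) (coeffMap B.subtype U'))
    (hS'' : HasExp 1 (g'' ^ n) (coeffMap B.subtype S''))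
    (h1 : coeffMap red U' = coeffMap (frobenius k ℓ) (coeffMap red U))
    (h2 : coeffMap red S'' = coeffMap (frobenius k ℓ) (coeffMap red S')) :
    ∃ w h : ℍ → ℂ,
      IsKummer L n (χ'' + ℓ • χ.comp dia.toAdditive - D.transfer χ') w ∧
      w ^ n ∈ weak (Gamma L) L B ∧ h ∈ weak (Gamma L) L B ∧ (∀ γ ∈ Γ, comp h γ = h) ∧
      ∃ W H : LaurentSeries B, HasExp 1 (w ^ n) (coeffMap B.subtype W) ∧
        HasExp 1 h (coeffMap B.subtype H) ∧ coeffMap red W = coeffMap red H ^ n ∧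
        coeffMap red H = coeffMap red S'' * coeffMap red U ^ ℓ := by
  have hζℓ : zetaC ℓ ∈ B := by
    have : zetaC ℓ = zetaC (L * ℓ) ^ L := by
      have hl : (ℓ : ℂ) ≠ 0 := by exact_mod_cast hℓ.out.ne_zero
      have hL0 : (L : ℂ) ≠ 0 := by exact_mod_cast NeZero.ne L
      rw [zetaC, zetaC, ← Complex.exp_nat_mul]
      congr 1
      push_cast
      field_simp
    rw [this]
    exact pow_mem hζ _
  have hKδ := hg.comp_conj δ dia hdia
  have hKT := isKummer_heckeProd_self hD hL hg'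
  have hw := (hg''.mul_of_mul (hKδ.pow_nat ℓ)).mul_of_mul (hKT.pow_nat (n - 1))
  rw [pred_nsmul_eq_neg, ← sub_eq_add_neg] at hw
  obtain ⟨t, -, ht⟩ := hKT.exists_pow_hasExp_one hT
  rw [← heckeProd_pow, hDδ] at ht
  obtain ⟨T, hTt, hTred, -⟩ := exists_reduction_heckePair ℓ red hζℓ hS' hU' ht
  have hTB : heckeProd D (g' ^ n) ∈ weak (Gamma L) L B :=
    heckeProd_mem_weak hD hL hζ hg'B fun γ hγ => hg'.pow_comp_eq hγ
  have hδB : comp (g ^ n) δ ∈ weak (Gamma L) L B := by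
    have : (Gamma L).Normal := Gamma_normal L
    exact comp_mem_weak hgB δ
  have hwn : (g'' * comp g δ ^ ℓ * heckeProd D g' ^ (n - 1)) ^ n
      = g'' ^ n * comp (g ^ n) δ ^ ℓ * heckeProd D (g' ^ n) ^ (n - 1) := by
    have : comp (g ^ n) δ = comp g δ ^ n := rfl
    rw [this, heckeProd_pow, mul_pow, mul_pow, pow_right_comm (comp g δ),
      pow_right_comm (heckeProd D g')]
  refine ⟨_, g'' ^ n * comp (g ^ n) δ ^ ℓ, hw, ?_, mul_mem hg''B (pow_mem hδB _), ?_,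
    S'' * U ^ ℓ * T ^ (n - 1), S'' * U ^ ℓ, ?_, ?_, ?_, ?_⟩
  · rw [hwn]
    exact mul_mem (mul_mem hg''B (pow_mem hδB _)) (pow_mem hTB _)
  · intro γ hγ
    have e1 := hg''.pow_comp_eq hγ
    have e2 := hKδ.pow_comp_eq hγ
    funext τ
    exact congrArg₂ (· * ·) (congrFun e1 τ) (congrArg (· ^ ℓ) (congrFun e2 τ))
  · rw [hwn, hDδ, map_mul, map_mul, map_pow, map_pow, hTt]
    exact (hS''.mul (hU.pow ℓ)).mul (ht.pow _)
  · rw [map_mul, map_pow]
    exact hS''.mul (hU.pow ℓ)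
  · have hT' : coeffMap red T = coeffMap red S'' * coeffMap red U ^ ℓ := by
      rw [hTred, h1, ← h2, ← pow_eq_qExpand_frobenius]
    simp only [map_mul, map_pow, hT']
    conv_lhs => enter [1]; rw [← pow_one (coeffMap red S'' * coeffMap red U ^ ℓ)]
    rw [← pow_add, Nat.add_sub_cancel' (Nat.one_le_iff_ne_zero.mpr (NeZero.ne n))]
  · rw [map_mul, map_pow]

omit hℓ in
/-- The Kummer root witnessing `χ' = χ` when the conjugation reduces to the identity. -/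
theorem exists_kummer_inertia {B : Subring ℂ} (red : B →+* k)
    {χ χ' : Additive Γ →+ ZMod n} {g g' : ℍ → ℂ} (hg : IsKummer L n χ g)
    (hg' : IsKummer L n χ' g') (hgB : g ^ n ∈ weak (Gamma L) L B)
    (hg'B : g' ^ n ∈ weak (Gamma L) L B) {S S' : LaurentSeries B}
    (hS : HasExp 1 (g ^ n) (coeffMap B.subtype S))
    (hS' : HasExp 1 (g' ^ n) (coeffMap B.subtype S'))
    (h : coeffMap red S' = coeffMap red S) :
    ∃ w : ℍ → ℂ, IsKummer L n (χ' - χ) w ∧ w ^ n ∈ weak (Gamma L) L B ∧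
      ∃ W : LaurentSeries B, HasExp 1 (w ^ n) (coeffMap B.subtype W) ∧
        coeffMap red W = coeffMap red S ^ n := by
  have hw := hg'.mul_of_mul (hg.pow_nat (n - 1))
  rw [pred_nsmul_eq_neg, ← sub_eq_add_neg] at hw
  have hwn : (g' * g ^ (n - 1)) ^ n = g' ^ n * (g ^ n) ^ (n - 1) := by
    rw [mul_pow, pow_right_comm]
  refine ⟨_, hw, ?_, S' * S ^ (n - 1), ?_, ?_⟩
  · rw [hwn]; exact mul_mem hg'B (pow_mem hgB _)
  · rw [hwn, map_mul, map_pow]; exact hS'.mul (hS.pow _)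
  · rw [map_mul, map_pow, h, ← pow_succ',
      Nat.sub_add_cancel (Nat.one_le_iff_ne_zero.mpr (NeZero.ne n))]

/-- For `Γ₀(N)` the representative at infinity needs no correction. -/
lemma heckeProd_gamma0System_eq {N : ℕ} (hℓN : ¬ ℓ ∣ N) (F : ℍ → ℂ) :
    heckeProd (HeckeLattice.gamma0System N ℓ hℓN) F = heckePair ℓ F (comp F 1) := by
  rw [comp_one, heckeProd_gamma0System]

end Fermat.Agent.KummerES
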