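import Fermat.Agent.KummerES.ConjugateSpec
import Fermat.Agent.KummerES.HeckeCongr
import Fermat.Agent.HeckeLattice.Parabolic

/-!
# Conjugate characters: change of level and Hecke transfers

Conjugate characters do not depend on the level, and conjugation commutes with the Hecke
transfers and with the diamond operators.
-/

set_option autoImplicit false

noncomputable section

open UpperHalfPlane CongruenceSubgroup ModularCurve.Period
open scoped MatrixGroups Manifold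

namespace Fermat.Agent.KummerES

open HeckeLattice (CosetSystem Idx)
open ModularCurve (coeffMap qExpand)

variable {Γ : Subgroup SL(2, ℤ)} {N L n c : ℕ} [NeZero L] [NeZero n]

omit [NeZero L] in
/-- Conjugation commutes with translations fixed by the twist. -/
lemma IsConj.comp_twist {σ : ℂ →+* ℂ} {f f' : ℍ → ℂ} (h : IsConj L c σ f f') {δ δ' : SL(2, ℤ)}
    (hδ : TwistRel L c δ δ') (hf : comp f δ' = comp f δ) :
    IsConj L c σ (comp f δ) (comp f' δ) := by
  have : (Gamma L).Normal := Gamma_normal L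
  refine ⟨comp_mem_weak h.1 δ, comp_mem_weak h.2.1 δ, fun η η' hη => ?_⟩
  rw [comp_comp, h.2.2 (δ * η) (δ' * η') (hδ.mul hη), ← comp_comp, hf]

/-- A series at level `L` of a translation invariant function comes from a series in `q`. -/
lemma IsConj.exists_hasExp_one {σ : ℂ →+* ℂ} {f f' : ℍ → ℂ} (h : IsConj L c σ f f')
    (hT : comp f ModularGroup.T = f) :
    ∃ t, HasExp 1 f t ∧ HasExp 1 f' (coeffMap σ t) ∧ qExpand ℂ L t = expansion L f := by
  have hs : HasExp L f (expansion L f) := by simpa using hasExp_expansion h.1 1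
  have hs' : HasExp L f' (expansion L f') := by simpa using hasExp_expansion h.2.1 1
  obtain ⟨t, ht, hts⟩ := KummerES.exists_hasExp_one hs hT
  refine ⟨t, ht, ?_, hts⟩
  rw [h.expansion_eq, ← hts, ModularCurve.coeffMap_qExpand] at hs'
  exact HasExp.of_qExpand_one hs'

/-- A Kummer root at level `L` is one at every multiple level. -/
lemma IsKummer.of_dvd {L' : ℕ} [NeZero L'] (hLL' : L ∣ L') {χ : Additive Γ →+ ZMod n} {g : ℍ → ℂ}
    (hg : IsKummer L n χ g) : IsKummer L' n χ g :=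
  ⟨hg.ne_zero, hg.holo, hg.comp_eq, weak_level hLL' hg.pow_mem⟩

/-- Conjugates at level `L` are conjugates at every multiple level. -/
lemma IsConj.of_dvd {L' c' : ℕ} [NeZero L'] (hLL' : L ∣ L') (hcc' : (c' : ZMod L) = c)
    {σ : ℂ →+* ℂ} {f f' : ℍ → ℂ} (h : IsConj L c σ f f') : IsConj L' c' σ f f' := by
  refine ⟨weak_level hLL' h.1, weak_level hLL' h.2.1, fun δ δ' hδ => ?_⟩
  obtain ⟨M, rfl⟩ := hLL'
  have : NeZero M := ⟨right_ne_zero_of_mul (NeZero.ne (L * M))⟩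
  rw [expansion_level h.2.1, expansion_level h.1,
    (h.congr_exponent hcc'.symm).2.2 δ δ' (hδ.mono (dvd_mul_right L M)),
    ModularCurve.coeffMap_qExpand]

/-- `zetaC L` as a power of `zetaC L'` for `L ∣ L'`. -/
lemma zetaC_pow_of_dvd {L' : ℕ} [NeZero L'] (hLL' : L ∣ L') :
    zetaC L = zetaC L' ^ (L' / L) := by
  obtain ⟨M, rfl⟩ := hLL'
  have : NeZero M := ⟨right_ne_zero_of_mul (NeZero.ne (L * M))⟩
  have hL : (L : ℂ) ≠ 0 := by exact_mod_cast NeZero.ne L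
  have hM : (M : ℂ) ≠ 0 := by exact_mod_cast NeZero.ne M
  rw [Nat.mul_div_cancel_left M (Nat.pos_of_ne_zero (NeZero.ne L)), zetaC, zetaC,
    ← Complex.exp_nat_mul]
  congr 1
  push_cast
  field_simp

/-- The relation on characters passes to multiple levels. -/
lemma IsCharConj.of_dvd {L' : ℕ} [NeZero L'] (hLL' : L ∣ L') {σ : ℂ →+* ℂ}
    {χ ψ : parabolicHoms ℤ Γ (ZMod n)} (h : IsCharConj L σ χ ψ) : IsCharConj L' σ χ ψ := by
  obtain ⟨c, g, g', -, hσ, hg, hg', hconj⟩ := h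
  obtain ⟨c', hc', hσ'⟩ := exists_pow_zetaC L' σ
  have hcc' : (c' : ZMod L) = c := by
    refine natCast_eq_of_zetaC_pow ?_
    rw [← hσ, zetaC_pow_of_dvd hLL', map_pow, hσ', ← pow_mul, ← pow_mul, mul_comm]
  exact ⟨c', g, g', hc', hσ', hg.of_dvd hLL', hg'.of_dvd hLL', hconj.of_dvd hLL' hcc'⟩

/-- The conjugate character does not depend on the level. -/
lemma ConjLevel.conjChar_eq_of_dvd {L' : ℕ} [NeZero L'] (S : ConjLevel Γ N L)
    (S' : ConjLevel Γ N L') (hLL' : L ∣ L') (σ : ℂ ≃+* ℂ) (χ : parabolicHoms ℤ Γ (ZMod n)) :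
    S'.conjChar σ χ = S.conjChar σ χ :=
  S'.conjChar_eq ((S.isCharConj_conjChar σ χ).of_dvd hLL')

/-- The transfer of a parabolic character. -/
def transferChar {ι : Type*} [Fintype ι] (D : CosetSystem Γ ι)
    (χ : parabolicHoms ℤ Γ (ZMod n)) : parabolicHoms ℤ Γ (ZMod n) :=
  ⟨D.transfer χ.1, HeckeLattice.CosetSystem.transfer_isParabolicHom D χ.2⟩

omit [NeZero n] in
@[simp] lemma coe_transferChar {ι : Type*} [Fintype ι] (D : CosetSystem Γ ι)
    (χ : parabolicHoms ℤ Γ (ZMod n)) : (transferChar D χ).1 = D.transfer χ.1 := rfl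

/-- Composition of a parabolic character with a conjugation. -/
def conjParChar (δ : SL(2, ℤ)) (dia : Γ →* Γ) (hdia : ∀ γ : Γ, (dia γ : SL(2, ℤ)) = δ * γ * δ⁻¹)
    (χ : parabolicHoms ℤ Γ (ZMod n)) : parabolicHoms ℤ Γ (ZMod n) :=
  ⟨χ.1.comp dia.toAdditive, fun γ hγ => χ.2 (dia γ) (by
    rw [hdia, Matrix.SpecialLinearGroup.coe_mul, Matrix.trace_mul_comm,
      ← Matrix.SpecialLinearGroup.coe_mul, inv_mul_cancel_left]
    exact hγ)⟩

omit [NeZero n] in
@[simp] lemma coe_conjParChar (δ : SL(2, ℤ)) (dia : Γ →* Γ)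
    (hdia : ∀ γ : Γ, (dia γ : SL(2, ℤ)) = δ * γ * δ⁻¹) (χ : parabolicHoms ℤ Γ (ZMod n)) :
    (conjParChar δ dia hdia χ).1 = χ.1.comp dia.toAdditive := rfl

/-- A matrix whose twists are congruent to itself modulo `Γ`. -/
def IsTwistFixed (Γ : Subgroup SL(2, ℤ)) (N : ℕ) (δ : SL(2, ℤ)) : Prop :=
  ∀ c : ℕ, c.Coprime N → ∀ δ' : SL(2, ℤ), TwistRel N c δ δ' → δ' * δ⁻¹ ∈ Γ

omit [NeZero L] [NeZero n] in
/-- The identity is twist-fixed. -/
lemma IsTwistFixed.one (h : IsDiagStable Γ N) : IsTwistFixed Γ N 1 := fun c hc δ' h' => by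
  simpa using h.2 c hc 1 δ' h' (one_mem Γ)

omit [NeZero L] [NeZero n] in
/-- Conjugation commutes with translation by such a matrix. -/
lemma IsTwistFixed.isConj_comp {δ : SL(2, ℤ)} (hδ : IsTwistFixed Γ N δ) (hNL : N ∣ L)
    (hc : c.Coprime L) {σ : ℂ →+* ℂ} {f f' : ℍ → ℂ} (h : IsConj L c σ f f')
    (hinv : ∀ γ ∈ Γ, comp f γ = f) : IsConj L c σ (comp f δ) (comp f' δ) := by
  obtain ⟨δ', hδ'⟩ := exists_twistRel_of_coprime hc δ
  refine h.comp_twist hδ' ?_
  rw [show δ' = δ' * δ⁻¹ * δ by group, ← comp_comp,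
    hinv _ (hδ c (hc.coprime_dvd_right hNL) δ' (hδ'.mono hNL))]

namespace ConjLevel

variable (S : ConjLevel Γ N L)

include S in
/-- Conjugation commutes with translation by a twist fixed matrix, on characters. -/
theorem isCharConj_conjParChar {δ : SL(2, ℤ)} (hδ : IsTwistFixed Γ N δ) (dia : Γ →* Γ)
    (hdia : ∀ γ : Γ, (dia γ : SL(2, ℤ)) = δ * γ * δ⁻¹) {σ : ℂ →+* ℂ}
    {χ ψ : parabolicHoms ℤ Γ (ZMod n)} (h : IsCharConj L σ χ ψ) :
    IsCharConj L σ (conjParChar δ dia hdia χ) (conjParChar δ dia hdia ψ) := by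
  obtain ⟨c, g, g', hc, hσ, hg, hg', hconj⟩ := h
  exact ⟨c, _, _, hc, hσ, hg.comp_conj δ dia hdia, hg'.comp_conj δ dia hdia,
    hδ.isConj_comp S.dvd_N hc hconj fun γ hγ => hg.pow_comp_eq hγ⟩

include S in
/-- Conjugation commutes with transfers. -/
theorem isCharConj_transferChar {ℓ : ℕ} [Fact ℓ.Prime] {D : CosetSystem Γ (Idx ℓ)}
    (hD : IsStandard D) {δ : SL(2, ℤ)}
    (hDδ : ∀ F, heckeProd D F = heckePair ℓ F (comp F δ)) (hδ : IsTwistFixed Γ N δ)
    (dia : Γ →* Γ) (hdia : ∀ γ : Γ, (dia γ : SL(2, ℤ)) = δ * γ * δ⁻¹)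
    (hT : ModularGroup.T ∈ Γ) {σ : ℂ →+* ℂ} {χ ψ : parabolicHoms ℤ Γ (ZMod n)}
    (h : IsCharConj L σ χ ψ) : IsCharConj L σ (transferChar D χ) (transferChar D ψ) := by
  obtain ⟨c, g, g', hc, hσ, hg, hg', hconj⟩ := h
  have hinv : ∀ γ ∈ Γ, comp (g ^ n) γ = g ^ n := fun γ hγ => hg.pow_comp_eq hγ
  obtain ⟨s, hs, hs', -⟩ := hconj.exists_hasExp_one (hinv _ hT)
  obtain ⟨u, hu, hu', -⟩ := (hδ.isConj_comp S.dvd_N hc hconj hinv).exists_hasExp_one
    (show comp (comp g δ ^ n) ModularGroup.T = _ from (hg.comp_conj δ dia hdia).pow_comp_eq hT)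
  obtain ⟨hK, hK', t, -, ht, ht'⟩ :=
    exists_conj_heckeProd hD δ hDδ hT S.gamma_le σ hg hg' hs hs' hu hu'
  obtain ⟨F, hF⟩ := S.hasConj σ c hσ _ hK.pow_mem
  have hexp : expansion L (heckeProd D g' ^ n) = expansion L F := by
    have key : ∀ (K : ℕ), K = 1 * L → ∀ (G : ℍ → ℂ) (v : LaurentSeries ℂ), HasExp 1 G v →
        HasExp K G (qExpand ℂ L v) := by
      intro K hK; subst hK; exact fun G v hv => hv.dilate L
    rw [hF.expansion_eq, (key L (one_mul L).symm _ _ ht).expansion_eq,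
      (key L (one_mul L).symm _ _ ht').expansion_eq, ModularCurve.coeffMap_qExpand]
  exact ⟨c, heckeProd D g, heckeProd D g', hc, hσ, hK, hK',
    (eq_of_expansion_eq hK'.pow_mem hF.2.1 hexp) ▸ hF⟩

include S in
/-- Conjugation commutes with the Hecke transfers. -/
theorem conjChar_transferChar {ℓ : ℕ} [Fact ℓ.Prime] {D : CosetSystem Γ (Idx ℓ)}
    (hD : IsStandard D) {δ : SL(2, ℤ)}
    (hDδ : ∀ F, heckeProd D F = heckePair ℓ F (comp F δ)) (hδ : IsTwistFixed Γ N δ)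
    (dia : Γ →* Γ) (hdia : ∀ γ : Γ, (dia γ : SL(2, ℤ)) = δ * γ * δ⁻¹)
    (hT : ModularGroup.T ∈ Γ) (σ : ℂ ≃+* ℂ) (χ : parabolicHoms ℤ Γ (ZMod n)) :
    S.conjChar σ (transferChar D χ) = transferChar D (S.conjChar σ χ) :=
  S.conjChar_eq (S.isCharConj_transferChar hD hDδ hδ dia hdia hT (S.isCharConj_conjChar σ χ))

/-- Conjugation commutes with the diamond operators. -/
theorem conjChar_conjParChar {δ : SL(2, ℤ)} (hδ : IsTwistFixed Γ N δ) (dia : Γ →* Γ)
    (hdia : ∀ γ : Γ, (dia γ : SL(2, ℤ)) = δ * γ * δ⁻¹) (σ : ℂ ≃+* ℂ)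
    (χ : parabolicHoms ℤ Γ (ZMod n)) :
    S.conjChar σ (conjParChar δ dia hdia χ) = conjParChar δ dia hdia (S.conjChar σ χ) :=
  S.conjChar_eq (S.isCharConj_conjParChar hδ dia hdia (S.isCharConj_conjChar σ χ))

end ConjLevel

end Fermat.Agent.KummerES
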