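import Fermat.Agent.KummerES.ConjugateBase
import Fermat.Agent.KummerES.ConjugateField
import Fermat.Agent.KummerES.ModulesTwist

/-!
# Conjugation at every level

Conjugates exist at every level, and the action on parabolic characters can be computed at every
level divisible by `N`.
-/

set_option autoImplicit false

noncomputable section

open UpperHalfPlane CongruenceSubgroup ModularCurve.Period
open scoped MatrixGroups Manifold

local notation "GQ" => AlgebraicClosure ℚ ≃ₐ[ℚ] AlgebraicClosure ℚ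

namespace Fermat.Agent.KummerES

open ModularCurve (coeffMap qExpand)

variable {L c : ℕ}

lemma redMat_eq_of_twistRel (hc : c.Coprime L) {δ δ₁ δ₂ : SL(2, ℤ)} (h₁ : TwistRel L c δ δ₁)
    (h₂ : TwistRel L c δ δ₂) : redMat L δ₁ = redMat L δ₂ := by
  have hcu : IsUnit (c : ZMod L) := (ZMod.unitOfCoprime c hc).isUnit
  have hDc : IsUnit (diagMat L c) := by
    rw [Matrix.isUnit_iff_isUnit_det, diagMat, Matrix.det_fin_two_of]
    simpa using hcu
  exact hDc.mul_right_cancel (h₁.trans h₂.symm)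

lemma twistRel_mem_Gamma (hc : c.Coprime L) {γ γ' : SL(2, ℤ)} (h : TwistRel L c γ γ')
    (hγ : γ ∈ Gamma L) : γ' ∈ Gamma L := by
  have hγ1 : redMat L γ = 1 := redMat_eq_one_iff.mp hγ
  have h1 : TwistRel L c γ 1 := by
    rw [TwistRel, redMat_one, one_mul, hγ1, mul_one]
  rw [redMat_eq_one_iff, redMat_eq_of_twistRel hc h h1, redMat_one]

/-- An exponent at a multiple level restricting to a given one. -/
lemma exists_exponent_of_dvd [NeZero L] {K : ℕ} [NeZero K] (hLK : L ∣ K) (σ : ℂ →+* ℂ)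
    (hσ : σ (zetaC L) = zetaC L ^ c) :
    ∃ c' : ℕ, c'.Coprime K ∧ σ (zetaC K) = zetaC K ^ c' ∧ (c' : ZMod L) = c := by
  obtain ⟨c', hc', hσ'⟩ := exists_pow_zetaC K σ
  refine ⟨c', hc', hσ', natCast_eq_of_zetaC_pow ?_⟩
  rw [← hσ, zetaC_pow_of_dvd hLK, map_pow, hσ', ← pow_mul, ← pow_mul, mul_comm]

/-- Conjugates exist at every level. -/
theorem hasConj_all (L : ℕ) [NeZero L] : HasConj L := by
  intro σ c hσ f hf
  have hc : c.Coprime L := coprime_of_conj hσ
  obtain ⟨c', hc', hσ', hcc⟩ := exists_exponent_of_dvd (dvd_mul_right L 2) σ hσ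
  obtain ⟨f', hconj⟩ := hasConj_of_two_dvd (dvd_mul_left 2 L) σ c' hσ' f
    (weak_level (dvd_mul_right L 2) hf)
  have key : ∀ δ δ' : SL(2, ℤ), TwistRel L c δ δ' →
      HasExp L (comp f' δ) (coeffMap σ (expansion L (comp f δ'))) := by
    intro δ δ' hδ
    obtain ⟨δ₁, hδ₁⟩ := exists_twistRel_of_coprime hc' δ
    have h1 : TwistRel L c δ δ₁ := by
      have h := hδ₁.mono (dvd_mul_right L 2)
      unfold TwistRel diagMat at *
      rwa [hcc] at h
    have hmem : δ₁ * δ'⁻¹ ∈ Gamma L := by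
      rw [redMat_eq_one_iff, redMat_mul, redMat_eq_of_twistRel hc h1 hδ, ← redMat_mul,
        mul_inv_cancel, redMat_one]
    have hcomp : comp f δ₁ = comp f δ' := by
      rw [show δ₁ = δ₁ * δ'⁻¹ * δ' by group, ← comp_comp, hf.2.1 _ hmem]
    refine HasExp.of_qExpand 2 ?_
    rw [← ModularCurve.coeffMap_qExpand, ← expansion_level hf, ← hcomp, ← hconj.2.2 δ δ₁ hδ₁]
    exact hasExp_expansion hconj.2.1 δ
  refine ⟨f', hf, ⟨hconj.2.1.1, fun γ hγ => ?_, fun δ => ?_⟩, fun δ δ' hδ =>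
    (key δ δ' hδ).expansion_eq⟩
  · obtain ⟨γ', hγ'⟩ := exists_twistRel_of_coprime hc' γ
    refine hconj.comp_eq hγ' (hf.2.1 _ (twistRel_mem_Gamma ?_ (hγ'.mono (dvd_mul_right L 2)) hγ))
    exact hc'.coprime_dvd_right (dvd_mul_right L 2)
  · obtain ⟨δ', hδ⟩ := exists_twistRel_of_coprime hc δ
    exact ⟨_, fun _ => trivial, key δ δ' hδ⟩

variable {Γ : Subgroup SL(2, ℤ)} {N n : ℕ} [NeZero N] [NeZero n]

/-- The conjugation data of `Γ`, at level `2 N`. -/
def conjLevelStd (hΓ : IsDiagStable Γ N) : ConjLevel Γ N (2 * N) :=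
  conjLevelTwo (dvd_mul_right 2 N) hΓ (dvd_mul_left N 2)

/-- The Galois action on `ℤ/n`-valued parabolic characters of `Γ`. -/
def parRep (hΓ : IsDiagStable Γ N) : GQ →* AddMonoid.End (parabolicHoms ℤ Γ (ZMod n)) :=
  (conjLevelStd hΓ).galRep

/-- The action is computed by conjugating roots at any level. -/
theorem parRep_spec (hΓ : IsDiagStable Γ N) [NeZero L] {σ : GQ} {σ' : ℂ ≃+* ℂ}
    (h : ∀ x, σ' (complexEmbedding x) = complexEmbedding (σ x))
    {χ ψ : parabolicHoms ℤ Γ (ZMod n)} (hψ : IsCharConj L (σ' : ℂ →+* ℂ) χ ψ) :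
    parRep hΓ σ χ = ψ := by
  let S₀ : ConjLevel Γ N (2 * N) := conjLevelStd hΓ
  let S₁ : ConjLevel Γ N (2 * N * L) :=
    conjLevelTwo ((dvd_mul_right 2 N).trans (dvd_mul_right _ L)) hΓ
      ((dvd_mul_left N 2).trans (dvd_mul_right _ L))
  rw [parRep, ConjLevel.galRep_apply, S₀.galChar_eq h,
    ← S₀.conjChar_eq_of_dvd S₁ (dvd_mul_right _ L), S₁.conjChar_eq (hψ.of_dvd (dvd_mul_left L _))]

/-- Conjugate roots exist at every level divisible by `N` and compute the action. -/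
theorem exists_conj_root (hΓ : IsDiagStable Γ N) [NeZero L] (hNL : N ∣ L) {σ : GQ} {σ' : ℂ ≃+* ℂ}
    (h : ∀ x, σ' (complexEmbedding x) = complexEmbedding (σ x))
    (hσ : (σ' : ℂ →+* ℂ) (zetaC L) = zetaC L ^ c)
    {χ : parabolicHoms ℤ Γ (ZMod n)} {g : ℍ → ℂ} (hg : IsKummer L n χ.1 g) :
    ∃ g', IsKummer L n (parRep hΓ σ χ).1 g' ∧ IsConj L c (σ' : ℂ →+* ℂ) (g ^ n) (g' ^ n) := by
  have hc : c.Coprime L := coprime_of_conj hσ
  obtain ⟨c', hc', hσ', hcc⟩ := exists_exponent_of_dvd (dvd_mul_right L 2) (σ' : ℂ →+* ℂ) hσ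
  let S : ConjLevel Γ N (L * 2) :=
    conjLevelTwo (dvd_mul_left 2 L) hΓ (hNL.trans (dvd_mul_right L 2))
  obtain ⟨ψ, g', hg', hconj'⟩ := S.exists_conj σ' hc' hσ' (hg.of_dvd (dvd_mul_right L 2))
  obtain ⟨f', hf'⟩ := hasConj_all L _ c hσ _ hg.pow_mem
  have heq : g' ^ n = f' := hf'.eq_of_level (dvd_mul_right L 2) hconj'
  subst heq
  have hk : IsKummer L n ψ.1 g' := ⟨hg'.ne_zero, hg'.holo, hg'.comp_eq, hf'.2.1⟩
  rw [parRep_spec hΓ h (⟨c, g, g', hc, hσ, hg, hk, hf'⟩ : IsCharConj L _ χ ψ)]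
  exact ⟨g', hk, hf'⟩

/-- The action at every level factors through a finite quotient. -/
theorem parRep_finiteLevel (hΓ : IsDiagStable Γ N) :
    GaloisFactorsThroughFiniteLevel (parRep (n := n) hΓ) :=
  (conjLevelStd hΓ).galRep_finiteLevel

omit [NeZero N] in
/-- At every level divisible by `N` there are roots whose powers are defined over one number
field. -/
theorem exists_numberField_roots_all (hΓ : IsDiagStable Γ N) (L : ℕ) [NeZero L] (hNL : N ∣ L) :
    ∃ E : IntermediateField ℚ (AlgebraicClosure ℚ),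
      FiniteDimensional ℚ E ∧ Normal ℚ E ∧ ∀ χ : parabolicHoms ℤ Γ (ZMod n), ∃ g,
        IsKummer L n χ.1 g ∧
          g ^ n ∈ weak (Gamma L) L (E.toSubalgebra.toSubring.map complexEmbedding.toRingHom) := by
  let S : ConjLevel Γ N (L * 2) :=
    conjLevelTwo (dvd_mul_left 2 L) hΓ (hNL.trans (dvd_mul_right L 2))
  obtain ⟨E, hfd, hnormal, hE⟩ := S.exists_numberField_roots (n := n)
  refine ⟨E, hfd, hnormal, fun χ => ?_⟩
  obtain ⟨g, hg, hgE⟩ := hE χ
  have hinv : ∀ γ ∈ Gamma L, comp (g ^ n) γ = g ^ n := fun γ hγ =>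
    hg.pow_comp_eq (hΓ.gamma_le hNL hγ)
  have hw : g ^ n ∈ weak (Gamma L) L (E.toSubalgebra.toSubring.map complexEmbedding.toRingHom) := by
    refine ⟨hgE.1, hinv, fun δ => ?_⟩
    obtain ⟨s, hs, hsexp⟩ := hgE.2.2 δ
    refine exists_hasExp_of_comp_T_pow hsexp hs ?_
    rw [comp_comp, show δ * ModularGroup.T ^ (L : ℤ) =
      δ * ModularGroup.T ^ (L : ℤ) * δ⁻¹ * δ by group, ← comp_comp,
      hinv _ (T_zpow_conj_mem_Gamma L δ)]
  exact ⟨g, ⟨hg.ne_zero, hg.holo, hg.comp_eq, weak_mono le_rfl le_top hw⟩, hw⟩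

end Fermat.Agent.KummerES
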