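import Mathlib.Algebra.Polynomial.FieldDivision
import Mathlib.Analysis.Complex.Polynomial.Basic
import Mathlib.RingTheory.UniqueFactorizationDomain.Basic
import Mathlib.RingTheory.Ideal.Maps

/-!
# Algebra for local `n`-th powers

Primes of `B[X]` not meeting `B` as kernels of evaluations, and elements whose prime
multiplicities are all divisible by `n` as units times `n`-th powers.
-/

set_option autoImplicit false

open Polynomial

namespace Fermat.Agent.KummerES

/-- Pseudo-division. -/
lemma exists_pseudo_division {B : Type*} [CommRing B] [IsDomain B] {P : B[X]} (hP : P ≠ 0)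
    (R : B[X]) :
    ∃ b ≠ (0 : B), ∃ q r : B[X], C b * R = P * q + r ∧ (r = 0 ∨ r.degree < P.degree) := by
  induction hk : R.degree using WellFoundedLT.induction generalizing R with
  | ind d ih =>
    by_cases hR : R = 0
    · exact ⟨1, one_ne_zero, 0, 0, by simp [hR], Or.inl rfl⟩
    by_cases hlt : R.degree < P.degree
    · exact ⟨1, one_ne_zero, 0, R, by simp, Or.inr hlt⟩
    set M : B[X] := C R.leadingCoeff * X ^ (R.natDegree - P.natDegree)
    have hle : P.natDegree ≤ R.natDegree := natDegree_le_natDegree (not_lt.mp hlt)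
    have hdeg : (C P.leadingCoeff * R - P * M).degree < d := by
      have hlc : P.leadingCoeff ≠ 0 := leadingCoeff_ne_zero.mpr hP
      have hd1 : (C P.leadingCoeff * R).degree = d := by
        rw [degree_mul, degree_C hlc, zero_add, hk]
      have hd2 : (P * M).degree = d := by
        rw [degree_mul, degree_mul, degree_C (leadingCoeff_ne_zero.mpr hR), zero_add, degree_X_pow,
          degree_eq_natDegree hP, ← Nat.cast_add, Nat.add_sub_cancel' hle, ← degree_eq_natDegree hR,
          hk]
      rw [← hd1]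
      refine degree_sub_lt_left (hd1.trans hd2.symm) (mul_ne_zero (C_ne_zero.mpr hlc) hR) ?_
      simp only [M, leadingCoeff_mul, leadingCoeff_C, leadingCoeff_X_pow, mul_one]
      
    obtain ⟨b, hb, q, r, hqr, hr⟩ := ih _ hdeg (C P.leadingCoeff * R - P * M) rfl
    refine ⟨b * P.leadingCoeff, mul_ne_zero hb (leadingCoeff_ne_zero.mpr hP), q + C b * M, r, ?_, hr⟩
    rw [C_mul]
    linear_combination hqr

/-- A prime of `B[X]` not meeting `B` is the kernel of evaluation at some `c`, with a member having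
a simple root there. -/
lemma exists_root_of_prime {B : Subring ℂ} (I : Ideal B[X]) [I.IsPrime]
    (hC : ∀ b : B, C b ∈ I → b = 0) {P₁ : B[X]} (hP₁ : P₁ ∈ I) (h₁ : P₁ ≠ 0) :
    ∃ c : ℂ, (∀ R : B[X], R ∈ I ↔ R.eval₂ B.subtype c = 0) ∧
      ∃ P ∈ I, (derivative P).eval₂ B.subtype c ≠ 0 := by
  obtain ⟨P, ⟨hPI, hP0⟩, hmin⟩ := (InvImage.wf (fun P : B[X] => P.degree) wellFounded_lt).has_min
    {P : B[X] | P ∈ I ∧ P ≠ 0} ⟨P₁, hP₁, h₁⟩
  have hsmall : ∀ r ∈ I, r = 0 ∨ r.degree < P.degree → r = 0 := by
    intro r hrI hr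
    by_contra h0
    exact hmin r ⟨hrI, h0⟩ (hr.resolve_left h0)
  have hinj : Function.Injective (B.subtype : B →+* ℂ) := Subtype.val_injective
  have hpos : 0 < P.degree := by
    by_contra h
    rw [not_lt, degree_le_zero_iff] at h
    exact hP0 (by rw [h, hC (P.coeff 0) (by rwa [h] at hPI), C_0])
  obtain ⟨c, hc⟩ := IsAlgClosed.exists_root (P.map B.subtype)
    (by rw [degree_map_eq_of_injective hinj]; exact hpos.ne')
  rw [IsRoot, eval_map] at hc
  set J : Ideal B[X] := RingHom.ker (eval₂RingHom B.subtype c) with hJ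
  have hCJ : ∀ b : B, C b ∈ J → b = 0 := fun b hb => hinj (by simpa [hJ] using hb)
  have hJmin : ∀ r ∈ J, r = 0 ∨ r.degree < P.degree → r = 0 := by
    intro r hrJ hr
    by_contra h0
    obtain ⟨r', ⟨hr'J, hr'0⟩, hmin'⟩ := (InvImage.wf (fun P : B[X] => P.degree) wellFounded_lt).has_min
      {r : B[X] | r ∈ J ∧ r ≠ 0} ⟨r, hrJ, h0⟩
    have hr'pos : 0 < r'.degree := by
      by_contra h
      rw [not_lt, degree_le_zero_iff] at h
      exact hr'0 (by rw [h, hCJ (r'.coeff 0) (by rwa [h] at hr'J), C_0])
    obtain ⟨b, hb, q, s, hqs, hs⟩ := exists_pseudo_division hr'0 P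
    have hsJ : s ∈ J := by
      rw [show s = C b * P - r' * q by linear_combination -hqs]
      exact sub_mem (Ideal.mul_mem_left _ _ (by simpa [hJ] using hc)) (Ideal.mul_mem_right _ _ hr'J)
    have hs0 : s = 0 := by
      by_contra hs0
      exact hmin' s ⟨hsJ, hs0⟩ (hs.resolve_left hs0)
    rw [hs0, add_zero] at hqs
    have hlt : r'.degree < P.degree :=
      lt_of_le_of_lt (not_lt.mp (hmin' r ⟨hrJ, h0⟩)) (hr.resolve_left h0)
    rcases (Ideal.IsPrime.mem_or_mem ‹I.IsPrime› (hqs ▸ Ideal.mul_mem_left _ _ hPI)) with h | h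
    · exact hr'0 (hsmall r' h (Or.inr hlt))
    · have hq0 : q ≠ 0 := by
        intro hq
        rw [hq, mul_zero] at hqs
        exact mul_ne_zero (C_ne_zero.mpr hb) hP0 hqs
      refine hq0 (hsmall q h (Or.inr ?_))
      have := congrArg natDegree hqs
      rw [natDegree_C_mul hb, natDegree_mul hr'0 hq0] at this
      have h1 : 0 < r'.natDegree := natDegree_pos_iff_degree_pos.mpr hr'pos
      rw [degree_eq_natDegree hq0, degree_eq_natDegree hP0]
      exact_mod_cast (by omega : q.natDegree < P.natDegree)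
  refine ⟨c, fun R => ?_, P, hPI, fun hd => ?_⟩
  · obtain ⟨b, hb, q, r, hqr, hr⟩ := exists_pseudo_division hP0 R
    have hr' : ∀ K : Ideal B[X], P ∈ K → R ∈ K → r ∈ K := fun K hP hR => by
      rw [show r = C b * R - P * q by linear_combination -hqr]
      exact sub_mem (Ideal.mul_mem_left _ _ hR) (Ideal.mul_mem_right _ _ hP)
    constructor
    · intro hR
      have h0 := hsmall r (hr' I hPI hR) hr
      have := congrArg (eval₂ B.subtype c) hqr
      simp [h0, hc] at this
      exact this.resolve_left hb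
    · intro hR
      have h0 := hJmin r (hr' J (by simpa [hJ] using hc) (by simpa [hJ] using hR)) hr
      rw [h0, add_zero] at hqr
      refine (Ideal.IsPrime.mem_or_mem ‹_› (hqr ▸ Ideal.mul_mem_right _ _ hPI)).resolve_left ?_
      exact fun h => hb (hC b h)
  · have h0 := hJmin (derivative P) (by simpa [hJ] using hd) (Or.inr (degree_derivative_lt hP0))
    exact (natDegree_pos_iff_degree_pos.mpr hpos).ne' (Polynomial.derivative_eq_zero.mp h0)

/-- An element all of whose prime multiplicities are divisible by `n` is a unit times an `n`-th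
power. -/
lemma exists_unit_mul_pow {S : Type*} [CommMonoidWithZero S]
    [UniqueFactorizationMonoid S] (n : ℕ) :
    ∀ a : S, a ≠ 0 → (∀ p e w, Prime p → a = p ^ e * w → ¬ p ∣ w → n ∣ e) →
      ∃ u y, IsUnit u ∧ a = u * y ^ n := by
  intro a
  induction a using WellFounded.induction (IsWellFounded.wf (r := (DvdNotUnit : S → S → Prop))) with
  | _ a ih =>
    intro ha h
    by_cases hu : IsUnit a
    · exact ⟨a, 1, hu, by simp⟩
    obtain ⟨p, hp, hpa⟩ := WfDvdMonoid.exists_irreducible_factor hu ha
    have hp' : Prime p := UniqueFactorizationMonoid.irreducible_iff_prime.mp hp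
    obtain ⟨e, w, hw, haw⟩ :=
      WfDvdMonoid.max_power_factor ha hp
    obtain ⟨k, rfl⟩ := h p e w hp' haw hw
    have hw0 : w ≠ 0 := fun h0 => hw (h0 ▸ dvd_zero p)
    have hk : n * k ≠ 0 := by
      intro h0
      rw [h0, pow_zero, one_mul] at haw
      exact hw (haw ▸ hpa)
    obtain ⟨u, y, hu', hwy⟩ := ih w ⟨hw0, p ^ (n * k),
      fun h' => hp.not_isUnit ((isUnit_pow_iff hk).mp h'), by rw [haw, mul_comm]⟩ hw0 (by
        intro q e' w' hq hw' hqw'
        rcases Nat.eq_zero_or_pos e' with rfl | he'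
        · exact dvd_zero n
        refine h q e' (p ^ (n * k) * w') hq (by rw [haw, hw', mul_left_comm]) fun hdvd => ?_
        rcases hq.dvd_or_dvd hdvd with hd | hd
        · have hass : Associated q p := hq.irreducible.associated_of_dvd hp (hq.dvd_of_dvd_pow hd)
          exact hw (hass.dvd_iff_dvd_left.mp (hw' ▸ (dvd_pow_self q he'.ne').mul_right w'))
        · exact hqw' hd)
    exact ⟨u, p ^ k * y, hu', by rw [haw, hwy, mul_pow, ← pow_mul, mul_comm k n, mul_left_comm]⟩

end Fermat.Agent.KummerES
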