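import Fermat.Agent.KummerES.ReductionHyp
import Fermat.Agent.KummerES.ConjugateOrder
import Fermat.Agent.KummerES.LocalPowAlgebra
import Mathlib.RingTheory.Ideal.Operations

/-!
# A level `L` function with an `n`-th root is locally an `n`-th power

A prime element of a local ring not dividing `π` cuts out a point of the upper half plane, at
which it vanishes to order one.
-/

set_option autoImplicit false

noncomputable section

open UpperHalfPlane CongruenceSubgroup Polynomial
open scoped MatrixGroups Manifold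

namespace Fermat.Agent.KummerES

variable {M L n : ℕ} [NeZero L] {B : Subring ℂ} {π : ℂ}

lemma lRing_isDomain : IsDomain (LRing L B) :=
  (expAt_injective (Γ := Gamma L) (L := L) (B := B) 1).isDomain

/-- The constants. -/
def constB (L : ℕ) (B : Subring ℂ) : B →+* LRing L B where
  toFun c := constL c.1 c.2
  map_one' := rfl
  map_mul' _ _ := rfl
  map_zero' := rfl
  map_add' _ _ := rfl

/-- Evaluation at a point. -/
def evalAt (τ : ℍ) : LRing L B →+* ℂ := (Pi.evalRingHom (fun _ => ℂ) τ).comp (Subring.subtype _)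

omit [NeZero L] in
/-- `evalAt τ` is evaluation at `τ`. -/
@[simp] lemma evalAt_apply (τ : ℍ) (f : LRing L B) : evalAt τ f = f.1 τ := rfl

omit [NeZero L] in
@[simp] lemma evalAt_constB (τ : ℍ) (c : B) : evalAt τ (constB L B c) = c := rfl

/-- Polynomials in the coordinate `t`. -/
def polyT (H : LevelHyp M L B) : B[X] →+* LRing L B :=
  eval₂RingHom (constB L B) ⟨H.T.t, weak_mono (Gamma_le_of_dvd H.dvd) H.le H.T.t_mem⟩

lemma evalAt_polyT (H : LevelHyp M L B) (τ : ℍ) (P : B[X]) :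
    evalAt τ (polyT H P) = P.eval₂ B.subtype (H.T.t τ) := by
  rw [polyT, coe_eval₂RingHom, Polynomial.hom_eval₂]
  rfl

/-- Norms to level `M` are, up to units, polynomials in `t`. -/
lemma norm_mul_eq_polyT (H : LevelHyp M L B) [Fintype (levelGroup L B M)] (a : LRing L B) :
    ∃ (P : B[X]) (u : LRing L B), IsUnit u ∧ (∏ g : levelGroup L B M, g • a) * u = polyT H P := by
  have hfix : ∀ h : levelGroup L B M,
      h • (∏ g : levelGroup L B M, g • a) = ∏ g : levelGroup L B M, g • a := fun h => by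
    rw [Finset.smul_prod']
    exact Fintype.prod_equiv (Equiv.mulLeft h) _ _ fun g => by simp [smul_smul]
  obtain ⟨k, P, hP⟩ := H.T.generated B H.le _ (mem_level_of_fixed _ hfix)
  let d : B[X] := ∏ c ∈ H.T.bad.attach, (X - C (⟨c.1, H.le (H.T.bad_mem c.1 c.2)⟩ : B))
  refine ⟨P, polyT H d ^ k, IsUnit.pow _ ?_, Subtype.ext (funext fun τ => ?_)⟩
  · simp only [d, map_prod]
    refine IsUnit.prod_iff.mpr fun c _ => ?_
    obtain ⟨u, hu, hu'⟩ := H.T.inv_mem c.1 c.2
    refine IsUnit.of_mul_eq_one ⟨u, weak_mono (Gamma_le_of_dvd H.dvd) H.le hu⟩ (Subtype.ext ?_)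
    simpa [polyT, constB] using hu'
  · rw [← evalAt_apply τ, ← evalAt_apply τ, map_mul, map_pow, evalAt_polyT, evalAt_polyT, ← hP τ]
    congr 2
    simp only [d, eval₂_finsetProd, eval₂_sub, eval₂_X, eval₂_C, Subring.coe_subtype]
    exact Finset.prod_attach _ (fun c => H.T.t τ - c)

/-- A prime not meeting the constants is the ideal of a point, at which a polynomial in `t`
belonging to it has a simple zero. -/
lemma exists_point (H : LevelHyp M L B) (Q : Ideal (LRing L B)) [Q.IsPrime]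
    (hQ : ∀ c : B, constB L B c ∈ Q → c = 0) {a₀ : LRing L B} (ha₀ : a₀ ∈ Q) (h₀ : a₀ ≠ 0) :
    ∃ τ : ℍ, (∀ a : LRing L B, a ∈ Q ↔ a.1 τ = 0) ∧
      ∃ P : B[X], polyT H P ∈ Q ∧ ordAt (polyT H P).1 τ = 1 := by
  classical
  have := lRing_isDomain (L := L) (B := B)
  let _ := Fintype.ofFinite (levelGroup L B M)
  have hmem : ∀ a : LRing L B, a ∈ Q → (∏ g : levelGroup L B M, g • a) ∈ Q := fun a ha =>
    Ideal.mem_of_dvd _ (Finset.dvd_prod_of_mem (fun g => g • a) (Finset.mem_univ 1)) (by simpa using ha)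
  obtain ⟨P₁, u, hu, hP₁⟩ := norm_mul_eq_polyT H a₀
  obtain ⟨c, hc, P, hPI, hPd⟩ := exists_root_of_prime (Q.comap (polyT H)) (P₁ := P₁)
    (fun b hb => hQ b (by simpa [polyT] using hb))
    (Ideal.mem_comap.mpr (hP₁ ▸ Q.mul_mem_right _ (hmem a₀ ha₀)))
    (fun h => by
      rw [h, map_zero, hu.mul_left_eq_zero, Finset.prod_eq_zero_iff] at hP₁
      obtain ⟨g, -, hg⟩ := hP₁
      exact h₀ ((smul_eq_zero_iff_eq g).mp hg))
  have hcbad : c ∉ H.T.bad := fun hbad => by
    obtain ⟨v, hv, hv'⟩ := H.T.inv_mem c hbad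
    have h1 := (hc (X - C ⟨c, H.le (H.T.bad_mem c hbad)⟩)).mpr (by simp)
    refine Q.ne_top_iff_one.mp (Ideal.IsPrime.ne_top ‹_›) ?_
    have h2 := Q.mul_mem_right ⟨v, weak_mono (Gamma_le_of_dvd H.dvd) H.le hv⟩ (Ideal.mem_comap.mp h1)
    convert h2 using 1
    exact Subtype.ext (by simpa [polyT, constB] using hv'.symm)
  obtain ⟨τ₀, hτ₀⟩ := H.T.surj c hcbad
  choose γ hγ hγf using exists_rep L B M
  -- both containments in unions of primes
  have hN : ∀ a : LRing L B,
      ((∏ g : levelGroup L B M, g • a) ∈ Q ↔ ∃ g, a.1 (γ g • τ₀) = 0) := by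
    intro a
    obtain ⟨R, v, hv, hR⟩ := norm_mul_eq_polyT H a
    rw [← Ideal.mul_unit_mem_iff_mem Q hv, hR, ← Ideal.mem_comap, hc, ← hτ₀, ← evalAt_polyT, ← hR,
      map_mul, mul_eq_zero, map_prod, Finset.prod_eq_zero_iff]
    simp only [Finset.mem_univ, true_and, evalAt_apply, hγf, comp_apply]
    exact or_iff_left fun h0 => (hv.map (evalAt τ₀)).ne_zero (by simpa using h0)
  let Qp : levelGroup L B M → Ideal (LRing L B) := fun g => RingHom.ker (evalAt (γ g • τ₀))
  have hQp : ∀ g, (Qp g).IsPrime := fun g => RingHom.ker_isPrime _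
  have hsub : (Q : Set (LRing L B)) ⊆ ⋃ g ∈ ↑(Finset.univ : Finset (levelGroup L B M)), Qp g := by
    intro a ha
    obtain ⟨g, hg⟩ := (hN a).mp (hmem a ha)
    exact Set.mem_biUnion (Finset.mem_univ g) (by simpa [Qp] using hg)
  obtain ⟨g, -, hg⟩ := (Ideal.subset_union_prime 1 1 fun i _ _ _ => hQp i).mp hsub
  let Qc : levelGroup L B M → Ideal (LRing L B) :=
    fun h => Q.comap (MulSemiringAction.toRingHom _ _ h)
  have hsub' : (Qp g : Set (LRing L B)) ⊆ ⋃ h ∈ ↑(Finset.univ : Finset (levelGroup L B M)), Qc h := by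
    intro a ha
    obtain ⟨h, -, hh⟩ := (Ideal.IsPrime.prod_mem_iff).mp ((hN a).mpr ⟨g, by simpa [Qp] using ha⟩)
    exact Set.mem_biUnion (Finset.mem_univ h) (by simpa [Qc] using hh)
  obtain ⟨h, -, hh⟩ := (Ideal.subset_union_prime 1 1 fun i _ _ _ => Ideal.IsPrime.comap _).mp hsub'
  have hQh : ∀ a ∈ Q, h • a ∈ Q := fun a ha => by simpa [Qc] using hh (hg ha)
  have hQh' : ∀ a : LRing L B, h • a ∈ Q → a ∈ Q := by
    intro a ha
    have hk : ∀ k : ℕ, ∀ b ∈ Q, h ^ k • b ∈ Q := fun k => by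
      induction k with
      | zero => simp
      | succ k ih => exact fun b hb => by rw [pow_succ', mul_smul]; exact hQh _ (ih b hb)
    have := hk (orderOf h - 1) _ ha
    rwa [smul_smul, ← pow_succ, Nat.sub_add_cancel (orderOf_pos h), pow_orderOf_eq_one,
      one_smul] at this
  refine ⟨γ g • τ₀, fun a => ⟨fun ha => by simpa [Qp] using hg ha, fun ha => hQh' a ?_⟩, P, hPI, ?_⟩
  · have := hh (show a ∈ Qp g by simpa [Qp] using ha)
    simpa [Qc] using this
  · have htτ : H.T.t (γ g • τ₀) = c := by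
      rw [← hτ₀]; exact congrFun (H.T.t_mem.2.1 (γ g) (hγ g)) τ₀
    have hP0 : evalAt (γ g • τ₀) (polyT H P) = 0 := by
      rw [evalAt_polyT, htτ]; exact (hc P).mp hPI
    have hd : deriv ((polyT H P).1 ∘ ofComplex) ((γ g • τ₀ : ℍ) : ℂ) ≠ 0 := by
      have e : (polyT H P).1 ∘ ofComplex =
          (fun x => (P.map B.subtype).eval x) ∘ (H.T.t ∘ ofComplex) := by
        funext z
        simp only [Function.comp_apply, eval_map]
        exact evalAt_polyT H _ P
      have ht := (analyticAt_comp_ofComplex H.T.t_mem.1 (γ g • τ₀)).differentiableAt.hasDerivAt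
      have hval : (H.T.t ∘ ofComplex) ((γ g • τ₀ : ℍ) : ℂ) = c := by
        simp only [Function.comp_apply, ofComplex_apply]
        exact htτ
      rw [e, (((P.map B.subtype).hasDerivAt _).comp _ ht).deriv, hval, derivative_map, eval_map]
      exact mul_ne_zero hPd (H.T.deriv_ne _)
    have := ordAt_sub_const_eq_one (polyT H P).2.1 hd
    rw [show (polyT H P).1 (γ g • τ₀) = 0 from hP0] at this
    simpa [← Pi.zero_def] using this

/-- The local statement. -/
lemma localPow_at (H : LevelHyp M L B) (hB : CoeffHyp B π n) (hS : SpecialFibre L B π hB.mem)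
    {f : LRing L B} (hf : ¬ constL (L := L) π hB.mem ∣ f) {g : ℍ → ℂ} (hg : MDiff g)
    (hgf : g ^ n = f.1) (m : Ideal (LRing L B)) [m.IsMaximal] (S : Type) [CommRing S]
    [Algebra (LRing L B) S] [IsLocalization.AtPrime S m] [UniqueFactorizationMonoid S] :
    ∃ s ∉ m, ∃ s' ∉ m, ∃ x : LRing L B, s * f = s' * x ^ n := by
  have := lRing_isDomain (L := L) (B := B)
  have := hB.dvr
  have hle : m.primeCompl ≤ nonZeroDivisors (LRing L B) := m.primeCompl_le_nonZeroDivisors
  have : IsDomain S := IsLocalization.isDomain_of_le_nonZeroDivisors _ hle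
  set φ := algebraMap (LRing L B) S with hφ
  have hinj : Function.Injective φ := IsLocalization.injective S hle
  have hf0 : f ≠ 0 := fun h => hf (h ▸ dvd_zero _)
  set πA := constL (L := L) π hB.mem
  have hkey : ∀ (p : S) (e : ℕ) (w : S), Prime p → φ f = p ^ e * w → ¬ p ∣ w → n ∣ e := by
    intro p e w hp hfe hpw
    rcases Nat.eq_zero_or_pos e with rfl | he
    · exact dvd_zero n
    obtain ⟨⟨p₀, s₀, hs₀⟩, hps⟩ := IsLocalization.surj m.primeCompl p
    have hu₀ : IsUnit (φ s₀) := IsLocalization.map_units S (⟨s₀, hs₀⟩ : m.primeCompl)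
    set Q : Ideal (LRing L B) := (Ideal.span {p}).comap φ
    have : (Ideal.span {p}).IsPrime := (Ideal.span_singleton_prime hp.ne_zero).mpr hp
    have hQ : ∀ x, x ∈ Q ↔ p ∣ φ x := fun x => by simp [Q, Ideal.mem_span_singleton]
    have hπQ : πA ∉ Q := by
      intro hπ
      rw [hQ] at hπ
      by_cases hπm : πA ∈ m
      · -- then `π` stays prime, hence divides `f`
        have hnu : ¬ IsUnit (φ πA) := fun h =>
          (IsLocalization.AtPrime.isUnit_to_map_iff S m πA).mp h hπm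
        obtain ⟨x, hx⟩ := hπ
        have hirr : φ πA ∣ p := by
          -- `π = p x`; by primality of `π` in the level ring, `π` divides `p` locally
          obtain ⟨⟨x₀, s₁, hs₁⟩, hxs⟩ := IsLocalization.surj m.primeCompl x
          have h1 : πA * (s₀ * s₁) = p₀ * x₀ := hinj (by
            simp only [map_mul, φ]
            rw [← hps, ← hxs, hx]; ring)
          rcases hS.prime.dvd_or_dvd (Dvd.intro _ h1) with ⟨y, hy⟩ | ⟨y, hy⟩
          · rw [← IsUnit.dvd_mul_right hu₀, hps]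
            exact ⟨φ y, by rw [hy, map_mul]⟩
          · exfalso
            have h2 : φ πA * (φ s₀ * φ s₁) = φ πA * (φ p₀ * φ y) := by
              simp only [← map_mul]
              rw [h1, hy]
              exact congrArg φ (mul_left_comm _ _ _)
            have hu : IsUnit (φ s₀ * φ s₁) :=
              hu₀.mul (IsLocalization.map_units S (⟨s₁, hs₁⟩ : m.primeCompl))
            rw [mul_left_cancel₀ ((map_ne_zero_iff φ hinj).mpr hS.prime.ne_zero) h2] at hu
            rw [← hps] at hu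
            exact hp.not_isUnit (isUnit_of_mul_isUnit_left (isUnit_of_mul_isUnit_left hu))
        have hdiv : φ πA ∣ φ f := hirr.trans (hfe ▸ (dvd_pow_self p he.ne').mul_right w)
        obtain ⟨x, hx⟩ := hdiv
        obtain ⟨⟨x₀, s₁, hs₁⟩, hxs⟩ := IsLocalization.surj m.primeCompl x
        have h1 : f * s₁ = πA * x₀ := hinj (by
          simp only [map_mul, φ]
          rw [← hxs, show algebraMap _ S f = φ πA * x from hx]; ring)
        rcases hS.prime.dvd_or_dvd ⟨x₀, h1⟩ with h | ⟨y, hy⟩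
        · exact hf h
        · exact hs₁ (hy ▸ m.mul_mem_right _ hπm)
      · exact hp.not_isUnit (isUnit_of_dvd_unit hπ
          (IsLocalization.map_units S (⟨πA, hπm⟩ : m.primeCompl)))
    have hcQ : ∀ c : B, constB L B c ∈ Q → c = 0 := by
      intro c hc
      by_contra hc0
      obtain ⟨k, hk⟩ := IsDiscreteValuationRing.associated_pow_irreducible hc0 hB.irred
      obtain ⟨v, hv⟩ := hk
      have : constB L B ((⟨π, hB.mem⟩ : B) ^ k) ∈ Q := by
        rw [← hv, map_mul]; exact Q.mul_mem_right _ hc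
      rw [map_pow] at this
      exact hπQ (Ideal.IsPrime.mem_of_pow_mem inferInstance k this)
    have hp₀ : p₀ ∈ Q := (hQ p₀).mpr ⟨φ s₀, hps.symm⟩
    have hp₀0 : p₀ ≠ 0 := by
      rintro rfl
      rw [map_zero, mul_eq_zero] at hps
      exact hps.elim hp.ne_zero hu₀.ne_zero
    obtain ⟨τ, hτ, P, hPQ, hord⟩ := exists_point H Q hcQ hp₀ hp₀0
    have hout : ∀ s, s ∉ m → s.1 τ ≠ 0 := fun s hs h0 => hp.not_isUnit
      (isUnit_of_dvd_unit ((hQ s).mp ((hτ s).mpr h0))
        (IsLocalization.map_units S (⟨s, hs⟩ : m.primeCompl)))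
    have hone : ordAt p₀.1 τ = 1 := by
      obtain ⟨b, hb⟩ := (hQ _).mp hPQ
      obtain ⟨⟨b₀, s₁, hs₁⟩, hbs⟩ := IsLocalization.surj m.primeCompl b
      have h1 : polyT H P * (s₀ * s₁) = p₀ * b₀ := hinj (by
        simp only [map_mul, φ]
        rw [← hps, ← hbs, show algebraMap _ S (polyT H P) = p * b from hb]; ring)
      have h2 := congrArg (fun F : LRing L B => ordAt F.1 τ) h1
      simp only [Subring.coe_mul] at h2
      rw [ordAt_mul (polyT H P).2.1 (s₀.2.1.mul s₁.2.1), ordAt_mul s₀.2.1 s₁.2.1,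
        ordAt_mul p₀.2.1 b₀.2.1, hord, (ordAt_eq_zero_iff s₀.2.1 τ).mpr (hout s₀ hs₀),
        (ordAt_eq_zero_iff s₁.2.1 τ).mpr (hout s₁ hs₁), add_zero, add_zero] at h2
      refine le_antisymm ?_ (Order.one_le_iff_ne_zero.mpr ?_)
      · rw [h2]; exact le_self_add
      rw [Ne, ordAt_eq_zero_iff p₀.2.1, not_not]
      exact (hτ p₀).mp hp₀
    obtain ⟨⟨w₀, s₂, hs₂⟩, hws⟩ := IsLocalization.surj m.primeCompl w
    have hw₀ : w₀.1 τ ≠ 0 := by
      intro h0
      have := (hQ w₀).mp ((hτ w₀).mpr h0)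
      rw [← hws] at this
      exact hpw ((IsUnit.dvd_mul_right (IsLocalization.map_units S (⟨s₂, hs₂⟩ : m.primeCompl))).mp this)
    have h1 : f * (s₀ ^ e * s₂) = p₀ ^ e * w₀ := hinj (by
      simp only [map_mul, map_pow, φ]
      rw [← hps, ← hws, show algebraMap _ S f = p ^ e * w from hfe]; ring)
    have h2 := congrArg (fun F : LRing L B => ordAt F.1 τ) h1
    simp only [Subring.coe_mul, Subring.coe_pow] at h2
    rw [ordAt_mul f.2.1 ((s₀.2.1.pow e).mul s₂.2.1), ordAt_mul (s₀.2.1.pow e) s₂.2.1,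
      ordAt_mul (p₀.2.1.pow e) w₀.2.1, ordAt_pow s₀.2.1, ordAt_pow p₀.2.1, hone,
      (ordAt_eq_zero_iff s₀.2.1 τ).mpr (hout s₀ hs₀),
      (ordAt_eq_zero_iff s₂.2.1 τ).mpr (hout s₂ hs₂), (ordAt_eq_zero_iff w₀.2.1 τ).mpr hw₀,
      nsmul_zero, nsmul_one, add_zero, add_zero, add_zero, ← hgf, ordAt_pow hg] at h2
    obtain ⟨k, hk⟩ := ENat.ne_top_iff_exists.mp (ordAt_ne_top hg (fun h => hf0 (Subtype.ext
      (by rw [← hgf, h, zero_pow hB.ne_zero]; rfl))) τ)
    rw [← hk, nsmul_eq_mul] at h2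
    exact ⟨k, by exact_mod_cast h2.symm⟩
  obtain ⟨u, y, hu, hfy⟩ := exists_unit_mul_pow n (φ f) ((map_ne_zero_iff φ hinj).mpr hf0) hkey
  obtain ⟨⟨u₀, s₁, hs₁⟩, hus⟩ := IsLocalization.surj m.primeCompl u
  obtain ⟨⟨y₀, s₂, hs₂⟩, hys⟩ := IsLocalization.surj m.primeCompl y
  refine ⟨s₁ * s₂ ^ n, m.primeCompl.mul_mem hs₁ (m.primeCompl.pow_mem hs₂ n), u₀, ?_, y₀,
    hinj ?_⟩
  · refine (IsLocalization.AtPrime.isUnit_to_map_iff S m u₀).mp ?_
    rw [← hus]
    exact hu.mul (IsLocalization.map_units S (⟨s₁, hs₁⟩ : m.primeCompl))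
  · simp only [map_mul, map_pow, φ]
    rw [← hus, ← hys, show algebraMap _ S f = u * y ^ n from hfy]
    ring

/-- `f` is locally an `n`-th power up to units if it has a holomorphic `n`-th root. -/
theorem isLocalPow_pow (H : LevelHyp M L B) (hB : CoeffHyp B π n) (hS : SpecialFibre L B π hB.mem)
    {f : LRing L B} (hf : ¬ constL (L := L) π hB.mem ∣ f) {g : ℍ → ℂ} (hg : MDiff g)
    (hgf : g ^ n = f.1) : IsLocalPow n f := fun m hm => by
  have := hS.ufd m
  exact localPow_at H hB hS hf hg hgf m (Localization.AtPrime m)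

end Fermat.Agent.KummerES
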