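import Fermat.Agent.KummerES.CoeffExtend
import Fermat.Agent.KummerES.LocalPow
import Fermat.Agent.KummerES.SpecialFibreMain
import Fermat.Agent.KummerES.ReductionSeries
import Fermat.Agent.KummerES.RootExpansion
import Fermat.Agent.KummerES.RootMultiplier

/-!
# A Kummer root congruent to an invariant function has trivial multiplier

If `w ^ n ≡ h ^ n` modulo `π` at `i∞` for an invariant `h` which does not vanish modulo `π`, then
the multiplier of `w` is trivial.
-/

set_option autoImplicit false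

noncomputable section

open UpperHalfPlane CongruenceSubgroup ModularCurve.Period
open scoped MatrixGroups Manifold

namespace Fermat.Agent.KummerES

open LevelHyp (Cong)

variable {M L n : ℕ} [NeZero L] [NeZero n] {Γ : Subgroup SL(2, ℤ)} {B : Subring ℂ} {π : ℂ}

omit [NeZero L] in
/-- Congruences pass to a larger coefficient ring. -/
lemma cong_mono {B' : Subring ℂ} {π' u : ℂ} (hle : B ≤ B') (hu : u ∈ B') (hπ : π = π' * u)
    {s t : LaurentSeries ℂ} (h : Cong B π 1 s t) : Cong B' π' 1 s t := by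
  obtain ⟨v, hv, hst⟩ := h
  refine ⟨HahnSeries.single 0 u * v,
    mul_mem (single_mem_coeffSubring 0 hu) (fun i => hle (hv i)), ?_⟩
  rw [hst, pow_one, pow_one, ← mul_assoc, HahnSeries.single_mul_single, add_zero, hπ]

omit [NeZero L] [NeZero n] in
/-- A series which is nonzero modulo `π` stays so over a larger coefficient ring. -/
lemma not_cong_mono {B' : Subring ℂ} {π' : ℂ} (hB : CoeffHyp B π n) (hle : B ≤ B')
    (hB' : CoeffHyp B' π' n) {s : LaurentSeries ℂ} (hs : s ∈ coeffSubring B)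
    (h : ¬ Cong B π 1 s 0) : ¬ Cong B' π' 1 s 0 := by
  have := hB.dvr
  rintro ⟨v, hv, hst⟩
  rw [sub_zero, pow_one] at hst
  refine h ⟨HahnSeries.single 0 π⁻¹ * s, fun i => ?_, ?_⟩
  · rw [HahnSeries.coeff_single_zero_mul]
    by_cases hu : IsUnit (⟨s.coeff i, hs i⟩ : B)
    · exfalso
      apply hB'.irred.not_isUnit
      have hu' : IsUnit (Subring.inclusion hle ⟨s.coeff i, hs i⟩) := hu.map _
      refine isUnit_of_dvd_unit ⟨⟨v.coeff i, hv i⟩, Subtype.ext ?_⟩ hu'
      show s.coeff i = π' * v.coeff i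
      rw [hst, HahnSeries.coeff_single_zero_mul]
    · have hm := (IsLocalRing.mem_maximalIdeal _).mpr (mem_nonunits_iff.mpr hu)
      rw [hB.irred.maximalIdeal_eq, Ideal.mem_span_singleton] at hm
      obtain ⟨c, hc⟩ := hm
      have hc' : s.coeff i = π * c := congrArg Subtype.val hc
      rw [hc', inv_mul_cancel_left₀ hB.pi_ne_zero]
      exact c.2
  · rw [sub_zero, pow_one, ← mul_assoc, HahnSeries.single_mul_single, add_zero,
      mul_inv_cancel₀ hB.pi_ne_zero]
    simp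

omit [NeZero n] in
/-- Expansions take finitely many values over the cusps. -/
lemma finite_range_expansion {B : Subring ℂ} (f : LRing L B) :
    (Set.range fun δ : SL(2, ℤ) => expAt (Gamma L) L B δ f).Finite := by
  have : Finite (SL(2, ℤ) ⧸ Gamma L) := Subgroup.finite_quotient_of_finiteIndex
  refine (Set.finite_range fun x : SL(2, ℤ) ⧸ Gamma L => expAt (Gamma L) L B x.out f).subset ?_
  rintro _ ⟨δ, rfl⟩
  refine ⟨QuotientGroup.mk δ, ?_⟩
  obtain ⟨⟨γ, hγ⟩, hx⟩ := QuotientGroup.mk_out_eq_mul (Gamma L) δ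
  simp only [expAt_apply, hx]
  rw [show δ * γ = δ * γ * δ⁻¹ * δ by group, ← comp_comp,
    f.2.2.1 _ ((Gamma_normal L).conj_mem _ hγ δ)]

omit [NeZero L] [NeZero n] in
lemma leadingCoeff_pow_eq (s : LaurentSeries ℂ) :
    ∀ k : ℕ, (s ^ k).leadingCoeff = s.leadingCoeff ^ k
  | 0 => by simp
  | k + 1 => by rw [pow_succ, pow_succ, HahnSeries.leadingCoeff_mul, leadingCoeff_pow_eq s k]

/-- The reduction theorem, given the gluing of local roots. -/
theorem kummer_trivial_of_congr_of_glue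
    (hroot : ∀ {B' : Subring ℂ} {π' : ℂ} (_ : LevelHyp M L B') (hB' : CoeffHyp B' π' n)
      (_ : SpecialFibre L B' π' hB'.mem) (f h : LRing L B') (_ : IsLocalPow n f)
      (_ : constL (L := L) π' hB'.mem ∣ f - h ^ n) (_ : ¬ constL (L := L) π' hB'.mem ∣ h)
      (_ : ∀ δ, ∃ G : LaurentSeries ℂ, G ^ n = expAt (Gamma L) L B' δ f ∧
        ∃ a ∈ B', ∃ b ∈ B', b ≠ 0 ∧ b * G.leadingCoeff = a),
      ∃ y : LRing L B', y ^ n = f ∧ constL (L := L) π' hB'.mem ∣ y - h)
    (H : LevelHyp M L B) (hB : CoeffHyp B π n) (hL : Gamma L ≤ Γ)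
    {χ : parabolicHoms ℤ Γ (ZMod n)} {w h : ℍ → ℂ} (hw : IsKummer L n χ.1 w)
    (hwB : w ^ n ∈ weak (Gamma L) L B) (hhB : h ∈ weak (Gamma L) L B)
    (hinv : ∀ γ ∈ Γ, comp h γ = h)
    (hcong : Cong B π 1 (expansion L (w ^ n)) (expansion L h ^ n))
    (hne : ¬ Cong B π 1 (expansion L h) 0) : χ = 0 := by
  classical
  -- the roots at the cusps
  set f₀ : LRing L B := ⟨w ^ n, hwB⟩ with hf₀
  have hG : ∀ δ, ∃ G : LaurentSeries ℂ, G ^ n = expAt (Gamma L) L B δ f₀ := by
    intro δ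
    have hconj : δ * ModularGroup.T ^ (L : ℤ) * δ⁻¹ ∈ Γ := hL (T_zpow_conj_mem_Gamma L δ)
    have hx : χ.1 (Additive.ofMul ⟨_, hconj⟩) = 0 :=
      χ.2 ⟨_, hconj⟩ (by show _ ^ 2 = (4 : ℤ); rw [trace_conj_T_zpow]; norm_num)
    have hper : comp (comp w δ) (ModularGroup.T ^ (L : ℤ)) = comp w δ := by
      rw [comp_comp, show δ * ModularGroup.T ^ (L : ℤ) =
        δ * ModularGroup.T ^ (L : ℤ) * δ⁻¹ * δ by group, ← comp_comp,
        show comp w (δ * ModularGroup.T ^ (L : ℤ) * δ⁻¹) = w by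
          rw [hw.comp_eq ⟨_, hconj⟩, hx]; simp]
    have hs : HasExp L (comp w δ ^ n) (expAt (Gamma L) L B δ f₀) := hasExp_expansion hwB δ
    obtain ⟨G, hG⟩ := exists_hasExp_of_periodic_pow (NeZero.ne n) (mdiff_comp hw.holo δ) hper hs
    exact ⟨G, (hG.pow n).series_eq hs⟩
  choose G hG using hG
  -- their leading coefficients
  have hfin : (Set.range fun δ => (G δ).leadingCoeff).Finite := by
    have h1 := (finite_range_expansion f₀).image HahnSeries.leadingCoeff
    refine (h1.biUnion fun c _ => (Polynomial.nthRoots n c).toFinset.finite_toSet).subset ?_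
    rintro _ ⟨δ, rfl⟩
    simp only [Set.mem_iUnion, exists_prop, Finset.mem_coe, Multiset.mem_toFinset,
      Polynomial.mem_nthRoots (Nat.pos_of_ne_zero (NeZero.ne n))]
    exact ⟨_, ⟨_, ⟨δ, rfl⟩, rfl⟩, by beta_reduce; rw [← hG δ, leadingCoeff_pow_eq]⟩
  have hint : ∀ x ∈ hfin.toFinset, IsIntegral B x := by
    intro x hx
    obtain ⟨δ, rfl⟩ := (Set.Finite.mem_toFinset _).mp hx
    refine IsIntegral.of_pow (Nat.pos_of_ne_zero (NeZero.ne n)) ?_
    rw [← leadingCoeff_pow_eq, hG δ]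
    have hmem : (expAt (Gamma L) L B δ f₀).leadingCoeff ∈ B := by
      rw [HahnSeries.leadingCoeff_eq]
      exact expansion_mem hwB δ _
    exact isIntegral_algebraMap (x := (⟨_, hmem⟩ : B))
  -- work over the enlarged coefficient ring
  obtain ⟨B', π', hB', hle, hmem, ⟨u, hu, hπu⟩, -⟩ :=
    exists_coeffHyp_extend hB hfin.toFinset fun x hx => (hint x hx).isAlgebraic
  let H' : LevelHyp M L B' := ⟨H.D, H.T, H.le.trans hle, H.two_le, H.dvd⟩
  have hS := H'.specialFibre hB'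
  set f : LRing L B' := ⟨w ^ n, weak_mono le_rfl hle hwB⟩ with hf
  set h' : LRing L B' := ⟨h, weak_mono le_rfl hle hhB⟩ with hh'
  set c : LRing L B' := constL (L := L) π' hB'.mem with hc
  have hprime : Prime c := hS.prime
  have hexp1 : ∀ a : LRing L B', expAt (Gamma L) L B' 1 a = expansion L a.1 := fun a => by
    rw [expAt_apply, comp_one]
  have hdvd : ∀ a : LRing L B', c ∣ a ↔ Cong B' π' 1 (expansion L a.1) 0 := by
    intro a
    rw [← hexp1]
    refine ⟨fun hd => ?_, fun hd => Ideal.mem_span_singleton.mp (hS.mem_span 1 a hd)⟩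
    obtain ⟨v, rfl⟩ := hd
    refine ⟨expAt (Gamma L) L B' 1 v, expansion_mem v.2 1, ?_⟩
    rw [sub_zero, map_mul, hc, expAt_constL, pow_one]
  have hfh : c ∣ f - h' ^ n := by
    obtain ⟨v, hv, hvs⟩ := cong_mono hle hu hπu hcong
    rw [hdvd, ← hexp1, map_sub, map_pow, hexp1, hexp1]
    exact ⟨v, hv, by rw [sub_zero, hvs]⟩
  have hh : ¬ c ∣ h' := by
    rw [hdvd]
    exact not_cong_mono hB hle hB' (by
      have := expansion_mem hhB 1
      rwa [comp_one] at this) hne
  have hff : ¬ c ∣ f := fun hd => hh (hprime.dvd_of_dvd_pow ((dvd_sub_right hd).mp hfh))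
  obtain ⟨y, hy, hyh⟩ := hroot H' hB' hS f h' (isLocalPow_pow H' hB' hS hff hw.holo rfl) hfh hh fun δ =>
    ⟨G δ, hG δ, hmem _ (hfin.mem_toFinset.mpr ⟨δ, rfl⟩)⟩
  -- `y` is a multiple of `w`
  obtain ⟨x, hx⟩ : ∃ x : ZMod n, y.1 = fun τ => rootPow n x * w τ :=
    eq_rootPow_mul_of_pow_eq hw.holo y.2.1 (congrArg Subtype.val hy)
  obtain ⟨v, hv⟩ := hyh
  refine Subtype.ext (AddMonoidHom.ext fun γ' => ?_)
  obtain ⟨γ, rfl⟩ : ∃ γ : Γ, Additive.ofMul γ = γ' := ⟨γ'.toMul, rfl⟩
  show χ.1 (Additive.ofMul γ) = 0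
  by_contra hχ
  set ζ := rootPow n (χ.1 (Additive.ofMul γ)) with hζ
  have hγy : comp y.1 γ = fun τ => ζ * y.1 τ := by
    funext τ
    have := congrFun (hw.comp_eq γ) τ
    simp only [comp_apply] at this
    simp only [comp_apply, hx, this, hζ]
    ring
  have hzl : zetaRing n ≤ B' := by
    rw [zetaRing, Subring.closure_le]
    rintro z (rfl | rfl)
    · exact hB'.zeta
    · exact hB'.unit
  have hζB : ζ ∈ B' := hzl (rootPow_mem_zetaRing _)
  have hkey : constL (L := L) (ζ - 1) (sub_mem hζB (one_mem _)) * y =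
      c * (⟨comp v.1 γ, comp_mem_weak v.2 γ⟩ - v) := by
    refine Subtype.ext (funext fun τ => ?_)
    have h1 := congrFun (congrArg Subtype.val hv) ((γ : SL(2, ℤ)) • τ)
    have h2 := congrFun (congrArg Subtype.val hv) τ
    have h3 := congrFun (hinv γ γ.2) τ
    have h4 := congrFun hγy τ
    simp only [comp_apply] at h3 h4
    simp only [Subring.coe_mul, AddSubgroupClass.coe_sub, Pi.mul_apply, Pi.sub_apply, hc, coe_constL,
      hh'] at h1 h2 ⊢
    rw [h3, h4] at h1
    simp only [comp_apply]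
    linear_combination h1 - h2
  have hu1 : IsUnit (constL (L := L) (ζ - 1) (sub_mem hζB (one_mem _))) := by
    refine IsUnit.of_mul_eq_one (constL (L := L) (-(1 - ζ)⁻¹)
      (neg_mem (hzl (inv_one_sub_rootPow_mem hχ)))) ?_
    have hne' : 1 - ζ ≠ 0 := sub_ne_zero.mpr fun he => hχ ((rootPow_eq_one_iff _).mp he.symm)
    refine Subtype.ext (funext fun τ => ?_)
    simp only [Subring.coe_mul, coe_constL, Pi.mul_apply, Subring.coe_one, Pi.one_apply]
    field_simp
    ring
  have hy0 : c ∣ y := hu1.dvd_mul_left.mp ⟨_, hkey⟩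
  exact hh ((dvd_sub_right hy0).mp ⟨v, hv⟩)

end Fermat.Agent.KummerES

end
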