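import Fermat.Agent.KummerES.ModulesMain
import Fermat.Agent.KummerES.KummerTrivial
import Fermat.Agent.KummerES.ConjugateBase
import Fermat.Agent.KummerES.ConjugateGlobal

/-!
# Rigidity from the gluing of local roots

If local `n`-th roots glue (`GlueProp`), congruences between powers of Kummer roots force trivial
characters; this gives the Galois modules of `Γ₀(N)` and their Eichler–Shimura relation.
-/

set_option autoImplicit false

noncomputable section

open UpperHalfPlane CongruenceSubgroup ModularCurve.Period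
open scoped MatrixGroups

namespace Fermat.Agent.KummerES

open HeckeLattice (CosetSystem Idx)

/-- Gluing of local `n`-th roots at every level. -/
def GlueProp : Prop :=
  ∀ (M L n : ℕ) [NeZero L] [NeZero n] (B : Subring ℂ) (π : ℂ) (_ : LevelHyp M L B)
    (hB : CoeffHyp B π n) (_ : SpecialFibre L B π hB.mem) (f h : LRing L B) (_ : IsLocalPow n f)
    (_ : constL (L := L) π hB.mem ∣ f - h ^ n) (_ : ¬ constL (L := L) π hB.mem ∣ h)
    (_ : ∀ δ, ∃ G : LaurentSeries ℂ, G ^ n = expAt (Gamma L) L B δ f ∧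
      ∃ a ∈ B, ∃ b ∈ B, b ≠ 0 ∧ b * G.leadingCoeff = a),
    ∃ y : LRing L B, y ^ n = f ∧ constL (L := L) π hB.mem ∣ y - h

/-- Gluing of local roots gives rigidity. -/
theorem rigidityProp_of_glue (hglue : GlueProp) (Γ : Subgroup SL(2, ℤ)) : RigidityProp Γ :=
  fun M L n _ _ _ _ H hB hL _ _ _ hw hwB hhB hinv hcong hne =>
    kummer_trivial_of_congr_of_glue (M := M) (fun H' hB' => hglue M L n _ _ H' hB')
      H hB hL hw hwB hhB hinv hcong hne

/-- Galois modules of `Γ₀(N)` from gluing of local roots. -/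
theorem nonempty_gamma0Modules_of_glue (hglue : GlueProp) (N p : ℕ) [NeZero N] (hp : p.Prime) :
    Nonempty (Gamma0Modules N p) :=
  ⟨gamma0ModulesOfLevel hp
    (conjLevelTwo (L := 6 * N) (dvd_mul_of_dvd_left (by norm_num) N) (isDiagStable_gamma0 N)
      (dvd_mul_left N 6))
    (rigidityProp_of_glue hglue _)⟩

/-- All levels compute the same action. -/
theorem ConjLevel.galRep_eq_parRep {Γ : Subgroup SL(2, ℤ)} {N L n : ℕ} [NeZero N] [NeZero L]
    [NeZero n] (S : ConjLevel Γ N L) : S.galRep (n := n) = parRep S.stable := by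
  refine MonoidHom.ext fun σ => AddMonoidHom.ext fun χ => ?_
  obtain ⟨σ', hσ', h⟩ := S.exists_isCharConj σ χ
  exact (parRep_spec S.stable hσ' h).symm

/-- The Eichler–Shimura relation on `Γ₀(N)` at any level, from gluing of local roots. -/
theorem galRep_frobenius_gamma0_of_glue (hglue : GlueProp) {N L p : ℕ} [NeZero N] [NeZero L]
    [NeZero p] (hp : p.Prime) (S : ConjLevel (Gamma0 N) N L) (k : ℕ) {ℓ : ℕ} [Fact ℓ.Prime]
    (hℓN : ¬ ℓ ∣ N) (hℓp : ℓ ≠ p) {A : ValuationSubring (AlgebraicClosure ℚ)}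
    (hA : A.LiesOverPrime ℓ) {σ : AlgebraicClosure ℚ ≃ₐ[ℚ] AlgebraicClosure ℚ}
    (hσ : A.IsFrobeniusAt σ ℓ) (x : parabolicHoms ℤ (Gamma0 N) (ZMod (p ^ k))) :
    (S.galRep σ (S.galRep σ x)).1
      - (HeckeLattice.gamma0System N ℓ hℓN).transfer (S.galRep σ x).1 + ℓ • x.1 = 0 := by
  let S₆ : ConjLevel (Gamma0 N) N (6 * N) :=
    conjLevelTwo (dvd_mul_of_dvd_left (by norm_num) N) (isDiagStable_gamma0 N) (dvd_mul_left N 6)
  have h := (gamma0ModulesOfLevel hp S₆ (rigidityProp_of_glue hglue _)).frobenius k ℓ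
    Fact.out hℓN hℓp A hA σ hσ x
  rw [MonoidHom.toAdditive_id, AddMonoidHom.comp_id] at h
  have heq : S.galRep (n := p ^ k) = S₆.galRep := by
    rw [S.galRep_eq_parRep, S₆.galRep_eq_parRep]
  rw [heq]
  exact h

end Fermat.Agent.KummerES
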