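import Fermat.Agent.KummerES.GluingMain
import Fermat.Agent.KummerES.ModulesRigid

/-!
# Existence of the Galois modules

Local `n`-th roots glue at every level, so congruences between powers of Kummer roots are rigid,
and Galois actions on the parabolic characters of `Γ₀(N)` exist.
-/

set_option autoImplicit false

noncomputable section

open UpperHalfPlane CongruenceSubgroup ModularCurve.Period
open scoped MatrixGroups

namespace Fermat.Agent.KummerES

open HeckeLattice (CosetSystem Idx)

/-- Gluing holds at every level. -/
theorem glueProp : GlueProp := fun _ _ _ _ _ _ _ H hB hS f h hloc hfh hh hg =>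
  exists_root_of_isLocalPow H hB hS f h hloc hfh hh hg

/-- Congruences between powers of Kummer roots force trivial characters. -/
theorem rigidityProp (Γ : Subgroup SL(2, ℤ)) : RigidityProp Γ := rigidityProp_of_glue glueProp Γ

/-- Galois actions on the parabolic characters of `Γ₀(N)`. -/
theorem nonempty_gamma0Modules (N p : ℕ) [NeZero N] (hp : p.Prime) :
    Nonempty (Gamma0Modules N p) :=
  nonempty_gamma0Modules_of_glue glueProp N p hp

end Fermat.Agent.KummerES
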