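import Fermat.Agent.KummerES.ModulesField

/-!
# The Galois modules

For a group stable under `diag (1, c)`, a level `6 N` with conjugation and the rigidity of
congruences between powers of Kummer roots give `GalModules`.
-/

set_option autoImplicit false

noncomputable section

open UpperHalfPlane CongruenceSubgroup ModularCurve.Period
open scoped MatrixGroups

namespace Fermat.Agent.KummerES

open HeckeLattice (CosetSystem Idx)
open GaloisBasics (Qbar GalQ)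

variable {Γ : Subgroup SL(2, ℤ)} {N L₀ n : ℕ} [NeZero L₀] [NeZero n]

/-- The Galois action commutes with transfers. -/
theorem ConjLevel.galRep_transferChar (S : ConjLevel Γ N L₀) {ℓ : ℕ} [Fact ℓ.Prime]
    {D : CosetSystem Γ (Idx ℓ)} (hD : IsStandard D) {δ : SL(2, ℤ)}
    (hDδ : ∀ F, heckeProd D F = heckePair ℓ F (comp F δ)) (hδ : IsTwistFixed Γ N δ)
    (dia : Γ →* Γ) (hdia : ∀ γ : Γ, (dia γ : SL(2, ℤ)) = δ * γ * δ⁻¹)
    (hT : ModularGroup.T ∈ Γ) (σ : GalQ) (x : parabolicHoms ℤ Γ (ZMod n)) :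
    S.galRep σ (transferChar D x) = transferChar D (S.galRep σ x) := by
  obtain ⟨σ', hσ', -⟩ := S.exists_isCharConj σ x
  rw [S.galRep_apply, S.galRep_apply, S.galChar_eq hσ', S.galChar_eq hσ']
  exact S.conjChar_transferChar hD hDδ hδ dia hdia hT σ' x

/-- The Galois action commutes with the diamond operators. -/
theorem ConjLevel.galRep_conjParChar (S : ConjLevel Γ N L₀) {δ : SL(2, ℤ)}
    (hδ : IsTwistFixed Γ N δ) (dia : Γ →* Γ)
    (hdia : ∀ γ : Γ, (dia γ : SL(2, ℤ)) = δ * γ * δ⁻¹) (σ : GalQ)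
    (x : parabolicHoms ℤ Γ (ZMod n)) :
    S.galRep σ (conjParChar δ dia hdia x) = conjParChar δ dia hdia (S.galRep σ x) := by
  obtain ⟨σ', hσ', -⟩ := S.exists_isCharConj σ x
  rw [S.galRep_apply, S.galRep_apply, S.galChar_eq hσ', S.galChar_eq hσ']
  exact S.conjChar_conjParChar hδ dia hdia σ' x

/-- The auxiliary level at a prime. -/
lemma exists_aux_level {N ℓ : ℕ} (hℓ : ℓ.Prime) (hℓN : ¬ ℓ ∣ N) :
    ∃ M : ℕ, (M = 2 ∨ M = 3) ∧ M * N ∣ 6 * N ∧ ¬ ℓ ∣ M * N := by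
  by_cases h : ℓ = 2
  · refine ⟨3, Or.inr rfl, mul_dvd_mul_right (by norm_num) N, fun hd => ?_⟩
    rcases hℓ.dvd_mul.mp hd with h3 | h3
    · subst h; norm_num at h3
    · exact hℓN h3
  · refine ⟨2, Or.inl rfl, mul_dvd_mul_right (by norm_num) N, fun hd => ?_⟩
    rcases hℓ.dvd_mul.mp hd with h2 | h2
    · exact h ((Nat.prime_dvd_prime_iff_eq hℓ Nat.prime_two).mp h2)
    · exact hℓN h2

variable {p : ℕ} [NeZero N]

/-- Galois modules, from conjugation at level `6 N` and rigidity. -/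
def galModulesOfLevel (hp : p.Prime) (S : ConjLevel Γ N (6 * N)) (hrig : RigidityProp Γ)
    (hT : ModularGroup.T ∈ Γ)
    (D : ∀ ℓ : ℕ, ℓ.Prime → ¬ ℓ ∣ N → CosetSystem Γ (Idx ℓ)) (dia : ℕ → (Γ →* Γ))
    (δ : ℕ → SL(2, ℤ))
    (hD : ∀ (ℓ : ℕ) (hℓ : ℓ.Prime) (hℓN : ¬ ℓ ∣ N),
      (haveI := Fact.mk hℓ; IsStandard (D ℓ hℓ hℓN)))
    (hDδ : ∀ (ℓ : ℕ) (hℓ : ℓ.Prime) (hℓN : ¬ ℓ ∣ N) (F : ℍ → ℂ),
      (haveI := Fact.mk hℓ; heckeProd (D ℓ hℓ hℓN) F = heckePair ℓ F (comp F (δ ℓ))))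
    (hdia : ∀ ℓ : ℕ, ℓ.Prime → ¬ ℓ ∣ N → ∀ γ : Γ,
      (dia ℓ γ : SL(2, ℤ)) = δ ℓ * γ * (δ ℓ)⁻¹)
    (hδ : ∀ ℓ : ℕ, ℓ.Prime → ¬ ℓ ∣ N → IsTwistFixed Γ N (δ ℓ)) :
    GalModules Γ N p D dia where
  rep k := haveI : NeZero p := ⟨hp.ne_zero⟩; S.galRep (n := p ^ k)
  compat k σ x y h := haveI : NeZero p := ⟨hp.ne_zero⟩; S.galRep_compat k σ x y h
  finiteLevel k := haveI : NeZero p := ⟨hp.ne_zero⟩; S.galRep_finiteLevel
  hecke_comm k σ ℓ hℓ hℓN x y hxy := by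
    have : NeZero p := ⟨hp.ne_zero⟩
    have := Fact.mk hℓ
    have hy : y = transferChar (D ℓ hℓ hℓN) x := Subtype.ext hxy.symm
    subst hy
    rw [S.galRep_transferChar (hD ℓ hℓ hℓN) (hDδ ℓ hℓ hℓN) (hδ ℓ hℓ hℓN) (dia ℓ)
      (hdia ℓ hℓ hℓN) hT]
    rfl
  unramified k q hq hqN hqp A hA σ hσ := by
    have : NeZero p := ⟨hp.ne_zero⟩
    obtain ⟨M, hM, hMN, hqMN⟩ := exists_aux_level hq hqN
    have : NeZero (M * N) := ⟨mul_ne_zero (by rcases hM with rfl | rfl <;> norm_num) (NeZero.ne N)⟩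
    have hqn : ¬ q ∣ p ^ k := fun h =>
      hqp ((Nat.prime_dvd_prime_iff_eq hq hp).mp (hq.dvd_of_dvd_pow h))
    obtain ⟨E, _, P, -⟩ := exists_placeHyp (n := p ^ k) S hrig hM (dvd_mul_right M N)
      (dvd_mul_left N M) hMN hq hqMN hqn hA
    exact P.galRep_inertia S hMN (dvd_mul_left N M) hq hA hT hσ
  frobenius k ℓ hℓ hℓN hℓp A hA σ hσ x := by
    have : NeZero p := ⟨hp.ne_zero⟩
    have := Fact.mk hℓ
    obtain ⟨M, hM, hMN, hℓMN⟩ := exists_aux_level hℓ hℓN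
    have : NeZero (M * N) := ⟨mul_ne_zero (by rcases hM with rfl | rfl <;> norm_num) (NeZero.ne N)⟩
    have hℓn : ¬ ℓ ∣ p ^ k := fun h =>
      hℓp ((Nat.prime_dvd_prime_iff_eq hℓ hp).mp (hℓ.dvd_of_dvd_pow h))
    obtain ⟨E, _, P, hζ⟩ := exists_placeHyp (n := p ^ k) S hrig hM (dvd_mul_right M N)
      (dvd_mul_left N M) hMN hℓ hℓMN hℓn hA
    exact P.galRep_frobenius S hMN (dvd_mul_left N M) hA hζ (hD ℓ hℓ hℓN) (hDδ ℓ hℓ hℓN)
      (hδ ℓ hℓ hℓN) (dia ℓ) (hdia ℓ hℓ hℓN) hT hσ x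

/-- `Gamma0Modules` from conjugation at level `6 N` and rigidity. -/
def gamma0ModulesOfLevel (hp : p.Prime) (S : ConjLevel (Gamma0 N) N (6 * N))
    (hrig : RigidityProp (Gamma0 N)) : Gamma0Modules N p :=
  galModulesOfLevel hp S hrig (by rw [Gamma0_mem]; simp [ModularGroup.coe_T])
    (fun ℓ hℓ hℓN => haveI := Fact.mk hℓ; HeckeLattice.gamma0System N ℓ hℓN)
    (fun _ => MonoidHom.id _) (fun _ => 1)
    (fun ℓ hℓ hℓN => haveI := Fact.mk hℓ; isStandard_gamma0 hℓN)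
    (fun ℓ hℓ hℓN F => haveI := Fact.mk hℓ; heckeProd_gamma0System_eq hℓN F)
    (fun ℓ _ _ γ => by simp)
    (fun ℓ _ _ => IsTwistFixed.one (isDiagStable_gamma0 N))

end Fermat.Agent.KummerES
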