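import Fermat.Prelude.Def_GaloisRep_ComplexConjugation
import Mathlib.FieldTheory.IsAlgClosed.Classification
import Mathlib.Algebra.MvPolynomial.Equiv
import Mathlib.Analysis.Complex.Polynomial.Basic
import Mathlib.Analysis.Complex.Cardinality

/-!
# Automorphisms of `ℂ`

Galois automorphisms of `ℚ̄` extend to `ℂ`, and a number with finite orbit is algebraic.
-/

set_option autoImplicit false

noncomputable section

namespace Fermat.Agent.KummerES

open MvPolynomial

/-- An automorphism of polynomials in a transcendence basis extends to `ℂ`. -/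
lemma exists_aut_extend {R : Type*} [CommRing R] [Algebra R ℂ] {ι : Type*} {v : ι → ℂ}
    (hv : IsTranscendenceBasis R v) (φ : MvPolynomial ι R ≃+* MvPolynomial ι R) :
    ∃ σ : ℂ ≃+* ℂ, ∀ p : MvPolynomial ι R, σ (aeval v p) = aeval v (φ p) := by
  let := IsAlgClosed.isAlgClosure_of_transcendence_basis v hv
  let e : Algebra.adjoin R (Set.range v) ≃+* Algebra.adjoin R (Set.range v) :=
    (hv.1.aevalEquiv.symm.toRingEquiv.trans φ).trans hv.1.aevalEquiv.toRingEquiv
  refine ⟨IsAlgClosure.equivOfEquiv ℂ ℂ e, fun p => ?_⟩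
  have h := IsAlgClosure.equivOfEquiv_algebraMap ℂ ℂ e (hv.1.aevalEquiv p)
  simpa [e] using h

/-- Galois automorphisms of `ℚ̄` extend to automorphisms of `ℂ`. -/
theorem exists_aut_extend_galois (σ : AlgebraicClosure ℚ ≃ₐ[ℚ] AlgebraicClosure ℚ) :
    ∃ σ' : ℂ ≃+* ℂ, ∀ x, σ' (complexEmbedding x) = complexEmbedding (σ x) := by
  let : Algebra (AlgebraicClosure ℚ) ℂ := complexEmbedding.toRingHom.toAlgebra
  obtain ⟨s, hs⟩ := exists_isTranscendenceBasis (AlgebraicClosure ℚ) ℂ
  obtain ⟨σ', hσ'⟩ := exists_aut_extend hs (MvPolynomial.mapEquiv s σ.toRingEquiv)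
  refine ⟨σ', fun x => ?_⟩
  have h := hσ' (C x)
  simp only [aeval_C, MvPolynomial.mapEquiv_apply, map_C] at h
  exact h

/-- A complex number with finitely many conjugates is algebraic. -/
theorem isAlgebraic_of_finite_orbit {z : ℂ}
    (h : (Set.range fun σ : ℂ ≃+* ℂ => σ z).Finite) : IsAlgebraic ℚ z := by
  by_contra hz
  have hz' : Transcendental ℚ z := hz
  obtain ⟨s, hzs, hs⟩ := exists_isTranscendenceBasis_superset
    (R := ℚ) (s := ({z} : Set ℂ)) ((algebraicIndependent_singleton_iff (⟨z, rfl⟩ : ({z} : Set ℂ))).mpr hz')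
  have hcard := IsAlgClosed.cardinal_eq_cardinal_transcendence_basis_of_aleph0_lt'
    (R := ℚ) _ hs Cardinal.mk_le_aleph0 (by rw [Cardinal.mk_complex]; exact Cardinal.aleph0_lt_continuum)
  have : Infinite s := by
    rw [Cardinal.infinite_iff, ← hcard, Cardinal.mk_complex]
    exact Cardinal.aleph0_le_continuum
  classical
  refine Set.infinite_range_of_injective (f := ((↑) : s → ℂ)) Subtype.val_injective (h.subset ?_)
  rintro _ ⟨j, rfl⟩
  obtain ⟨σ, hσ⟩ := exists_aut_extend hs
    (renameEquiv ℚ (Equiv.swap (⟨z, hzs rfl⟩ : s) j)).toRingEquiv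
  refine ⟨σ, ?_⟩
  simpa using hσ (X (⟨z, hzs rfl⟩ : s))

/-- Algebraic numbers lie in the image of `complexEmbedding`. -/
lemma mem_range_complexEmbedding {z : ℂ} (hz : IsAlgebraic ℚ z) :
    ∃ x, complexEmbedding x = z := by
  obtain ⟨P, hP, hPz⟩ := hz
  have hsplit : (P.map (algebraMap ℚ (AlgebraicClosure ℚ))).Splits := IsAlgClosed.splits _
  have hroots := hsplit.roots_map complexEmbedding.toRingHom
  rw [Polynomial.map_map, show complexEmbedding.toRingHom.comp
    (algebraMap ℚ (AlgebraicClosure ℚ)) = algebraMap ℚ ℂ from complexEmbedding.comp_algebraMap] at hroots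
  have hzr : z ∈ (P.map (algebraMap ℚ ℂ)).roots := by
    rw [Polynomial.mem_roots (Polynomial.map_ne_zero hP), Polynomial.IsRoot, Polynomial.eval_map,
      ← Polynomial.aeval_def]
    exact hPz
  rw [hroots, Multiset.mem_map] at hzr
  obtain ⟨x, -, hx⟩ := hzr
  exact ⟨x, hx⟩

end Fermat.Agent.KummerES
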