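import Fermat.Agent.KummerES.ConjugateCanon
import Fermat.Agent.KummerES.ConjugateAut
import Mathlib.GroupTheory.Schreier

/-!
# The Galois action on parabolic characters

The action of `Aut ℂ` on parabolic characters factors through a finite quotient of the Galois
group of `ℚ̄`, and is compatible with the reductions `ℤ/p^(k+1) → ℤ/p^k`.
-/

set_option autoImplicit false

noncomputable section

open UpperHalfPlane CongruenceSubgroup ModularCurve.Period
open scoped MatrixGroups Manifold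

local notation "GQ" => AlgebraicClosure ℚ ≃ₐ[ℚ] AlgebraicClosure ℚ

namespace Fermat.Agent.KummerES

open ModularCurve (coeffMap)

variable {Γ : Subgroup SL(2, ℤ)} {N L n : ℕ} [NeZero L] [NeZero n]

/-- There are finitely many parabolic characters modulo `n`. -/
lemma finite_parabolicHoms (hLΓ : Gamma L ≤ Γ) : Finite (parabolicHoms ℤ Γ (ZMod n)) := by
  have : Γ.FiniteIndex := Subgroup.finiteIndex_of_le hLΓ
  have : Group.FG SL(2, ℤ) := Group.fg_iff.mpr ⟨{ModularGroup.S, ModularGroup.T},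
    SpecialLinearGroup.SL2Z_generators, Set.toFinite _⟩
  have : Group.FG Γ := inferInstance
  have : AddGroup.FG (Additive Γ) := inferInstance
  obtain ⟨s, hs, hfin⟩ := AddGroup.fg_iff.mp ‹AddGroup.FG (Additive Γ)›
  have := hfin.to_subtype
  refine Finite.of_injective (fun χ : parabolicHoms ℤ Γ (ZMod n) => fun x : s => χ.1 x) fun χ ψ h => ?_
  exact Subtype.ext (AddMonoidHom.eq_of_eqOn_dense hs fun x hx => congrFun h ⟨x, hx⟩)

namespace ConjLevel

variable (S : ConjLevel Γ N L)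

/-- A finite set of algebraic numbers whose stabiliser fixes a given character. -/
theorem exists_finset_fixing (χ : parabolicHoms ℤ Γ (ZMod n)) :
    ∃ T : Finset ℂ, (∀ z ∈ T, IsAlgebraic ℚ z) ∧
      ∀ σ : ℂ ≃+* ℂ, (∀ z ∈ T, σ z = z) → S.conjChar σ χ = χ := by
  classical
  have := finite_parabolicHoms (n := n) S.gamma_le
  obtain ⟨g₀, hg₀⟩ := exists_isKummer S.gamma_le χ
  obtain ⟨K, hK⟩ := exists_poleBound hg₀.pow_mem
  obtain ⟨g, hg⟩ := exists_isCanon S.gamma_le hg₀ hK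
  set s := expansion L (g ^ n) with hs
  have halg : ∀ i, IsAlgebraic ℚ (s.coeff i) := by
    intro i
    refine isAlgebraic_of_finite_orbit (Set.Finite.subset (Set.finite_iUnion
      (fun ψ : parabolicHoms ℤ Γ (ZMod n) => (Set.Subsingleton.finite
        (s := {z : ℂ | ∃ h, IsCanon L K ψ h ∧ z = (expansion L (h ^ n)).coeff i}) ?_))) ?_)
    · rintro z ⟨h, hh, rfl⟩ w ⟨h', hh', rfl⟩
      rw [hh.pow_eq S.gamma_le hh']
    · rintro _ ⟨σ, rfl⟩
      obtain ⟨g', hg', hexp⟩ := S.exists_isCanon_conj σ hg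
      exact Set.mem_iUnion.mpr ⟨_, g', hg', by rw [hexp]; simp [hs]⟩
  have hI : ∀ ψ : parabolicHoms ℤ Γ (ZMod n), ∃ i : ℤ, ∀ h, IsCanon L K ψ h →
      (expansion L (h ^ n)).coeff i = s.coeff i → expansion L (h ^ n) = s := by
    intro ψ
    by_cases hex : ∃ h, IsCanon L K ψ h ∧ expansion L (h ^ n) ≠ s
    · obtain ⟨h₁, hh₁, hne⟩ := hex
      obtain ⟨i, hi⟩ : ∃ i, (expansion L (h₁ ^ n)).coeff i ≠ s.coeff i := by
        by_contra hcon
        push Not at hcon
        exact hne (HahnSeries.ext (funext hcon))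
      refine ⟨i, fun h hh heq => absurd ?_ hi⟩
      rwa [hh₁.pow_eq S.gamma_le hh]
    · push Not at hex
      exact ⟨0, fun h hh _ => hex h hh⟩
  choose I hI using hI
  let := Fintype.ofFinite (parabolicHoms ℤ Γ (ZMod n))
  refine ⟨Finset.univ.image fun ψ => s.coeff (I ψ), fun z hz => ?_, fun σ hσ => ?_⟩
  · obtain ⟨ψ, -, rfl⟩ := Finset.mem_image.mp hz
    exact halg _
  obtain ⟨g', hg', hexp⟩ := S.exists_isCanon_conj σ hg
  have hfix : coeffMap (σ : ℂ →+* ℂ) s = s := by
    rw [← hexp]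
    refine hI _ g' hg' ?_
    rw [hexp]
    simpa [hs] using hσ _ (Finset.mem_image.mpr ⟨S.conjChar σ χ, Finset.mem_univ _, rfl⟩)
  obtain ⟨c, hc, hσc⟩ := exists_pow_zetaC L (σ : ℂ →+* ℂ)
  obtain ⟨f', hf'⟩ := S.hasConj _ c hσc _ hg.kummer.pow_mem
  exact S.conjChar_eq ⟨c, g, g, hc, hσc, hg.kummer, hg.kummer, hf'.of_fixed hfix⟩

/-- Automorphisms fixing the algebraic numbers fix all characters. -/
lemma conjChar_eq_self_of_fixed {σ : ℂ ≃+* ℂ} (h : ∀ x, σ (complexEmbedding x) = complexEmbedding x)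
    (χ : parabolicHoms ℤ Γ (ZMod n)) : S.conjChar σ χ = χ := by
  obtain ⟨T, hT, hfix⟩ := S.exists_finset_fixing χ
  refine hfix σ fun z hz => ?_
  obtain ⟨x, rfl⟩ := mem_range_complexEmbedding (hT z hz)
  exact h x

/-- The action of a Galois automorphism. -/
def galChar (σ : GQ) (χ : parabolicHoms ℤ Γ (ZMod n)) : parabolicHoms ℤ Γ (ZMod n) :=
  S.conjChar (exists_aut_extend_galois σ).choose χ

/-- Every extension of `σ` to `ℂ` computes the action of `σ`. -/
theorem galChar_eq {σ : GQ} {σ' : ℂ ≃+* ℂ}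
    (h : ∀ x, σ' (complexEmbedding x) = complexEmbedding (σ x))
    (χ : parabolicHoms ℤ Γ (ZMod n)) : S.galChar σ χ = S.conjChar σ' χ := by
  have h₀ := (exists_aut_extend_galois σ).choose_spec
  set σ₀ := (exists_aut_extend_galois σ).choose
  have : S.conjChar (σ₀.trans σ'.symm) χ = χ := S.conjChar_eq_self_of_fixed (fun x => by
    rw [RingEquiv.trans_apply, h₀, ← h, RingEquiv.symm_apply_apply]) χ
  rw [S.conjChar_trans] at this
  conv_rhs => rw [← this, ← S.conjChar_trans, RingEquiv.symm_trans_self, S.conjChar_refl]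
  rfl

/-- The representation. -/
def galRep : GQ →* AddMonoid.End (parabolicHoms ℤ Γ (ZMod n)) where
  toFun σ := AddMonoidHom.mk' (S.galChar σ) fun χ χ' => S.conjChar_add _ χ χ'
  map_one' := AddMonoidHom.ext fun χ => by
    show S.galChar 1 χ = χ
    rw [S.galChar_eq (σ' := RingEquiv.refl ℂ) (fun x => rfl), S.conjChar_refl]
  map_mul' σ τ := AddMonoidHom.ext fun χ => by
    show S.galChar (σ * τ) χ = S.galChar σ (S.galChar τ χ)
    obtain ⟨σ', hσ'⟩ := exists_aut_extend_galois σ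
    obtain ⟨τ', hτ'⟩ := exists_aut_extend_galois τ
    rw [S.galChar_eq hσ', S.galChar_eq hτ',
      S.galChar_eq (σ := σ * τ) (σ' := τ'.trans σ') (fun x => by
        rw [RingEquiv.trans_apply, hτ', hσ']; rfl), S.conjChar_trans]

/-- `galRep` acts by `galChar`. -/
lemma galRep_apply (σ : GQ) (χ : parabolicHoms ℤ Γ (ZMod n)) :
    S.galRep σ χ = S.galChar σ χ := rfl

/-- The specification: the action is read on conjugates of powers of roots. -/
theorem galRep_spec {σ : GQ} {σ' : ℂ ≃+* ℂ}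
    (h : ∀ x, σ' (complexEmbedding x) = complexEmbedding (σ x))
    {χ ψ : parabolicHoms ℤ Γ (ZMod n)} (hψ : IsCharConj L (σ' : ℂ →+* ℂ) χ ψ) :
    S.galRep σ χ = ψ := by
  rw [galRep_apply, S.galChar_eq h, S.conjChar_eq hψ]

/-- The Galois action on a character is realised by a complex automorphism extending `σ`. -/
lemma exists_isCharConj (σ : GQ) (χ : parabolicHoms ℤ Γ (ZMod n)) :
    ∃ σ' : ℂ ≃+* ℂ, (∀ x, σ' (complexEmbedding x) = complexEmbedding (σ x)) ∧
      IsCharConj L (σ' : ℂ →+* ℂ) χ (S.galRep σ χ) :=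
  ⟨_, (exists_aut_extend_galois σ).choose_spec, S.isCharConj_conjChar _ χ⟩

/-- The action factors through a finite quotient. -/
theorem galRep_finiteLevel : GaloisFactorsThroughFiniteLevel (S.galRep (n := n)) := by
  classical
  have := finite_parabolicHoms (n := n) S.gamma_le
  let := Fintype.ofFinite (parabolicHoms ℤ Γ (ZMod n))
  choose T hT hfix using fun χ : parabolicHoms ℤ Γ (ZMod n) => S.exists_finset_fixing χ
  let U : Set (AlgebraicClosure ℚ) :=
    complexEmbedding ⁻¹' ((Finset.univ.biUnion T : Finset ℂ) : Set ℂ)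
  have hU : U.Finite := (Finset.finite_toSet _).preimage complexEmbedding.toRingHom.injective.injOn
  have := hU.to_subtype
  refine ⟨IntermediateField.adjoin ℚ U, IntermediateField.finiteDimensional_adjoin
    fun x _ => ((AlgebraicClosure.isAlgebraic ℚ).isAlgebraic x).isIntegral, fun σ hσ =>
    AddMonoidHom.ext fun χ => ?_⟩
  obtain ⟨σ', hσ'⟩ := exists_aut_extend_galois σ
  show S.galChar σ χ = χ
  rw [S.galChar_eq hσ']
  refine hfix χ σ' fun z hz => ?_
  obtain ⟨x, rfl⟩ := mem_range_complexEmbedding (hT χ z hz)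
  rw [hσ', hσ x (IntermediateField.subset_adjoin ℚ U
    (Finset.mem_biUnion.mpr ⟨χ, Finset.mem_univ _, hz⟩))]

end ConjLevel

omit [NeZero L] in
/-- Reduction of characters raises roots to a power. -/
lemma IsKummer.cast [NeZero L] {n' m : ℕ} [NeZero n'] (hn : n' = n * m)
    {χ : Additive Γ →+ ZMod n'} {ψ : Additive Γ →+ ZMod n} {g : ℍ → ℂ}
    (hg : IsKummer L n' χ g)
    (h : ∀ γ, ZMod.castHom (hn ▸ dvd_mul_right n m) (ZMod n) (χ γ) = ψ γ) :
    IsKummer L n ψ (g ^ m) where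
  ne_zero h0 := by
    have hm : m ≠ 0 := fun h' => NeZero.ne n' (by rw [hn, h', mul_zero])
    refine hg.ne_zero (funext fun τ => ?_)
    simpa [hm] using congrFun h0 τ
  holo := hg.holo.pow m
  comp_eq γ := by
    funext τ
    simp only [comp_apply, Pi.pow_apply]
    rw [show g ((γ : SL(2, ℤ)) • τ) = _ from congrFun (hg.comp_eq γ) τ, mul_pow, ← h]
    congr 1
    rw [rootPow, ← pow_mul, ZMod.castHom_apply, ZMod.cast_eq_val, rootPow_natCast, mul_comm,
      pow_mul]
    congr 1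
    rw [zetaC, zetaC, ← Complex.exp_nat_mul]
    congr 1
    have : (n : ℂ) ≠ 0 := Nat.cast_ne_zero.mpr (NeZero.ne n)
    have : (m : ℂ) ≠ 0 := Nat.cast_ne_zero.mpr fun h' => NeZero.ne n' (by rw [hn, h', mul_zero])
    rw [hn]
    push_cast
    field_simp
  pow_mem := by rw [← pow_mul, mul_comm, ← hn]; exact hg.pow_mem

/-- The actions on `ℤ/p^k` are compatible. -/
theorem ConjLevel.galRep_compat (S : ConjLevel Γ N L) {p : ℕ} [NeZero p] (k : ℕ) (σ : GQ)
    (x : parabolicHoms ℤ Γ (ZMod (p ^ (k + 1)))) (y : parabolicHoms ℤ Γ (ZMod (p ^ k)))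
    (h : ∀ γ, ZMod.castHom (pow_dvd_pow p k.le_succ) (ZMod (p ^ k)) (x.1 γ) = y.1 γ) :
    ∀ γ, ZMod.castHom (pow_dvd_pow p k.le_succ) (ZMod (p ^ k)) ((S.galRep σ x).1 γ) =
      (S.galRep σ y).1 γ := by
  obtain ⟨σ', hσ', c, g, g', hc, hσc, hg, hg', hconj⟩ := S.exists_isCharConj σ x
  let q := ZMod.castHom (pow_dvd_pow p k.le_succ) (ZMod (p ^ k))
  let z : parabolicHoms ℤ Γ (ZMod (p ^ k)) := ⟨q.toAddMonoidHom.comp (S.galRep σ x).1,
    fun γ hγ => by simp [(S.galRep σ x).2 γ hγ]⟩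
  have hn : p ^ (k + 1) = p ^ k * p := pow_succ p k
  have hg1 : IsKummer L (p ^ k) y.1 (g ^ p) := hg.cast hn h
  have hg2 : IsKummer L (p ^ k) z.1 (g' ^ p) := hg'.cast hn fun γ => rfl
  have hz : S.galRep σ y = z := S.galRep_spec hσ' ⟨c, g ^ p, g' ^ p, hc, hσc, hg1, hg2, by
    rwa [← pow_mul, ← pow_mul, mul_comm p, ← hn]⟩
  rw [hz]
  exact fun γ => rfl

end Fermat.Agent.KummerES
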