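import Fermat.Agent.KummerES.ConjugateSpec

/-!
# Canonical Kummer roots

Among the roots of a character with bounded poles at the cusps, the one of largest order at `i∞`
is unique up to a scalar, and conjugation carries canonical roots to canonical roots.
-/

set_option autoImplicit false

noncomputable section

open UpperHalfPlane CongruenceSubgroup ModularCurve.Period
open scoped MatrixGroups Manifold

namespace Fermat.Agent.KummerES

open ModularCurve (coeffMap)

variable {Γ : Subgroup SL(2, ℤ)} {N L n : ℕ} [NeZero L] [NeZero n]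

/-- Poles of order at most `K` at every cusp. -/
def PoleBound (L K : ℕ) (f : ℍ → ℂ) : Prop :=
  ∀ δ : SL(2, ℤ), -(K : ℤ) ≤ (expansion L (comp f δ)).order

/-- The coefficient of leading degree at `i∞`. -/
def leadCoeff (L : ℕ) (f : ℍ → ℂ) : ℂ := (expansion L f).coeff (expansion L f).order

/-- `g` is a root of `χ` of largest order at `i∞` among those with poles bounded by `K`, normalised
so that the leading coefficient of `g ^ n` is `1`. -/
structure IsCanon (L K : ℕ) (χ : parabolicHoms ℤ Γ (ZMod n)) (g : ℍ → ℂ) : Prop where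
  kummer : IsKummer L n χ.1 g
  bound : PoleBound L K (g ^ n)
  lead : leadCoeff L (g ^ n) = 1
  max : ∀ h, IsKummer L n χ.1 h → PoleBound L K (h ^ n) →
    (expansion L (h ^ n)).order ≤ (expansion L (g ^ n)).order

/-- Expansions of a root at every cusp. -/
lemma IsKummer.exists_rootExp (hLΓ : Gamma L ≤ Γ) {χ : parabolicHoms ℤ Γ (ZMod n)} {g : ℍ → ℂ}
    (hg : IsKummer L n χ.1 g) (δ : SL(2, ℤ)) :
    ∃ S : LaurentSeries ℂ, S ≠ 0 ∧ HasExp L (comp g δ) S ∧
      expansion L (comp (g ^ n) δ) = S ^ n ∧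
      (expansion L (comp (g ^ n) δ)).order = n * S.order := by
  have hper : comp (comp g δ) (ModularGroup.T ^ (L : ℤ)) = comp g δ := by
    have hmem := hLΓ (T_zpow_conj_mem_Gamma L δ)
    rw [comp_comp, show δ * ModularGroup.T ^ (L : ℤ) =
      δ * ModularGroup.T ^ (L : ℤ) * δ⁻¹ * δ by group, ← comp_comp,
      show comp g (δ * ModularGroup.T ^ (L : ℤ) * δ⁻¹) = _ from hg.comp_eq ⟨_, hmem⟩,
      χ.2 ⟨_, hmem⟩ (by rw [trace_conj_T_zpow]; norm_num)]
    simp
  have hs : HasExp L (comp g δ ^ n) (expansion L (comp (g ^ n) δ)) := hasExp_expansion hg.pow_mem δ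
  obtain ⟨S, hS⟩ := exists_hasExp_of_periodic_pow (NeZero.ne n) (mdiff_comp hg.holo δ) hper hs
  have hS0 : S ≠ 0 := by
    rintro rfl
    refine hg.ne_zero (funext fun τ => ?_)
    simpa using congrFun (hS.fun_eq HasExp.zero) (δ⁻¹ • τ)
  have hpow := ((hS.pow n).series_eq hs).symm
  exact ⟨S, hS0, hS, hpow, by rw [hpow, HahnSeries.order_pow, nsmul_eq_mul]⟩

lemma IsKummer.expansion_ne_zero {χ : Additive Γ →+ ZMod n} {g : ℍ → ℂ}
    (hg : IsKummer L n χ g) (δ : SL(2, ℤ)) : expansion L (comp (g ^ n) δ) ≠ 0 := by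
  intro h0
  have h := hasExp_expansion hg.pow_mem δ
  rw [h0] at h
  refine hg.ne_zero (funext fun τ => ?_)
  simpa [NeZero.ne n] using congrFun (h.fun_eq HasExp.zero) (δ⁻¹ • τ)

/-- A function of level `L` has bounded pole orders at all cusps. -/
lemma exists_poleBound {f : ℍ → ℂ} (hf : f ∈ weak (Gamma L) L ⊤) : ∃ K : ℕ, PoleBound L K f := by
  classical
  have : (Gamma L).Normal := Gamma_normal L
  let : Fintype (SL(2, ℤ) ⧸ Gamma L) := Fintype.ofFinite _
  refine ⟨Finset.univ.sup fun q : SL(2, ℤ) ⧸ Gamma L =>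
    (-(expansion L (comp f q.out)).order).toNat, fun δ => ?_⟩
  set q : SL(2, ℤ) ⧸ Gamma L := (δ : SL(2, ℤ) ⧸ Gamma L) with hq
  have hmem : δ * q.out⁻¹ ∈ Gamma L := by
    rw [← QuotientGroup.eq_one_iff, QuotientGroup.mk_mul, QuotientGroup.mk_inv,
      QuotientGroup.out_eq', hq, mul_inv_cancel]
  have hcomp : comp f δ = comp f q.out := by
    conv_lhs => rw [show δ = δ * q.out⁻¹ * q.out by group, ← comp_comp, hf.2.1 _ hmem]
  have h := Finset.le_sup (f := fun q : SL(2, ℤ) ⧸ Gamma L =>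
    (-(expansion L (comp f q.out)).order).toNat) (Finset.mem_univ q)
  rw [hcomp]
  have h' : -(expansion L (comp f q.out)).order ≤
      ((-(expansion L (comp f q.out)).order).toNat : ℤ) := Int.self_le_toNat _
  have h'' := (Int.ofNat_le).mpr h
  omega

/-- Roots with bounded poles have bounded order at `i∞`. -/
lemma exists_order_le {K : ℕ} : ∃ C : ℤ, ∀ {χ : Additive Γ →+ ZMod n} {g : ℍ → ℂ},
    IsKummer L n χ g → PoleBound L K (g ^ n) → (expansion L (g ^ n)).order ≤ C := by
  classical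
  obtain ⟨ι, _, p, -, ⟨i₀, hi₀⟩, hp⟩ := exists_norm (M := 1) (L := L)
  refine ⟨(Fintype.card ι : ℤ) * K, fun {χ g} hg hb => ?_⟩
  by_contra! hlt
  set f := g ^ n with hf
  have hN : HasExp L (∏ i, comp f (p i)) (∏ i, expansion L (comp f (p i))) := by
    suffices ∀ s : Finset ι, HasExp L (∏ i ∈ s, comp f (p i))
        (∏ i ∈ s, expansion L (comp f (p i))) from this Finset.univ
    intro s
    induction s using Finset.induction_on with
    | empty => simpa [Pi.one_def] using (HasExp.one (L := L))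
    | insert a s ha ih =>
      rw [Finset.prod_insert ha, Finset.prod_insert ha]
      exact (hasExp_expansion hg.pow_mem (p a)).mul ih
  have hne : ∀ i, expansion L (comp f (p i)) ≠ 0 := fun i => hg.expansion_ne_zero (p i)
  have hord : (∏ i, expansion L (comp f (p i))).order =
      ∑ i, (expansion L (comp f (p i))).order := by
    suffices ∀ s : Finset ι, (∏ i ∈ s, expansion L (comp f (p i))).order =
        ∑ i ∈ s, (expansion L (comp f (p i))).order from this Finset.univ
    intro s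
    induction s using Finset.induction_on with
    | empty => simp
    | insert a s ha ih =>
      rw [Finset.prod_insert ha, Finset.sum_insert ha,
        HahnSeries.order_mul (hne a) (Finset.prod_ne_zero_iff.mpr fun i _ => hne i), ih]
  have hpos : 0 < ∑ i, (expansion L (comp f (p i))).order := by
    have h0 : comp f (p i₀) = f := hg.pow_mem.2.1 _ hi₀
    rw [← Finset.add_sum_erase _ _ (Finset.mem_univ i₀), h0]
    have hrest : ∑ _i ∈ Finset.univ.erase i₀, (-(K : ℤ)) ≤
        ∑ i ∈ Finset.univ.erase i₀, (expansion L (comp f (p i))).order :=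
      Finset.sum_le_sum fun i _ => hb (p i)
    rw [Finset.sum_const, nsmul_eq_mul] at hrest
    have hcard : ((Finset.univ.erase i₀).card : ℤ) ≤ Fintype.card ι := by
      exact_mod_cast Finset.card_le_univ _
    nlinarith [Int.natCast_nonneg K]
  have hmem := hp f hg.pow_mem
  have hinv : ∀ γ : SL(2, ℤ), comp (∏ i, comp f (p i)) γ = ∏ i, comp f (p i) := fun γ =>
    hmem.2.1 γ (by rw [Gamma_one_top]; trivial)
  have h1 := eq_const_of_invariant hmem.1 hinv hN fun i hi =>
    HahnSeries.coeff_eq_zero_of_lt_order (by rw [hord]; linarith)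
  rw [HahnSeries.coeff_eq_zero_of_lt_order (by rw [hord]; exact hpos)] at h1
  rw [h1] at hN
  exact Finset.prod_ne_zero_iff.mpr (fun i _ => hne i) hN.eq_zero_of_fun_zero

/-- A difference of roots of the same character is one, with no worse poles. -/
lemma IsKummer.sub_smul (hLΓ : Gamma L ≤ Γ) {χ : parabolicHoms ℤ Γ (ZMod n)} {g h : ℍ → ℂ}
    (hg : IsKummer L n χ.1 g) (hh : IsKummer L n χ.1 h) (a : ℂ)
    (hne : g - (fun _ => a) * h ≠ 0) : IsKummer L n χ.1 (g - (fun _ => a) * h) := by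
  refine ⟨hne, hg.holo.sub (mdifferentiable_const.mul hh.holo), fun γ => ?_, ?_⟩
  · funext τ
    simp only [comp_apply, Pi.sub_apply, Pi.mul_apply]
    rw [show g ((γ : SL(2, ℤ)) • τ) = _ from congrFun (hg.comp_eq γ) τ,
      show h ((γ : SL(2, ℤ)) • τ) = _ from congrFun (hh.comp_eq γ) τ]
    ring
  · refine ⟨(hg.holo.sub (mdifferentiable_const.mul hh.holo)).pow n, fun γ hγ => ?_, fun δ => ?_⟩
    · funext τ
      simp only [comp_apply, Pi.pow_apply, Pi.sub_apply, Pi.mul_apply]
      rw [show g (γ • τ) = _ from congrFun (hg.comp_eq ⟨γ, hLΓ hγ⟩) τ,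
        show h (γ • τ) = _ from congrFun (hh.comp_eq ⟨γ, hLΓ hγ⟩) τ,
        mul_left_comm a, ← mul_sub, mul_pow, rootPow_pow_self, one_mul]
    · obtain ⟨S, -, hS, -⟩ := hg.exists_rootExp hLΓ δ
      obtain ⟨U, -, hU, -⟩ := hh.exists_rootExp hLΓ δ
      exact ⟨_, fun _ => trivial, (hS.sub ((HasExp.const a).mul hU)).pow n⟩

lemma coeff_pow_order (S : LaurentSeries ℂ) : ∀ k : ℕ,
    (S ^ k).coeff (k * S.order) = S.coeff S.order ^ k
  | 0 => by simp
  | k + 1 => by
    have h : ((k : ℤ) + 1) * S.order = (S ^ k).order + S.order := by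
      rw [HahnSeries.order_pow, nsmul_eq_mul]; ring
    rw [pow_succ, pow_succ, ← coeff_pow_order S k, Nat.cast_succ, h,
      HahnSeries.coeff_mul_order_add_order, HahnSeries.leadingCoeff_eq, HahnSeries.leadingCoeff_eq,
      HahnSeries.order_pow, nsmul_eq_mul]

/-- Canonical roots exist. -/
theorem exists_isCanon (hLΓ : Gamma L ≤ Γ) {K : ℕ} {χ : parabolicHoms ℤ Γ (ZMod n)} {g₀ : ℍ → ℂ}
    (hg₀ : IsKummer L n χ.1 g₀) (hb₀ : PoleBound L K (g₀ ^ n)) :
    ∃ g, IsCanon L K χ g := by
  obtain ⟨C, hC⟩ := exists_order_le (Γ := Γ) (L := L) (n := n) (K := K)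
  obtain ⟨o, ⟨g, hg, hb, rfl⟩, hmax⟩ := Int.exists_greatest_of_bdd
    (P := fun o => ∃ g, IsKummer L n χ.1 g ∧ PoleBound L K (g ^ n) ∧
      (expansion L (g ^ n)).order = o)
    ⟨C, fun o ⟨g, hg, hb, ho⟩ => ho ▸ hC hg hb⟩ ⟨_, g₀, hg₀, hb₀, rfl⟩
  obtain ⟨S, hS0, hS, hpow, hord⟩ := hg.exists_rootExp hLΓ 1
  rw [comp_one] at hS hpow hord
  set a := (S.coeff S.order)⁻¹ with ha
  have ha0 : a ≠ 0 := inv_ne_zero (HahnSeries.coeff_order_eq_zero.not.mpr hS0)
  have hsc : ∀ δ, expansion L (comp (((fun _ => a) * g) ^ n) δ) =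
      HahnSeries.single 0 (a ^ n) * expansion L (comp (g ^ n) δ) := fun δ => by
    refine HasExp.expansion_eq ?_
    rw [mul_pow]
    exact (HasExp.const (a ^ n)).mul (hasExp_expansion hg.pow_mem δ)
  have hordsc : ∀ δ, (expansion L (comp (((fun _ => a) * g) ^ n) δ)).order =
      (expansion L (comp (g ^ n) δ)).order := fun δ => by
    rw [hsc, HahnSeries.order_mul (by simp [ha0]) (hg.expansion_ne_zero δ),
      HahnSeries.order_single (pow_ne_zero n ha0), zero_add]
  have hk : IsKummer L n χ.1 ((fun _ => a) * g) := by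
    refine ⟨fun h0 => hg.ne_zero ?_, mdifferentiable_const.mul hg.holo, fun γ => ?_, ?_⟩
    · funext τ
      simpa [ha0] using congrFun h0 τ
    · funext τ
      simp only [comp_apply, Pi.mul_apply]
      rw [show g ((γ : SL(2, ℤ)) • τ) = _ from congrFun (hg.comp_eq γ) τ]
      ring
    · rw [mul_pow]
      exact mul_mem (const_mem_weak (c := a ^ n) trivial) hg.pow_mem
  refine ⟨_, hk, fun δ => (hordsc δ).symm ▸ hb δ, ?_, fun h hh hbh => ?_⟩
  · have h1 := hsc 1
    have h2 := hordsc 1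
    simp only [comp_one] at h1 h2
    rw [leadCoeff, h2, h1, HahnSeries.coeff_single_mul, sub_zero, hord, hpow]
    have : (S ^ n).coeff (n * S.order) = S.coeff S.order ^ n := coeff_pow_order S n
    rw [this, ← mul_pow, ha, inv_mul_cancel₀ (HahnSeries.coeff_order_eq_zero.not.mpr hS0), one_pow]
  · have h2 := hordsc 1
    simp only [comp_one] at h2
    exact h2 ▸ hmax _ ⟨h, hh, hbh, rfl⟩

/-- The power of a canonical root is unique. -/
theorem IsCanon.pow_eq (hLΓ : Gamma L ≤ Γ) {K : ℕ} {χ : parabolicHoms ℤ Γ (ZMod n)} {g h : ℍ → ℂ}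
    (hg : IsCanon L K χ g) (hh : IsCanon L K χ h) : g ^ n = h ^ n := by
  obtain ⟨S, hS0, hS, hSp, hSo⟩ := hg.kummer.exists_rootExp hLΓ 1
  obtain ⟨U, hU0, hU, hUp, hUo⟩ := hh.kummer.exists_rootExp hLΓ 1
  rw [comp_one] at hS hSp hSo hU hUp hUo
  have hoo : S.order = U.order := by
    have := le_antisymm (hh.max g hg.kummer hg.bound) (hg.max h hh.kummer hh.bound)
    rw [hSo, hUo] at this
    exact mul_left_cancel₀ (by exact_mod_cast NeZero.ne n) this
  set a := S.coeff S.order / U.coeff U.order with ha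
  by_cases hd : g - (fun _ => a) * h = 0
  · have hga : g ^ n = (fun _ => a ^ n) * h ^ n := by
      rw [sub_eq_zero.mp hd, mul_pow]; rfl
    have h1 : expansion L (g ^ n) = HahnSeries.single 0 (a ^ n) * expansion L (h ^ n) := by
      refine HasExp.expansion_eq ?_
      rw [hga]
      exact (HasExp.const (a ^ n)).mul (by simpa using hasExp_expansion hh.kummer.pow_mem 1)
    have h2 := hg.lead
    rw [leadCoeff, hSo, hoo, ← hUo, h1, HahnSeries.coeff_single_mul, sub_zero,
      show (expansion L (h ^ n)).coeff (expansion L (h ^ n)).order = 1 from hh.lead, mul_one] at h2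
    rw [hga, h2]
    exact funext fun τ => one_mul _
  exfalso
  have hk := hg.kummer.sub_smul hLΓ hh.kummer a hd
  have hexp : ∀ δ S' U', HasExp L (comp g δ) S' → HasExp L (comp h δ) U' →
      expansion L (comp ((g - (fun _ => a) * h) ^ n) δ) =
        (S' - HahnSeries.single 0 a * U') ^ n := fun δ S' U' hS' hU' =>
    HasExp.expansion_eq ((hS'.sub ((HasExp.const a).mul hU')).pow n)
  have hb : PoleBound L K ((g - (fun _ => a) * h) ^ n) := by
    intro δ
    obtain ⟨S', hS'0, hS', -, hS'o⟩ := hg.kummer.exists_rootExp hLΓ δ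
    obtain ⟨U', hU'0, hU', -, hU'o⟩ := hh.kummer.exists_rootExp hLΓ δ
    have h1 := hg.bound δ
    have h2 := hh.bound δ
    rw [hS'o] at h1
    rw [hU'o] at h2
    rw [hexp δ S' U' hS' hU', HahnSeries.order_pow, nsmul_eq_mul]
    set D := S' - HahnSeries.single 0 a * U' with hD
    rcases eq_or_ne D 0 with h0 | h0
    · simp [h0]
    have hmin : min S'.order U'.order ≤ D.order := by
      by_contra hlt
      push Not at hlt
      refine HahnSeries.coeff_order_eq_zero.not.mpr h0 ?_
      rw [hD] at hlt ⊢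
      rw [HahnSeries.coeff_sub, HahnSeries.coeff_single_mul, sub_zero,
        HahnSeries.coeff_eq_zero_of_lt_order (lt_of_lt_of_le hlt (min_le_left _ _)),
        HahnSeries.coeff_eq_zero_of_lt_order (lt_of_lt_of_le hlt (min_le_right _ _))]
      simp
    have hn : (0 : ℤ) ≤ n := Int.natCast_nonneg n
    calc -(K : ℤ) ≤ min ((n : ℤ) * S'.order) (n * U'.order) := le_min h1 h2
      _ = n * min S'.order U'.order := (mul_min_of_nonneg _ _ hn).symm
      _ ≤ n * D.order := mul_le_mul_of_nonneg_left hmin hn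
  have hle := hg.max _ hk hb
  have he := hexp 1 S U (by rwa [comp_one]) (by rwa [comp_one])
  rw [comp_one] at he
  set D := S - HahnSeries.single 0 a * U with hD
  have hD0 : D ≠ 0 := by
    intro h0
    have := hk.expansion_ne_zero 1
    rw [comp_one, he, h0, zero_pow (NeZero.ne n)] at this
    exact this rfl
  rw [he, HahnSeries.order_pow, nsmul_eq_mul, hSo] at hle
  have hle' : D.order ≤ S.order :=
    le_of_mul_le_mul_left hle (by exact_mod_cast Nat.pos_of_ne_zero (NeZero.ne n))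
  have hz : ∀ i ≤ S.order, D.coeff i = 0 := by
    intro i hi
    rw [hD, HahnSeries.coeff_sub, HahnSeries.coeff_single_mul, sub_zero]
    rcases hi.lt_or_eq with hlt | rfl
    · rw [HahnSeries.coeff_eq_zero_of_lt_order hlt,
        HahnSeries.coeff_eq_zero_of_lt_order (hoo ▸ hlt)]
      simp
    · rw [ha, hoo, div_mul_cancel₀ _ (HahnSeries.coeff_order_eq_zero.not.mpr hU0), sub_self]
  exact HahnSeries.coeff_order_eq_zero.not.mpr hD0 (hz _ hle')

namespace ConjLevel

variable (S : ConjLevel Γ N L)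

lemma conjChar_symm (σ : ℂ ≃+* ℂ) (χ : parabolicHoms ℤ Γ (ZMod n)) :
    S.conjChar σ.symm (S.conjChar σ χ) = χ := by
  rw [← S.conjChar_trans, RingEquiv.self_trans_symm, S.conjChar_refl]

/-- Conjugation carries canonical roots to canonical roots. -/
theorem exists_isCanon_conj (σ : ℂ ≃+* ℂ) {K : ℕ} {χ : parabolicHoms ℤ Γ (ZMod n)} {g : ℍ → ℂ}
    (hg : IsCanon L K χ g) :
    ∃ g', IsCanon L K (S.conjChar σ χ) g' ∧
      expansion L (g' ^ n) = coeffMap (σ : ℂ →+* ℂ) (expansion L (g ^ n)) := by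
  have key : ∀ (τ : ℂ ≃+* ℂ) (θ : parabolicHoms ℤ Γ (ZMod n)) (h : ℍ → ℂ),
      IsKummer L n θ.1 h → PoleBound L K (h ^ n) → ∃ h',
        IsKummer L n (S.conjChar τ θ).1 h' ∧ PoleBound L K (h' ^ n) ∧
        expansion L (h' ^ n) = coeffMap (τ : ℂ →+* ℂ) (expansion L (h ^ n)) := by
    intro τ θ h hh hb
    obtain ⟨c, hc, hτ⟩ := exists_pow_zetaC L (τ : ℂ →+* ℂ)
    obtain ⟨ψ, h', hψ, hconj⟩ := S.exists_conj τ hc hτ hh
    obtain rfl := S.conjChar_eq ⟨c, h, h', hc, hτ, hh, hψ, hconj⟩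
    refine ⟨h', hψ, fun δ => ?_, hconj.expansion_eq⟩
    obtain ⟨δ', hδ'⟩ := exists_twistRel_of_coprime hc δ
    rw [hconj.2.2 δ δ' hδ', order_coeffMap]
    exact hb δ'
  obtain ⟨g', hg', hb', hexp⟩ := key σ χ g hg.kummer hg.bound
  refine ⟨g', ⟨hg', hb', ?_, fun h hh hbh => ?_⟩, hexp⟩
  · rw [leadCoeff, hexp, order_coeffMap]
    simpa [leadCoeff] using congrArg (σ : ℂ →+* ℂ) hg.lead
  · obtain ⟨h', hh', hbh', hexp'⟩ := key σ.symm _ h hh hbh
    rw [S.conjChar_symm] at hh'
    have := hg.max h' hh' hbh'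
    rw [hexp', order_coeffMap] at this
    rwa [hexp, order_coeffMap]

end ConjLevel

end Fermat.Agent.KummerES
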