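import Fermat.Agent.KummerES.Weak
import Fermat.Prelude.Def_ModularCurve_LaurentCoeff
import Fermat.Prelude.Def_ModularCurve_PeriodMap
import Fermat.Prelude.Def_GaloisRep_Residual
import Fermat.Agent.HeckeLattice.Transfer

/-!
# The objects of the Kummer construction of Galois modules

`RatioData L`: quotients of differences of Weierstrass values at `L`-torsion points;
`BaseData M L`: the coordinate on the level `M` curve (`M = 2, 3`);
`GalModules`: Galois actions on parabolic characters with values in `ℤ/p^k`.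
-/

set_option autoImplicit false

noncomputable section

open UpperHalfPlane CongruenceSubgroup
open scoped MatrixGroups Manifold

namespace Fermat.Agent.KummerES

/-- Row vectors modulo `L` (torsion points `(v₀ τ + v₁) / L`). -/
abbrev Ind (L : ℕ) : Type := Fin 2 → ZMod L

/-- The right action of `SL(2, ℤ)` on row vectors modulo `L`. -/
def vAct {L : ℕ} (v : Ind L) (γ : SL(2, ℤ)) : Ind L :=
  Matrix.vecMul v ((γ : Matrix (Fin 2) (Fin 2) ℤ).map (Int.castRingHom (ZMod L)))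

/-- The twist `(v₀, v₁) ↦ (v₀, a v₁)`. -/
def diagTwist {L : ℕ} (a : ZMod L) (v : Ind L) : Ind L := ![v 0, a * v 1]

/-- Two nonzero vectors which differ even up to sign. -/
structure IsPair {L : ℕ} (v w : Ind L) : Prop where
  left_ne_zero : v ≠ 0
  right_ne_zero : w ≠ 0
  ne : v ≠ w
  ne_neg : v ≠ -w

/-- The vector of `Ind L` corresponding to an `M`-torsion point. -/
def torsionVec (M L : ℕ) (v : Fin 2 → ℤ) : Ind L := fun i => ((L / M : ℕ) : ZMod L) * (v i : ZMod L)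

/-- The ring `ℤ[ζ_L, 1/L]`. -/
def zetaRing (L : ℕ) : Subring ℂ := Subring.closure {zetaC L, (L : ℂ)⁻¹}

/-- `zetaC L` lies in `zetaRing L`. -/
lemma zetaC_mem_zetaRing (L : ℕ) : zetaC L ∈ zetaRing L :=
  Subring.subset_closure (Set.mem_insert _ _)

/-- `1 / L` lies in `zetaRing L`. -/
lemma inv_natCast_mem_zetaRing (L : ℕ) : (L : ℂ)⁻¹ ∈ zetaRing L :=
  Subring.subset_closure (Set.mem_insert_of_mem _ rfl)

/-- Quotients `(℘_v - ℘_w) / (℘_a - ℘_b)` and their formal properties. -/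
structure RatioData (L : ℕ) [NeZero L] where
  /-- The quotient. -/
  ratio : Ind L → Ind L → Ind L → Ind L → ℍ → ℂ
  mem_weak : ∀ {v w a b}, IsPair v w → IsPair a b → ratio v w a b ∈ weak (Gamma L) L (zetaRing L)
  ratio_self : ∀ {a b}, IsPair a b → ratio a b a b = 1
  trans : ∀ {v w a b a' b'}, IsPair v w → IsPair a b → IsPair a' b' →
    ratio v w a b * ratio a b a' b' = ratio v w a' b'
  add_eq : ∀ {v w u a b}, IsPair v w → IsPair w u → IsPair v u → IsPair a b →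
    ratio v w a b + ratio w u a b = ratio v u a b
  neg_left : ∀ {v w a b}, ratio (-v) w a b = ratio v w a b
  swap : ∀ {v w a b}, ratio w v a b = -ratio v w a b
  comp_eq : ∀ (γ : SL(2, ℤ)) {v w a b}, IsPair v w → IsPair a b →
    comp (ratio v w a b) γ = ratio (vAct v γ) (vAct w γ) (vAct a γ) (vAct b γ)
  conj_eq : ∀ (σ : ℂ →+* ℂ) (c : ℕ), σ (zetaC L) = zetaC L ^ c → ∀ {v w a b},
    IsPair v w → IsPair a b →
      ModularCurve.coeffMap σ (expansion L (ratio v w a b)) =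
        expansion L (ratio (diagTwist c v) (diagTwist c w) (diagTwist c a) (diagTwist c b))

namespace RatioData

variable {L : ℕ} [NeZero L] (D : RatioData L)

/-- The two vectors used as denominator at auxiliary level `M`. -/
def base (M : ℕ) : Ind L × Ind L := (torsionVec M L ![1, 0], torsionVec M L ![0, 1])

end RatioData

/-- The coordinate `t` on the level `M` curve, with its integrality properties, read at level `L`. -/
structure BaseData (M L : ℕ) [NeZero L] where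
  /-- The coordinate. -/
  t : ℍ → ℂ
  /-- Its finite values at cusps. -/
  bad : Finset ℂ
  bad_mem : ∀ c ∈ bad, c ∈ zetaRing L
  t_mem : t ∈ weak (Gamma M) L (zetaRing L)
  inv_mem : ∀ c ∈ bad, ∃ u ∈ weak (Gamma M) L (zetaRing L), (t - fun _ => c) * u = 1
  order_le : ∀ i < -((L / M : ℕ) : ℤ), (expansion L t).coeff i = 0
  leading : ∃ u ∈ zetaRing L, (expansion L t).coeff (-((L / M : ℕ) : ℤ)) * u = 1
  nonconst : ∀ δ : SL(2, ℤ), ∃ i ≠ (0 : ℤ), ∃ u ∈ zetaRing L,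
    (expansion L (comp t δ)).coeff i * u = 1
  generated : ∀ B : Subring ℂ, zetaRing L ≤ B → ∀ a ∈ weak (Gamma M) L B,
    ∃ (n : ℕ) (P : Polynomial B), ∀ τ : ℍ,
      a τ * (∏ c ∈ bad, (t τ - c)) ^ n = P.eval₂ B.subtype (t τ)
  complete : ∀ B : Subring ℂ, zetaRing L ≤ B → ∀ π ∈ B,
    (∀ x ∈ B, (∀ r : ℕ, ∃ y ∈ B, x = π ^ r * y) → x = 0) →
    ∀ s : SL(2, ℤ) → LaurentSeries ℂ, (∀ δ, s δ ∈ coeffSubring B) →
    (∀ r : ℕ, ∃ a ∈ weak (Gamma M) L B, ∀ δ, ∃ u ∈ coeffSubring B,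
      s δ - expansion L (comp a δ) = HahnSeries.single 0 (π ^ r) * u) →
    ∃ a ∈ weak (Gamma M) L B, ∀ δ, expansion L (comp a δ) = s δ
  surj : ∀ c : ℂ, c ∉ bad → ∃ τ : ℍ, t τ = c
  deriv_ne : ∀ τ : ℍ, deriv (t ∘ ofComplex) τ ≠ 0

/-- `ζ_n ^ x` for `x : ℤ/n`. -/
def rootPow (n : ℕ) [NeZero n] (x : ZMod n) : ℂ := zetaC n ^ x.val

/-- `g` is a Kummer root with multiplier `χ`: holomorphic, transforms by `ζ_n ^ χ` under `Γ`, and
`g ^ n` is weakly holomorphic of level `L`. -/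
structure IsKummer {Γ : Subgroup SL(2, ℤ)} (L n : ℕ) [NeZero n] (χ : Additive Γ →+ ZMod n)
    (g : ℍ → ℂ) : Prop where
  ne_zero : g ≠ 0
  holo : MDiff g
  comp_eq : ∀ γ : Γ, comp g γ = fun τ => rootPow n (χ (Additive.ofMul γ)) * g τ
  pow_mem : g ^ n ∈ weak (Gamma L) L ⊤

local notation "GQ" => AlgebraicClosure ℚ ≃ₐ[ℚ] AlgebraicClosure ℚ

open ModularCurve.Period in
/-- Galois actions on parabolic characters of `Γ` with values in `ℤ/p^k`, compatible in `k`, of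
finite level, commuting with the transfers, unramified away from `N p`, and satisfying the
Eichler–Shimura relation. `dia ℓ` is the diamond automorphism (the identity for `Γ₀(N)`). -/
structure GalModules (Γ : Subgroup SL(2, ℤ)) (N p : ℕ)
    (D : ∀ ℓ : ℕ, ℓ.Prime → ¬ ℓ ∣ N → HeckeLattice.CosetSystem Γ (HeckeLattice.Idx ℓ))
    (dia : ℕ → (Γ →* Γ)) : Type where
  /-- The action. -/
  rep : ∀ k : ℕ, GQ →* AddMonoid.End (parabolicHoms ℤ Γ (ZMod (p ^ k)))
  compat : ∀ (k : ℕ) (σ : GQ) (x : parabolicHoms ℤ Γ (ZMod (p ^ (k + 1))))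
    (y : parabolicHoms ℤ Γ (ZMod (p ^ k))),
    (∀ γ, ZMod.castHom (pow_dvd_pow p k.le_succ) (ZMod (p ^ k)) (x.1 γ) = y.1 γ) →
    ∀ γ, ZMod.castHom (pow_dvd_pow p k.le_succ) (ZMod (p ^ k)) ((rep (k + 1) σ x).1 γ)
      = (rep k σ y).1 γ
  finiteLevel : ∀ k, GaloisFactorsThroughFiniteLevel (rep k)
  hecke_comm : ∀ (k : ℕ) (σ : GQ) (ℓ : ℕ) (hℓ : ℓ.Prime) (hℓN : ¬ ℓ ∣ N)
    (x y : parabolicHoms ℤ Γ (ZMod (p ^ k))),
    (haveI := Fact.mk hℓ; (D ℓ hℓ hℓN).transfer x.1) = y.1 →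
    (haveI := Fact.mk hℓ; (D ℓ hℓ hℓN).transfer (rep k σ x).1) = (rep k σ y).1
  unramified : ∀ (k q : ℕ), q.Prime → ¬ q ∣ N → q ≠ p →
    ∀ A : ValuationSubring (AlgebraicClosure ℚ), A.LiesOverPrime q →
      ∀ σ ∈ A.inertiaSubgroupIn ℚ, rep k σ = 1
  frobenius : ∀ (k ℓ : ℕ) (hℓ : ℓ.Prime) (hℓN : ¬ ℓ ∣ N), ℓ ≠ p →
    ∀ A : ValuationSubring (AlgebraicClosure ℚ), A.LiesOverPrime ℓ →
      ∀ σ : GQ, A.IsFrobeniusAt σ ℓ → ∀ x : parabolicHoms ℤ Γ (ZMod (p ^ k)),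
        (rep k σ (rep k σ x)).1 - (haveI := Fact.mk hℓ; (D ℓ hℓ hℓN).transfer (rep k σ x).1)
          + ℓ • x.1.comp (MonoidHom.toAdditive (dia ℓ)) = 0

/-- The modules of `Γ₀(N)`: the diamond operators are trivial. -/
abbrev Gamma0Modules (N p : ℕ) : Type :=
  GalModules (Gamma0 N) N p
    (fun ℓ hℓ hℓN => haveI := Fact.mk hℓ; HeckeLattice.gamma0System N ℓ hℓN)
    (fun _ => MonoidHom.id _)

end Fermat.Agent.KummerES
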