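import Fermat.Agent.KummerES.LevelMain
import Mathlib.RingTheory.Localization.AtPrime.Basic
import Mathlib.RingTheory.UniqueFactorizationDomain.Basic
import Mathlib.RingTheory.DiscreteValuationRing.Basic

/-!
# The hypotheses of the reduction theorem

Hypotheses on the coefficient ring, and the algebraic properties of the level `L` ring which
enter the reduction theorem.
-/

set_option autoImplicit false

noncomputable section

open UpperHalfPlane CongruenceSubgroup
open scoped MatrixGroups

namespace Fermat.Agent.KummerES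

/-- `B` is a discrete valuation ring with uniformiser `π` containing `1/n` and `ζ_n`. -/
structure CoeffHyp (B : Subring ℂ) (π : ℂ) (n : ℕ) : Prop where
  dvr : IsDiscreteValuationRing B
  mem : π ∈ B
  irred : Irreducible (⟨π, mem⟩ : B)
  ne_zero : n ≠ 0
  unit : (n : ℂ)⁻¹ ∈ B
  zeta : zetaC n ∈ B

open LevelHyp (Cong IsSeparated)

variable {L : ℕ} [NeZero L] {B : Subring ℂ}

/-- The constant `c` as an element of the level `L` ring. -/
def constL (c : ℂ) (hc : c ∈ B) : LRing L B := ⟨fun _ => c, const_mem_weak hc⟩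

omit [NeZero L] in
/-- Underlying function of a constant. -/
@[simp] lemma coe_constL (c : ℂ) (hc : c ∈ B) :
    ((constL (L := L) c hc : LRing L B) : ℍ → ℂ) = fun _ => c := rfl

/-- The expansion of a constant. -/
lemma expAt_constL (c : ℂ) (hc : c ∈ B) (δ : SL(2, ℤ)) :
    expAt (Gamma L) L B δ (constL c hc) = HahnSeries.single 0 c :=
  (HasExp.const c).expansion_eq

/-- The elements of the level `L` ring whose expansion at `δ ∞` vanishes modulo `π`. -/
def kerAt (B : Subring ℂ) (π : ℂ) (δ : SL(2, ℤ)) (f : LRing L B) : Prop :=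
  Cong B π 1 (expAt (Gamma L) L B δ f) 0

variable {π : ℂ}

/-- Locally at a maximal ideal the level `L` ring is cut out by `π` and one more element. -/
structure LocalGen (L : ℕ) [NeZero L] (B : Subring ℂ) (π : ℂ) (hπ : π ∈ B) : Prop where
  noetherian : IsNoetherianRing (LRing L B)
  gen_above : ∀ m : Ideal (LRing L B), m.IsMaximal → (constL (L := L) π hπ) ∈ m →
    ∃ P ∈ m, (∀ δ, ¬ kerAt B π δ P) ∧ ∃ s ∉ m, ∀ a ∈ m,
      s * a ∈ Ideal.span {(constL (L := L) π hπ), P}
  gen_generic : ∀ m : Ideal (LRing L B), m.IsMaximal → (constL (L := L) π hπ) ∉ m →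
    ∃ P ∈ m, P ≠ 0 ∧ ∃ s ∉ m, ∀ a ∈ m, s * a ∈ Ideal.span {P}

/-- The algebraic properties of the level `L` ring used by the reduction theorem: the special fibre
is irreducible with normal local rings, and the ring is locally factorial. -/
structure SpecialFibre (L : ℕ) [NeZero L] (B : Subring ℂ) (π : ℂ) (hπ : π ∈ B) : Prop where
  noetherian : IsNoetherianRing (LRing L B)
  mem_span : ∀ (δ : SL(2, ℤ)) (f : LRing L B), kerAt B π δ f → f ∈ Ideal.span {(constL (L := L) π hπ)}
  prime : Prime (constL (L := L) π hπ)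
  ufd : ∀ (m : Ideal (LRing L B)) [m.IsMaximal],
    UniqueFactorizationMonoid (Localization.AtPrime m)
  root_dvd : ∀ (m : Ideal (LRing L B)) [m.IsMaximal], (constL (L := L) π hπ) ∈ m →
    ∀ (n : ℕ), n ≠ 0 → ∀ u x h : Localization.AtPrime m,
      ¬ algebraMap _ (Localization.AtPrime m) ((constL (L := L) π hπ)) ∣ x →
      algebraMap _ (Localization.AtPrime m) ((constL (L := L) π hπ)) ∣ h ^ n - u * x ^ n →
      ∃ w, algebraMap _ (Localization.AtPrime m) ((constL (L := L) π hπ)) ∣ h - w * x

/-- `f` is locally, everywhere, an `n`-th power up to units. -/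
def IsLocalPow (n : ℕ) (f : LRing L B) : Prop :=
  ∀ m : Ideal (LRing L B), m.IsMaximal →
    ∃ s ∉ m, ∃ s' ∉ m, ∃ x : LRing L B, s * f = s' * x ^ n

end Fermat.Agent.KummerES
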