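import Fermat.Agent.KummerES.BaseChart

/-!
# The base data attached to a chart

A chart at the cusps of level `M` gives `BaseData M L`: its coordinate takes every finite value
outside the cusps, has nowhere vanishing derivative, and generates the weakly holomorphic
functions of level `M`, integrally and completely for the expansions at the cusps.
-/

set_option autoImplicit false

noncomputable section

open UpperHalfPlane Filter Topology CongruenceSubgroup
open scoped Real MatrixGroups Manifold

namespace Fermat.Agent.KummerES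

lemma isBoundedAtImInfty_comp_T_zpow {f : ℍ → ℂ} (h : IsBoundedAtImInfty f) (y : ℤ) :
    IsBoundedAtImInfty (comp f (ModularGroup.T ^ y)) :=
  Asymptotics.IsBigO.comp_tendsto h (T_zpow_smul_tendsto y)

namespace Chart

variable {M L : ℕ} [NeZero L] (C : Chart M L)

lemma bounded_of_rep {f : ℍ → ℂ} (hinv : ∀ γ ∈ Gamma M, comp f γ = f)
    (h : ∀ i, IsBoundedAtImInfty (comp f (C.rep i))) (g : SL(2, ℤ)) :
    IsBoundedAtImInfty (comp f g) := by
  obtain ⟨i, y, γ, hγ, hg⟩ := C.cover g
  have hkey : ∀ h : SL(2, ℤ), comp f (γ * h) = comp f h := fun h => by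
    rw [← comp_comp, hinv γ hγ]
  have hc : comp f g = comp (comp f (C.rep i)) (ModularGroup.T ^ y) := by
    rcases hg with rfl | rfl
    · rw [comp_comp, mul_assoc, hkey]; rfl
    · rw [comp_neg, comp_comp, mul_assoc, hkey]; rfl
  rw [hc]
  exact isBoundedAtImInfty_comp_T_zpow (h i) y

/-- `t - val x`. -/
def tsub (x : Fin M) : ℍ → ℂ := C.t - fun _ => C.val x

lemma tsub_mem (x : Fin M) : C.tsub x ∈ weak (Gamma M) L (zetaRing L) :=
  sub_mem C.t_mem (const_mem_weak (C.val_mem x))

lemma hasExp_tsub (x : Fin M) (g : SL(2, ℤ)) :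
    HasExp L (comp (C.tsub x) g) (expansion L (comp C.t g) - HahnSeries.single 0 (C.val x)) :=
  (hasExp_expansion C.t_mem g).sub (HasExp.const (C.val x))

/-- The expansion of `t - val x` at any cusp. -/
lemma expansion_tsub (x : Fin M) (g : SL(2, ℤ)) :
    expansion L (comp (C.tsub x) g) =
      expansion L (comp C.t g) - HahnSeries.single 0 (C.val x) :=
  (C.hasExp_tsub x g).expansion_eq

/-- The expansions of `t - val x` and of its inverse multiply to one. -/
lemma tsub_mul_inv (x : Fin M) (g : SL(2, ℤ)) :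
    expansion L (comp (C.tsub x) g) * expansion L (comp (C.inv x) g) = 1 := by
  rw [← ((hasExp_expansion (C.tsub_mem x) g).mul (hasExp_expansion (C.inv_mem x) g)).expansion_eq]
  have : comp (C.tsub x) g * comp (C.inv x) g = 1 := by
    funext τ
    exact congrFun (C.inv_mul x) (g • τ)
  rw [this, HasExp.one.expansion_eq]

lemma tsub_pole (x : Fin M) :
    HasLead (zetaRing L) (expansion L (comp (C.tsub x) (C.rep none))) (-(C.e : ℤ)) := by
  have he := C.e_pos
  rw [C.expansion_tsub, rep_none, comp_one]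
  constructor
  · intro i hi
    rw [HahnSeries.coeff_sub, C.t_inf.below i hi, HahnSeries.coeff_single_of_ne (by omega), sub_zero]
  · rw [HahnSeries.coeff_sub, HahnSeries.coeff_single_of_ne (by omega), sub_zero]
    exact C.t_inf.lead

/-- `(t - val x)⁻¹` has a zero of exact order `e` at `∞`. -/
lemma inv_zero (x : Fin M) :
    HasLead (zetaRing L) (expansion L (comp (C.inv x) (C.rep none))) (C.e : ℤ) := by
  simpa using (C.tsub_pole x).of_mul_eq_one (by rw [mul_comm]; exact C.tsub_mul_inv x _)

/-- `t - val x` has a zero of exact order `e` at the cusp `x`. -/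
lemma tsub_zero (x : Fin M) :
    HasLead (zetaRing L) (expansion L (comp (C.tsub x) (C.rep (some x)))) (C.e : ℤ) := by
  simpa [rep] using (C.inv_pole x).of_mul_eq_one (C.tsub_mul_inv x (C.δ x))

/-- `val x` is the constant term of `t` at the cusp `x`. -/
lemma t_val (x : Fin M) : (expansion L (comp C.t (C.δ x))).coeff 0 = C.val x := by
  have h := (C.tsub_zero x).below 0 (by exact_mod_cast C.e_pos)
  rw [C.expansion_tsub, HahnSeries.coeff_sub, HahnSeries.coeff_single_same, sub_eq_zero] at h
  exact h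

/-- The finite values of `t` at the cusps. -/
def badSet : Finset ℂ := Finset.univ.image C.val

/-- The product of the `t - c`. -/
def cuspProd : ℍ → ℂ := fun τ => ∏ c ∈ C.badSet, (C.t τ - c)

lemma cuspProd_mem {B : Subring ℂ} (hB : zetaRing L ≤ B) :
    C.cuspProd ∈ weak (Gamma M) L B := by
  classical
  have : C.cuspProd = ∏ c ∈ C.badSet, (C.t - fun _ => c) := by
    funext τ
    simp [cuspProd, Finset.prod_apply]
  rw [this]
  refine prod_mem fun c hc => sub_mem (weakB hB C.t_mem) (const_mem_weak ?_)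
  obtain ⟨x, -, rfl⟩ := Finset.mem_image.mp hc
  exact hB (C.val_mem x)

/-- At a finite-valued cusp the product `cuspProd` vanishes. -/
lemma cuspProd_zero (x : Fin M) : ∀ j < (C.e : ℤ),
    (expansion L (comp C.cuspProd (C.δ x))).coeff j = 0 := by
  classical
  intro j hj
  have hmem : C.val x ∈ C.badSet := Finset.mem_image_of_mem _ (Finset.mem_univ x)
  set R : ℍ → ℂ := ∏ c ∈ C.badSet.erase (C.val x), (C.t - fun _ => c) with hR
  have hRmem : R ∈ weak (Gamma M) L (zetaRing L) := by
    refine prod_mem fun c hc => sub_mem C.t_mem (const_mem_weak ?_)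
    obtain ⟨y, -, rfl⟩ := Finset.mem_image.mp (Finset.mem_of_mem_erase hc)
    exact C.val_mem y
  have hsplit : comp C.cuspProd (C.δ x) = comp (C.tsub x) (C.δ x) * comp R (C.δ x) := by
    funext τ
    simp only [comp_apply, cuspProd, Pi.mul_apply, hR, Finset.prod_apply, tsub, Pi.sub_apply]
    rw [← Finset.mul_prod_erase _ _ hmem]
  have hRreg : ∀ k < 0, (expansion L (comp R (C.δ x))).coeff k = 0 := by
    rw [hR]
    induction C.badSet.erase (C.val x) using Finset.induction_on with
    | empty =>
      intro k hk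
      rw [Finset.prod_empty, show comp (1 : ℍ → ℂ) (C.δ x) = 1 from rfl, HasExp.one.expansion_eq]
      simp [HahnSeries.coeff_one, hk.ne]
    | insert c T hc ih =>
      intro k hk
      have hT : HasExp L (comp (∏ d ∈ T, (C.t - fun _ => d)) (C.δ x))
          (∏ d ∈ T, (expansion L (comp C.t (C.δ x)) - HahnSeries.single 0 d)) := by
        clear ih hc
        induction T using Finset.induction_on with
        | empty =>
          rw [Finset.prod_empty, Finset.prod_empty]
          exact HasExp.one
        | insert d U hd ihU =>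
          rw [Finset.prod_insert hd, Finset.prod_insert hd]
          exact ((hasExp_expansion C.t_mem _).sub (HasExp.const d)).mul ihU
      have h1 : HasExp L (comp (C.t - fun _ => c) (C.δ x))
          (expansion L (comp C.t (C.δ x)) - HahnSeries.single 0 c) :=
        (hasExp_expansion C.t_mem _).sub (HasExp.const c)
      have hins : comp (∏ d ∈ insert c T, (C.t - fun _ => d)) (C.δ x) =
          comp (C.t - fun _ => c) (C.δ x) * comp (∏ d ∈ T, (C.t - fun _ => d)) (C.δ x) := by
        rw [Finset.prod_insert hc]; rfl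
      rw [hins, (h1.mul hT).expansion_eq, ← hT.expansion_eq, HahnSeries.coeff_mul]
      refine Finset.sum_eq_zero fun p hp => ?_
      have hp' := (Finset.mem_antidiagonal.mp hp).2.2
      rcases lt_or_ge p.2 0 with h2 | h2
      · rw [ih _ h2, mul_zero]
      · rw [HahnSeries.coeff_sub, C.t_reg x p.1 (by omega),
          HahnSeries.coeff_single_of_ne (by omega), sub_zero, zero_mul]
  rw [hsplit, ((hasExp_expansion (C.tsub_mem x) _).mul (hasExp_expansion hRmem _)).expansion_eq,
    HahnSeries.coeff_mul]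
  refine Finset.sum_eq_zero fun p hp => ?_
  have hp' := (Finset.mem_antidiagonal.mp hp).2.2
  rcases lt_or_ge p.2 0 with h2 | h2
  · rw [hRreg _ h2, mul_zero]
  · have h1 : (expansion L (comp (C.tsub x) (C.δ x))).coeff p.1 = 0 :=
      (C.tsub_zero x).below p.1 (by omega)
    rw [h1, zero_mul]

lemma generated_aux (B : Subring ℂ) (hB : zetaRing L ≤ B) (a : ℍ → ℂ)
    (ha : a ∈ weak (Gamma M) L B) :
    ∃ (n : ℕ) (P : Polynomial B), ∀ τ : ℍ,
      a τ * (∏ c ∈ C.badSet, (C.t τ - c)) ^ n = P.eval₂ B.subtype (C.t τ) := by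
  classical
  have hprod := C.cuspProd_mem hB
  let n : ℕ := ∑ x : Fin M, (expansion L (comp a (C.δ x))).order.natAbs
  set g : ℍ → ℂ := a * C.cuspProd ^ n with hg
  have hgm : g ∈ weak (Gamma M) L B := mul_mem ha (pow_mem hprod n)
  have hreg : ∀ x, ∀ j < 0, (expansion L (comp g (C.δ x))).coeff j = 0 := by
    intro x j hj
    have hexp : HasExp L (comp g (C.δ x))
        (expansion L (comp a (C.δ x)) * expansion L (comp C.cuspProd (C.δ x)) ^ n) :=
      (hasExp_expansion ha _).mul ((hasExp_expansion hprod _).pow n)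
    rw [hexp.expansion_eq, HahnSeries.coeff_mul]
    refine Finset.sum_eq_zero fun p hp => ?_
    have hp' := (Finset.mem_antidiagonal.mp hp).2.2
    have hpow : ∀ (m : ℕ) (q : ℤ), q < m → (expansion L (comp C.cuspProd (C.δ x)) ^ m).coeff q = 0 := by
      intro m
      induction m with
      | zero => intro q hq; simp [HahnSeries.coeff_one, (show q ≠ 0 by omega)]
      | succ m ih =>
        intro q hq
        rw [pow_succ, HahnSeries.coeff_mul]
        refine Finset.sum_eq_zero fun r hr => ?_
        have hr' := (Finset.mem_antidiagonal.mp hr).2.2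
        rcases lt_or_ge r.1 (m : ℤ) with h1 | h1
        · rw [ih _ h1, zero_mul]
        · have := C.e_pos
          rw [C.cuspProd_zero x r.2 (by omega), mul_zero]
    rcases lt_or_ge p.2 (n : ℤ) with h1 | h1
    · rw [hpow n _ h1, mul_zero]
    · have h2 : (expansion L (comp a (C.δ x))).order.natAbs ≤ n :=
        Finset.single_le_sum (f := fun y => (expansion L (comp a (C.δ y))).order.natAbs)
          (fun _ _ => Nat.zero_le _) (Finset.mem_univ x)
      rw [HahnSeries.coeff_eq_zero_of_lt_order (show p.1 < _ by omega), zero_mul]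
  let I : Submodule B ℂ := Submodule.span B {1}
  have hIB : ∀ x ∈ I, x ∈ B := fun x hx => by
    obtain ⟨b, rfl⟩ := Submodule.mem_span_singleton.mp hx
    simp [Subring.smul_def]
  have hBI : ∀ x ∈ B, x ∈ I := fun x hx =>
    Submodule.mem_span_singleton.mpr ⟨⟨x, hx⟩, by simp [Subring.smul_def]⟩
  obtain ⟨b, hb, -, hb1, hb2, P, hP⟩ := C.exists_principal_one hB I hIB none
    (expansion L (comp g (C.rep none)))
    (fun k hk _ => coeff_eq_zero_of_not_dvd C.hL hgm _ hk) (fun k _ => hBI _ (expansion_mem hgm _ k))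
  have hd : g - b ∈ weak (Gamma M) L B := sub_mem hgm hb
  have hconst := C.eq_const_of_regular hB hd fun i j hj => by
    have hgb : HasExp L (comp (g - b) (C.rep i)) _ :=
      (hasExp_expansion hgm (C.rep i)).sub (hasExp_expansion hb (C.rep i))
    rw [hgb.expansion_eq, HahnSeries.coeff_sub]
    cases i with
    | none => rw [hb1 j hj, sub_self]
    | some x =>
      rw [hb2 _ (by simp) j hj, sub_zero]
      exact hreg x j hj
  refine ⟨n, P + Polynomial.C ⟨_, expansion_mem hd 1 0⟩, fun τ => ?_⟩
  have h1 := congrFun hconst τ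
  simp only [Pi.sub_apply] at h1
  rw [Polynomial.eval₂_add, Polynomial.eval₂_C]
  have h2 := hP τ
  simp only [u, Option.elim_none] at h2
  rw [← h2]
  simp only [comp_one, Subring.coe_subtype]
  rw [← h1]
  simp [hg, cuspProd]

include C in
lemma complete_aux (B : Subring ℂ) (hB : zetaRing L ≤ B) (p : ℂ) (hp : p ∈ B)
    (hsep : ∀ x ∈ B, (∀ r : ℕ, ∃ y ∈ B, x = p ^ r * y) → x = 0)
    (s : SL(2, ℤ) → LaurentSeries ℂ) (hs : ∀ δ, s δ ∈ coeffSubring B)
    (happ : ∀ r : ℕ, ∃ a ∈ weak (Gamma M) L B, ∀ δ, ∃ u ∈ coeffSubring B,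
      s δ - expansion L (comp a δ) = HahnSeries.single 0 (p ^ r) * u) :
    ∃ a ∈ weak (Gamma M) L B, ∀ δ, expansion L (comp a δ) = s δ := by
  classical
  choose a ha u hu hau using happ
  have hdiff : ∀ r g k,
      (s g).coeff k - (expansion L (comp (a r) g)).coeff k = p ^ r * (u r g).coeff k := by
    intro r g k
    rw [← HahnSeries.coeff_sub, hau, HahnSeries.coeff_single_mul, sub_zero]
  have hper : ∀ g, ∀ k : ℤ, ¬ (C.e : ℤ) ∣ k → (s g).coeff k = 0 := by
    intro g k hk
    refine hsep _ (hs g k) fun r => ⟨_, hu r g k, ?_⟩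
    have := hdiff r g k
    rwa [coeff_eq_zero_of_not_dvd C.hL (ha r) g hk, sub_zero] at this
  let B₁ : Submodule B ℂ := Submodule.span B {1}
  have hB₁ : ∀ x ∈ B₁, x ∈ B := fun x hx => by
    obtain ⟨b, rfl⟩ := Submodule.mem_span_singleton.mp hx
    simp [Subring.smul_def]
  obtain ⟨b, hb, -, hb2⟩ := C.exists_principal hB B₁ hB₁ (fun i => s (C.rep i))
    (fun i k hk _ => hper _ k hk)
    (fun i k _ => Submodule.mem_span_singleton.mpr ⟨⟨_, hs (C.rep i) k⟩, by simp [Subring.smul_def]⟩)
  set c : ℂ := (s 1).coeff 0 - (expansion L b).coeff 0 with hc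
  have hcB : c ∈ B := sub_mem (hs 1 0) (by simpa using expansion_mem hb 1 0)
  set A : ℍ → ℂ := b + fun _ => c with hA
  have hAm : A ∈ weak (Gamma M) L B := add_mem hb (const_mem_weak hcB)
  have hAexp : ∀ g, expansion L (comp A g) = expansion L (comp b g) + HahnSeries.single 0 c :=
    fun g => ((hasExp_expansion hb g).add (HasExp.const c) :
      HasExp L (comp A g) _).expansion_eq
  refine ⟨A, hAm, fun g => HahnSeries.ext (funext fun k => ?_)⟩
  rw [← sub_eq_zero]
  refine hsep _ (sub_mem (expansion_mem hAm g k) (hs g k)) fun r => ?_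
  set d : ℍ → ℂ := A - a r with hd
  have hdm : d ∈ weak (Gamma M) L B := sub_mem hAm (ha r)
  have hdexp : ∀ h, expansion L (comp d h) = expansion L (comp A h) - expansion L (comp (a r) h) :=
    fun h => ((hasExp_expansion hAm h).sub (hasExp_expansion (ha r) h) :
      HasExp L (comp d h) _).expansion_eq
  let I : Submodule B ℂ := Submodule.span B {p ^ r}
  have hmemI : ∀ x, x ∈ I ↔ ∃ y ∈ B, x = p ^ r * y := fun x => by
    rw [Submodule.mem_span_singleton]
    constructor
    · rintro ⟨y, rfl⟩
      exact ⟨y.1, y.2, by simp [Subring.smul_def, mul_comm]⟩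
    · rintro ⟨y, hy, rfl⟩
      exact ⟨⟨y, hy⟩, by simp [Subring.smul_def, mul_comm]⟩
  have hIB : ∀ x ∈ I, x ∈ B := fun x hx => by
    obtain ⟨y, hy, rfl⟩ := (hmemI x).mp hx
    exact mul_mem (pow_mem hp r) hy
  have hneg : ∀ i, ∀ j < 0, (expansion L (comp d (C.rep i))).coeff j ∈ I := by
    intro i j hj
    rw [hdexp, hAexp, HahnSeries.coeff_sub, HahnSeries.coeff_add,
      HahnSeries.coeff_single_of_ne hj.ne, add_zero, hb2 i j hj, hmemI]
    exact ⟨_, hu r _ j, hdiff r _ j⟩
  obtain ⟨b', hb', hb'I, hb'2⟩ := C.exists_principal hB I hIB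
    (fun i => expansion L (comp d (C.rep i)))
    (fun i j hj _ => coeff_eq_zero_of_not_dvd C.hL hdm _ hj) hneg
  have hd'exp : ∀ h, expansion L (comp (d - b') h) =
      expansion L (comp d h) - expansion L (comp b' h) :=
    fun h => ((hasExp_expansion hdm h).sub (hasExp_expansion hb' h) :
      HasExp L (comp (d - b') h) _).expansion_eq
  have hconst := C.eq_const_of_regular hB (sub_mem hdm hb') fun i j hj => by
    rw [hd'exp, HahnSeries.coeff_sub, hb'2 i j hj, sub_self]
  have hc0 : (expansion L (d - b')).coeff 0 ∈ I := by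
    have h0 : (expansion L (comp d 1)).coeff 0 ∈ I := by
      rw [hdexp, hAexp, HahnSeries.coeff_sub, HahnSeries.coeff_add, HahnSeries.coeff_single_same,
        comp_one, hc, add_sub_cancel, hmemI]
      have := hdiff r 1 0
      exact ⟨_, hu r 1 0, this⟩
    have := hd'exp 1
    rw [comp_one] at this
    rw [this, HahnSeries.coeff_sub]
    exact I.sub_mem h0 (hb'I 1 0)
  have hdk : (expansion L (comp d g)).coeff k ∈ I := by
    have h1 := hd'exp g
    rw [hconst, show comp (fun _ : ℍ => (expansion L (d - b')).coeff 0) g = fun _ =>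
      (expansion L (d - b')).coeff 0 from rfl, (HasExp.const (L := L) _).expansion_eq] at h1
    rw [show expansion L (comp d g) = HahnSeries.single 0 ((expansion L (d - b')).coeff 0) +
      expansion L (comp b' g) by rw [h1]; abel, HahnSeries.coeff_add]
    refine I.add_mem ?_ (hb'I g k)
    rcases eq_or_ne k 0 with rfl | hk
    · rwa [HahnSeries.coeff_single_same]
    · rw [HahnSeries.coeff_single_of_ne hk]; exact I.zero_mem
  obtain ⟨y, hy, hy'⟩ := (hmemI _).mp hdk
  refine ⟨y - (u r g).coeff k, sub_mem hy (hu r g k), ?_⟩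
  rw [hdexp, HahnSeries.coeff_sub] at hy'
  rw [mul_sub, ← hdiff r g k, ← hy']
  ring

lemma nonconst_aux (g : SL(2, ℤ)) : ∃ i ≠ (0 : ℤ), ∃ u ∈ zetaRing L,
    (expansion L (comp C.t g)).coeff i * u = 1 := by
  have he : (C.e : ℤ) ≠ 0 := by exact_mod_cast C.e_pos.ne'
  obtain ⟨i, y, γ, hγ, hg⟩ := C.cover g
  have hkey : ∀ h : SL(2, ℤ), comp C.t (γ * h) = comp C.t h := fun h => by
    rw [← comp_comp, C.t_mem.2.1 γ hγ]
  have hc : comp C.t g = comp (comp C.t (C.rep i)) (ModularGroup.T ^ y) := by
    rcases hg with rfl | rfl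
    · rw [comp_comp, mul_assoc, hkey]; rfl
    · rw [comp_neg, comp_comp, mul_assoc, hkey]; rfl
  rw [hc, expansion_comp_T_zpow (hasExp_expansion C.t_mem _) y]
  have key : ∀ k : ℤ, UnitIn (zetaRing L) ((expansion L (comp C.t (C.rep i))).coeff k) →
      ∃ u ∈ zetaRing L, (twist (zetaC L ^ y) (zpow_ne_zero y (zetaC_ne_zero L))
        (expansion L (comp C.t (C.rep i)))).coeff k * u = 1 := fun k hk => by
    rw [twist_coeff]
    exact ((((unitIn_zetaC le_rfl).zpow y).zpow k).mul hk).2
  cases i with
  | none => exact ⟨-(C.e : ℤ), neg_ne_zero.mpr he, key _ (by simpa [rep_none] using C.t_inf.lead)⟩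
  | some x =>
    refine ⟨C.e, he, key _ ?_⟩
    have := (C.tsub_zero x).lead
    rwa [C.expansion_tsub, HahnSeries.coeff_sub, HahnSeries.coeff_single_of_ne he, sub_zero] at this

lemma surj_aux (c : ℂ) (hc : c ∉ C.badSet) : ∃ τ : ℍ, C.t τ = c := by
  by_contra hne
  push Not at hne
  have : NeZero M := ⟨fun h0 => NeZero.ne L (C.hL.trans (mul_eq_zero_of_right _ h0))⟩
  set G : ℍ → ℂ := fun τ => (C.t τ - c)⁻¹ with hG
  have hGd : MDiff G := by
    rw [UpperHalfPlane.mdifferentiable_iff]
    refine ((UpperHalfPlane.mdifferentiable_iff.mp C.t_mem.1).sub_const c).inv fun z hz => ?_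
    exact sub_ne_zero.mpr (hne _)
  have hGinv : ∀ γ ∈ Gamma M, comp G γ = G := fun γ hγ => funext fun τ => by
    have := congrFun (C.t_mem.2.1 γ hγ) τ
    simp only [comp_apply] at this
    simp only [hG, comp_apply, this]
  have hbd := C.bounded_of_rep hGinv fun i => by
    cases i with
    | none =>
      refine Tendsto.isBigO_one ℝ (c := 0) ?_
      rw [rep_none, comp_one]
      have he := C.e_pos
      have hexp : HasExp L (fun τ => C.t τ - c) (expansion L C.t - HahnSeries.single 0 c) := by
        have h := (hasExp_expansion C.t_mem 1).sub (HasExp.const c)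
        simp only [comp_one] at h
        exact h
      have h1 := hexp.tendsto_div_qL (N := -(C.e : ℤ)) fun i hi => by
        rw [HahnSeries.coeff_sub, C.t_inf.below i hi, HahnSeries.coeff_single_of_ne (by omega),
          sub_zero]
      rw [HahnSeries.coeff_sub, HahnSeries.coeff_single_of_ne (by omega), sub_zero] at h1
      have h2 : Tendsto (fun τ => qL L τ ^ C.e) atImInfty (𝓝 0) := by
        simpa [zero_pow he.ne'] using (tendsto_qL_zero L).pow C.e
      have h3 := h2.mul (h1.inv₀ C.t_inf.lead.ne_zero)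
      rw [zero_mul] at h3
      refine h3.congr fun τ => ?_
      rw [zpow_neg, zpow_natCast, hG, div_inv_eq_mul, mul_inv]
      have hq := pow_ne_zero C.e (qL_ne_zero L τ)
      field_simp
    | some x =>
      have h1 := (hasExp_expansion C.t_mem (C.δ x)).tendsto_atImInfty (C.t_reg x)
      rw [C.t_val x] at h1
      have hne' : C.val x - c ≠ 0 :=
        sub_ne_zero.mpr fun h => hc (h ▸ Finset.mem_image_of_mem _ (Finset.mem_univ x))
      exact ((h1.sub_const c).inv₀ hne').isBigO_one ℝ
  obtain ⟨k, hk⟩ := eq_const_of_bounded hGd hGinv hbd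
  have ht : C.t = fun _ => k⁻¹ + c := funext fun τ => by
    have h1 : (C.t τ - c)⁻¹ = k := congrFun hk τ
    rw [← h1, inv_inv, sub_add_cancel]
  have h0 := C.t_inf.lead.ne_zero
  rw [ht, (HasExp.const (L := L) (k⁻¹ + c)).expansion_eq,
    HahnSeries.coeff_single_of_ne (by have := C.e_pos; omega)] at h0
  exact h0 rfl

open Derivative in
lemma deriv_ne_aux (a : ℕ) (ha₁ : a * M = M + 6) (ha₂ : a + M = 6) (τ : ℍ) :
    deriv (C.t ∘ ofComplex) (τ : ℂ) ≠ 0 := by
  have : NeZero M := ⟨fun h0 => NeZero.ne L (C.hL.trans (mul_eq_zero_of_right _ h0))⟩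
  set DD := normalizedDerivOfComplex with hD
  set P : ℍ → ℂ := ∏ x, C.inv x ^ a with hP
  set F : ℍ → ℂ := fun σ => DD C.t σ ^ 6 * P σ / ModularForm.discriminant σ with hF
  have hPm : P ∈ weak (Gamma M) L (zetaRing L) := prod_mem fun x _ => pow_mem (C.inv_mem x) a
  have hFd : MDiff F := by
    rw [UpperHalfPlane.mdifferentiable_iff]
    have hΔ := UpperHalfPlane.mdifferentiable_iff.mp
      (ModularFormClass.holo CuspForm.discriminant)
    exact (((UpperHalfPlane.mdifferentiable_iff.mp
      (normalizedDerivOfComplex_mdifferentiable C.t_mem.1)).pow 6).mul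
      (UpperHalfPlane.mdifferentiable_iff.mp hPm.1)).div hΔ fun z hz =>
      ModularForm.discriminant_ne_zero _
  have hFg : ∀ (g : SL(2, ℤ)) (σ : ℍ),
      F (g • σ) = DD (comp C.t g) σ ^ 6 * P (g • σ) / ModularForm.discriminant σ := by
    intro g σ
    simp only [hF, hD, deriv_smul C.t_mem.1 g σ, discriminant_smul]
    have := denom_ne_zero g σ
    have := ModularForm.discriminant_ne_zero σ
    field_simp
  have hFinv : ∀ γ ∈ Gamma M, comp F γ = F := fun γ hγ => funext fun σ => by
    have h1 := congrFun (hPm.2.1 γ hγ) σ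
    simp only [comp_apply] at h1
    rw [comp_apply, hFg, C.t_mem.2.1 γ hγ, h1]
  have hLz : (L : ℂ) ≠ 0 := by exact_mod_cast NeZero.ne L
  -- the limit of `F` at a cusp, given the orders of `t - const` and of the `inv x`
  have key : ∀ (g : SL(2, ℤ)) (f : ℍ → ℂ) (_ : f ∈ weak (Gamma M) L (zetaRing L))
      (_ : DD (comp f g) = DD (comp C.t g)) (N : ℤ)
      (_ : ∀ i < N, (expansion L (comp f g)).coeff i = 0) (n : Fin M → ℤ)
      (_ : ∀ x, ∀ i < n x, (expansion L (comp (C.inv x) g)).coeff i = 0)
      (_ : 6 * N + (∑ x, (a : ℤ) * n x) - (L : ℤ) = 0),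
      Tendsto (comp F g) atImInfty (𝓝 (((N : ℂ) / L * (expansion L (comp f g)).coeff N) ^ 6 *
        (∏ x, (expansion L (comp (C.inv x) g)).coeff (n x) ^ a) / 1)) := by
    intro g f hf hfD N hN n hn htot
    have h1 := ((hasExp_expansion hf g).tendsto_deriv_div (mdiff_comp hf.1 g) hN).pow 6
    have h2 := tendsto_finsetProd (Finset.univ : Finset (Fin M)) fun x _ =>
      ((hasExp_expansion (C.inv_mem x) g).tendsto_div_qL (hn x)).pow a
    refine ((h1.mul h2).div (tendsto_discriminant_div_qL L) one_ne_zero).congr fun σ => ?_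
    have hq := qL_ne_zero L σ
    rw [comp_apply, hFg, ← hfD, Pi.div_apply]
    have hPσ : P (g • σ) = ∏ x, comp (C.inv x) g σ ^ a := by simp [hP, Finset.prod_apply]
    rw [hPσ, hD]
    simp only [div_pow, Finset.prod_div_distrib]
    set Dv := normalizedDerivOfComplex (comp f g) σ
    set Q := ∏ x, comp (C.inv x) g σ ^ a
    have hprod : (∏ x, (qL L σ ^ n x) ^ a) = qL L σ ^ (∑ x, (a : ℤ) * n x) := by
      induction (Finset.univ : Finset (Fin M)) using Finset.induction_on with
      | empty => simp
      | insert x S hx ih =>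
        rw [Finset.prod_insert hx, Finset.sum_insert hx, ih, zpow_add₀ hq, ← zpow_natCast,
          ← zpow_mul, mul_comm (n x)]
    have h6 : (qL L σ ^ N) ^ 6 = qL L σ ^ (6 * N) := by
      rw [← zpow_natCast, ← zpow_mul, mul_comm]; rfl
    rw [hprod, h6, div_mul_div_comm, ← zpow_add₀ hq,
      show 6 * N + (∑ x, (a : ℤ) * n x) = (L : ℤ) by omega]
    have hqL := zpow_ne_zero (L : ℤ) hq
    field_simp
  have he := C.e_pos
  have hLe : (L : ℤ) = C.e * M := by exact_mod_cast C.hL
  have hDsub : ∀ x g, DD (comp (C.tsub x) g) = DD (comp C.t g) := fun x g => by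
    rw [show comp (C.tsub x) g = comp C.t g - fun _ => C.val x from rfl, hD,
      normalizedDerivOfComplex_sub _ _ (mdiff_comp C.t_mem.1 g) mdifferentiable_const,
      normalizedDerivOfComplex_const, sub_zero]
  have h0 := key (C.rep none) C.t C.t_mem rfl (-(C.e : ℤ))
    (by rw [rep_none, comp_one]; exact C.t_inf.below) (fun _ => (C.e : ℤ))
    (fun x => (C.inv_zero x).below) (by
      have h : ((a : ℤ) * M) = M + 6 := by exact_mod_cast ha₁
      rw [Finset.sum_const, Finset.card_univ, Fintype.card_fin, nsmul_eq_mul, hLe]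
      linear_combination (C.e : ℤ) * h)
  rw [rep_none, comp_one, comp_one] at h0
  have hsome : ∀ x, IsBoundedAtImInfty (comp F (C.δ x)) := fun x => by
    refine Tendsto.isBigO_one ℝ (key (C.δ x) (C.tsub x) (C.tsub_mem x) (hDsub x _) C.e
      (C.tsub_zero x).below (fun y => if y = x then -(C.e : ℤ) else 0) (fun y i hi => ?_) ?_)
    · rcases eq_or_ne y x with rfl | hyx
      · rw [if_pos rfl] at hi
        exact (C.inv_pole y).below i hi
      · rw [if_neg hyx] at hi
        exact C.inv_reg y (some x) (fun h => hyx (Option.some_injective _ h).symm) i hi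
    · have h : ((a : ℤ) + M) = 6 := by exact_mod_cast ha₂
      simp only [mul_ite, mul_zero, Finset.sum_ite_eq', Finset.mem_univ, if_true, hLe]
      linear_combination -(C.e : ℤ) * h
  obtain ⟨k, hk⟩ := eq_const_of_bounded hFd hFinv (C.bounded_of_rep hFinv fun i => by
    cases i with
    | none => rw [rep_none, comp_one]; exact h0.isBigO_one ℝ
    | some x => exact hsome x)
  rw [hk] at h0
  have hk0 : k ≠ 0 := by
    rw [tendsto_nhds_unique tendsto_const_nhds h0, div_one]
    refine mul_ne_zero (pow_ne_zero _ (mul_ne_zero (div_ne_zero ?_ hLz) C.t_inf.lead.ne_zero))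
      (Finset.prod_ne_zero_iff.mpr fun x _ => pow_ne_zero _ ?_)
    · exact_mod_cast neg_ne_zero.mpr (show (C.e : ℤ) ≠ 0 by omega)
    · simpa [rep_none] using (C.inv_zero x).lead.ne_zero
  intro hzero
  apply hk0
  have := congrFun hk τ
  rw [← this]
  simp [hF, hD, normalizedDerivOfComplex, hzero]

/-- The base data of a chart. -/
def toBaseData (a : ℕ) (ha₁ : a * M = M + 6) (ha₂ : a + M = 6) : BaseData M L where
  t := C.t
  bad := C.badSet
  bad_mem c hc := by
    obtain ⟨x, -, rfl⟩ := Finset.mem_image.mp hc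
    exact C.val_mem x
  t_mem := C.t_mem
  inv_mem c hc := by
    obtain ⟨x, -, rfl⟩ := Finset.mem_image.mp hc
    exact ⟨C.inv x, C.inv_mem x, C.inv_mul x⟩
  order_le i hi := C.t_inf.below i (by
    have : L / M = C.e :=
      Nat.div_eq_of_eq_mul_left (Nat.pos_of_ne_zero fun h0 =>
        NeZero.ne L (C.hL.trans (mul_eq_zero_of_right _ h0))) C.hL
    rwa [this] at hi)
  leading := by
    have : L / M = C.e :=
      Nat.div_eq_of_eq_mul_left (Nat.pos_of_ne_zero fun h0 =>
        NeZero.ne L (C.hL.trans (mul_eq_zero_of_right _ h0))) C.hL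
    rw [this]
    exact C.t_inf.lead.2
  nonconst := C.nonconst_aux
  generated := C.generated_aux
  complete := C.complete_aux
  surj := C.surj_aux
  deriv_ne := C.deriv_ne_aux a ha₁ ha₂

end Chart

end Fermat.Agent.KummerES
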