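import Fermat.Agent.KummerES.Interface
import Mathlib.NumberTheory.ModularForms.NormTrace
import Mathlib.NumberTheory.ModularForms.Derivative
import Mathlib.NumberTheory.ModularForms.Discriminant

/-!
# Bounded modular functions are constant; asymptotics of derivatives at `i∞`

Liouville for functions invariant under a congruence subgroup and bounded at the cusps, and the
leading terms at `i∞` of the derivative of a function with a Laurent expansion.
-/

set_option autoImplicit false

noncomputable section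

open UpperHalfPlane Filter Topology CongruenceSubgroup
open scoped Real MatrixGroups Manifold ModularForm

namespace Fermat.Agent.KummerES

/-- `-g` acts as `g`. -/
lemma comp_neg (f : ℍ → ℂ) (g : SL(2, ℤ)) : comp f (-g) = comp f g := by
  funext τ
  simp only [comp_apply, ModularGroup.SL_neg_smul]

/-- Translations by powers of `T` preserve the filter at `∞`. -/
lemma T_zpow_smul_tendsto (y : ℤ) :
    Tendsto (fun τ : ℍ => ModularGroup.T ^ y • τ) atImInfty atImInfty := by
  refine tendsto_comap_iff.mpr ?_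
  refine Tendsto.congr (fun τ => ?_) (tendsto_comap : Tendsto UpperHalfPlane.im atImInfty atTop)
  rw [Function.comp_apply, modular_T_zpow_smul, vadd_im]

/-- A holomorphic `Γ(M)`-invariant function bounded at every cusp is constant. -/
lemma eq_const_of_bounded {M : ℕ} [NeZero M] {f : ℍ → ℂ} (hf : MDiff f)
    (hinv : ∀ γ ∈ Gamma M, comp f γ = f) (hb : ∀ δ, IsBoundedAtImInfty (comp f δ)) :
    ∃ c, f = fun _ => c := by
  have hsl : ∀ γ : SL(2, ℤ), (f ∣[(0 : ℤ)] γ) = comp f γ := fun γ => by
    funext τ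
    rw [ModularForm.SL_slash_apply]
    simp
  let F : ModularForm ((Gamma M).map (Matrix.SpecialLinearGroup.mapGL ℝ)) 0 :=
    { toFun := f
      slash_action_eq' := by
        rintro _ ⟨γ, hγ, rfl⟩
        exact (hsl γ).trans (hinv γ hγ)
      holo' := hf
      bdd_at_cusps' := fun hc => by
        rw [Subgroup.IsArithmetic.isCusp_iff_isCusp_SL2Z] at hc
        rw [OnePoint.isBoundedAt_iff_forall_SL2Z hc]
        intro γ _
        rw [hsl]
        exact hb γ }
  obtain ⟨c, hc⟩ := ModularForm.eq_const_of_weight_zero F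
  exact ⟨c, hc⟩

lemma qL_eq (L : ℕ) (τ : ℍ) : qL L τ = Complex.exp (2 * π * Complex.I * τ / L) := by
  simp [qL, Function.Periodic.qParam]

/-- `qL` tends to zero at `∞`. -/
lemma tendsto_qL_zero (L : ℕ) [NeZero L] : Tendsto (qL L) atImInfty (𝓝 0) :=
  qParam_tendsto_atImInfty (by exact_mod_cast Nat.pos_of_ne_zero (NeZero.ne L))

/-- The powers of `qL` are holomorphic. -/
lemma mdiff_qL_zpow (L : ℕ) (N : ℤ) : MDiff (fun τ => qL L τ ^ N) := by
  rw [UpperHalfPlane.mdifferentiable_iff]
  have hd : Differentiable ℂ fun z : ℂ => Function.Periodic.qParam L z ^ N :=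
    fun z => (Function.Periodic.differentiable_qParam (h := (L : ℝ)) z).zpow
      (Or.inl (Function.Periodic.qParam_ne_zero z))
  refine hd.differentiableOn.congr fun z hz => ?_
  simp only [Function.comp_apply, qL, ofComplex_apply_of_im_pos hz]

/-- A function with an expansion in `qL L` has period `L`. -/
lemma HasExp.periodic {L : ℕ} [NeZero L] {f : ℍ → ℂ} {s : LaurentSeries ℂ} (h : HasExp L f s) :
    Function.Periodic (f ∘ ofComplex) (L : ℝ) := fun z => by
  rcases lt_or_ge 0 z.im with hz | hz
  · have hz' : 0 < (z + ((L : ℝ) : ℂ)).im := by simpa using hz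
    simp only [Function.comp_apply, ofComplex_apply_of_im_pos hz, ofComplex_apply_of_im_pos hz']
    have hq : qL L ⟨z + ((L : ℝ) : ℂ), hz'⟩ = qL L ⟨z, hz⟩ := by
      have hL : (L : ℂ) ≠ 0 := by exact_mod_cast NeZero.ne L
      rw [qL_eq, qL_eq, Complex.exp_eq_exp_iff_exists_int]
      refine ⟨1, ?_⟩
      push_cast
      field_simp
    have h1 := h ⟨z + ((L : ℝ) : ℂ), hz'⟩
    simp only [hq] at h1
    exact h1.unique (h ⟨z, hz⟩)
  · have hz' : (z + ((L : ℝ) : ℂ)).im ≤ 0 := by simpa using hz
    simp only [Function.comp_apply, ofComplex_apply_of_im_nonpos hz,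
      ofComplex_apply_of_im_nonpos hz']

open Derivative in
/-- `D h → 0` at `i∞` when `h` is holomorphic, periodic and bounded. -/
lemma tendsto_deriv_zero {L : ℕ} [NeZero L] {h : ℍ → ℂ} {s : LaurentSeries ℂ} (hh : HasExp L h s)
    (hd : MDiff h) (hs : ∀ i < 0, s.coeff i = 0) :
    Tendsto (normalizedDerivOfComplex h) atImInfty (𝓝 0) := by
  have hL : (0 : ℝ) < L := by exact_mod_cast Nat.pos_of_ne_zero (NeZero.ne L)
  have hb : IsBoundedAtImInfty h := (hh.tendsto_atImInfty hs).isBigO_one ℝ
  have hper := hh.periodic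
  set Φ := UpperHalfPlane.cuspFunction (L : ℝ) h with hΦ
  have han : AnalyticAt ℂ Φ 0 := UpperHalfPlane.analyticAt_cuspFunction_zero hL hper hd hb
  have key : ∀ τ : ℍ, normalizedDerivOfComplex h τ = deriv Φ (qL L τ) * qL L τ / L := by
    intro τ
    have hΦd : DifferentiableAt ℂ Φ (qL L τ) :=
      UpperHalfPlane.differentiableAt_cuspFunction hL hper hd hb (norm_qL_lt_one L τ)
    have hq : HasDerivAt (Function.Periodic.qParam (L : ℝ)) (qL L τ * (2 * π * Complex.I / L))
        (τ : ℂ) := by
      have := (((hasDerivAt_id (τ : ℂ)).const_mul (2 * π * Complex.I)).div_const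
        ((L : ℝ) : ℂ)).cexp
      have hfun : Function.Periodic.qParam (L : ℝ) =
          fun z : ℂ => Complex.exp (2 * π * Complex.I * z / ((L : ℝ) : ℂ)) := rfl
      rw [hfun]
      simpa [qL, Function.Periodic.qParam, mul_one] using this
    have hcomp := hΦd.hasDerivAt.comp (τ : ℂ) hq
    have heq : h ∘ ofComplex = Φ ∘ Function.Periodic.qParam (L : ℝ) :=
      funext fun z => (Function.Periodic.eq_cuspFunction hL.ne' hper z).symm
    rw [normalizedDerivOfComplex, heq, hcomp.deriv]
    have : (L : ℂ) ≠ 0 := by exact_mod_cast NeZero.ne L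
    field_simp
  rw [funext key]
  simpa using ((han.deriv.continuousAt.tendsto.comp (tendsto_qL_zero L)).mul
    (tendsto_qL_zero L)).div_const (L : ℂ)

open Derivative in
/-- The normalised derivative of a power of `qL L`. -/
lemma D_qL_zpow (L : ℕ) [NeZero L] (N : ℤ) :
    normalizedDerivOfComplex (fun τ => qL L τ ^ N) = fun τ => (N : ℂ) / L * qL L τ ^ N := by
  funext τ
  have h : HasDerivAt (fun z : ℂ => Complex.exp ((N : ℂ) * (2 * π * Complex.I * z / L)))
      (Complex.exp ((N : ℂ) * (2 * π * Complex.I * τ / L)) * ((N : ℂ) * (2 * π * Complex.I / L)))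
      (τ : ℂ) := by
    simpa using
      ((((hasDerivAt_id (τ : ℂ)).const_mul (2 * π * Complex.I)).div_const (L : ℂ)).const_mul
        (N : ℂ)).cexp
  have heq : (fun τ => qL L τ ^ N) ∘ ofComplex =ᶠ[𝓝 (τ : ℂ)]
      fun z : ℂ => Complex.exp ((N : ℂ) * (2 * π * Complex.I * z / L)) := by
    filter_upwards [isOpen_upperHalfPlaneSet.mem_nhds τ.im_pos] with z hz
    rw [Function.comp_apply, ofComplex_apply_of_im_pos hz, qL_eq, ← Complex.exp_int_mul]
  rw [normalizedDerivOfComplex, (h.congr_of_eventuallyEq heq).deriv, qL_eq, ← Complex.exp_int_mul]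
  have : (L : ℂ) ≠ 0 := by exact_mod_cast NeZero.ne L
  field_simp

/-- A function with expansion starting in degree `N`, divided by `q_L ^ N`. -/
lemma HasExp.tendsto_div_qL {L : ℕ} [NeZero L] {f : ℍ → ℂ} {s : LaurentSeries ℂ}
    (h : HasExp L f s) {N : ℤ} (hs : ∀ i < N, s.coeff i = 0) :
    Tendsto (fun τ => f τ / qL L τ ^ N) atImInfty (𝓝 (s.coeff N)) := by
  have h' := (HasExp.single (L := L) (-N) 1).mul h
  have := h'.tendsto_atImInfty fun i hi => by
    rw [HahnSeries.coeff_single_mul, one_mul]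
    exact hs _ (by omega)
  rw [HahnSeries.coeff_single_mul, one_mul, zero_sub, neg_neg] at this
  refine this.congr fun τ => ?_
  simp only [Pi.mul_apply, one_mul, zpow_neg, div_eq_inv_mul]

open Derivative in
/-- If `f = s_N q_L^N + ...` then `D f / q_L^N → (N/L) s_N`. -/
lemma HasExp.tendsto_deriv_div {L : ℕ} [NeZero L] {f : ℍ → ℂ} {s : LaurentSeries ℂ}
    (h : HasExp L f s) (hd : MDiff f) {N : ℤ} (hs : ∀ i < N, s.coeff i = 0) :
    Tendsto (fun τ => normalizedDerivOfComplex f τ / qL L τ ^ N) atImInfty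
      (𝓝 ((N : ℂ) / L * s.coeff N)) := by
  set g : ℍ → ℂ := (fun τ => 1 * qL L τ ^ (-N)) * f with hg
  have h' : HasExp L g (HahnSeries.single (-N) 1 * s) :=
    (HasExp.single (L := L) (-N) 1).mul h
  have hs' : ∀ i < (0 : ℤ), (HahnSeries.single (-N) (1 : ℂ) * s).coeff i = 0 := fun i hi => by
    rw [HahnSeries.coeff_single_mul, one_mul]
    exact hs _ (by omega)
  have hgd : MDiff g := by
    have := (mdiff_qL_zpow L (-N)).mul hd
    simpa [hg] using this
  have hfg : f = (fun τ => qL L τ ^ N) * g := by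
    funext τ
    simp only [hg, Pi.mul_apply, one_mul, ← mul_assoc, ← zpow_add₀ (qL_ne_zero L τ), add_neg_cancel,
      zpow_zero]
  have key : ∀ τ, normalizedDerivOfComplex f τ / qL L τ ^ N =
      (N : ℂ) / L * g τ + normalizedDerivOfComplex g τ := by
    intro τ
    rw [hfg, normalizedDerivOfComplex_mul _ _ (mdiff_qL_zpow L N) hgd, D_qL_zpow]
    simp only [Pi.add_apply, Pi.mul_apply]
    field_simp [zpow_ne_zero N (qL_ne_zero L τ)]
  rw [funext key]
  have := ((h'.tendsto_atImInfty hs').const_mul ((N : ℂ) / L)).add (tendsto_deriv_zero h' hgd hs')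
  rwa [HahnSeries.coeff_single_mul, one_mul, zero_sub, neg_neg, add_zero] at this

/-- `Δ ~ qL L ^ L` at `∞`. -/
lemma tendsto_discriminant_div_qL (L : ℕ) [NeZero L] :
    Tendsto (fun τ => ModularForm.discriminant τ / qL L τ ^ (L : ℤ)) atImInfty (𝓝 1) := by
  refine ModularForm.tendsto_atImInfty_tprod_one_sub_eta_q_pow.congr fun τ => ?_
  have hq : qL L τ ^ (L : ℤ) = Function.Periodic.qParam 1 τ := by
    have : (L : ℂ) ≠ 0 := by exact_mod_cast NeZero.ne L
    rw [qL_eq, zpow_natCast, ← Complex.exp_nat_mul, Function.Periodic.qParam]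
    congr 1
    push_cast
    field_simp
  rw [hq, ModularForm.discriminant_eq_q_prod,
    mul_div_cancel_left₀ _ (Function.Periodic.qParam_ne_zero (h := (1 : ℝ)) (τ : ℂ))]

/-- The discriminant transforms with weight 12. -/
lemma discriminant_smul (γ : SL(2, ℤ)) (τ : ℍ) :
    ModularForm.discriminant (γ • τ) = denom γ τ ^ (12 : ℕ) * ModularForm.discriminant τ := by
  have h : (ModularForm.discriminant ∣[(12 : ℤ)] γ) τ = ModularForm.discriminant τ := by
    rw [SlashInvariantForm.slash_action_generators_SL2Z ModularForm.discriminant_S_invariant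
      ModularForm.discriminant_T_invariant γ]
  rw [ModularForm.SL_slash_apply] at h
  have hd := denom_ne_zero γ τ
  rw [← h, zpow_neg, show (12 : ℤ) = ((12 : ℕ) : ℤ) from rfl, zpow_natCast]
  field_simp

open Derivative in
/-- The normalised derivative intertwines `comp` with the weight 2 factor. -/
lemma deriv_smul {f : ℍ → ℂ} (hf : MDiff f) (γ : SL(2, ℤ)) (τ : ℍ) :
    normalizedDerivOfComplex f (γ • τ) =
      denom γ τ ^ (2 : ℕ) * normalizedDerivOfComplex (comp f γ) τ := by
  have h := congrFun (normalizedDerivOfComplex_SL_slash (k := 0) hf (γ := γ)) τ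
  have hc : (f ∣[(0 : ℤ)] γ) = comp f γ := by
    funext σ
    rw [ModularForm.SL_slash_apply]
    simp
  rw [hc] at h
  simp only [Int.cast_zero, zero_mul, Pi.sub_apply, sub_zero, zero_add] at h
  rw [h, ModularForm.SL_slash_apply, show (2 : ℤ) = ((2 : ℕ) : ℤ) from rfl, zpow_neg, zpow_natCast]
  have hd := denom_ne_zero γ τ
  field_simp

end Fermat.Agent.KummerES
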