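import Fermat.Agent.Conn.TwoGenerated
import Mathlib.RingTheory.DiscreteValuationRing.Basic

/-!
# A local domain with a prime element and a discrete valuation ring as quotient is factorial

Such a ring has maximal ideal generated by two elements and is hence factorial.
-/

set_option autoImplicit false

namespace Fermat.Agent.KummerES

open IsLocalRing

/-- If `π` is a prime element and `A ⧸ (π)` a discrete valuation ring, then `A` is factorial. -/
theorem uniqueFactorizationMonoid_of_quotient_dvr {A : Type*} [CommRing A] [IsDomain A]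
    [IsLocalRing A] [IsNoetherianRing A] {π : A} (hπ : Prime π) [IsDomain (A ⧸ Ideal.span {π})]
    [IsDiscreteValuationRing (A ⧸ Ideal.span {π})] : UniqueFactorizationMonoid A := by
  set q := Ideal.Quotient.mk (Ideal.span {π})
  obtain ⟨ϖ, hϖ⟩ := IsDiscreteValuationRing.exists_irreducible (A ⧸ Ideal.span {π})
  obtain ⟨y, hy⟩ := Ideal.Quotient.mk_surjective ϖ
  have hq : Function.Surjective q := Ideal.Quotient.mk_surjective
  have hπm : π ∈ maximalIdeal A := (mem_maximalIdeal π).mpr hπ.not_isUnit
  have : IsLocalHom q := IsLocalHom.of_surjective q hq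
  have hm : maximalIdeal A = Ideal.span {π, y} := by
    refine le_antisymm (fun a ha => ?_) ?_
    · have h1 : q a ∈ maximalIdeal (A ⧸ Ideal.span {π}) :=
        (mem_maximalIdeal _).mpr fun hu => (mem_maximalIdeal a).mp ha (hu.of_map q a)
      rw [hϖ.maximalIdeal_eq, Ideal.mem_span_singleton'] at h1
      obtain ⟨c, hc⟩ := h1
      obtain ⟨c, rfl⟩ := hq c
      rw [← hy, ← map_mul, Ideal.Quotient.eq, Ideal.mem_span_singleton'] at hc
      obtain ⟨d, hd⟩ := hc
      exact Ideal.mem_span_pair.mpr ⟨-d, c, by linear_combination -hd⟩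
    · rw [Ideal.span_le, Set.insert_subset_iff, Set.singleton_subset_iff]
      refine ⟨hπm, (mem_maximalIdeal y).mpr fun hu => hϖ.not_isUnit ?_⟩
      rw [← hy]; exact hu.map q
  refine Conn.uniqueFactorizationMonoid_of_two_generated hm ⟨Ideal.span {π},
    (Ideal.span_singleton_prime hπ.ne_zero).mpr hπ,
    fun h => hπ.ne_zero (Ideal.span_singleton_eq_bot.mp h), fun h => hϖ.ne_zero ?_⟩
  rw [← hy]
  refine Ideal.Quotient.eq_zero_iff_mem.mpr ?_
  rw [h]
  exact hm ▸ Ideal.subset_span (by simp)

end Fermat.Agent.KummerES
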