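import Fermat.Agent.KummerES.ReductionSeries
import Fermat.Agent.KummerES.LocalRing
import Mathlib.RingTheory.Nakayama
import Mathlib.RingTheory.DiscreteValuationRing.TFAE

/-!
# The special fibre of the level `L` ring is irreducible

The kernels of the expansions modulo `π` are primes which become `(π)` in every local ring where
they survive; so two distinct ones are comaximal, and lifting an idempotent with the completion
lemma shows that there is only one.
-/

set_option autoImplicit false

noncomputable section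

open UpperHalfPlane CongruenceSubgroup
open scoped MatrixGroups

namespace Fermat.Agent.KummerES

open LevelHyp (Cong IsSeparated)
open ModularCurve (coeffMap)

variable {M L n : ℕ} [NeZero L] {B : Subring ℂ} {π : ℂ}

omit [NeZero L] in
/-- `3 a ^ 2 - 2 a ^ 3` squares the error `a ^ 2 - a`. -/
lemma idempotent_step {R : Type*} [CommRing R] (a : R) :
    (3 * a ^ 2 - 2 * a ^ 3) ^ 2 - (3 * a ^ 2 - 2 * a ^ 3)
      = (a ^ 2 - a) ^ 2 * (4 * (a ^ 2 - a) - 3) ∧
    (3 * a ^ 2 - 2 * a ^ 3) - a = (a ^ 2 - a) * (1 - 2 * a) := by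
  constructor <;> ring

/-- A Noetherian local domain with principal maximal ideal is a principal ideal ring. -/
lemma isPrincipalIdealRing_of_maximal {R : Type*} [CommRing R] [IsDomain R] [IsNoetherianRing R]
    [IsLocalRing R] {P : R} (h : IsLocalRing.maximalIdeal R = Ideal.span {P}) :
    IsPrincipalIdealRing R :=
  have h1 : (IsLocalRing.maximalIdeal R).IsPrincipal := ⟨P, h⟩
  have h2 := (tfae_of_isNoetherianRing_of_isLocalRing_of_isDomain R).out 4 0
  h2.mp h1

/-- The level `L` ring is a domain. -/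
lemma isDomain_LRing : IsDomain (LRing L B) :=
  (expAt_injective (Γ := Gamma L) (L := L) (B := B) 1).isDomain

/-- A function in the kernel at every cusp is divisible by `π`. -/
lemma dvd_of_forall_kerAt (hB : CoeffHyp B π n) {f : LRing L B} (h : ∀ δ, kerAt B π δ f) :
    constL (L := L) π hB.mem ∣ f := by
  have hπ := hB.pi_ne_zero
  have hexp : ∀ δ, ∃ u ∈ coeffSubring B, HasExp L (comp (fun τ => π⁻¹ * f.1 τ) δ) u := by
    intro δ
    obtain ⟨u, hu, hfu⟩ := h δ
    refine ⟨u, hu, ?_⟩
    rw [sub_zero, pow_one] at hfu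
    have h1 := (HasExp.const (L := L) π⁻¹).mul (hasExp_expansion f.2 δ)
    have hu' : HahnSeries.single 0 π⁻¹ * expansion L (comp f.1 δ) = u := by
      rw [← expAt_apply, hfu, ← mul_assoc, HahnSeries.single_mul_single, add_zero,
        inv_mul_cancel₀ hπ]
      exact one_mul u
    rw [hu'] at h1
    exact h1
  refine ⟨⟨fun τ => π⁻¹ * f.1 τ, mdifferentiable_const.mul f.2.1, fun γ hγ => ?_, hexp⟩, ?_⟩
  · funext τ
    exact congrArg (π⁻¹ * ·) (congrFun (f.2.2.1 γ hγ) τ)
  · refine Subtype.ext (funext fun τ => ?_)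
    show f.1 τ = π * (π⁻¹ * f.1 τ)
    rw [← mul_assoc, mul_inv_cancel₀ hπ, one_mul]

/-- The kernel of the expansion at `δ ∞` modulo `π`. -/
def kerIdeal (L : ℕ) [NeZero L] (B : Subring ℂ) (π : ℂ) (hπ : π ∈ B) (δ : SL(2, ℤ)) :
    Ideal (LRing L B) :=
  (Ideal.span {(HahnSeries.C (⟨π, hπ⟩ : B) : LaurentSeries B)}).comap (expB L B δ)

lemma mem_kerIdeal (hπ : π ∈ B) (δ : SL(2, ℤ)) (f : LRing L B) :
    f ∈ kerIdeal L B π hπ δ ↔ kerAt B π δ f := by
  rw [kerAt_iff_dvd hπ, kerIdeal, Ideal.mem_comap, Ideal.mem_span_singleton]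

lemma kerIdeal_isPrime (hB : CoeffHyp B π n) (δ : SL(2, ℤ)) :
    (kerIdeal L B π hB.mem δ).IsPrime :=
  have := (Ideal.span_singleton_prime hB.prime_C.ne_zero).mpr hB.prime_C
  Ideal.comap_isPrime _ _

lemma constL_mem_kerIdeal (hπ : π ∈ B) (δ : SL(2, ℤ)) :
    constL π hπ ∈ kerIdeal L B π hπ δ := by
  rw [kerIdeal, Ideal.mem_comap, expB_constL]
  exact Ideal.mem_span_singleton_self _

variable (L) in
/-- The kernels form a finite set. -/
lemma finite_range_kerIdeal (hπ : π ∈ B) : (Set.range (kerIdeal L B π hπ)).Finite := by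
  classical
  have := Subgroup.finiteIndex_of_le (le_refl (Gamma L))
  let F : SL(2, ℤ) ⧸ Gamma L → Ideal (LRing L B) := fun c => kerIdeal L B π hπ c.out
  refine (Set.finite_range F).subset ?_
  rintro _ ⟨δ, rfl⟩
  refine ⟨QuotientGroup.mk δ, Ideal.ext fun f => ?_⟩
  obtain ⟨⟨γ, hγ⟩, hδ⟩ := QuotientGroup.mk_out_eq_mul (Gamma L) δ
  have hconj : δ * γ * δ⁻¹ ∈ Gamma L := (Gamma_normal L).conj_mem γ hγ δ
  have : comp f.1 (δ * γ) = comp f.1 δ := by
    rw [show δ * γ = δ * γ * δ⁻¹ * δ by group, ← comp_comp, f.2.2.1 _ hconj]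
  simp only [F, mem_kerIdeal, hδ, kerAt, expAt_apply, this]

/-- The localisation at a maximal ideal above `π`: every surviving kernel becomes `(π)`, and the
quotient by `π` is a principal ideal domain which is not a field. -/
lemma local_structure (hB : CoeffHyp B π n) (hG : LocalGen L B π hB.mem)
    (m : Ideal (LRing L B)) [hm : m.IsMaximal] (hπm : constL (L := L) π hB.mem ∈ m) :
    ∃ π' P' : Localization.AtPrime m,
      π' = algebraMap (LRing L B) (Localization.AtPrime m) (constL (L := L) π hB.mem) ∧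
      IsLocalRing.maximalIdeal (Localization.AtPrime m) = Ideal.span {π', P'} ∧
      (∀ δ, kerIdeal L B π hB.mem δ ≤ m →
        (kerIdeal L B π hB.mem δ).map (algebraMap (LRing L B) (Localization.AtPrime m)) = Ideal.span {π'}) ∧
      (∀ δ, kerIdeal L B π hB.mem δ ≤ m → P' ∉ Ideal.span {π'}) := by
  have := hG.noetherian
  have := isDomain_LRing (L := L) (B := B)
  obtain ⟨P, hPm, hP, s, hs, hgen⟩ := hG.gen_above m hm hπm
  set φ := algebraMap (LRing L B) (Localization.AtPrime m) with hφ
  have hmax : IsLocalRing.maximalIdeal (Localization.AtPrime m)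
      = Ideal.span {φ (constL (L := L) π hB.mem), φ P} := by
    rw [← Localization.AtPrime.map_eq_maximalIdeal]
    refine le_antisymm (Ideal.map_le_iff_le_comap.mpr fun a ha => ?_) ?_
    · have hsu : IsUnit (φ s) :=
        IsLocalization.map_units (Localization.AtPrime m) (⟨s, hs⟩ : m.primeCompl)
      have h1 := Ideal.mem_map_of_mem φ (hgen a ha)
      rw [map_mul, Ideal.map_span, Set.image_pair] at h1
      exact (Ideal.unit_mul_mem_iff_mem _ hsu).mp h1
    · rw [Ideal.span_le, Set.insert_subset_iff, Set.singleton_subset_iff]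
      exact ⟨Ideal.mem_map_of_mem _ hπm, Ideal.mem_map_of_mem _ hPm⟩
  have hQ : ∀ δ, kerIdeal L B π hB.mem δ ≤ m →
      ((kerIdeal L B π hB.mem δ).map φ).IsPrime ∧
      φ P ∉ (kerIdeal L B π hB.mem δ).map φ := by
    intro δ hδ
    have := kerIdeal_isPrime (L := L) hB δ
    have hd : Disjoint (m.primeCompl : Set (LRing L B)) (kerIdeal L B π hB.mem δ : Set _) :=
      Set.disjoint_left.mpr fun x hx hx' => hx (hδ hx')
    refine ⟨IsLocalization.isPrime_of_isPrime_disjoint m.primeCompl _ _ this hd, fun h => hP δ ?_⟩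
    rw [← mem_kerIdeal hB.mem,
      ← IsLocalization.under_map_of_isPrime_disjoint m.primeCompl (Localization.AtPrime m) this hd]
    exact h
  have hspan : ∀ δ, kerIdeal L B π hB.mem δ ≤ m →
      (kerIdeal L B π hB.mem δ).map φ = Ideal.span {φ (constL (L := L) π hB.mem)} := by
    intro δ hδ
    obtain ⟨hp, hPn⟩ := hQ δ hδ
    have hπQ : φ (constL (L := L) π hB.mem) ∈ (kerIdeal L B π hB.mem δ).map φ :=
      Ideal.mem_map_of_mem _ (constL_mem_kerIdeal hB.mem δ)
    refine le_antisymm ?_ ((Ideal.span_singleton_le_iff_mem _).mpr hπQ)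
    refine Submodule.le_of_le_smul_of_le_jacobson_bot (IsNoetherian.noetherian _)
      (IsLocalRing.maximalIdeal_le_jacobson _) fun x hx => ?_
    have hxm : x ∈ IsLocalRing.maximalIdeal (Localization.AtPrime m) :=
      IsLocalRing.le_maximalIdeal hp.ne_top hx
    rw [hmax, Ideal.mem_span_pair] at hxm
    obtain ⟨a, b, rfl⟩ := hxm
    have hb : b ∈ (kerIdeal L B π hB.mem δ).map φ :=
      (hp.mem_or_mem ((Ideal.add_mem_iff_right _ (Ideal.mul_mem_left _ a hπQ)).mp hx)).resolve_right
        hPn
    refine Submodule.add_mem_sup (Ideal.mem_span_singleton'.mpr ⟨a, rfl⟩) ?_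
    rw [mul_comm, smul_eq_mul]
    exact Ideal.mul_mem_mul (hmax ▸ Ideal.subset_span (by simp)) hb
  refine ⟨_, φ P, rfl, hmax, hspan, fun δ hδ => ?_⟩
  rw [← hspan δ hδ]
  exact (hQ δ hδ).2

/-- Some kernel lies below every maximal ideal containing `π`. -/
lemma exists_kerIdeal_le (hB : CoeffHyp B π n) (m : Ideal (LRing L B)) [hm : m.IsMaximal]
    (hπm : constL (L := L) π hB.mem ∈ m) : ∃ δ, kerIdeal L B π hB.mem δ ≤ m := by
  classical
  have hle : (finite_range_kerIdeal L hB.mem).toFinset.inf id ≤ m := fun f hf => by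
    obtain ⟨u, rfl⟩ := dvd_of_forall_kerAt hB (f := f) fun δ => by
      rw [← mem_kerIdeal hB.mem]
      have hmem : kerIdeal L B π hB.mem δ ∈ (finite_range_kerIdeal L hB.mem).toFinset :=
        (Set.Finite.mem_toFinset _).mpr ⟨δ, rfl⟩
      exact (Finset.inf_le (f := id) hmem : _ ≤ kerIdeal L B π hB.mem δ) hf
    exact Ideal.mul_mem_right _ _ hπm
  obtain ⟨I, hI, hIm⟩ := hm.isPrime.inf_le'.mp hle
  obtain ⟨δ, rfl⟩ := (Set.Finite.mem_toFinset _).mp hI
  exact ⟨δ, hIm⟩

/-- Distinct kernels are comaximal. -/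
lemma kerIdeal_sup_eq_top (hB : CoeffHyp B π n) (hG : LocalGen L B π hB.mem) (δ ε : SL(2, ℤ))
    (hne : kerIdeal L B π hB.mem δ ≠ kerIdeal L B π hB.mem ε) :
    kerIdeal L B π hB.mem δ ⊔ kerIdeal L B π hB.mem ε = ⊤ := by
  by_contra h
  obtain ⟨m, hm, hle⟩ := Ideal.exists_le_maximal _ h
  have hδ : kerIdeal L B π hB.mem δ ≤ m := le_sup_left.trans hle
  have hε : kerIdeal L B π hB.mem ε ≤ m := le_sup_right.trans hle
  obtain ⟨π', P', -, -, hspan, -⟩ :=
    local_structure hB hG m (hδ (constL_mem_kerIdeal hB.mem δ))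
  refine hne ?_
  have hd : ∀ γ, kerIdeal L B π hB.mem γ ≤ m →
      Disjoint (m.primeCompl : Set (LRing L B)) (kerIdeal L B π hB.mem γ : Set _) :=
    fun γ hγ => Set.disjoint_left.mpr fun x hx hx' => hx (hγ hx')
  rw [← IsLocalization.under_map_of_isPrime_disjoint m.primeCompl (Localization.AtPrime m)
      (kerIdeal_isPrime hB δ) (hd δ hδ),
    ← IsLocalization.under_map_of_isPrime_disjoint m.primeCompl (Localization.AtPrime m)
      (kerIdeal_isPrime hB ε) (hd ε hε), hspan δ hδ, hspan ε hε]

/-- **Connectedness**: all kernels are equal. -/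
theorem kerIdeal_eq (H : LevelHyp M L B) (hB : CoeffHyp B π n) (hG : LocalGen L B π hB.mem)
    (δ : SL(2, ℤ)) : kerIdeal L B π hB.mem δ = kerIdeal L B π hB.mem 1 := by
  classical
  have := isDomain_LRing (L := L) (B := B)
  set K := kerIdeal L B π hB.mem with hK
  set S : Finset (Ideal (LRing L B)) :=
    (finite_range_kerIdeal L hB.mem).toFinset.erase (K 1) with hS
  have hJ : K 1 ⊔ S.inf id = ⊤ := by
    rw [Finset.inf_eq_iInf]
    refine Ideal.sup_iInf_eq_top fun I hI => ?_
    obtain ⟨ε, rfl⟩ := (Set.Finite.mem_toFinset _).mp (Finset.mem_of_mem_erase hI)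
    exact kerIdeal_sup_eq_top hB hG 1 ε (Finset.ne_of_mem_erase hI).symm
  obtain ⟨p, hp, a₀, ha₀, hpa⟩ := Submodule.mem_sup.mp (hJ ▸ Submodule.mem_top : (1 : LRing L B) ∈ _)
  have h0 : ∀ ε, if K ε = K 1 then a₀ - 1 ∈ K ε else a₀ ∈ K ε := by
    intro ε
    split_ifs with h
    · rw [h, ← hpa, sub_add_cancel_right]
      exact neg_mem hp
    · exact (Finset.inf_le (f := id) (Finset.mem_erase.mpr ⟨h, (Set.Finite.mem_toFinset _).mpr
        ⟨ε, rfl⟩⟩) : S.inf id ≤ K ε) ha₀
  -- approximate idempotents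
  have hseq : ∀ r : ℕ, ∃ a : LRing L B, constL (L := L) π hB.mem ^ (r + 1) ∣ a ^ 2 - a ∧
      ∀ ε, if K ε = K 1 then a - 1 ∈ K ε else a ∈ K ε := by
    intro r
    induction r with
    | zero =>
      refine ⟨a₀, ?_, h0⟩
      rw [zero_add, pow_one]
      refine dvd_of_forall_kerAt hB fun ε => ?_
      rw [← mem_kerIdeal hB.mem, show a₀ ^ 2 - a₀ = a₀ * (a₀ - 1) by ring]
      have := h0 ε
      split_ifs at this
      · exact Ideal.mul_mem_left _ _ this
      · exact Ideal.mul_mem_right _ _ this
    | succ r IH =>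
      obtain ⟨a, ha, ha'⟩ := IH
      refine ⟨3 * a ^ 2 - 2 * a ^ 3, ?_, fun ε => ?_⟩
      · rw [(idempotent_step a).1]
        refine Dvd.dvd.mul_right ?_ _
        refine (pow_dvd_pow _ (by omega : r + 1 + 1 ≤ (r + 1) * 2)).trans ?_
        rw [pow_mul]
        exact pow_dvd_pow_of_dvd ha 2
      · have hd : 3 * a ^ 2 - 2 * a ^ 3 - a ∈ K ε := by
          rw [(idempotent_step a).2]
          refine Ideal.mul_mem_right _ _ (Ideal.mem_of_dvd _ ((dvd_pow_self _ ?_).trans ha)
            (constL_mem_kerIdeal hB.mem ε))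
          omega
        have := ha' ε
        split_ifs with h
        · rw [if_pos h] at this
          rw [show 3 * a ^ 2 - 2 * a ^ 3 - 1 = (3 * a ^ 2 - 2 * a ^ 3 - a) + (a - 1) by ring]
          exact add_mem hd this
        · rw [if_neg h] at this
          rw [show 3 * a ^ 2 - 2 * a ^ 3 = (3 * a ^ 2 - 2 * a ^ 3 - a) + a by ring]
          exact add_mem hd this
  set S0 : SL(2, ℤ) → LaurentSeries B := fun ε => if K ε = K 1 then 1 else 0 with hS0
  have happ : ∀ (r : ℕ) (a : LRing L B), constL (L := L) π hB.mem ^ (r + 1) ∣ a ^ 2 - a →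
      (∀ ε, if K ε = K 1 then a - 1 ∈ K ε else a ∈ K ε) → ∀ ε,
      HahnSeries.C (⟨π, hB.mem⟩ : B) ^ (r + 1) ∣ S0 ε - expB L B ε a := by
    intro r a ha ha' ε
    have hp := hB.prime_C
    have hd := map_dvd (expB L B ε) ha
    rw [map_pow, expB_constL, map_sub, map_pow,
      show expB L B ε a ^ 2 - expB L B ε a
        = expB L B ε a * (expB L B ε a - 1) by ring] at hd
    have := ha' ε
    simp only [hS0]
    split_ifs with h
    · rw [if_pos h, hK, kerIdeal, Ideal.mem_comap, Ideal.mem_span_singleton, map_sub, map_one] at this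
      rw [dvd_sub_comm]
      refine hp.pow_dvd_of_dvd_mul_left (r + 1) (fun hu => hp.not_dvd_one ?_) hd
      have := dvd_sub hu this
      rwa [sub_sub_cancel] at this
    · rw [if_neg h, hK, kerIdeal, Ideal.mem_comap, Ideal.mem_span_singleton] at this
      rw [dvd_sub_comm, sub_zero]
      refine hp.pow_dvd_of_dvd_mul_right (r + 1) (fun hu => hp.not_dvd_one ?_) hd
      have := dvd_sub this hu
      rwa [sub_sub_cancel] at this
  obtain ⟨e, he, he'⟩ := H.complete hB.mem hB.isSeparated (fun ε => coeffMap B.subtype (S0 ε))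
    (fun ε i => ((S0 ε).coeff i).2) (fun r => by
      rcases r with _ | r
      · exact ⟨0, zero_mem _, fun ε => ⟨_, sub_mem (fun i => ((S0 ε).coeff i).2)
          (expansion_mem (zero_mem (weak (Gamma L) L B)) ε),
          by rw [pow_zero]; exact (one_mul _).symm⟩⟩
      · obtain ⟨a, ha, ha'⟩ := hseq r
        refine ⟨a.1, a.2, fun ε => ?_⟩
        rw [← expAt_apply, ← coeffMap_expB]
        exact (cong_iff_dvd hB.mem (r + 1) _ _).mpr (happ r a ha ha' ε))
  have hee : (⟨e, he⟩ : LRing L B) * ⟨e, he⟩ = ⟨e, he⟩ := by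
    refine expAt_injective 1 ?_
    rw [map_mul, expAt_apply]
    show expansion L (comp e 1) * expansion L (comp e 1) = expansion L (comp e 1)
    rw [he', hS0]
    simp
  rcases IsIdempotentElem.iff_eq_zero_or_one.mp hee with h | h
  · have h1 : expansion L (comp e 1) = 0 :=
      (expAt_apply 1 (⟨e, he⟩ : LRing L B)).symm.trans (by rw [h, map_zero])
    rw [he', hS0] at h1
    simp at h1
  · by_contra hne
    have h1 : expansion L (comp e δ) = 1 :=
      (expAt_apply δ (⟨e, he⟩ : LRing L B)).symm.trans (by rw [h, map_one])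
    rw [he', hS0] at h1
    simp [hne] at h1

/-- **The special fibre**: irreducible, with normal local rings; the ring is locally factorial. -/
theorem specialFibre (H : LevelHyp M L B) (hB : CoeffHyp B π n) (hG : LocalGen L B π hB.mem) :
    SpecialFibre L B π hB.mem := by
  have := hG.noetherian
  have := isDomain_LRing (L := L) (B := B)
  have hker : kerIdeal L B π hB.mem 1 = Ideal.span {constL (L := L) π hB.mem} := by
    refine le_antisymm (fun f hf => Ideal.mem_span_singleton.mpr (dvd_of_forall_kerAt hB fun δ => ?_))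
      ((Ideal.span_singleton_le_iff_mem _).mpr (constL_mem_kerIdeal hB.mem 1))
    rw [← mem_kerIdeal hB.mem, kerIdeal_eq H hB hG δ]
    exact hf
  have hne : constL (L := L) π hB.mem ≠ 0 := fun h =>
    hB.pi_ne_zero (congrFun (congrArg Subtype.val h) UpperHalfPlane.I)
  have hprime : Prime (constL (L := L) π hB.mem) :=
    (Ideal.span_singleton_prime hne).mp (hker ▸ kerIdeal_isPrime hB 1)
  -- the local rings above `π`
  have habove : ∀ (m : Ideal (LRing L B)) [m.IsMaximal] (hπm : constL (L := L) π hB.mem ∈ m),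
      ∃ (π' : Localization.AtPrime m) (_ : Prime π'),
        π' = algebraMap (LRing L B) (Localization.AtPrime m) (constL (L := L) π hB.mem) ∧
        ∃ (_ : IsDomain (Localization.AtPrime m ⧸ Ideal.span {π'})),
          IsDiscreteValuationRing (Localization.AtPrime m ⧸ Ideal.span {π'}) := by
    intro m _ hπm
    obtain ⟨δ, hδ⟩ := exists_kerIdeal_le hB m hπm
    obtain ⟨π', P', rfl, hmax, hspan, hP'⟩ := local_structure hB hG m hπm
    set φ := algebraMap (LRing L B) (Localization.AtPrime m)
    have hq := hspan δ hδ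
    have hd : Disjoint (m.primeCompl : Set (LRing L B)) (kerIdeal L B π hB.mem δ : Set _) :=
      Set.disjoint_left.mpr fun x hx hx' => hx (hδ hx')
    have hpi : (Ideal.span {φ (constL (L := L) π hB.mem)}).IsPrime :=
      hq ▸ IsLocalization.isPrime_of_isPrime_disjoint m.primeCompl _ _ (kerIdeal_isPrime hB δ) hd
    have hne' : φ (constL (L := L) π hB.mem) ≠ 0 :=
      (map_ne_zero_iff φ (IsLocalization.injective (Localization.AtPrime m)
        m.primeCompl_le_nonZeroDivisors)).mpr hne
    refine ⟨_, (Ideal.span_singleton_prime hne').mp hpi, rfl,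
      Ideal.Quotient.isDomain _, ?_⟩
    set q := Ideal.Quotient.mk (Ideal.span {φ (constL (L := L) π hB.mem)})
    have := Ideal.Quotient.isDomain (Ideal.span {φ (constL (L := L) π hB.mem)})
    have hsurj : Function.Surjective q := Ideal.Quotient.mk_surjective
    have := IsLocalRing.of_surjective' q hsurj
    have hmax' : IsLocalRing.maximalIdeal (Localization.AtPrime m ⧸ Ideal.span {φ (constL (L := L) π hB.mem)})
        = Ideal.span {q P'} := by
      have hmap : IsLocalRing.maximalIdeal
            (Localization.AtPrime m ⧸ Ideal.span {φ (constL (L := L) π hB.mem)})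
          = (IsLocalRing.maximalIdeal (Localization.AtPrime m)).map q := by
        refine (IsLocalRing.eq_maximalIdeal ((Ideal.map_eq_top_or_isMaximal_of_surjective q hsurj
          (IsLocalRing.maximalIdeal.isMaximal _)).resolve_left fun htop => ?_)).symm
        have h1 := congrArg (Ideal.comap q) htop
        rw [Ideal.comap_map_of_surjective q hsurj, Ideal.comap_top, ← RingHom.ker_eq_comap_bot,
          Ideal.mk_ker, sup_eq_left.mpr (IsLocalRing.le_maximalIdeal hpi.ne_top)] at h1
        exact (IsLocalRing.maximalIdeal.isMaximal _).ne_top h1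
      rw [hmap, hmax,
        Ideal.map_span, Set.image_pair, Ideal.span_insert,
        show q (φ (constL (L := L) π hB.mem)) = 0 from
          Ideal.Quotient.eq_zero_iff_mem.mpr (Ideal.mem_span_singleton_self _),
        Ideal.span_singleton_eq_bot.mpr rfl, bot_sup_eq]
    have := @isPrincipalIdealRing_of_maximal _ _ _ _ _ (q P') hmax'
    exact { not_a_field' := fun h => hP' δ hδ (Ideal.Quotient.eq_zero_iff_mem.mp
      (Ideal.span_singleton_eq_bot.mp (hmax'.symm.trans h))) }
  refine ⟨hG.noetherian, fun δ f hf => ?_, hprime, fun m _ => ?_, fun m _ hπm k hk u x h hx hdvd => ?_⟩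
  · rw [← hker, ← kerIdeal_eq H hB hG δ, mem_kerIdeal]
    exact hf
  · by_cases hπm : constL (L := L) π hB.mem ∈ m
    · obtain ⟨π', hπ', -, _, _⟩ := habove m hπm
      exact uniqueFactorizationMonoid_of_quotient_dvr hπ'
    · obtain ⟨P, hPm, -, s, hs, hgen⟩ := hG.gen_generic m ‹_› hπm
      set φ := algebraMap (LRing L B) (Localization.AtPrime m)
      have hmax : IsLocalRing.maximalIdeal (Localization.AtPrime m) = Ideal.span {φ P} := by
        rw [← Localization.AtPrime.map_eq_maximalIdeal]
        refine le_antisymm (Ideal.map_le_iff_le_comap.mpr fun a ha => ?_)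
          ((Ideal.span_singleton_le_iff_mem _).mpr (Ideal.mem_map_of_mem _ hPm))
        have hsu : IsUnit (φ s) :=
          IsLocalization.map_units (Localization.AtPrime m) (⟨s, hs⟩ : m.primeCompl)
        have h1 := Ideal.mem_map_of_mem φ (hgen a ha)
        rw [map_mul, Ideal.map_span, Set.image_singleton] at h1
        exact (Ideal.unit_mul_mem_iff_mem _ hsu).mp h1
      have := isPrincipalIdealRing_of_maximal hmax
      infer_instance
  · obtain ⟨π', hπ', rfl, i1, i2⟩ := habove m hπm
    have := i1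
    have := i2
    have hval : ValuationRing (Localization.AtPrime m ⧸ Ideal.span
        {algebraMap (LRing L B) (Localization.AtPrime m) (constL (L := L) π hB.mem)}) :=
      inferInstance
    set q := Ideal.Quotient.mk
      (Ideal.span {algebraMap (LRing L B) (Localization.AtPrime m) (constL (L := L) π hB.mem)})
    have e : q h ^ k = q u * q x ^ k := by
      rw [← map_pow, ← map_pow, ← map_mul, Ideal.Quotient.eq]
      exact Ideal.mem_span_singleton.mpr hdvd
    have hx0 : q x ≠ 0 := fun h0 =>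
      hx (Ideal.mem_span_singleton.mp (Ideal.Quotient.eq_zero_iff_mem.mp h0))
    have hxh : q x ∣ q h := by
      rcases ValuationRing.dvd_total (h := hval.toPreValuationRing) (q x) (q h) with h1 | ⟨v, hv⟩
      · exact h1
      · rw [hv] at e
        have hh : q h ≠ 0 := fun h0 => hx0 (by rw [hv, h0, zero_mul])
        have h1 : q u * v ^ k = 1 :=
          mul_left_cancel₀ (pow_ne_zero k hh) (by linear_combination -e)
        have hv' : IsUnit v := (isUnit_pow_iff hk).mp (IsUnit.of_mul_eq_one_right _ h1)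
        exact hv ▸ (hv'.mul_right_dvd).mpr dvd_rfl
    obtain ⟨w, hw⟩ := hxh
    obtain ⟨w, rfl⟩ := Ideal.Quotient.mk_surjective w
    refine ⟨w, Ideal.mem_span_singleton.mp (Ideal.Quotient.eq.mp ?_)⟩
    rw [map_mul, hw]
    exact mul_comm (q x) _

end Fermat.Agent.KummerES
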