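import Fermat.Agent.KummerES.SpecialFibre
import Fermat.Agent.KummerES.LocalSeries

/-!
# Gluing of local roots

An element which is locally an `n`-th power up to units and congruent to `h ^ n` modulo `π` has,
modulo every `π ^ r`, locally a root congruent to `h`; the roots at the cusps make these unique,
and the completion lemma turns them into an element of the level `L` ring.
-/

set_option autoImplicit false

noncomputable section

open UpperHalfPlane CongruenceSubgroup
open scoped MatrixGroups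

namespace Fermat.Agent.KummerES

open LevelHyp (Cong IsSeparated)
open ModularCurve (coeffMap)

variable {M L n : ℕ} [NeZero L] {B : Subring ℂ} {π : ℂ}

/-- Congruent `n`-th roots of congruent elements are congruent, in the series over `B`. -/
lemma pow_dvd_sub_of_pow_dvd_pow_sub (hB : CoeffHyp B π n) {r : ℕ} {y z : LaurentSeries B}
    (hz : ¬ HahnSeries.C (⟨π, hB.mem⟩ : B) ∣ z)
    (hyz : HahnSeries.C (⟨π, hB.mem⟩ : B) ∣ y - z)
    (h : HahnSeries.C (⟨π, hB.mem⟩ : B) ^ r ∣ y ^ n - z ^ n) :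
    HahnSeries.C (⟨π, hB.mem⟩ : B) ^ r ∣ y - z := by
  have hp := hB.prime_C
  set C' : LaurentSeries B := HahnSeries.C (⟨π, hB.mem⟩ : B)
  have hn : IsUnit (n : LaurentSeries B) := by
    have h1 : IsUnit (n : B) := IsUnit.of_mul_eq_one (⟨(n : ℂ)⁻¹, hB.unit⟩ : B) (Subtype.ext (by
      show ((n : B) : ℂ) * (n : ℂ)⁻¹ = 1
      rw [SubringClass.coe_natCast]
      exact mul_inv_cancel₀ (Nat.cast_ne_zero.mpr hB.ne_zero)))
    rw [← map_natCast (HahnSeries.C : B →+* LaurentSeries B)]
    exact h1.map _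
  rw [← geom_sum₂_mul] at h
  refine hp.pow_dvd_of_dvd_mul_left r (fun hS => ?_) h
  have hd : C' ∣ (n : LaurentSeries B) * z ^ (n - 1) := by
    have h2 : C' ∣ ∑ i ∈ Finset.range n, (y ^ i - z ^ i) * z ^ (n - 1 - i) :=
      Finset.dvd_sum fun i _ => (hyz.trans (sub_dvd_pow_sub_pow y z i)).mul_right _
    have h3 : ∑ i ∈ Finset.range n, (y ^ i - z ^ i) * z ^ (n - 1 - i)
        = (∑ i ∈ Finset.range n, y ^ i * z ^ (n - 1 - i)) - n * z ^ (n - 1) := by
      simp only [sub_mul, Finset.sum_sub_distrib, ← pow_add]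
      congr 1
      rw [Finset.sum_congr rfl fun i hi => by
        rw [show i + (n - 1 - i) = n - 1 by have := Finset.mem_range.mp hi; omega],
        Finset.sum_const, Finset.card_range, nsmul_eq_mul]
    rw [h3] at h2
    have := dvd_sub hS h2
    rwa [sub_sub_cancel] at this
  exact hz (hp.dvd_of_dvd_pow (hn.dvd_mul_left.mp hd))

/-- In a local ring, a divisibility by a power of the prime `c` descends to the ring. -/
lemma pow_dvd_of_localization {m : Ideal (LRing L B)} [m.IsMaximal] {c : LRing L B} (hc : Prime c)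
    (hcm : c ∈ m) {r : ℕ} {d : LRing L B}
    (h : algebraMap (LRing L B) (Localization.AtPrime m) c ^ r
      ∣ algebraMap (LRing L B) (Localization.AtPrime m) d) : c ^ r ∣ d := by
  have := isDomain_LRing (L := L) (B := B)
  obtain ⟨v, hv⟩ := h
  obtain ⟨⟨v0, u, hu⟩, hvu⟩ := IsLocalization.surj m.primeCompl v
  have e : d * u = c ^ r * v0 := by
    refine IsLocalization.injective (Localization.AtPrime m) m.primeCompl_le_nonZeroDivisors ?_
    rw [map_mul, map_mul, map_pow, hv, mul_assoc, hvu]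
  refine hc.pow_dvd_of_dvd_mul_right r (fun hd => hu ?_) ⟨v0, e⟩
  obtain ⟨q, rfl⟩ := hd
  exact Ideal.mul_mem_right _ _ hcm

/-- Local approximate roots congruent to `h`. -/
lemma exists_local_approx (hB : CoeffHyp B π n) (hS : SpecialFibre L B π hB.mem) {f h : LRing L B}
    (hloc : IsLocalPow n f) (hfh : constL (L := L) π hB.mem ∣ f - h ^ n)
    (hh : ¬ constL (L := L) π hB.mem ∣ h) (r : ℕ) (m : Ideal (LRing L B)) [hm : m.IsMaximal]
    (hπm : constL (L := L) π hB.mem ∈ m) :
    ∃ s ∉ m, ∃ b : LRing L B, constL (L := L) π hB.mem ^ r ∣ b ^ n - s ^ n * f ∧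
      constL (L := L) π hB.mem ∣ b - s * h := by
  rcases r with _ | r
  · exact ⟨1, fun h1 => hm.ne_top ((Ideal.eq_top_iff_one m).mpr h1), h, by simp, by simp⟩
  have := isDomain_LRing (L := L) (B := B)
  set c : LRing L B := constL (L := L) π hB.mem with hc
  have hp : Prime c := hS.prime
  obtain ⟨s₁, hs₁, s₁', hs₁', x, hx⟩ := hloc m hm
  set φ := algebraMap (LRing L B) (Localization.AtPrime m)
  have hu₁ : IsUnit (φ s₁) :=
    IsLocalization.map_units (Localization.AtPrime m) (⟨s₁, hs₁⟩ : m.primeCompl)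
  have hu₁' : IsUnit (φ s₁') :=
    IsLocalization.map_units (Localization.AtPrime m) (⟨s₁', hs₁'⟩ : m.primeCompl)
  set U : Localization.AtPrime m := ↑hu₁.unit⁻¹ * φ s₁' with hU
  have hUu : IsUnit U := (Units.isUnit _).mul hu₁'
  have hf : φ f = U * φ x ^ n := by
    have e : φ s₁ * φ f = φ s₁' * φ x ^ n := by rw [← map_mul, hx, map_mul, map_pow]
    rw [hU, mul_assoc, ← e, ← mul_assoc, IsUnit.val_inv_mul, one_mul]
  have hπh : ¬ φ c ∣ φ h := fun hd => hh (by
    have := pow_dvd_of_localization (m := m) hp hπm (r := 1) (d := h) (by rwa [pow_one])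
    rwa [pow_one] at this)
  have hφ : φ c ∣ φ f - φ h ^ n := by rw [← map_pow, ← map_sub]; exact map_dvd φ hfh
  have hπ' : Prime (φ c) := by
    have hne : φ c ≠ 0 := (map_ne_zero_iff φ (IsLocalization.injective (Localization.AtPrime m)
      m.primeCompl_le_nonZeroDivisors)).mpr hp.ne_zero
    have hc' : (Ideal.span {c}).IsPrime := (Ideal.span_singleton_prime hp.ne_zero).mpr hp
    have hd : Disjoint (m.primeCompl : Set (LRing L B)) (Ideal.span {c} : Set _) :=
      Set.disjoint_left.mpr fun y hy hy' =>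
        hy ((Ideal.span_singleton_le_iff_mem m).mpr hπm hy')
    have h2 := IsLocalization.isPrime_of_isPrime_disjoint m.primeCompl (Localization.AtPrime m)
      _ hc' hd
    rw [Ideal.map_span, Set.image_singleton] at h2
    exact (Ideal.span_singleton_prime hne).mp h2
  have hxc : ¬ φ c ∣ φ x := fun hd => hπh (hπ'.dvd_of_dvd_pow (n := n) (by
    have := dvd_sub (hf ▸ (dvd_pow hd hB.ne_zero).mul_left U) hφ
    rwa [sub_sub_cancel] at this))
  obtain ⟨w, hw⟩ := hS.root_dvd m hπm n hB.ne_zero U (φ x) (φ h) hxc (by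
    rw [← hf]; exact (dvd_sub_comm).mp hφ)
  -- `w ^ n ≡ U`
  have hwU : φ c ∣ w ^ n - U := by
    refine (hπ'.dvd_or_dvd (b := φ x ^ n) ?_).resolve_right fun hd => hxc (hπ'.dvd_of_dvd_pow hd)
    have h1 : φ c ∣ φ h ^ n - (w * φ x) ^ n := hw.trans (sub_dvd_pow_sub_pow _ _ n)
    have := dvd_sub ((dvd_sub_comm).mp hφ) h1
    rw [hf] at this
    convert this using 1
    ring
  have hcm : φ c ∈ IsLocalRing.maximalIdeal (Localization.AtPrime m) := hπ'.not_isUnit
  have hwu : IsUnit (w ^ n) := by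
    by_contra hnu
    refine ((IsLocalRing.mem_maximalIdeal _).mp ?_) hUu
    obtain ⟨v, hv⟩ := hwU
    rw [show U = w ^ n - φ c * v by rw [← hv]; ring]
    exact sub_mem ((IsLocalRing.mem_maximalIdeal _).mpr hnu) (Ideal.mul_mem_right _ _ hcm)
  -- the root of `U / w ^ n` modulo `c ^ (r + 1)`
  set e : Localization.AtPrime m := U * ↑hwu.unit⁻¹ - 1 with he
  have hce : φ c ∣ e := by
    rw [show e = (U - w ^ n) * ↑hwu.unit⁻¹ by rw [he, sub_mul, IsUnit.mul_val_inv]]
    exact ((dvd_sub_comm).mp hwU).mul_right _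
  set q := Ideal.Quotient.mk (Ideal.span {φ c ^ (r + 1)})
  have hnil : IsNilpotent (q e) := ⟨r + 1, by
    exact (map_pow q e (r + 1)).symm.trans
      (Ideal.Quotient.eq_zero_iff_mem.mpr (Ideal.mem_span_singleton.mpr
        (pow_dvd_pow_of_dvd hce _)))⟩
  have hnu : IsUnit ((n : Localization.AtPrime m ⧸ Ideal.span {φ c ^ (r + 1)})) := by
    have h1 : IsUnit (n : LRing L B) :=
      IsUnit.of_mul_eq_one (constL (n : ℂ)⁻¹ hB.unit) (Subtype.ext (funext fun τ => by
        simp only [Subring.coe_mul, SubringClass.coe_natCast, Pi.mul_apply, Pi.natCast_apply,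
          coe_constL, Subring.coe_one, Pi.one_apply]
        exact mul_inv_cancel₀ (Nat.cast_ne_zero.mpr hB.ne_zero)))
    have h2 := (h1.map φ).map q
    rwa [map_natCast, map_natCast] at h2
  obtain ⟨zbar, hz, -, hzd⟩ := exists_pow_eq_one_add_of_isNilpotent
    (R := Localization.AtPrime m ⧸ Ideal.span {φ c ^ (r + 1)}) (e := q e) n hnu hnil
  obtain ⟨z, rfl⟩ := Ideal.Quotient.mk_surjective zbar
  have hzn : φ c ^ (r + 1) ∣ z ^ n - U * ↑hwu.unit⁻¹ := by
    rw [← Ideal.mem_span_singleton, ← Ideal.Quotient.eq, map_pow]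
    refine hz.trans ?_
    rw [← map_one q, ← map_add, he, add_sub_cancel]
  have hz1 : φ c ∣ z - 1 := by
    obtain ⟨v, hv⟩ := hzd
    obtain ⟨v, rfl⟩ := Ideal.Quotient.mk_surjective v
    have hv' : φ c ^ (r + 1) ∣ z - 1 - e * v := by
      rw [← Ideal.mem_span_singleton, ← Ideal.Quotient.eq_zero_iff_mem, map_sub, map_sub, map_mul,
        map_one]
      exact sub_eq_zero.mpr hv
    have := dvd_add ((dvd_pow_self _ r.succ_ne_zero).trans hv') (hce.mul_right v)
    rwa [sub_add_cancel] at this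
  -- clear the denominator
  obtain ⟨⟨b, s, hs⟩, hbs⟩ := IsLocalization.surj m.primeCompl (w * z * φ x)
  refine ⟨s, hs, b, ?_, ?_⟩
  · refine pow_dvd_of_localization hp hπm ?_
    rw [map_sub, map_pow, map_mul, map_pow, ← hbs, hf]
    have : (w * z * φ x * φ s) ^ n - φ s ^ n * (U * φ x ^ n)
        = (z ^ n - U * ↑hwu.unit⁻¹) * (w ^ n * φ x ^ n * φ s ^ n) := by
      have h0 := IsUnit.mul_val_inv hwu
      linear_combination (U * φ x ^ n * φ s ^ n) * h0
    rw [this]
    exact hzn.mul_right _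
  · rw [← pow_one c]
    refine pow_dvd_of_localization hp hπm ?_
    rw [pow_one, map_sub, map_mul, ← hbs]
    have : w * z * φ x * φ s - φ s * φ h
        = (z - 1) * (w * φ x * φ s) - (φ h - w * φ x) * φ s := by ring
    rw [this]
    exact dvd_sub (hz1.mul_right _) (hw.mul_right _)

/-- The approximation at every order, from roots at the cusps. -/
lemma exists_approx (hB : CoeffHyp B π n) (hS : SpecialFibre L B π hB.mem) {f h : LRing L B}
    (hloc : IsLocalPow n f) (hfh : constL (L := L) π hB.mem ∣ f - h ^ n)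
    (hh : ¬ constL (L := L) π hB.mem ∣ h) (S : SL(2, ℤ) → LaurentSeries B)
    (hroot : ∀ δ, S δ ^ n = expB L B δ f ∧
      HahnSeries.C (⟨π, hB.mem⟩ : B) ∣ S δ - expB L B δ h) (r : ℕ) :
    ∃ b : LRing L B, ∀ δ, HahnSeries.C (⟨π, hB.mem⟩ : B) ^ r ∣ expB L B δ b - S δ := by
  let I : Ideal (LRing L B) :=
    { carrier := {a | ∃ b : LRing L B, ∀ δ,
        HahnSeries.C (⟨π, hB.mem⟩ : B) ^ r ∣ expB L B δ b - expB L B δ a * S δ}
      zero_mem' := ⟨0, fun δ => by simp⟩
      add_mem' := by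
        rintro a a' ⟨b, hb⟩ ⟨b', hb'⟩
        refine ⟨b + b', fun δ => ?_⟩
        rw [map_add, map_add, add_mul, add_sub_add_comm]
        exact dvd_add (hb δ) (hb' δ)
      smul_mem' := by
        rintro a a' ⟨b, hb⟩
        refine ⟨a * b, fun δ => ?_⟩
        rw [smul_eq_mul, map_mul, map_mul, mul_assoc, ← mul_sub]
        exact (hb δ).mul_left _ }
  suffices hI : I = ⊤ by
    obtain ⟨b, hb⟩ : (1 : LRing L B) ∈ I := hI ▸ Submodule.mem_top
    exact ⟨b, fun δ => by simpa using hb δ⟩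
  by_contra hI
  obtain ⟨m, hm, hle⟩ := Ideal.exists_le_maximal _ hI
  by_cases hπm : constL (L := L) π hB.mem ∈ m
  · obtain ⟨s, hs, b, hb, hb1⟩ := exists_local_approx hB hS hloc hfh hh r m hπm
    refine hs (hle ⟨b, fun δ => ?_⟩)
    have hp := hB.prime_C
    have hdiv : ∀ a : LRing L B, HahnSeries.C (⟨π, hB.mem⟩ : B) ∣ expB L B δ a →
        constL (L := L) π hB.mem ∣ a := fun a ha =>
      Ideal.mem_span_singleton.mp (hS.mem_span δ a ((kerAt_iff_dvd hB.mem δ a).mpr ha))
    refine pow_dvd_sub_of_pow_dvd_pow_sub hB (fun hd => ?_) ?_ ?_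
    · rcases hp.dvd_or_dvd hd with h1 | h1
      · obtain ⟨v, hv⟩ := hdiv s h1
        exact hs (hv ▸ Ideal.mul_mem_right _ _ hπm)
      · refine hh (hdiv h ?_)
        have := dvd_sub h1 (hroot δ).2
        rwa [sub_sub_cancel] at this
    · have h1 := map_dvd (expB L B δ) hb1
      rw [expB_constL, map_sub, map_mul] at h1
      have := dvd_sub h1 ((hroot δ).2.mul_left (expB L B δ s))
      convert this using 1
      ring
    · have h1 := map_dvd (expB L B δ) hb
      rw [map_pow, expB_constL, map_sub, map_pow, map_mul, map_pow] at h1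
      rwa [mul_pow, (hroot δ).1]
  · refine hπm (hm.isPrime.mem_of_pow_mem r (hle ⟨0, fun δ => ?_⟩))
    rw [map_pow, expB_constL, map_zero, zero_sub]
    exact ((dvd_refl _).mul_right (S δ)).neg_right

/-- **Gluing**, from roots at the cusps. -/
theorem exists_root_of_series (H : LevelHyp M L B) (hB : CoeffHyp B π n)
    (hS : SpecialFibre L B π hB.mem) {f h : LRing L B}
    (hloc : IsLocalPow n f) (hfh : constL (L := L) π hB.mem ∣ f - h ^ n)
    (hh : ¬ constL (L := L) π hB.mem ∣ h) (S : SL(2, ℤ) → LaurentSeries B)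
    (hroot : ∀ δ, S δ ^ n = expB L B δ f ∧
      HahnSeries.C (⟨π, hB.mem⟩ : B) ∣ S δ - expB L B δ h) :
    ∃ y : LRing L B, y ^ n = f ∧ constL (L := L) π hB.mem ∣ y - h := by
  obtain ⟨y, hy, hy'⟩ := H.complete hB.mem hB.isSeparated (fun δ => coeffMap B.subtype (S δ))
    (fun δ i => ((S δ).coeff i).2) (fun r => by
      obtain ⟨b, hb⟩ := exists_approx hB hS hloc hfh hh S hroot r
      refine ⟨b.1, b.2, fun δ => ?_⟩
      rw [← expAt_apply, ← coeffMap_expB]
      exact (cong_iff_dvd hB.mem r _ _).mpr ((dvd_sub_comm).mp (hb δ)))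
  refine ⟨⟨y, hy⟩, ?_, ?_⟩
  · refine expAt_injective 1 ?_
    rw [map_pow, expAt_apply, hy', ← map_pow, (hroot 1).1, coeffMap_expB]
  · refine Ideal.mem_span_singleton.mp (hS.mem_span 1 _ ?_)
    rw [kerAt, map_sub, expAt_apply 1 (⟨y, hy⟩ : LRing L B), hy', ← coeffMap_expB, ← map_sub,
      ← map_zero (coeffMap B.subtype), cong_iff_dvd hB.mem, pow_one, sub_zero]
    exact (hroot 1).2

end Fermat.Agent.KummerES
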