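import Fermat.Agent.KummerES.Interface
import Fermat.Agent.EigenRep.S42FromActions

/-!
# Residual representations from Galois actions on parabolic characters

`Gamma0Modules N p` gives the action `EigenRep.HasParabolicGaloisAction N p` on `ℤ/p`-valued
characters.  If this exists at every level and prime, every normalised eigenform of weight two has
an attached residual Galois representation, in particular at the levels attached to a Frey curve.
-/

set_option autoImplicit false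

noncomputable section

open CongruenceSubgroup ModularCurve.Period
open scoped MatrixGroups

namespace Fermat.Agent.KummerES

open EigenRep (ParChar HasParabolicGaloisAction)

local notation "GQ" => AlgebraicClosure ℚ ≃ₐ[ℚ] AlgebraicClosure ℚ

variable {N p : ℕ}

/-- Additive actions on parabolic characters are `ℤ/p`-linear actions. -/
def zmodRep (r : GQ →* AddMonoid.End (parabolicHoms ℤ (Gamma0 N) (ZMod p))) :
    GQ →* Module.End (ZMod p) (ParChar N p) where
  toFun σ := (AddMonoidHom.mk' (fun χ : ParChar N p =>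
      (⟨(r σ ⟨χ.1, χ.2⟩).1, (r σ ⟨χ.1, χ.2⟩).2⟩ : ParChar N p))
    (fun χ χ' => Subtype.ext (congrArg Subtype.val
      (map_add (r σ) ⟨χ.1, χ.2⟩ ⟨χ'.1, χ'.2⟩)))).toZModLinearMap p
  map_one' := by
    refine LinearMap.ext fun χ => Subtype.ext ?_
    show (r 1 ⟨χ.1, χ.2⟩).1 = χ.1
    rw [map_one]
    rfl
  map_mul' σ τ := by
    refine LinearMap.ext fun χ => Subtype.ext ?_
    show (r (σ * τ) ⟨χ.1, χ.2⟩).1 = (r σ (r τ ⟨χ.1, χ.2⟩)).1
    rw [map_mul]
    rfl

lemma coe_zmodRep (r : GQ →* AddMonoid.End (parabolicHoms ℤ (Gamma0 N) (ZMod p))) (σ : GQ)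
    (χ : ParChar N p) : (zmodRep r σ χ).1 = (r σ ⟨χ.1, χ.2⟩).1 := rfl

lemma zmodRep_eq_one {r : GQ →* AddMonoid.End (parabolicHoms ℤ (Gamma0 N) (ZMod p))} {σ : GQ}
    (h : r σ = 1) : zmodRep r σ = 1 := by
  refine LinearMap.ext fun χ => Subtype.ext ?_
  rw [coe_zmodRep, h]
  rfl

/-- The Galois action on `ℤ/p`-valued characters from that on `ℤ/p^1`-valued ones. -/
theorem hasParabolicGaloisAction (G : Gamma0Modules N p) : HasParabolicGaloisAction N p := by
  suffices ∀ m : ℕ, p = m →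
      ∀ (r : GQ →* AddMonoid.End (parabolicHoms ℤ (Gamma0 N) (ZMod m))),
      GaloisFactorsThroughFiniteLevel r →
      (∀ q : ℕ, q.Prime → ¬ q ∣ N → q ≠ p → ∀ A : ValuationSubring (AlgebraicClosure ℚ),
        A.LiesOverPrime q → ∀ σ ∈ A.inertiaSubgroupIn ℚ, r σ = 1) →
      (∀ (σ : GQ) (ℓ : ℕ) (hℓ : ℓ.Prime) (hℓN : ¬ ℓ ∣ N)
        (x y : parabolicHoms ℤ (Gamma0 N) (ZMod m)),
        (haveI := Fact.mk hℓ; (HeckeLattice.gamma0System N ℓ hℓN).transfer x.1) = y.1 →
        (haveI := Fact.mk hℓ; (HeckeLattice.gamma0System N ℓ hℓN).transfer (r σ x).1) = (r σ y).1) →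
      (∀ (ℓ : ℕ) (hℓ : ℓ.Prime) (hℓN : ¬ ℓ ∣ N), ℓ ≠ p →
        ∀ A : ValuationSubring (AlgebraicClosure ℚ), A.LiesOverPrime ℓ →
          ∀ σ : GQ, A.IsFrobeniusAt σ ℓ → ∀ x : parabolicHoms ℤ (Gamma0 N) (ZMod m),
            (r σ (r σ x)).1
              - (haveI := Fact.mk hℓ; (HeckeLattice.gamma0System N ℓ hℓN).transfer (r σ x).1)
              + ℓ • x.1 = 0) →
      HasParabolicGaloisAction N p from
    this (p ^ 1) (pow_one p).symm (G.rep 1) (G.finiteLevel 1) (G.unramified 1) (G.hecke_comm 1)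
      (fun ℓ hℓ hℓN hℓp A hA σ hσ x => G.frobenius 1 ℓ hℓ hℓN hℓp A hA σ hσ x)
  rintro m rfl r hlev hunr hcomm hfrob
  refine ⟨zmodRep r, ?_, ?_, ?_, ?_⟩
  · obtain ⟨L, hL, h⟩ := hlev
    exact ⟨L, hL, fun σ hσ => zmodRep_eq_one (h σ hσ)⟩
  · intro q hq hqN A hA σ hσ
    exact zmodRep_eq_one (hunr q hq (fun h => hqN (h.mul_right p))
      (fun h => hqN (h ▸ dvd_mul_left p N)) A hA σ hσ)
  · intro ℓ hℓ hℓN _ σ χ χ' h
    exact hcomm σ ℓ hℓ.out hℓN ⟨χ.1, χ.2⟩ ⟨χ'.1, χ'.2⟩ h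
  · intro ℓ hℓ hℓN hℓp A hA φ hφ χ
    exact hfrob ℓ hℓ.out hℓN hℓp A hA φ hφ ⟨χ.1, χ.2⟩

/-- A normalised eigenform has an attached residual representation, unramified outside `N p`. -/
theorem exists_residualRep_of_modules
    (h : ∀ (N : ℕ) [NeZero N] (p : ℕ) [Fact p.Prime], Nonempty (Gamma0Modules N p))
    {N : ℕ} {g : CuspForm (Gamma0 N) 2} (hg : g.IsNormalizedEigenform)
    {p : ℕ} (hp : p.Prime) {k : Type} [Field k] [CharP k p]
    (φ : integralClosure ℤ ℂ →+* k) :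
    ∃ ρ : ResidualGaloisRep k, ρ.IsAttachedTo g φ ∧
      ∀ ℓ : ℕ, ℓ.Prime → ¬ ℓ ∣ N * p → ρ.IsUnramifiedAt ℓ :=
  EigenRep.exists_residualRep hg hp (fun hN =>
    haveI : NeZero N := ⟨hN⟩
    haveI := Fact.mk hp
    hasParabolicGaloisAction (h N p).some) φ

/-- Residual attachment for the eigenforms of the levels of a Frey package. -/
theorem eigenformResidualAttachmentAtFamily_of_modules
    (h : ∀ (N : ℕ) [NeZero N] (p : ℕ) [Fact p.Prime], Nonempty (Gamma0Modules N p))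
    (P : FreyPackage) : ∀ M : ℕ, 0 < M → P.EigenformResidualAttachmentAt M :=
  fun M _ => EigenRep.eigenformResidualAttachmentAt P (fun N p hN hp =>
    haveI : NeZero N := ⟨hN⟩
    haveI := Fact.mk hp
    hasParabolicGaloisAction (h N p).some) M

end Fermat.Agent.KummerES
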