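import Fermat.Agent.HeckeLattice.Lattice
import Mathlib.RingTheory.Localization.FractionRing
import Mathlib.Algebra.Module.LocalizedModule.Basic
import Mathlib.LinearAlgebra.Matrix.Charpoly.LinearMap
import Mathlib.LinearAlgebra.Dual.Lemmas
import Mathlib.RingTheory.Ideal.Quotient.Operations

/-!
# Eigenfunctionals of faithful modules

A finite module with faithful action of a commutative ring has, for every character with values in
a domain, a nonzero additive functional transforming by the character.  Applied to the period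
lattice this gives parabolic characters with prescribed Hecke eigenvalues.
-/

set_option autoImplicit false

noncomputable section

open Polynomial ModularCurve.Period CongruenceSubgroup
open scoped MatrixGroups

namespace Fermat.Agent.KummerES.Tate

section Generic

variable {h L : Type*} [CommRing h] [AddCommGroup L] [Module h L] [Module.Finite h L]

/-- A faithful finite module is not torsion modulo a prime. -/
lemma exists_not_torsion_mod (faith : ∀ t : h, (∀ v : L, t • v = 0) → t = 0) (P : Ideal h)
    [P.IsPrime] : ∃ v : L, ∀ s : h, s ∉ P → s • v ∉ P • (⊤ : Submodule h L) := by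
  classical
  by_contra hne
  push Not at hne
  choose s hs hsv using hne
  obtain ⟨gens, hgens⟩ := Module.Finite.fg_top (R := h) (M := L)
  set σ := ∏ v ∈ gens, s v with hσ
  have hσP : σ ∉ P := fun hmem => by
    obtain ⟨v, -, hv⟩ := (Ideal.IsPrime.prod_mem_iff).1 hmem
    exact hs v hv
  have hall : ∀ v : L, σ • v ∈ P • (⊤ : Submodule h L) := fun v => by
    have hv : v ∈ Submodule.span h (gens : Set L) := by rw [hgens]; trivial
    induction hv using Submodule.span_induction with
    | mem x hx =>
      rw [hσ, ← Finset.prod_erase_mul gens s hx, mul_smul]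
      exact Submodule.smul_mem _ _ (hsv x)
    | zero => simp
    | add x y _ _ hx hy => rw [smul_add]; exact Submodule.add_mem _ hx hy
    | smul a x _ hx => rw [smul_comm]; exact Submodule.smul_mem _ _ hx
  obtain ⟨q, hq, -, hcoeff, hq0⟩ :=
    LinearMap.exists_monic_and_natDegree_eq_and_coeff_mem_pow_and_aeval_eq_zero h
      (algebraMap h (Module.End h L) σ) P (by rintro _ ⟨v, rfl⟩; exact hall v)
  rw [Polynomial.aeval_algebraMap_apply] at hq0
  have h0 : Polynomial.aeval σ q = 0 := faith _ fun v => by
    have := LinearMap.congr_fun hq0 v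
    simpa [Module.algebraMap_end_apply] using this
  rw [Polynomial.aeval_def, Algebra.algebraMap_self, eval₂_id,
    eval_eq_sum_range, Finset.sum_range_succ, hq.coeff_natDegree, one_mul] at h0
  refine hσP (Ideal.IsPrime.mem_of_pow_mem inferInstance q.natDegree ?_)
  rw [eq_neg_of_add_eq_zero_right h0]
  refine P.neg_mem (P.sum_mem fun k hk => P.mul_mem_right _ ?_)
  exact Ideal.pow_le_self (by rw [Finset.mem_range] at hk; omega) (hcoeff k)

/-- **Eigenfunctionals.** -/
theorem exists_eigenfunctional (faith : ∀ t : h, (∀ v : L, t • v = 0) → t = 0)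
    {O : Type*} [CommRing O] [IsDomain O] (χ : h →+* O) :
    ∃ x : L →+ O, x ≠ 0 ∧ ∀ (t : h) (v : L), x (t • v) = χ t * x v := by
  classical
  set P := RingHom.ker χ with hP
  have : P.IsPrime := RingHom.ker_isPrime χ
  obtain ⟨v₀, hv₀⟩ := exists_not_torsion_mod (L := L) faith P
  let D := h ⧸ P
  let M := L ⧸ (P • (⊤ : Submodule h L))
  let loc : M →ₗ[D] LocalizedModule (nonZeroDivisors D) M := LocalizedModule.mkLinearMap _ M
  have hloc : loc (Submodule.Quotient.mk v₀) ≠ 0 := by
    intro h0
    rw [LocalizedModule.mkLinearMap_apply, ← LocalizedModule.zero_mk 1, LocalizedModule.mk_eq]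
      at h0
    obtain ⟨⟨u, hu⟩, hu'⟩ := h0
    obtain ⟨s, rfl⟩ := Ideal.Quotient.mk_surjective u
    refine hv₀ s (fun hsP => nonZeroDivisors.ne_zero hu (Ideal.Quotient.eq_zero_iff_mem.2 hsP)) ?_
    rw [← Submodule.Quotient.mk_eq_zero]
    simp only [Submonoid.smul_def, one_smul, smul_zero] at hu'
    exact hu'
  obtain ⟨φ, hφ⟩ := Module.Projective.exists_dual_ne_zero (Localization (nonZeroDivisors D)) hloc
  let χbar : D →+* O := Ideal.Quotient.lift P χ fun a ha => ha
  have hχbar : Function.Injective χbar := RingHom.lift_injective_of_ker_le_ideal _ _ le_rfl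
  have hinj : Function.Injective ((algebraMap O (FractionRing O)).comp χbar) :=
    (IsFractionRing.injective O (FractionRing O)).comp hχbar
  let ψ : FractionRing D →+* FractionRing O := IsFractionRing.lift hinj
  let y : L → FractionRing O := fun v => ψ (φ (loc (Submodule.Quotient.mk v)))
  have hy_add : ∀ v w, y (v + w) = y v + y w := fun v w => by
    simp only [y, Submodule.Quotient.mk_add, map_add]
  have hy_smul : ∀ t v, y (t • v) = algebraMap O (FractionRing O) (χ t) * y v := fun t v => by
    have e : (Submodule.Quotient.mk (t • v) : M) =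
        (Ideal.Quotient.mk P t : D) • (Submodule.Quotient.mk v : M) := rfl
    simp only [y]
    rw [e, map_smul, ← algebraMap_smul (Localization (nonZeroDivisors D)) (Ideal.Quotient.mk P t)
      (loc (Submodule.Quotient.mk v)), map_smul, smul_eq_mul, map_mul]
    congr 1
    exact IsFractionRing.lift_algebraMap hinj _
  have hy0 : y v₀ ≠ 0 := fun h0 => hφ (ψ.injective (by rw [map_zero]; exact h0))
  obtain ⟨gens, hgens⟩ := Module.Finite.fg_top (R := h) (M := L)
  obtain ⟨⟨b, hb⟩, hint⟩ := IsLocalization.exist_integer_multiples (nonZeroDivisors O) gens y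
  have hall : ∀ v, ∃ a : O, algebraMap O (FractionRing O) a = b • y v := fun v => by
    have hv : v ∈ Submodule.span h (gens : Set L) := by rw [hgens]; trivial
    induction hv using Submodule.span_induction with
    | mem x hx => exact hint x hx
    | zero =>
      refine ⟨0, ?_⟩
      have : y 0 = 0 := by simp [y]
      rw [map_zero, this, smul_zero]
    | add x z _ _ hx hz =>
      obtain ⟨a, ha⟩ := hx
      obtain ⟨c, hc⟩ := hz
      exact ⟨a + c, by rw [map_add, ha, hc, hy_add, smul_add]⟩
    | smul t x _ hx =>
      obtain ⟨a, ha⟩ := hx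
      exact ⟨χ t * a, by rw [map_mul, ha, hy_smul, mul_smul_comm]⟩
  choose x hx using hall
  have hinjO := IsFractionRing.injective O (FractionRing O)
  refine ⟨AddMonoidHom.mk' x fun v w => hinjO (by rw [map_add, hx, hx, hx, hy_add, smul_add]),
    fun h0 => hy0 ?_, fun t v => hinjO ?_⟩
  · have h1 : x v₀ = 0 := DFunLike.congr_fun h0 v₀
    have h2 := hx v₀
    rw [h1, map_zero, Algebra.smul_def] at h2
    exact (mul_eq_zero.1 h2.symm).resolve_left
      ((map_ne_zero_iff _ hinjO).2 (nonZeroDivisors.ne_zero hb))
  · show algebraMap O _ (x (t • v)) = algebraMap O _ (χ t * x v)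
    rw [map_mul, hx, hx, hy_smul, mul_smul_comm]

end Generic

open HeckeLattice

variable {N : ℕ} [NeZero N] {S : Set ℕ} (hNS : ∀ q : ℕ, q.Prime → q ∣ N → q ∈ S)

/-- The lattice action as a ring homomorphism. -/
def latticeHom : CuspForm.heckeAlgebra N 2 S →+* Module.End ℤ (periodLattice N) where
  toFun := latticeAct hNS
  map_zero' := map_zero _
  map_add' := map_add _
  map_one' := LinearMap.ext fun _ => Subtype.ext rfl
  map_mul' t u := by
    conv_lhs => rw [mul_comm]
    exact LinearMap.ext fun _ => Subtype.ext rfl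

include hNS in
/-- **A parabolic character with prescribed Hecke eigenvalues.** -/
theorem exists_eigen_parabolicHom {O : Type*} [CommRing O] [IsDomain O]
    (χ : CuspForm.heckeAlgebra N 2 S →+* O) :
    ∃ X : Additive (Gamma0 N) →+ O, IsParabolicHom (Gamma0 N) X ∧ X ≠ 0 ∧
      ∀ (ℓ : ℕ) [hℓ : Fact ℓ.Prime] (hℓN : ¬ ℓ ∣ N) (hℓS : ℓ ∉ S) (δ : Additive (Gamma0 N)),
        HeckeLattice.transfer hℓN X δ =
          χ (CuspForm.heckeAlgebra.T hℓ.out hℓN hℓS) * X δ := by
  let _ : Module (CuspForm.heckeAlgebra N 2 S) (periodLattice N) :=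
    Module.compHom _ (latticeHom hNS)
  have hsmul : ∀ (t : CuspForm.heckeAlgebra N 2 S) (v : periodLattice N),
      t • v = latticeAct hNS t v := fun _ _ => rfl
  have : IsScalarTower ℤ (CuspForm.heckeAlgebra N 2 S) (periodLattice N) :=
    ⟨fun n t v => by
      rw [hsmul, hsmul, map_smul, LinearMap.smul_apply]⟩
  have : Module.Finite (CuspForm.heckeAlgebra N 2 S) (periodLattice N) :=
    Module.Finite.of_restrictScalars_finite ℤ _ _
  have faith : ∀ t : CuspForm.heckeAlgebra N 2 S, (∀ v : periodLattice N, t • v = 0) → t = 0 :=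
    fun t ht => latticeAct_injective hNS (by
      rw [map_zero]; exact LinearMap.ext fun v => ht v)
  obtain ⟨x, hx0, hx⟩ := exists_eigenfunctional faith χ
  set g : ParGroup N →+ O := x.comp (periodDual N).toIntLinearMap.rangeRestrict.toAddMonoidHom
  refine ⟨g.comp (parHom N), fun γ hγ => ?_, fun h0 => hx0 (AddMonoidHom.ext ?_),
    fun ℓ hℓ hℓN hℓS δ => ?_⟩
  · rw [AddMonoidHom.comp_apply, parHom_isParabolicHom N γ hγ, map_zero]
  · rintro ⟨_, a, rfl⟩
    obtain ⟨γ, rfl⟩ := parHom_surjective N a
    exact DFunLike.congr_fun h0 γ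
  · set P : FreeHecke S := FreeAlgebra.ι ℤ ⟨⟨ℓ, hℓ.out⟩, hℓS⟩ with hP
    have hev : evalFree hNS P = CuspForm.heckeAlgebra.T hℓ.out hℓN hℓS := by
      simp [evalFree, hP]
    have hact : transferAct hNS (ParGroup N) P (parHom N) =
        HeckeLattice.transfer hℓN (parHom N) := by
      simp [transferAct, hP]
    rw [← (gamma0System N ℓ hℓN).comp_transfer, AddMonoidHom.comp_apply, ← hact, ← hev,
      AddMonoidHom.comp_apply]
    show x _ = χ _ * x _
    rw [← hx, hsmul]
    congr 1
    refine Subtype.ext ?_
    rw [latticeAct_apply]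
    exact (dualMap_periodDual hNS P δ).symm

end Fermat.Agent.KummerES.Tate
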