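import Fermat.Agent.KummerES.AssemblyTate
import Fermat.Agent.KummerES.AssemblyEigen
import Fermat.Agent.RepTheory.QuadraticAdic
import Fermat.Agent.RepTheory.CycloCoeff
import Fermat.Agent.HeckeDatum.Reduction

/-!
# Galois representations of Hecke characters from Galois actions on parabolic characters

Given `Gamma0Modules N p`, every character of the Hecke algebra of level `N` away from `S` with
values in a complete DVR has an attached two-dimensional adic representation over a finite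
extension.
-/

set_option autoImplicit false

noncomputable section

open IsLocalRing CongruenceSubgroup ModularCurve.Period Polynomial
open Fermat.Agent.RepTheory (padicHom mk_padicHom cycloChar cycloChar_frobenius cycloChar_inertia
  cycloChar_continuous matRep matRep_apply EntryContinuous CharContinuous IsFrobOutside)

namespace Fermat.Agent.KummerES

local notation "GQ" => AlgebraicClosure ℚ ≃ₐ[ℚ] AlgebraicClosure ℚ

variable {p : ℕ} [Fact p.Prime] {N : ℕ} [NeZero N]
variable {O : Type} [CommRing O] [IsDomain O] [CharZero O]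

/-- The eigenspace of a Hecke character in the coordinates of parabolic characters. -/
def eigenLattice {S : Set ℕ} (χ : CuspForm.heckeAlgebra N 2 S →+* O) :
    Submodule O (Fin (Tate.rk N) → O) where
  carrier := {v | ∀ (ℓ : ℕ) (hℓ : Fact ℓ.Prime) (hℓN : ¬ ℓ ∣ N) (hℓS : ℓ ∉ S),
    Matrix.mulVec ((Tate.heckeMat hℓN).map (Int.cast : ℤ → O)) v =
      χ (CuspForm.heckeAlgebra.T hℓ.out hℓN hℓS) • v}
  add_mem' {v w} hv hw ℓ hℓ hℓN hℓS := by
    rw [Matrix.mulVec_add, hv ℓ hℓ hℓN hℓS, hw ℓ hℓ hℓN hℓS, smul_add]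
  zero_mem' ℓ hℓ hℓN hℓS := by rw [Matrix.mulVec_zero, smul_zero]
  smul_mem' c v hv ℓ hℓ hℓN hℓS := by rw [Matrix.mulVec_smul, hv ℓ hℓ hℓN hℓS, smul_comm]

/-- The eigenlattice is nonzero. -/
theorem eigenLattice_ne_bot {S : Set ℕ} (hNS : ∀ q : ℕ, q.Prime → q ∣ N → q ∈ S)
    (χ : CuspForm.heckeAlgebra N 2 S →+* O) : eigenLattice χ ≠ ⊥ := by
  obtain ⟨X, hX, hX0, hXT⟩ := Tate.exists_eigen_parabolicHom hNS χ
  have hB : ∀ (n : ℤ) (b : O), n ≠ 0 → n • b = 0 → b = 0 := fun n b hn h => by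
    rw [zsmul_eq_mul] at h
    exact (mul_eq_zero.1 h).resolve_left (Int.cast_ne_zero.2 hn)
  set v : Fin (Tate.rk N) → O := fun i => X (Tate.dual N i) with hv
  have hexp := Tate.expand hB X hX
  refine fun hbot => hX0 (AddMonoidHom.ext fun δ => ?_)
  suffices v = 0 by
    rw [hexp δ, AddMonoidHom.zero_apply]
    exact Finset.sum_eq_zero fun i _ => by
      rw [show X (Tate.dual N i) = 0 from congrFun this i, smul_zero]
  rw [← Submodule.mem_bot (R := O), ← hbot]
  intro ℓ hℓ hℓN hℓS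
  funext j
  have hXsum : X = ∑ i, (zmultiplesHom O (v i)).comp (Tate.coord N i) :=
    AddMonoidHom.ext fun δ => by
      rw [hexp δ, AddMonoidHom.finsetSum_apply]; rfl
  have h1 : HeckeLattice.transfer hℓN X (Tate.dual N j) =
      Matrix.mulVec ((Tate.heckeMat hℓN).map (Int.cast : ℤ → O)) v j := by
    rw [hXsum, map_sum, AddMonoidHom.finsetSum_apply]
    refine Finset.sum_congr rfl fun i _ => ?_
    rw [← (HeckeLattice.gamma0System N ℓ hℓN).comp_transfer, AddMonoidHom.comp_apply,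
      zmultiplesHom_apply, zsmul_eq_mul]
    rfl
  rw [← h1, hXT ℓ hℓN hℓS]
  rfl

variable [IsDiscreteValuationRing O] [IsAdicComplete (maximalIdeal O) O]
variable (D : Gamma0Modules N p) (hp : (p : O) ∈ maximalIdeal O)

/-- The Tate module representation with coefficients in `O`. -/
def coeffRep : GQ →* Matrix (Fin (Tate.rk N)) (Fin (Tate.rk N)) O :=
  (padicHom p O hp).mapMatrix.toMonoidHom.comp (Tate.tateRep D)

omit [CharZero O] in
lemma coeffRep_congr_one (n : ℕ) :
    ∃ L : IntermediateField ℚ (AlgebraicClosure ℚ), FiniteDimensional ℚ L ∧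
      ∀ σ : GQ, (∀ x ∈ L, σ x = x) → ∀ i j, (coeffRep D hp σ - 1) i j ∈ maximalIdeal O ^ n := by
  obtain ⟨L, hL, h⟩ := Tate.tateRep_finiteLevel n D
  refine ⟨L, hL, fun σ hσ i j => ?_⟩
  have he := Matrix.ext_iff.2 (h σ hσ) i j
  rw [Matrix.map_apply] at he
  rw [Matrix.sub_apply, ← Ideal.Quotient.mk_eq_mk_iff_sub_mem]
  show Ideal.Quotient.mk _ (padicHom p O hp (Tate.tateRep D σ i j)) = _
  rw [mk_padicHom, he]
  rcases eq_or_ne i j with h | h
  · rw [h, Matrix.one_apply_eq, Matrix.one_apply_eq, map_one, map_one]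
  · rw [Matrix.one_apply_ne h, Matrix.one_apply_ne h, map_zero, map_zero]

omit [CharZero O] in
lemma coeffRep_commute {ℓ : ℕ} [Fact ℓ.Prime] (hℓN : ¬ ℓ ∣ N) (g : GQ) :
    (Tate.heckeMat hℓN).map (Int.cast : ℤ → O) * coeffRep D hp g =
      coeffRep D hp g * (Tate.heckeMat hℓN).map (Int.cast : ℤ → O) := by
  have hT : (padicHom p O hp).mapMatrix ((Tate.heckeMat hℓN).map (Int.cast : ℤ → ℤ_[p])) =
      (Tate.heckeMat hℓN).map (Int.cast : ℤ → O) := by
    ext i j; simp
  rw [← hT]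
  show _ * (padicHom p O hp).mapMatrix _ = (padicHom p O hp).mapMatrix _ * _
  rw [← map_mul, ← map_mul, Tate.tateRep_commute D hℓN g]

/-- The representation on the eigenlattice. -/
def eigenRep {S : Set ℕ} (χ : CuspForm.heckeAlgebra N 2 S →+* O) :
    GQ →* Module.End O (eigenLattice χ) where
  toFun g := (Matrix.toLin' (coeffRep D hp g)).restrict fun v hv ℓ hℓ hℓN hℓS => by
    rw [Matrix.toLin'_apply, Matrix.mulVec_mulVec, coeffRep_commute D hp hℓN g,
      ← Matrix.mulVec_mulVec, hv ℓ hℓ hℓN hℓS, Matrix.mulVec_smul]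
  map_one' := LinearMap.ext fun v => Subtype.ext (by
    show Matrix.toLin' (coeffRep D hp 1) _ = _
    rw [map_one, Matrix.toLin'_one]; rfl)
  map_mul' g h := LinearMap.ext fun v => Subtype.ext (by
    show Matrix.toLin' (coeffRep D hp (g * h)) _ = _
    rw [map_mul, Matrix.toLin'_mul]; rfl)

omit [CharZero O] in
lemma eigenRep_apply {S : Set ℕ} (χ : CuspForm.heckeAlgebra N 2 S →+* O) (g : GQ)
    (v : eigenLattice χ) :
    ((eigenRep D hp χ g v : eigenLattice χ) : Fin (Tate.rk N) → O) =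
      Matrix.mulVec (coeffRep D hp g) v := rfl

include D hp in
/-- **Galois representations of Hecke characters.** -/
theorem exists_galoisRep_of_modules [Finite (ResidueField O)] (S : Finset ℕ) (hpS : p ∈ S)
    (hNS : ∀ q : ℕ, q.Prime → q ∣ N → q ∈ S)
    (χ : CuspForm.heckeAlgebra N 2 (↑S : Set ℕ) →+* O) :
    ∃ (O₂ : Type) (_ : CommRing O₂) (_ : IsDomain O₂) (_ : IsDiscreteValuationRing O₂)
      (_ : IsAdicComplete (maximalIdeal O₂) O₂) (_ : Finite (ResidueField O₂)) (_ : CharZero O₂)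
      (_ : Algebra O O₂) (_ : Module.Finite O O₂) (_ : IsLocalHom (algebraMap O O₂)),
      Function.Injective (algebraMap O O₂) ∧ ∃ ρ : GaloisRepAdic O₂,
        (∀ (ℓ : ℕ) (hℓ : ℓ.Prime) (hℓN : ¬ ℓ ∣ N) (hℓS : ℓ ∉ (↑S : Set ℕ)),
          ∀ A : ValuationSubring (AlgebraicClosure ℚ), A.LiesOverPrime ℓ →
            ∀ σ : GQ, A.IsFrobeniusAt σ ℓ → LinearMap.charpoly (ρ.ρ σ) =
              X ^ 2 - C (algebraMap O O₂ (χ (CuspForm.heckeAlgebra.T hℓ hℓN hℓS))) * X
                + C ((ℓ : O₂))) ∧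
        (∀ q : ℕ, q.Prime → ¬ q ∣ N → q ≠ p → ρ.IsUnramifiedAt q) := by
  set E := eigenLattice χ
  have : Module.IsTorsionFree O E := inferInstance
  have : Module.Free O E := inferInstance
  have : Nontrivial E := Submodule.nontrivial_iff_ne_bot.2
    (eigenLattice_ne_bot (fun q hq hqN => by simpa using hNS q hq hqN) χ)
  let b := Module.finBasis O E
  set m := Module.finrank O E
  have hm : 0 < m := Module.finrank_pos
  let R := matRep b (eigenRep D hp χ)
  let d := cycloChar p O hp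
  have hR : EntryContinuous R := fun n => by
    obtain ⟨L, hL, h⟩ := coeffRep_congr_one D hp n
    refine ⟨L, hL, fun σ hσ i j => ?_⟩
    obtain ⟨π, hπ⟩ := IsDiscreteValuationRing.exists_irreducible O
    have hπn : π ^ n ≠ 0 := pow_ne_zero _ hπ.ne_zero
    have hdvd : ∀ a, a ∈ maximalIdeal O ^ n ↔ π ^ n ∣ a := fun a => by
      rw [hπ.maximalIdeal_eq, Ideal.span_singleton_pow, Ideal.mem_span_singleton]
    set e : Fin (Tate.rk N) → O :=
      Matrix.mulVec (coeffRep D hp σ - 1) (b j : Fin (Tate.rk N) → O) with he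
    have hek : ∀ k, π ^ n ∣ e k := fun k => by
      show π ^ n ∣ ∑ l, (coeffRep D hp σ - 1) k l * (b j : Fin (Tate.rk N) → O) l
      exact Finset.dvd_sum fun l _ => Dvd.dvd.mul_right ((hdvd _).1 (h σ hσ k l)) _
    choose w hw using hek
    have hew : e = π ^ n • w := funext hw
    have hemem : e ∈ E := by
      rw [he, Matrix.sub_mulVec, Matrix.one_mulVec]
      exact sub_mem (eigenRep D hp χ σ (b j)).2 (b j).2
    have hwE : w ∈ E := fun ℓ hℓ hℓN hℓS => by
      have h1 := hemem ℓ hℓ hℓN hℓS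
      rw [hew, Matrix.mulVec_smul, smul_comm] at h1
      exact smul_right_injective _ hπn h1
    have key : eigenRep D hp χ σ (b j) - b j = π ^ n • (⟨w, hwE⟩ : E) := by
      refine Subtype.ext ?_
      show Matrix.mulVec (coeffRep D hp σ) (b j : Fin (Tate.rk N) → O) - _ = π ^ n • w
      rw [← hew, he, Matrix.sub_mulVec, Matrix.one_mulVec]
    have hij : (R σ - 1) i j = b.repr (eigenRep D hp χ σ (b j) - b j) i := by
      rw [Matrix.sub_apply, map_sub, Finsupp.sub_apply, Module.Basis.repr_self,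
        Finsupp.single_apply, matRep_apply, LinearMap.toMatrix_apply, Matrix.one_apply]
      simp only [eq_comm]
    rw [hij, key, map_smul, Finsupp.smul_apply, smul_eq_mul, hdvd]
    exact dvd_mul_right _ _
  have hd : CharContinuous d := cycloChar_continuous p O hp
  have hrel : ∀ (ℓ : ℕ) (hℓ : ℓ.Prime) (hℓN : ¬ ℓ ∣ N) (hℓS : ℓ ∉ (↑S : Set ℕ))
      (A : ValuationSubring (AlgebraicClosure ℚ)), A.LiesOverPrime ℓ →
      ∀ φ : GQ, A.IsFrobeniusAt φ ℓ →
        R φ + d φ • R φ⁻¹ = χ (CuspForm.heckeAlgebra.T hℓ hℓN hℓS) • 1 := by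
    intro ℓ hℓ hℓN hℓS A hA φ hφ
    have := Fact.mk hℓ
    have hℓp : ℓ ≠ p := fun h => hℓS (h ▸ (by simpa using hpS))
    have hT : (padicHom p O hp).mapMatrix ((Tate.heckeMat hℓN).map (Int.cast : ℤ → ℤ_[p])) =
        (Tate.heckeMat hℓN).map (Int.cast : ℤ → O) := by
      ext i j; simp
    have h0 := congrArg (padicHom p O hp).mapMatrix
      (Tate.tateRep_frobenius D hℓN hℓp hA hφ)
    rw [map_add, map_sub, map_mul, map_mul, map_zero, hT] at h0
    have hsm : (padicHom p O hp).mapMatrix ((ℓ : ℤ_[p]) • (1 : Matrix _ _ ℤ_[p])) =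
        (ℓ : O) • (1 : Matrix (Fin (Tate.rk N)) (Fin (Tate.rk N)) O) := by
      ext i j
      rcases eq_or_ne i j with h | h <;> simp [h]
    rw [hsm] at h0
    change coeffRep D hp φ * coeffRep D hp φ -
      (Tate.heckeMat hℓN).map (Int.cast : ℤ → O) * coeffRep D hp φ + _ = 0 at h0
    set c := χ (CuspForm.heckeAlgebra.T hℓ hℓN hℓS)
    have hE : eigenRep D hp χ φ * eigenRep D hp χ φ - c • eigenRep D hp χ φ +
        (ℓ : O) • 1 = 0 := by
      refine LinearMap.ext fun v => Subtype.ext ?_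
      have h1 := congrArg (fun M => Matrix.mulVec M (v : Fin (Tate.rk N) → O)) h0
      simp only [Matrix.add_mulVec, Matrix.sub_mulVec, ← Matrix.mulVec_mulVec, Matrix.smul_mulVec,
        Matrix.one_mulVec, Matrix.zero_mulVec] at h1
      have hev : Matrix.mulVec ((Tate.heckeMat hℓN).map (Int.cast : ℤ → O))
          (Matrix.mulVec (coeffRep D hp φ) (v : Fin (Tate.rk N) → O)) =
          c • Matrix.mulVec (coeffRep D hp φ) (v : Fin (Tate.rk N) → O) :=
        (eigenRep D hp χ φ v).2 ℓ ⟨hℓ⟩ hℓN hℓS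
      rw [hev] at h1
      exact h1
    have hR2 : R φ * R φ - c • R φ + (ℓ : O) • 1 = 0 := by
      have h3 : eigenRep D hp χ φ * eigenRep D hp χ φ + (ℓ : O) • 1 = c • eigenRep D hp χ φ := by
        rw [← sub_eq_zero, ← hE]; abel
      have h4 := congrArg (LinearMap.toMatrix b b) h3
      rw [map_add, map_smul, map_smul, LinearMap.toMatrix_mul, LinearMap.toMatrix_one] at h4
      rw [matRep_apply, ← h4]
      abel
    have hinv : R φ * R φ⁻¹ = 1 := by rw [← map_mul, mul_inv_cancel, map_one]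
    have h2 := congrArg (· * R φ⁻¹) hR2
    simp only [add_mul, sub_mul, mul_assoc, hinv, mul_one, smul_mul_assoc, one_mul, zero_mul]
      at h2
    rw [show d φ = (ℓ : O) from cycloChar_frobenius p O hp hℓ hℓp hA hφ]
    rw [sub_add_eq_add_sub, sub_eq_zero] at h2
    exact h2
  have hS := RepTheory.frobGenerates_finset HeckeDatum.frobeniusPowDense S
  obtain ⟨O₂, i₁, i₂, i₃, i₄, i₅, i₆, i₇, i₈, i₉, hinj, ρ, hch, hun⟩ :=
    RepTheory.exists_adic_of_frobenius_quadratic hS hm R d hR hd fun φ hφ => by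
      obtain ⟨ℓ, hℓ, hℓS, A, hA, hAφ⟩ := hφ
      exact ⟨_, hrel ℓ hℓ (fun h => hℓS (by simpa using hNS ℓ hℓ h)) hℓS A hA φ hAφ⟩
  refine ⟨O₂, i₁, i₂, i₃, i₄, i₅, i₆, i₇, i₈, i₉, hinj, ρ, ?_, ?_⟩
  · intro ℓ hℓ hℓN hℓS A hA σ hσ
    have hℓp : ℓ ≠ p := fun h => hℓS (h ▸ (by simpa using hpS))
    rw [hch σ _ (hrel ℓ hℓ hℓN hℓS A hA σ hσ),
      show d σ = (ℓ : O) from cycloChar_frobenius p O hp hℓ hℓp hA hσ, map_natCast]
  · intro q hq hqN hqp A hA σ hσ
    refine hun σ ?_ (cycloChar_inertia p O hp hq hqp hA hσ)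
    have h1 : coeffRep D hp σ = 1 := by
      show (padicHom p O hp).mapMatrix (Tate.tateRep D σ) = 1
      rw [Tate.tateRep_inertia D hq hqN hqp hA hσ, map_one]
    have h2 : eigenRep D hp χ σ = 1 := LinearMap.ext fun v => Subtype.ext (by
      rw [eigenRep_apply, h1, Matrix.one_mulVec]; rfl)
    show LinearMap.toMatrixAlgEquiv b (eigenRep D hp χ σ) = 1
    rw [h2, map_one]

end Fermat.Agent.KummerES

namespace Fermat.Agent.KummerES

set_option linter.overlappingInstances false in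
/-- A character of the Hecke algebra with values in a complete discrete valuation ring has an
attached Galois representation over a finite extension, given Galois actions on parabolic
characters at every level. -/
theorem exists_galoisRep_of_point_of_modules
    (hmod : ∀ (N : ℕ) [NeZero N] (p : ℕ) [Fact p.Prime], Nonempty (Gamma0Modules N p)) :
    ∀ (p : ℕ) [Fact p.Prime] (N : ℕ) [NeZero N] (S : Finset ℕ)
      (_hpS : p ∈ S) (_hNS : ∀ q : ℕ, q.Prime → q ∣ N → q ∈ S)
      (𝒪' : Type) [CommRing 𝒪'] [IsDomain 𝒪'] [IsDiscreteValuationRing 𝒪']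
      [IsAdicComplete (IsLocalRing.maximalIdeal 𝒪') 𝒪'] [Finite (IsLocalRing.ResidueField 𝒪')]
      [CharZero 𝒪'] (_hp𝒪' : (p : 𝒪') ∈ IsLocalRing.maximalIdeal 𝒪')
      (χ : CuspForm.heckeAlgebra N 2 (↑S : Set ℕ) →+* 𝒪'),
      ∃ (𝒪'' : Type) (_ : CommRing 𝒪'') (_ : IsDomain 𝒪'') (_ : IsDiscreteValuationRing 𝒪'')
        (_ : IsAdicComplete (IsLocalRing.maximalIdeal 𝒪'') 𝒪'')
        (_ : Finite (IsLocalRing.ResidueField 𝒪'')) (_ : CharZero 𝒪'')
        (_ : Algebra 𝒪' 𝒪'') (_ : Module.Finite 𝒪' 𝒪'') (_ : IsLocalHom (algebraMap 𝒪' 𝒪'')),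
      Function.Injective (algebraMap 𝒪' 𝒪'') ∧
      ∃ ρ : GaloisRepAdic 𝒪'',
        (∀ (ℓ : ℕ) (hℓ : ℓ.Prime) (hℓN : ¬ ℓ ∣ N) (hℓS : ℓ ∉ (↑S : Set ℕ)),
          ∀ A : ValuationSubring (AlgebraicClosure ℚ), A.LiesOverPrime ℓ →
            ∀ σ : AlgebraicClosure ℚ ≃ₐ[ℚ] AlgebraicClosure ℚ, A.IsFrobeniusAt σ ℓ →
              LinearMap.charpoly (ρ.ρ σ) =
                X ^ 2 - C (algebraMap 𝒪' 𝒪'' (χ (CuspForm.heckeAlgebra.T hℓ hℓN hℓS))) * X
                  + C ((ℓ : 𝒪''))) ∧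
        (∀ q : ℕ, q.Prime → ¬ q ∣ N → q ≠ p → ρ.IsUnramifiedAt q) := by
  intro p _ N _ S hpS hNS 𝒪' _ _ _ _ _ _ hp χ
  exact exists_galoisRep_of_modules (Classical.choice (hmod N p)) hp S hpS hNS χ

end Fermat.Agent.KummerES
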