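import Mathlib.NumberTheory.ModularForms.EisensteinSeries.IsBoundedAtImInfty
import Mathlib.NumberTheory.ModularForms.EisensteinSeries.MDifferentiable
import Mathlib.NumberTheory.ModularForms.Discriminant
import Fermat.Agent.KummerES.Weak

/-!
# Weighted Eisenstein series of weight 12

`eis12 e τ = ∑ e v (v₀ τ + v₁) ^ (-12)` for bounded weights `e`, together with the expansion of a
periodic function bounded at infinity.
-/

set_option autoImplicit false

noncomputable section

open UpperHalfPlane Filter Topology EisensteinSeries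
open scoped Real MatrixGroups Manifold ModularForm Matrix

namespace Fermat.Agent.KummerES

/-- `∑ e v (v₀ τ + v₁) ^ (-12)`. -/
def eis12 (e : (Fin 2 → ℤ) → ℂ) (τ : ℍ) : ℂ := ∑' v, e v * eisSummand 12 v τ

lemma summable_norm_rpow_twelve : Summable fun v : Fin 2 → ℤ => ‖v‖ ^ (-(12 : ℝ)) :=
  summable_one_div_norm_rpow (by norm_num)

lemma norm_eis12_term_le {e : (Fin 2 → ℤ) → ℂ} (he : ∀ v, ‖e v‖ ≤ 1) {A B : ℝ} (hB : 0 < B)
    {τ : ℍ} (hτ : τ ∈ verticalStrip A B) (v : Fin 2 → ℤ) :
    ‖e v * eisSummand 12 v τ‖ ≤ r ⟨⟨A, B⟩, hB⟩ ^ (-(12 : ℝ)) * ‖v‖ ^ (-(12 : ℝ)) := by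
  rw [norm_mul]
  refine (mul_le_of_le_one_left (norm_nonneg _) (he v)).trans ?_
  have h := summand_bound_of_mem_verticalStrip (k := (12 : ℝ)) (by norm_num) v hB hτ
  simpa [eisSummand, ← Real.rpow_intCast] using h

/-- The slash action permutes the weights. -/
lemma eis12_slash (e : (Fin 2 → ℤ) → ℂ) (γ : SL(2, ℤ)) :
    eis12 e ∣[(12 : ℤ)] γ = eis12 (fun v => e (v ᵥ* (γ⁻¹ : SL(2, ℤ)))) := by
  funext τ
  rw [ModularForm.SL_slash_apply]
  simp only [eis12, eisSummand_SL2_apply]
  rw [← tsum_mul_right]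
  let E : (Fin 2 → ℤ) ≃ (Fin 2 → ℤ) :=
    { toFun := fun v => v ᵥ* (γ : SL(2, ℤ))
      invFun := fun v => v ᵥ* (γ⁻¹ : SL(2, ℤ))
      left_inv := fun v => by
        simp only [Matrix.vecMul_vecMul, ← Matrix.SpecialLinearGroup.coe_mul, mul_inv_cancel,
          Matrix.SpecialLinearGroup.coe_one, Matrix.vecMul_one]
      right_inv := fun v => by
        simp only [Matrix.vecMul_vecMul, ← Matrix.SpecialLinearGroup.coe_mul, inv_mul_cancel,
          Matrix.SpecialLinearGroup.coe_one, Matrix.vecMul_one] }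
  rw [← E.tsum_eq (fun v => e (v ᵥ* (γ⁻¹ : SL(2, ℤ))) * eisSummand 12 v τ)]
  refine tsum_congr fun v => ?_
  have hv : (E v) ᵥ* (γ⁻¹ : SL(2, ℤ)) = v := E.left_inv v
  rw [hv, zpow_neg]
  have := zpow_ne_zero (12 : ℤ) (denom_ne_zero (γ : GL (Fin 2) ℝ) τ)
  field_simp
  rfl

/-- `eis12` with bounded coefficients is holomorphic. -/
lemma mdiff_eis12 {e : (Fin 2 → ℤ) → ℂ} (he : ∀ v, ‖e v‖ ≤ 1) : MDiff (eis12 e) := by
  rw [mdifferentiable_iff]
  intro z hz
  change 0 < z.im at hz
  let U : Set ℂ := {w | |w.re| < |z.re| + 1} ∩ {w | z.im / 2 < w.im}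
  have hU : IsOpen U := (isOpen_lt (continuous_abs.comp Complex.continuous_re) continuous_const).inter
    (isOpen_lt continuous_const Complex.continuous_im)
  have hzU : z ∈ U := ⟨show |z.re| < |z.re| + 1 by linarith, show z.im / 2 < z.im by linarith⟩
  have him : ∀ w ∈ U, 0 < w.im := fun w hw => lt_trans (by linarith) hw.2
  have hd : ∀ v : Fin 2 → ℤ, DifferentiableOn ℂ (fun w => e v * eisSummand 12 v (ofComplex w)) U := by
    intro v
    rcases eq_or_ne v 0 with rfl | hv
    · have h0 : (fun w : ℂ => e 0 * eisSummand 12 0 (ofComplex w)) = fun _ => 0 := by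
        funext w; simp [eisSummand]
      rw [h0]
      exact differentiableOn_const 0
    · refine DifferentiableOn.const_mul ?_ _
      refine DifferentiableOn.congr
        (f := fun w => ((v 0 : ℂ) * w + v 1) ^ (-(12 : ℤ))) ?_ fun w hw => by
          simp [eisSummand, ofComplex_apply_of_im_pos (him w hw)]
      intro w hw
      refine DifferentiableAt.differentiableWithinAt ((DifferentiableAt.zpow ?_) (Or.inl ?_))
      · fun_prop
      · intro h0
        have hpos := r_mul_max_le ⟨w, him w hw⟩ hv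
        rw [h0, norm_zero] at hpos
        exact absurd hpos (not_le.mpr (mul_pos (r_pos _) (norm_pos_iff.mpr hv)))
  have key := Complex.differentiableOn_tsum_of_summable_norm
    (summable_norm_rpow_twelve.mul_left
      (r ⟨⟨|z.re| + 1, z.im / 2⟩, half_pos hz⟩ ^ (-(12 : ℝ)))) hd hU fun v w hw =>
      norm_eis12_term_le he (half_pos hz) (A := |z.re| + 1) (τ := ofComplex w)
        (by rw [ofComplex_apply_of_im_pos (him w hw)]; exact ⟨hw.1.le, hw.2.le⟩) v
  exact ((key.differentiableAt (hU.mem_nhds hzU))).differentiableWithinAt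

/-- `eis12` with bounded coefficients is bounded at `∞`. -/
lemma isBoundedAtImInfty_eis12 {e : (Fin 2 → ℤ) → ℂ} (he : ∀ v, ‖e v‖ ≤ 1) :
    IsBoundedAtImInfty (eis12 e) := by
  rw [isBoundedAtImInfty_iff]
  refine ⟨∑' v : Fin 2 → ℤ, r ⟨⟨1, 2⟩, Nat.ofNat_pos⟩ ^ (-(12 : ℝ)) * ‖v‖ ^ (-(12 : ℝ)), 2,
    fun τ hτ => ?_⟩
  obtain ⟨m, hm⟩ := ModularGroup_T_zpow_mem_verticalStrip τ one_pos
  simp only [Nat.cast_one, one_mul] at hm
  have h1 : eis12 e τ = eis12 (fun v => e (v ᵥ* ((ModularGroup.T ^ m : SL(2, ℤ)))))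
      (ModularGroup.T ^ m • τ) := by
    have h2 := congrFun (eis12_slash (fun v => e (v ᵥ* ((ModularGroup.T ^ m : SL(2, ℤ)))))
      (ModularGroup.T ^ m)) τ
    simp only [Matrix.vecMul_vecMul, ← Matrix.SpecialLinearGroup.coe_mul, inv_mul_cancel,
      Matrix.SpecialLinearGroup.coe_one, Matrix.vecMul_one] at h2
    have hd : UpperHalfPlane.denom (ModularGroup.T ^ m : SL(2, ℤ)) (τ : ℂ) = 1 := by
      rw [ModularGroup.denom_apply, ModularGroup.coe_T_zpow]
      simp
    rw [← h2, ModularForm.SL_slash_apply, hd, one_zpow, mul_one]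
  rw [h1, eis12]
  refine tsum_of_norm_bounded (summable_norm_rpow_twelve.mul_left _).hasSum fun v => ?_
  exact norm_eis12_term_le (fun v => he _) two_pos
    (verticalStrip_anti_right _ hτ (by simpa using hm)) v

/-- The limit of the series along the imaginary axis. -/
lemma tendsto_eis12_axis {e : (Fin 2 → ℤ) → ℂ} (he : ∀ v, ‖e v‖ ≤ 1) {c : ℂ}
    (hc : HasSum (fun v : Fin 2 → ℤ => if v 0 = 0 then e v * ((v 1 : ℂ) ^ (-(12 : ℤ))) else 0) c) :
    Tendsto (fun y : ℝ => eis12 e (ofComplex (Complex.I * y))) atTop (𝓝 c) := by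
  rw [← hc.tsum_eq]
  unfold eis12
  refine tendsto_tsum_of_dominated_convergence
    (bound := fun v => r ⟨⟨0, 1⟩, one_pos⟩ ^ (-(12 : ℝ)) * ‖v‖ ^ (-(12 : ℝ)))
    (summable_norm_rpow_twelve.mul_left _) (fun v => ?_) ?_
  · rcases eq_or_ne (v 0) 0 with h0 | h0
    · rw [if_pos h0]
      refine tendsto_const_nhds.congr' ?_
      filter_upwards with y
      simp [eisSummand, h0]
    · rw [if_neg h0, ← mul_zero (e v)]
      refine Tendsto.const_mul _ ?_
      have hlb : Tendsto (fun y : ℝ => |(v 0 : ℝ)| * y) atTop atTop :=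
        tendsto_id.const_mul_atTop (abs_pos.mpr (by exact_mod_cast h0))
      refine squeeze_zero_norm' (a := fun y : ℝ => (|(v 0 : ℝ)| * y)⁻¹ ^ 12) ?_ ?_
      · filter_upwards [eventually_gt_atTop 0] with y hy
        rw [eisSummand, norm_zpow, zpow_neg, zpow_ofNat, ← inv_pow]
        gcongr
        refine le_trans ?_ (Complex.abs_im_le_norm _)
        simp [ofComplex_apply_of_im_pos (show 0 < (Complex.I * (y : ℂ)).im by simpa using hy),
          abs_mul, abs_of_pos hy]
      · simpa [zero_pow (show (12 : ℕ) ≠ 0 by norm_num)] using! hlb.inv_tendsto_atTop.pow 12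
  · filter_upwards [eventually_ge_atTop 1] with y hy v
    refine norm_eis12_term_le he one_pos ?_ v
    rw [ofComplex_apply_of_im_pos (show 0 < (Complex.I * (y : ℂ)).im by simp; linarith),
      mem_verticalStrip_iff]
    simp [UpperHalfPlane.re, UpperHalfPlane.im, hy]

/-- A periodic holomorphic function bounded at infinity has a power series expansion. -/
lemma hasExp_of_bounded {L : ℕ} [NeZero L] {F : ℍ → ℂ}
    (hper : comp F (ModularGroup.T ^ (L : ℤ)) = F) (hF : MDiff F) (hb : IsBoundedAtImInfty F) :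
    HasExp L F (HahnSeries.ofPowerSeries ℤ ℂ (qExpansion (L : ℝ) F)) := by
  have hL : (0 : ℝ) < L := by exact_mod_cast Nat.pos_of_ne_zero (NeZero.ne L)
  have hper' : Function.Periodic (F ∘ ofComplex) ((L : ℝ) : ℂ) := by
    intro z
    rcases le_or_gt z.im 0 with hz | hz
    · simp only [Function.comp_apply]
      rw [ofComplex_apply_of_im_nonpos (w := z + ((L : ℝ) : ℂ)) (by simpa using hz),
        ofComplex_apply_of_im_nonpos hz]
    · have h := congrFun hper ⟨z, hz⟩
      rw [comp_apply, modular_T_zpow_smul] at h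
      simp only [Function.comp_apply, ofComplex_apply_of_im_pos hz]
      rw [← h]
      congr 1
      ext
      rw [ofComplex_apply_of_im_pos (show 0 < (z + ((L : ℝ) : ℂ)).im by simpa using hz), coe_vadd]
      push_cast
      ring
  intro τ
  have h := hasSum_qExpansion hL hper' hF hb τ
  rw [← Nat.cast_injective.hasSum_iff]
  · refine h.congr_fun fun i => ?_
    simp [HahnSeries.ofPowerSeries_apply_coeff, qL]
  · intro i hi
    rw [HahnSeries.ofPowerSeries_apply, HahnSeries.embDomain_of_notMem_range, zero_mul]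
    simpa using hi

end Fermat.Agent.KummerES
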