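import Fermat.Agent.KummerES.Interface
import Fermat.Agent.HeckeDatum.Reduction

/-!
# Galois actions on parabolic characters supply unramifiedness of Hecke–Galois data

`Gamma0Modules N p` gives `HeckeDatum.HasGaloisOnCharacters` at every `q ∤ N`, `q ≠ p`.  Hence
the Galois representation of a Hecke–Galois datum is unramified outside its set of primes.
-/

set_option autoImplicit false

noncomputable section

open CongruenceSubgroup ModularCurve.Period
open scoped MatrixGroups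

namespace Fermat.Agent.KummerES

open HeckeDatum (HasGaloisOnCharacters ParChar parTransfer)

local notation "GQ" => AlgebraicClosure ℚ ≃ₐ[ℚ] AlgebraicClosure ℚ

variable {N p : ℕ} [NeZero N]

/-- The action of `Gamma0Modules` as `ℤ`-linear maps. -/
def intRep (D : Gamma0Modules N p) (k : ℕ) : GQ →* Module.End ℤ (ParChar N (p ^ k)) where
  toFun σ := (D.rep k σ).toIntLinearMap
  map_one' := by
    refine LinearMap.ext fun x => ?_
    show D.rep k 1 x = x
    rw [map_one]
    rfl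
  map_mul' σ τ := by
    refine LinearMap.ext fun x => ?_
    show D.rep k (σ * τ) x = D.rep k σ (D.rep k τ x)
    rw [map_mul]
    rfl

omit [NeZero N] in
/-- Galois actions on parabolic characters from `Gamma0Modules`. -/
theorem hasGaloisOnCharacters {S : Set ℕ} (hNS : ∀ q : ℕ, q.Prime → q ∣ N → q ∈ S)
    (D : Gamma0Modules N p) {q : ℕ} (hq : q.Prime) (hqN : ¬ q ∣ N) (hqp : q ≠ p) :
    HasGaloisOnCharacters hNS p q := by
  intro k
  refine ⟨intRep D k, {p}, fun σ ℓ => ?_, ?_, fun P hP σ hσ => ?_, fun ℓ hℓp A hA φ hφ χ => ?_⟩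
  · refine LinearMap.ext fun χ => Subtype.ext ?_
    exact (D.hecke_comm k σ ℓ.1.1 ℓ.1.2 (fun h => ℓ.2 (hNS _ ℓ.1.2 h)) χ
      (parTransfer hNS (p ^ k) ℓ χ) rfl).symm
  · obtain ⟨L, hL, h⟩ := D.finiteLevel k
    refine ⟨L, hL, fun σ hσ => LinearMap.ext fun x => ?_⟩
    show D.rep k σ x = x
    rw [h σ hσ]
    rfl
  · refine LinearMap.ext fun x => ?_
    show D.rep k σ x = x
    rw [D.unramified k q hq hqN hqp P hP σ hσ]
    rfl
  · refine Subtype.ext ?_
    have h := D.frobenius k ℓ.1.1 ℓ.1.2 (fun h => ℓ.2 (hNS _ ℓ.1.2 h))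
      (by simpa using hℓp) A hA φ hφ χ
    rw [MonoidHom.toAdditive_id, AddMonoidHom.comp_id] at h
    exact h

/-- The representation of a Hecke–Galois datum is unramified at every prime outside `S`, given
Galois actions on parabolic characters. -/
theorem isUnramifiedAt_of_modules {p : ℕ} {N : ℕ} [NeZero N] {S : Finset ℕ}
    {𝒪 : Type} [CommRing 𝒪] [IsDomain 𝒪] [IsDiscreteValuationRing 𝒪]
    [IsAdicComplete (IsLocalRing.maximalIdeal 𝒪) 𝒪]
    {θ : CuspForm.heckeAlgebra N 2 (↑S : Set ℕ) →+* IsLocalRing.ResidueField 𝒪}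
    {T : Type} [CommRing T] [IsLocalRing T] [IsNoetherianRing T]
    [IsAdicComplete (IsLocalRing.maximalIdeal T) T] [Algebra 𝒪 T] [IsLocalHom (algebraMap 𝒪 T)]
    [Module.Finite 𝒪 T] [Module.Free 𝒪 T]
    (hmod : Nonempty (Gamma0Modules N p)) (hp : p.Prime)
    (hp𝒪 : (p : 𝒪) ∈ IsLocalRing.maximalIdeal 𝒪) (hpS : p ∈ S)
    (hNS : ∀ q : ℕ, q.Prime → q ∣ N → q ∈ S)
    (H : CuspForm.HeckeGaloisRepDatum N (↑S : Set ℕ) 𝒪 θ T)
    (q : ℕ) (hq : q.Prime) (hqS : q ∉ S) :
    H.ρ.IsUnramifiedAt q := by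
  obtain ⟨D⟩ := hmod
  have hNS' : ∀ r : ℕ, r.Prime → r ∣ N → r ∈ (↑S : Set ℕ) := fun r hr h => by
    simpa using hNS r hr h
  exact HeckeDatum.isUnramifiedAt_of_galoisOnCharacters hp hp𝒪 hpS hNS' H q hq hqS
    (hasGaloisOnCharacters hNS' D hq (fun h => hqS (hNS q hq h)) (fun h => hqS (h ▸ hpS)))

end Fermat.Agent.KummerES
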