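import Fermat.Agent.KummerES.Interface
import Fermat.Agent.HeckeLattice.Lattice
import Fermat.Agent.HeckeLattice.Parabolic
import Mathlib.NumberTheory.Padics.RingHoms
import Mathlib.Algebra.Module.Torsion.Free
import Mathlib.LinearAlgebra.FreeModule.PID

/-!
# The `p`-adic matrices of the Galois action on parabolic characters

In coordinates dual to a basis of the torsion free quotient of `ParGroup N`, a compatible family of
Galois actions on `ℤ/p^k`-valued parabolic characters is given by matrices over `ℤ_p`, commuting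
with the integral transfer matrices.
-/

set_option autoImplicit false

noncomputable section

open CongruenceSubgroup ModularCurve.Period
open scoped MatrixGroups

namespace Fermat.Agent.KummerES.Tate

open HeckeLattice (ParGroup parHom)

local notation "GQ" => AlgebraicClosure ℚ ≃ₐ[ℚ] AlgebraicClosure ℚ

variable (N : ℕ) [NeZero N]

/-- The torsion free quotient of `ParGroup N`. -/
abbrev FreeQuot : Type := ParGroup N ⧸ Submodule.torsion ℤ (ParGroup N)

instance : Module.IsTorsionFree ℤ (FreeQuot N) := Submodule.QuotientTorsion.instIsTorsionFree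

/-- Its rank. -/
def rk : ℕ := Module.finrank ℤ (FreeQuot N)

/-- A basis of the torsion free quotient. -/
def freeBasis : Module.Basis (Fin (rk N)) ℤ (FreeQuot N) := Module.finBasis ℤ (FreeQuot N)

/-- The coordinate characters. -/
def coord (i : Fin (rk N)) : Additive (Gamma0 N) →+ ℤ :=
  (((freeBasis N).coord i).comp (Submodule.mkQ _)).toAddMonoidHom.comp (parHom N)

/-- The coordinate characters are parabolic. -/
lemma coord_isParabolicHom (i : Fin (rk N)) : IsParabolicHom (Gamma0 N) (coord N i) :=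
  fun γ hγ => by
    rw [coord, AddMonoidHom.comp_apply, HeckeLattice.parHom_isParabolicHom N γ hγ, map_zero]

/-- Elements dual to the coordinates. -/
def dual (j : Fin (rk N)) : Additive (Gamma0 N) :=
  ((Submodule.mkQ_surjective _).comp (HeckeLattice.parHom_surjective N) (freeBasis N j)).choose

lemma mkQ_parHom_dual (j : Fin (rk N)) :
    Submodule.mkQ (Submodule.torsion ℤ (ParGroup N)) (parHom N (dual N j)) = freeBasis N j :=
  ((Submodule.mkQ_surjective _).comp (HeckeLattice.parHom_surjective N) (freeBasis N j)).choose_spec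

/-- The coordinates of the dual elements are Kronecker deltas. -/
lemma coord_dual (i j : Fin (rk N)) : coord N i (dual N j) = if i = j then 1 else 0 := by
  show (freeBasis N).coord i (Submodule.mkQ _ (parHom N (dual N j))) = _
  rw [mkQ_parHom_dual, Module.Basis.coord_apply, Module.Basis.repr_self, Finsupp.single_apply]
  simp only [eq_comm]

variable {N}

/-- A parabolic character with torsion free values is determined by its values at the dual
elements. -/
theorem expand {B : Type*} [AddCommGroup B]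
    (hB : ∀ (n : ℤ) (b : B), n ≠ 0 → n • b = 0 → b = 0) (x : Additive (Gamma0 N) →+ B)
    (hx : IsParabolicHom (Gamma0 N) x) (δ : Additive (Gamma0 N)) :
    x δ = ∑ i, coord N i δ • x (dual N i) := by
  set f := HeckeLattice.factor x hx with hf
  have hfx : ∀ δ, f (parHom N δ) = x δ := fun _ => rfl
  set y := parHom N δ - ∑ i, coord N i δ • parHom N (dual N i) with hy
  have hy0 : y ∈ Submodule.torsion ℤ (ParGroup N) := by
    rw [← Submodule.Quotient.mk_eq_zero, ← Submodule.mkQ_apply, hy, map_sub, map_sum, sub_eq_zero]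
    conv_lhs => rw [← (freeBasis N).sum_repr (Submodule.mkQ _ (parHom N δ))]
    exact Finset.sum_congr rfl fun i _ => by rw [map_zsmul, mkQ_parHom_dual]; rfl
  obtain ⟨⟨n, hn⟩, hny⟩ := hy0
  have h0 : f y = 0 := hB n _ (nonZeroDivisors.ne_zero hn) (by
    rw [← map_zsmul, show n • y = 0 from hny, map_zero])
  rw [hy, map_sub, map_sum, sub_eq_zero, hfx] at h0
  rw [h0]
  exact Finset.sum_congr rfl fun i _ => by rw [map_zsmul, hfx]

variable (p : ℕ) [Fact p.Prime] (k : ℕ)

/-- Coordinates modulo `p^k`. -/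
def coordMod (i : Fin (rk N)) : parabolicHoms ℤ (Gamma0 N) (ZMod (p ^ k)) :=
  ⟨(Int.castAddHom (ZMod (p ^ k))).comp (coord N i), fun γ hγ => by
    rw [AddMonoidHom.comp_apply, coord_isParabolicHom N i γ hγ, map_zero]⟩

omit [Fact p.Prime] in
@[simp] lemma coordMod_apply (i : Fin (rk N)) (δ : Additive (Gamma0 N)) :
    (coordMod p k i).1 δ = (coord N i δ : ZMod (p ^ k)) := rfl

/-- The combination of coordinate characters with given coefficients. -/
def comb (c : Fin (rk N) → ZMod (p ^ k)) : parabolicHoms ℤ (Gamma0 N) (ZMod (p ^ k)) :=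
  ∑ j, (c j).val • coordMod p k j

/-- Values of a combination of coordinate characters modulo `p^k`. -/
lemma comb_apply (c : Fin (rk N) → ZMod (p ^ k)) (δ : Additive (Gamma0 N)) :
    (comb p k c).1 δ = ∑ j, c j * (coord N j δ : ZMod (p ^ k)) := by
  rw [comb, AddSubmonoidClass.coe_finsetSum, AddMonoidHom.finsetSum_apply]
  refine Finset.sum_congr rfl fun j _ => ?_
  rw [show (((c j).val • coordMod p k j : parabolicHoms ℤ (Gamma0 N) (ZMod (p ^ k))) :
    Additive (Gamma0 N) →+ ZMod (p ^ k)) = (c j).val • (coordMod p k j).1 from rfl,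
    AddMonoidHom.nsmul_apply, coordMod_apply, nsmul_eq_mul, ZMod.natCast_zmod_val]

lemma comb_dual (c : Fin (rk N) → ZMod (p ^ k)) (l : Fin (rk N)) :
    (comb p k c).1 (dual N l) = c l := by
  simp [comb_apply, coord_dual]

variable {p}

section Limit

variable (y : ∀ k, Additive (Gamma0 N) →+ ZMod (p ^ k))
  (hy : ∀ k δ, ZMod.castHom (pow_dvd_pow p k.le_succ) (ZMod (p ^ k)) (y (k + 1) δ) = y k δ)

omit [NeZero N] in
include hy in
lemma val_dvd_sub (δ : Additive (Gamma0 N)) (k : ℕ) :
    (p : ℤ) ^ k ∣ ((y (k + 1) δ).val : ℤ) - ((y k δ).val : ℤ) := by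
  rw [show (p : ℤ) ^ k = ((p ^ k : ℕ) : ℤ) by push_cast; rfl, ← ZMod.intCast_zmod_eq_zero_iff_dvd,
    Int.cast_sub, Int.cast_natCast, Int.cast_natCast, ZMod.natCast_zmod_val, sub_eq_zero]
  rw [← hy k δ, ZMod.castHom_apply, ZMod.natCast_val]

/-- The limit of a compatible family at an element. -/
def limitFun (δ : Additive (Gamma0 N)) : ℤ_[p] :=
  PadicInt.ofIntSeq _ (PadicInt.isCauSeq_padicNorm_of_pow_dvd_sub
    (fun k => ((y k δ).val : ℤ)) p (val_dvd_sub y hy δ))

omit [NeZero N] in
lemma toZModPow_limitFun (δ : Additive (Gamma0 N)) (k : ℕ) :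
    PadicInt.toZModPow k (limitFun y hy δ) = y k δ := by
  rw [limitFun, PadicInt.toZModPow_ofIntSeq_of_pow_dvd_sub (hi := val_dvd_sub y hy δ),
    Int.cast_natCast,
    ZMod.natCast_zmod_val]

/-- The limit of a compatible family as a homomorphism. -/
def limitHom : Additive (Gamma0 N) →+ ℤ_[p] :=
  AddMonoidHom.mk' (limitFun y hy) fun a b => PadicInt.ext_of_toZModPow.mp fun k => by
    simp only [map_add, toZModPow_limitFun]

include hy in
/-- A compatible family of parabolic characters is given by its values at the dual elements. -/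
theorem family_eq (hpar : ∀ k, IsParabolicHom (Gamma0 N) (y k)) (k : ℕ)
    (δ : Additive (Gamma0 N)) :
    y k δ = ∑ j, PadicInt.toZModPow k (limitFun y hy (dual N j)) * (coord N j δ : ZMod (p ^ k)) := by
  have hY : IsParabolicHom (Gamma0 N) (limitHom y hy) := fun γ hγ =>
    PadicInt.ext_of_toZModPow.mp fun k => by
      show PadicInt.toZModPow k (limitFun y hy _) = _
      rw [toZModPow_limitFun, map_zero, hpar k γ hγ]
  have := expand (fun n b hn h => (smul_eq_zero.mp h).resolve_left hn) (limitHom y hy) hY δ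
  rw [← toZModPow_limitFun y hy δ k]
  show PadicInt.toZModPow k (limitHom y hy δ) = _
  rw [this, map_sum]
  refine Finset.sum_congr rfl fun j _ => ?_
  rw [zsmul_eq_mul, map_mul, map_intCast, mul_comm]
  rfl

end Limit

variable (D : Gamma0Modules N p)

omit [Fact p.Prime] in
lemma compat_coordMod (g : GQ) (i : Fin (rk N)) (k : ℕ) (δ : Additive (Gamma0 N)) :
    ZMod.castHom (pow_dvd_pow p k.le_succ) (ZMod (p ^ k))
      ((D.rep (k + 1) g (coordMod p (k + 1) i)).1 δ) = (D.rep k g (coordMod p k i)).1 δ :=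
  D.compat k g _ _ (fun γ => by rw [coordMod_apply, coordMod_apply, map_intCast]) δ

/-- The `ℤ_p`-matrix of the action. -/
def mat (g : GQ) : Matrix (Fin (rk N)) (Fin (rk N)) ℤ_[p] :=
  Matrix.of fun j i => limitFun (fun k => (D.rep k g (coordMod p k i)).1)
    (fun k δ => compat_coordMod D g i k δ) (dual N j)

/-- The matrix modulo `p^k`. -/
def matMod (g : GQ) : Matrix (Fin (rk N)) (Fin (rk N)) (ZMod (p ^ k)) :=
  (mat D g).map (PadicInt.toZModPow k)

lemma rep_coordMod (g : GQ) (i : Fin (rk N)) :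
    D.rep k g (coordMod p k i) = comb p k (fun j => matMod k D g j i) := by
  refine Subtype.ext (AddMonoidHom.ext fun δ => ?_)
  rw [comb_apply]
  exact family_eq (fun k => (D.rep k g (coordMod p k i)).1) (fun k δ => compat_coordMod D g i k δ)
    (fun k => (D.rep k g (coordMod p k i)).2) k δ

lemma rep_comb (g : GQ) (c : Fin (rk N) → ZMod (p ^ k)) :
    D.rep k g (comb p k c) = comb p k (Matrix.mulVec (matMod k D g) c) := by
  conv_lhs => rw [comb, map_sum]
  refine Subtype.ext (AddMonoidHom.ext fun δ => ?_)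
  rw [comb_apply, AddSubmonoidClass.coe_finsetSum, AddMonoidHom.finsetSum_apply]
  simp only [map_nsmul, rep_coordMod, AddSubmonoidClass.coe_nsmul, AddMonoidHom.nsmul_apply,
    comb_apply, nsmul_eq_mul, ZMod.natCast_zmod_val, Finset.mul_sum, Matrix.mulVec, dotProduct,
    Finset.sum_mul]
  rw [Finset.sum_comm]
  exact Finset.sum_congr rfl fun j _ => Finset.sum_congr rfl fun i _ => by ring

/-- A combination of coordinate characters determines its coefficients. -/
lemma comb_injective {c c' : Fin (rk N) → ZMod (p ^ k)} (h : comb p k c = comb p k c') :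
    c = c' := by
  funext l; rw [← comb_dual p k c l, h, comb_dual]

/-- Transporting an identity of operators on combinations to matrices. -/
lemma eq_of_mulVec_eq {A B : Matrix (Fin (rk N)) (Fin (rk N)) (ZMod (p ^ k))}
    (h : ∀ c, comb p k (Matrix.mulVec A c) = comb p k (Matrix.mulVec B c)) : A = B :=
  Matrix.ext_iff_mulVec.mpr fun c => comb_injective k (h c)

lemma matMod_one : matMod k D (1 : GQ) = 1 := eq_of_mulVec_eq k fun c => by
  rw [← rep_comb, map_one, Matrix.one_mulVec]; rfl

lemma matMod_mul (g h : GQ) : matMod k D (g * h) = matMod k D g * matMod k D h :=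
  eq_of_mulVec_eq k fun c => by
    rw [← rep_comb, map_mul, ← Matrix.mulVec_mulVec, ← rep_comb, ← rep_comb]; rfl

omit [NeZero N] in
lemma ext_mod {r : Type*} {A B : Matrix r r ℤ_[p]}
    (h : ∀ k, A.map (PadicInt.toZModPow k) = B.map (PadicInt.toZModPow k)) : A = B :=
  Matrix.ext fun i j => PadicInt.ext_of_toZModPow.mp fun k =>
    Matrix.ext_iff.mpr (h k) i j

/-- The `ℤ_p`-representation. -/
def tateRep : GQ →* Matrix (Fin (rk N)) (Fin (rk N)) ℤ_[p] where
  toFun := mat D
  map_one' := ext_mod fun k => by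
    rw [Matrix.map_one _ (map_zero _) (map_one _)]; exact matMod_one k D
  map_mul' g h := ext_mod fun k => by
    rw [Matrix.map_mul]; exact matMod_mul k D g h

lemma tateRep_map (g : GQ) : (tateRep D g).map (PadicInt.toZModPow k) = matMod k D g := rfl

lemma matMod_eq_one {g : GQ} (h : D.rep k g = 1) : matMod k D g = 1 :=
  eq_of_mulVec_eq k fun c => by rw [← rep_comb, h, Matrix.one_mulVec]; rfl

/-- Finite level modulo `p^k`. -/
theorem tateRep_finiteLevel :
    ∃ L : IntermediateField ℚ (AlgebraicClosure ℚ), FiniteDimensional ℚ L ∧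
      ∀ σ : GQ, (∀ x ∈ L, σ x = x) → (tateRep D σ).map (PadicInt.toZModPow k) = 1 := by
  obtain ⟨L, hL, h⟩ := D.finiteLevel k
  exact ⟨L, hL, fun σ hσ => matMod_eq_one k D (h σ hσ)⟩

/-- Unramified outside `N p`. -/
theorem tateRep_inertia {q : ℕ} (hq : q.Prime) (hqN : ¬ q ∣ N) (hqp : q ≠ p)
    {A : ValuationSubring (AlgebraicClosure ℚ)} (hA : A.LiesOverPrime q) {σ : GQ}
    (hσ : σ ∈ A.inertiaSubgroupIn ℚ) : tateRep D σ = 1 :=
  ext_mod fun k => by
    rw [Matrix.map_one _ (map_zero _) (map_one _)]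
    exact matMod_eq_one k D (D.unramified k q hq hqN hqp A hA σ hσ)

section Hecke

variable {ℓ : ℕ} [hℓ : Fact ℓ.Prime] (hℓN : ¬ ℓ ∣ N)

/-- The integral transfer matrix. -/
def heckeMat : Matrix (Fin (rk N)) (Fin (rk N)) ℤ :=
  Matrix.of fun j i => HeckeLattice.transfer hℓN (coord N i) (dual N j)

lemma transfer_coord (i : Fin (rk N)) (δ : Additive (Gamma0 N)) :
    HeckeLattice.transfer hℓN (coord N i) δ = ∑ j, coord N j δ * heckeMat hℓN j i := by
  rw [expand (fun n b hn h => (smul_eq_zero.mp h).resolve_left hn) _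
    ((HeckeLattice.gamma0System N ℓ hℓN).transfer_isParabolicHom (coord_isParabolicHom N i)) δ]
  rfl

lemma transfer_comb (c : Fin (rk N) → ZMod (p ^ k)) :
    HeckeLattice.transfer hℓN (comb p k c).1 =
      (comb p k (Matrix.mulVec ((heckeMat hℓN).map (Int.cast : ℤ → ZMod (p ^ k))) c)).1 := by
  have hc : (comb p k c).1 = ∑ i, (zmultiplesHom (ZMod (p ^ k)) (c i)).comp (coord N i) :=
    AddMonoidHom.ext fun δ => by
      rw [comb_apply, AddMonoidHom.finsetSum_apply]
      exact Finset.sum_congr rfl fun i _ => by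
        rw [AddMonoidHom.comp_apply, zmultiplesHom_apply, zsmul_eq_mul, mul_comm]
  refine AddMonoidHom.ext fun δ => ?_
  rw [hc, map_sum, AddMonoidHom.finsetSum_apply, comb_apply]
  simp only [← (HeckeLattice.gamma0System N ℓ hℓN).comp_transfer, AddMonoidHom.comp_apply,
    transfer_coord hℓN, zmultiplesHom_apply, zsmul_eq_mul, Int.cast_sum, Int.cast_mul,
    Finset.sum_mul, Matrix.mulVec, dotProduct, Matrix.map_apply]
  rw [Finset.sum_comm]
  exact Finset.sum_congr rfl fun j _ => Finset.sum_congr rfl fun i _ => by ring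

/-- The action commutes with the transfer matrices. -/
theorem tateRep_commute (g : GQ) :
    (heckeMat hℓN).map (Int.cast : ℤ → ℤ_[p]) * tateRep D g =
      tateRep D g * (heckeMat hℓN).map (Int.cast : ℤ → ℤ_[p]) := by
  refine ext_mod fun k => eq_of_mulVec_eq k fun c => Subtype.ext ?_
  have hT : ((heckeMat hℓN).map (Int.cast : ℤ → ℤ_[p])).map (PadicInt.toZModPow k) =
      (heckeMat hℓN).map (Int.cast : ℤ → ZMod (p ^ k)) := by ext i j; simp
  rw [Matrix.map_mul, Matrix.map_mul, hT, tateRep_map, ← Matrix.mulVec_mulVec,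
    ← Matrix.mulVec_mulVec, ← rep_comb, ← transfer_comb, ← rep_comb]
  exact D.hecke_comm k g ℓ hℓ.out hℓN _ _ (transfer_comb k hℓN c)

/-- The Eichler–Shimura relation at a Frobenius. -/
theorem tateRep_frobenius (hℓp : ℓ ≠ p) {A : ValuationSubring (AlgebraicClosure ℚ)}
    (hA : A.LiesOverPrime ℓ) {σ : GQ} (hσ : A.IsFrobeniusAt σ ℓ) :
    tateRep D σ * tateRep D σ - (heckeMat hℓN).map (Int.cast : ℤ → ℤ_[p]) * tateRep D σ +
      (ℓ : ℤ_[p]) • 1 = 0 := by
  refine ext_mod fun k => eq_of_mulVec_eq k fun c => Subtype.ext ?_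
  have hT : ((heckeMat hℓN).map (Int.cast : ℤ → ℤ_[p])).map (PadicInt.toZModPow k) =
      (heckeMat hℓN).map (Int.cast : ℤ → ZMod (p ^ k)) := by ext i j; simp
  have hsm : ((ℓ : ℤ_[p]) • (1 : Matrix (Fin (rk N)) (Fin (rk N)) ℤ_[p])).map
      (PadicInt.toZModPow k) = (ℓ : ZMod (p ^ k)) • (1 : Matrix _ _ (ZMod (p ^ k))) := by
    ext i j; simp [Matrix.one_apply, apply_ite (PadicInt.toZModPow k)]
  rw [Matrix.map_zero _ (map_zero _), Matrix.map_add _ (map_add _), Matrix.map_sub _ (map_sub _),
    Matrix.map_mul, Matrix.map_mul, hT, hsm, tateRep_map, Matrix.zero_mulVec]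
  refine AddMonoidHom.ext fun δ => ?_
  have h := DFunLike.congr_fun (D.frobenius k ℓ hℓ.out hℓN hℓp A hA σ hσ (comb p k c)) δ
  rw [rep_comb, rep_comb] at h
  simp only [AddMonoidHom.add_apply, AddMonoidHom.sub_apply, AddMonoidHom.zero_apply,
    AddMonoidHom.nsmul_apply, MonoidHom.toAdditive_id, AddMonoidHom.comp_id] at h
  rw [transfer_comb k hℓN] at h
  simp only [comb_apply, Matrix.add_mulVec, Matrix.sub_mulVec, Matrix.smul_mulVec,
    Matrix.one_mulVec, ← Matrix.mulVec_mulVec, Pi.add_apply, Pi.sub_apply, Pi.smul_apply,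
    smul_eq_mul, add_mul, sub_mul, Finset.sum_add_distrib, Finset.sum_sub_distrib,
    nsmul_eq_mul, Finset.mul_sum, mul_assoc, Pi.zero_apply, zero_mul, Finset.sum_const_zero] at h ⊢
  exact h

end Hecke

end Fermat.Agent.KummerES.Tate
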