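import Fermat.Agent.KummerES.BaseLead

/-!
# Charts at the cusps of level `M` and principal parts

A `Chart` is a coordinate `t` on the level `M` curve with a simple pole at `∞`, representatives of
the other cusps, and for each of them the inverse of `t - t(cusp)`. Every weakly holomorphic function
is a polynomial in these functions, with control of the coefficients.
-/

set_option autoImplicit false

noncomputable section

open UpperHalfPlane Filter Topology CongruenceSubgroup
open scoped Real MatrixGroups Manifold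

namespace Fermat.Agent.KummerES

/-- A coordinate at level `M`, read in `exp (2πiτ/L)`, `L = e M`. -/
structure Chart (M L : ℕ) [NeZero L] where
  /-- The ramification index. -/
  e : ℕ
  e_pos : 0 < e
  hL : L = e * M
  /-- The coordinate. -/
  t : ℍ → ℂ
  t_mem : t ∈ weak (Gamma M) L (zetaRing L)
  /-- Representatives of the finite-valued cusps. -/
  δ : Fin M → SL(2, ℤ)
  cover : ∀ g : SL(2, ℤ), ∃ (i : Option (Fin M)) (y : ℤ) (γ : SL(2, ℤ)), γ ∈ Gamma M ∧
    (g = γ * i.elim 1 δ * ModularGroup.T ^ y ∨ g = -(γ * i.elim 1 δ * ModularGroup.T ^ y))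
  /-- The value of `t` at a cusp. -/
  val : Fin M → ℂ
  val_mem : ∀ x, val x ∈ zetaRing L
  /-- The inverse of `t - val x`. -/
  inv : Fin M → ℍ → ℂ
  inv_mem : ∀ x, inv x ∈ weak (Gamma M) L (zetaRing L)
  inv_mul : ∀ x, (t - fun _ => val x) * inv x = 1
  t_inf : HasLead (zetaRing L) (expansion L t) (-(e : ℤ))
  t_reg : ∀ x, ∀ i < 0, (expansion L (comp t (δ x))).coeff i = 0
  inv_pole : ∀ x, HasLead (zetaRing L) (expansion L (comp (inv x) (δ x))) (-(e : ℤ))
  inv_reg : ∀ (x : Fin M) (i : Option (Fin M)), i ≠ some x →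
    ∀ j < 0, (expansion L (comp (inv x) (i.elim 1 δ))).coeff j = 0

/-- Coefficients in degrees prime to the width vanish. -/
lemma coeff_eq_zero_of_not_dvd {M L e : ℕ} [NeZero L] (hL : L = e * M) {B : Subring ℂ}
    {f : ℍ → ℂ} (hf : f ∈ weak (Gamma M) L B) (δ : SL(2, ℤ)) {i : ℤ} (hi : ¬ (e : ℤ) ∣ i) :
    (expansion L (comp f δ)).coeff i = 0 := by
  obtain ⟨-, hinv, hexp⟩ := hf
  obtain ⟨s, -, hs⟩ := hexp δ
  rw [hs.expansion_eq]
  have hT : ModularGroup.T ^ (M : ℤ) ∈ Gamma M := by
    rw [Gamma_mem, ModularGroup.coe_T_zpow]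
    simp
  have hc : comp (comp f δ) (ModularGroup.T ^ (M : ℤ)) = comp f δ := by
    rw [comp_comp, show δ * ModularGroup.T ^ (M : ℤ) =
      (δ * ModularGroup.T ^ (M : ℤ) * δ⁻¹) * δ by group, ← comp_comp,
      hinv _ ((Gamma_normal M).conj_mem _ hT δ)]
  have h1 := hs.comp_T_zpow (M : ℤ)
  rw [hc] at h1
  have h2 := congrArg (fun u : LaurentSeries ℂ => u.coeff i) (h1.series_eq hs)
  simp only [twist_coeff] at h2
  rw [← zpow_mul] at h2
  by_contra hne
  have h3 : zetaC L ^ ((M : ℤ) * i) = 1 := mul_right_cancel₀ hne (by rw [h2, one_mul])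
  rw [(isPrimitiveRoot_zetaC L).zpow_eq_one_iff_dvd, hL, Nat.cast_mul, mul_comm] at h3
  have hM : (M : ℤ) ≠ 0 := by
    have : M ≠ 0 := fun h0 => NeZero.ne L (by rw [hL, h0, mul_zero])
    exact_mod_cast this
  exact hi ((mul_dvd_mul_iff_left hM).mp h3)

/-- Remove the polar part of a series by a polynomial without constant term, with coefficients in
`I`. -/
lemma exists_kill {B : Subring ℂ} {e : ℕ} (he : 0 < e) (I : Submodule B ℂ) {u : LaurentSeries ℂ}
    (hu : HasLead B u (-(e : ℤ))) (hcu : u ∈ coeffSubring B) :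
    ∀ (n : ℕ) (s : LaurentSeries ℂ), (∀ i < -((n * e : ℕ) : ℤ), s.coeff i = 0) →
      (∀ i : ℤ, ¬ (e : ℤ) ∣ i → i < 0 → s.coeff i = 0) →
      (∀ i : ℤ, ¬ (e : ℤ) ∣ i → u.coeff i = 0) →
      (∀ i < 0, s.coeff i ∈ I) →
      ∃ c : ℕ → ℂ, (∀ k, c k ∈ I) ∧ ∀ i < 0,
        (s - ∑ k ∈ Finset.range n, HahnSeries.single 0 (c k) * u ^ (k + 1)).coeff i = 0 := by
  intro n
  induction n with
  | zero =>
    intro s hs _ _ _
    exact ⟨fun _ => 0, fun _ => I.zero_mem, fun i hi => by simpa using hs i (by simpa using hi)⟩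
  | succ n ih =>
    intro s hs hper huper hI
    have hup : HasLead B (u ^ (n + 1)) (-(((n + 1) * e : ℕ) : ℤ)) := by
      clear ih hs
      induction n with
      | zero => simpa using hu
      | succ m ihm =>
        have := ihm.mul hu
        rw [← pow_succ] at this
        convert this using 1
        push_cast; ring
    have hupmem : ∀ i, (u ^ (n + 1)).coeff i ∈ B := pow_mem hcu (n + 1)
    have huper' : ∀ (m : ℕ) (i : ℤ), ¬ (e : ℤ) ∣ i → (u ^ m).coeff i = 0 := by
      intro m
      induction m with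
      | zero =>
        intro i hi
        have : i ≠ 0 := fun h0 => hi (h0 ▸ dvd_zero _)
        simp [HahnSeries.coeff_one, this]
      | succ m ihm =>
        intro i hi
        rw [pow_succ, HahnSeries.coeff_mul]
        refine Finset.sum_eq_zero fun p hp => ?_
        have hp' := (Finset.mem_antidiagonal.mp hp).2.2
        by_cases h1 : (e : ℤ) ∣ p.1
        · rw [huper p.2 fun h2 => hi (hp' ▸ dvd_add h1 h2), mul_zero]
        · rw [ihm p.1 h1, zero_mul]
    set N : ℤ := -(((n + 1) * e : ℕ) : ℤ) with hN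
    set a : ℂ := ((u ^ (n + 1)).coeff N)⁻¹ * s.coeff N with ha
    have hNneg : N < 0 := by
      have : 0 < (n + 1) * e := by positivity
      omega
    have haI : a ∈ I := I.smul_mem (⟨_, hup.lead.inv_mem⟩ : B) (hI N hNneg)
    set s' := s - HahnSeries.single 0 a * u ^ (n + 1) with hs'
    have hcoef : ∀ i, s'.coeff i = s.coeff i - a * (u ^ (n + 1)).coeff i := fun i => by
      rw [hs', HahnSeries.coeff_sub, HahnSeries.coeff_single_mul, sub_zero]
    have h1 : ∀ i : ℤ, ¬ (e : ℤ) ∣ i → i < 0 → s'.coeff i = 0 := fun i hi hi0 => by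
      rw [hcoef, hper i hi hi0, huper' _ i hi, mul_zero, sub_zero]
    have h2 : ∀ i < -((n * e : ℕ) : ℤ), s'.coeff i = 0 := by
      intro i hi
      rcases lt_trichotomy i N with hlt | heq | hgt
      · rw [hcoef, hs i hlt, hup.below i hlt, mul_zero, sub_zero]
      · subst heq
        rw [hcoef, ha, mul_right_comm, inv_mul_cancel₀ hup.lead.ne_zero, one_mul, sub_self]
      · refine h1 i (fun hd => ?_) (by omega)
        obtain ⟨k, rfl⟩ := hd
        rw [hN] at hgt
        push_cast at hgt hi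
        have he' : (0 : ℤ) < e := by exact_mod_cast he
        have h3 : -((n : ℤ) + 1) < k := by nlinarith
        have h4 : k < -(n : ℤ) := by nlinarith
        omega
    have h3 : ∀ i < 0, s'.coeff i ∈ I := fun i hi => by
      rw [hcoef]
      refine I.sub_mem (hI i hi) ?_
      rw [mul_comm]
      exact I.smul_mem (⟨_, hupmem i⟩ : B) haI
    obtain ⟨c, hc, hc'⟩ := ih s' h2 h1 huper h3
    refine ⟨fun k => if k = n then a else c k, fun k => by
      by_cases hk : k = n <;> simp [hk, hc, haI], fun i hi => ?_⟩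
    have hsum : ∑ k ∈ Finset.range n, HahnSeries.single 0 (if k = n then a else c k) * u ^ (k + 1) =
        ∑ k ∈ Finset.range n, HahnSeries.single 0 (c k) * u ^ (k + 1) :=
      Finset.sum_congr rfl fun k hk => by rw [if_neg (Finset.mem_range.mp hk).ne]
    simp only [Finset.sum_range_succ, if_true, hsum]
    have := hc' i hi
    rw [hs'] at this
    rw [add_comm, ← sub_sub]
    exact this

namespace Chart

variable {M L : ℕ} [NeZero L] (C : Chart M L)

/-- All representatives of the cusps. -/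
def rep (i : Option (Fin M)) : SL(2, ℤ) := i.elim 1 C.δ

/-- The function with its only pole at the cusp `i`. -/
def u (i : Option (Fin M)) : ℍ → ℂ := i.elim C.t C.inv

/-- The representative of `∞` is the identity. -/
lemma rep_none : C.rep none = 1 := rfl

/-- The functions `u` are weakly holomorphic of level `M`. -/
lemma u_mem (i : Option (Fin M)) : C.u i ∈ weak (Gamma M) L (zetaRing L) := by
  cases i with
  | none => exact C.t_mem
  | some x => exact C.inv_mem x

/-- `u i` has a pole of exact order `e` at the cusp `i`. -/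
lemma u_pole (i : Option (Fin M)) :
    HasLead (zetaRing L) (expansion L (comp (C.u i) (C.rep i))) (-(C.e : ℤ)) := by
  cases i with
  | none => simpa [u, rep] using C.t_inf
  | some x => exact C.inv_pole x

/-- `u i` is regular at every cusp other than `i`. -/
lemma u_reg {i j : Option (Fin M)} (h : i ≠ j) :
    ∀ k < 0, (expansion L (comp (C.u i) (C.rep j))).coeff k = 0 := by
  cases i with
  | none =>
    cases j with
    | none => exact absurd rfl h
    | some y => exact C.t_reg y
  | some x => exact C.inv_reg x j (Ne.symm h)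

omit [NeZero L] in
/-- Enlarge the coefficient ring of a level `M` function from `zetaRing L` to `B`. -/
lemma weakB {B : Subring ℂ} (hB : zetaRing L ≤ B) {f : ℍ → ℂ}
    (hf : f ∈ weak (Gamma M) L (zetaRing L)) : f ∈ weak (Gamma M) L B :=
  weak_mono le_rfl hB hf

omit [NeZero L] in
lemma hasLeadB {B : Subring ℂ} (hB : zetaRing L ≤ B) {s : LaurentSeries ℂ} {n : ℤ}
    (h : HasLead (zetaRing L) s n) : HasLead B s n :=
  ⟨h.below, hB h.lead.1, let ⟨u, hu, hu'⟩ := h.lead.2; ⟨u, hB hu, hu'⟩⟩

/-- Negative coefficients at all cusps are controlled by the representatives. -/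
lemma forall_of_rep {B : Subring ℂ} (hB : zetaRing L ≤ B) {f : ℍ → ℂ}
    (hf : f ∈ weak (Gamma M) L B) (I : Submodule B ℂ) {P : ℤ → Prop}
    (h : ∀ i j, P j → (expansion L (comp f (C.rep i))).coeff j ∈ I) (g : SL(2, ℤ)) (j : ℤ)
    (hj : P j) : (expansion L (comp f g)).coeff j ∈ I := by
  obtain ⟨i, y, γ, hγ, hg⟩ := C.cover g
  have hkey : ∀ h : SL(2, ℤ), comp f (γ * h) = comp f h := fun h => by
    rw [← comp_comp, hf.2.1 γ hγ]
  have hc : comp f g = comp (comp f (C.rep i)) (ModularGroup.T ^ y) := by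
    rcases hg with rfl | rfl
    · rw [comp_comp, mul_assoc, hkey]; rfl
    · rw [comp_neg, comp_comp, mul_assoc, hkey]; rfl
  rw [hc, expansion_comp_T_zpow (hasExp_expansion hf _) y, twist_coeff]
  exact I.smul_mem (⟨_, (((unitIn_zetaC hB).zpow y).zpow j).1⟩ : B) (h i j hj)

include C in
/-- A function without poles at the cusps is constant. -/
lemma eq_const_of_regular {B : Subring ℂ} (hB : zetaRing L ≤ B) {f : ℍ → ℂ}
    (hf : f ∈ weak (Gamma M) L B)
    (h : ∀ i, ∀ j < 0, (expansion L (comp f (C.rep i))).coeff j = 0) :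
    f = fun _ => (expansion L f).coeff 0 := by
  have hall : ∀ g, ∀ j < 0, (expansion L (comp f g)).coeff j = 0 := fun g j hj =>
    (Submodule.mem_bot B).mp (C.forall_of_rep hB hf ⊥ (P := fun k : ℤ => k < 0)
      (fun i k hk => (Submodule.mem_bot B).mpr (h i k hk)) g j hj)
  have : NeZero M := ⟨fun h0 => NeZero.ne L (C.hL.trans (mul_eq_zero_of_right _ h0))⟩
  obtain ⟨c, hc⟩ := eq_const_of_bounded hf.1 hf.2.1 fun g =>
    ((hasExp_expansion hf g).tendsto_atImInfty (hall g)).isBigO_one ℝ
  rw [hc, (HasExp.const (L := L) c).expansion_eq]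
  simp

/-- A principal part at one cusp. -/
lemma exists_principal_one {B : Subring ℂ} (hB : zetaRing L ≤ B) (I : Submodule B ℂ)
    (hIB : ∀ x ∈ I, x ∈ B) (i : Option (Fin M)) (s : LaurentSeries ℂ)
    (hper : ∀ k : ℤ, ¬ (C.e : ℤ) ∣ k → k < 0 → s.coeff k = 0) (hI : ∀ k < 0, s.coeff k ∈ I) :
    ∃ b ∈ weak (Gamma M) L B, (∀ g k, (expansion L (comp b g)).coeff k ∈ I) ∧
      (∀ k < 0, (expansion L (comp b (C.rep i))).coeff k = s.coeff k) ∧
      (∀ j ≠ i, ∀ k < 0, (expansion L (comp b (C.rep j))).coeff k = 0) ∧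
      ∃ P : Polynomial B, ∀ τ, b τ = P.eval₂ B.subtype (C.u i τ) := by
  classical
  have hu := weakB hB (C.u_mem i)
  have hord : ∃ n : ℕ, ∀ k < -((n * C.e : ℕ) : ℤ), s.coeff k = 0 := by
    refine ⟨s.order.natAbs, fun k hk => HahnSeries.coeff_eq_zero_of_lt_order ?_⟩
    have h1 : s.order.natAbs ≤ s.order.natAbs * C.e := Nat.le_mul_of_pos_right _ C.e_pos
    omega
  obtain ⟨n, hn⟩ := hord
  obtain ⟨c, hc, hc'⟩ := exists_kill C.e_pos I (hasLeadB hB (C.u_pole i))
    (expansion_mem hu _) n s hn hper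
    (fun k hk => coeff_eq_zero_of_not_dvd C.hL hu _ hk) hI
  let cB : ℕ → B := fun k => ⟨c k, hIB _ (hc k)⟩
  refine ⟨∑ k ∈ Finset.range n, (fun _ => c k) * C.u i ^ (k + 1),
    sum_mem fun k _ => mul_mem (const_mem_weak (hIB _ (hc k))) (pow_mem hu _), ?_⟩
  have hexp : ∀ g, expansion L (comp (∑ k ∈ Finset.range n, (fun _ => c k) * C.u i ^ (k + 1)) g) =
      ∑ k ∈ Finset.range n, HahnSeries.single 0 (c k) * expansion L (comp (C.u i) g) ^ (k + 1) := by
    intro g
    have h := HasExp.finset_sum (Finset.range n) (F := fun k => (fun _ => c k) * comp (C.u i) g ^ (k + 1))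
      fun k _ => (HasExp.const (c k)).mul ((hasExp_expansion hu g).pow (k + 1))
    rw [← h.expansion_eq]
    congr 1
    funext τ
    simp [Finset.sum_apply]
  refine ⟨fun g k => ?_, fun k hk => ?_, fun j hj k hk => ?_, ?_⟩
  · rw [hexp, HahnSeries.coeff_sum]
    refine I.sum_mem fun m _ => ?_
    rw [HahnSeries.coeff_single_mul, sub_zero, mul_comm]
    exact I.smul_mem (⟨_, pow_mem (expansion_mem hu g) (m + 1) k⟩ : B) (hc m)
  · rw [hexp]
    have := hc' k hk
    rw [HahnSeries.coeff_sub, sub_eq_zero] at this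
    exact this.symm
  · rw [hexp, HahnSeries.coeff_sum]
    refine Finset.sum_eq_zero fun m _ => ?_
    rw [HahnSeries.coeff_single_mul, sub_zero]
    suffices h0 : ∀ p : ℕ, ∀ q < 0, (expansion L (comp (C.u i) (C.rep j)) ^ p).coeff q = 0 by
      rw [h0 _ k hk, mul_zero]
    intro p
    induction p with
    | zero => intro q hq; simp [HahnSeries.coeff_one, hq.ne]
    | succ p ih =>
      intro q hq
      rw [pow_succ, HahnSeries.coeff_mul]
      refine Finset.sum_eq_zero fun x hx => ?_
      have hx' := (Finset.mem_antidiagonal.mp hx).2.2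
      rcases lt_or_ge x.1 0 with h1 | h1
      · rw [ih _ h1, zero_mul]
      · rw [C.u_reg hj.symm x.2 (by omega), mul_zero]
  · refine ⟨∑ k ∈ Finset.range n, Polynomial.C (cB k) * Polynomial.X ^ (k + 1), fun τ => ?_⟩
    simp [Polynomial.eval₂_finsetSum, Finset.sum_apply, cB]

/-- Simultaneous principal parts. -/
lemma exists_principal {B : Subring ℂ} (hB : zetaRing L ≤ B) (I : Submodule B ℂ)
    (hIB : ∀ x ∈ I, x ∈ B) (s : Option (Fin M) → LaurentSeries ℂ)
    (hper : ∀ i, ∀ k : ℤ, ¬ (C.e : ℤ) ∣ k → k < 0 → (s i).coeff k = 0)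
    (hI : ∀ i, ∀ k < 0, (s i).coeff k ∈ I) :
    ∃ b ∈ weak (Gamma M) L B, (∀ g k, (expansion L (comp b g)).coeff k ∈ I) ∧
      (∀ i, ∀ k < 0, (expansion L (comp b (C.rep i))).coeff k = (s i).coeff k) := by
  classical
  choose b hb h1 h2 h3 h4 using fun i => C.exists_principal_one hB I hIB i (s i) (hper i) (hI i)
  refine ⟨∑ i, b i, sum_mem fun i _ => hb i, ?_⟩
  have hexp : ∀ g, expansion L (comp (∑ i, b i) g) = ∑ i, expansion L (comp (b i) g) := by
    intro g
    rw [← (HasExp.finset_sum Finset.univ fun i _ => hasExp_expansion (hb i) g).expansion_eq]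
    congr 1
    funext τ
    simp [Finset.sum_apply]
  refine ⟨fun g k => ?_, fun i k hk => ?_⟩
  · rw [hexp, HahnSeries.coeff_sum]
    exact I.sum_mem fun j _ => h1 j g k
  · rw [hexp, HahnSeries.coeff_sum, Finset.sum_eq_single i]
    · exact h2 i k hk
    · exact fun j _ hj => h3 j i hj.symm k hk
    · exact fun h => absurd (Finset.mem_univ i) h

end Chart

end Fermat.Agent.KummerES
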