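import Fermat.Agent.KummerES.BaseConst

/-!
# Leading terms of Laurent series with invertible leading coefficient

`HasLead B s n`: `s` starts in degree `n` with a coefficient which is a unit of `B ⊆ ℂ`; this is
stable under products, quotients and monomials.
-/

set_option autoImplicit false

noncomputable section

open UpperHalfPlane Filter Topology CongruenceSubgroup
open scoped Real MatrixGroups Manifold

namespace Fermat.Agent.KummerES

/-- `x` is a unit of the subring `B` of `ℂ`. -/
def UnitIn (B : Subring ℂ) (x : ℂ) : Prop := x ∈ B ∧ ∃ u ∈ B, x * u = 1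

namespace UnitIn

variable {B : Subring ℂ} {x y : ℂ}

/-- A unit is non-zero. -/
lemma ne_zero (h : UnitIn B x) : x ≠ 0 := by
  obtain ⟨-, u, -, hu⟩ := h
  exact left_ne_zero_of_mul_eq_one hu

/-- The inverse of a unit lies in `B`. -/
lemma inv_mem (h : UnitIn B x) : x⁻¹ ∈ B := by
  obtain ⟨-, u, hu, hxu⟩ := h
  rwa [inv_eq_of_mul_eq_one_right hxu]

/-- An element of `B` with inverse in `B` is a unit. -/
lemma mk' (hx : x ∈ B) (h0 : x ≠ 0) (hi : x⁻¹ ∈ B) : UnitIn B x :=
  ⟨hx, x⁻¹, hi, mul_inv_cancel₀ h0⟩

/-- A product of units is a unit. -/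
lemma mul (hx : UnitIn B x) (hy : UnitIn B y) : UnitIn B (x * y) :=
  mk' (mul_mem hx.1 hy.1) (mul_ne_zero hx.ne_zero hy.ne_zero)
    (by rw [mul_inv]; exact mul_mem hx.inv_mem hy.inv_mem)

/-- The inverse of a unit is a unit. -/
lemma inv (hx : UnitIn B x) : UnitIn B x⁻¹ :=
  mk' hx.inv_mem (inv_ne_zero hx.ne_zero) (by rw [inv_inv]; exact hx.1)

/-- A quotient of units is a unit. -/
lemma div (hx : UnitIn B x) (hy : UnitIn B y) : UnitIn B (x / y) := by
  rw [div_eq_mul_inv]; exact hx.mul hy.inv

/-- The negative of a unit is a unit. -/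
lemma neg (hx : UnitIn B x) : UnitIn B (-x) :=
  mk' (neg_mem hx.1) (neg_ne_zero.mpr hx.ne_zero) (by rw [inv_neg]; exact neg_mem hx.inv_mem)

/-- An integral power of a unit is a unit. -/
lemma zpow (hx : UnitIn B x) : ∀ n : ℤ, UnitIn B (x ^ n)
  | (n : ℕ) => by
    rw [zpow_natCast]
    induction n with
    | zero => exact mk' (by simp [one_mem]) (by simp) (by simp [one_mem])
    | succ k ih => rw [pow_succ]; exact ih.mul hx
  | Int.negSucc n => by
    rw [zpow_negSucc]
    refine UnitIn.inv ?_
    induction n with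
    | zero => simpa using hx
    | succ k ih => rw [pow_succ]; exact ih.mul hx

end UnitIn

/-- `s` starts in degree `n` with a coefficient invertible in `B`. -/
structure HasLead (B : Subring ℂ) (s : LaurentSeries ℂ) (n : ℤ) : Prop where
  below : ∀ i < n, s.coeff i = 0
  lead : UnitIn B (s.coeff n)

namespace HasLead

variable {B : Subring ℂ} {s t d : LaurentSeries ℂ} {n m : ℤ}

/-- A series with a leading term is non-zero. -/
lemma ne_zero (h : HasLead B s n) : s ≠ 0 := fun h0 => h.lead.ne_zero (by simp [h0])

lemma order_eq (h : HasLead B s n) : s.order = n := by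
  refine le_antisymm (HahnSeries.order_le_of_coeff_ne_zero h.lead.ne_zero) ?_
  by_contra hlt
  push Not at hlt
  exact h.ne_zero (HahnSeries.coeff_order_eq_zero.mp (h.below _ hlt))

/-- The leading coefficient is the one in the degree `n`. -/
lemma leadingCoeff_eq (h : HasLead B s n) : s.leadingCoeff = s.coeff n := by
  rw [HahnSeries.leadingCoeff_eq, h.order_eq]

lemma of_order (hn : s.order = n) (hu : UnitIn B s.leadingCoeff) : HasLead B s n where
  below i hi := HahnSeries.coeff_eq_zero_of_lt_order (hn ▸ hi)
  lead := by rwa [HahnSeries.leadingCoeff_eq, hn] at hu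

/-- Leading degrees add under multiplication. -/
lemma mul (h : HasLead B s n) (h' : HasLead B t m) : HasLead B (s * t) (n + m) := by
  refine of_order ?_ ?_
  · rw [HahnSeries.order_mul h.ne_zero h'.ne_zero, h.order_eq, h'.order_eq]
  · rw [HahnSeries.leadingCoeff_mul, h.leadingCoeff_eq, h'.leadingCoeff_eq]
    exact h.lead.mul h'.lead

/-- The leading degree of an exact quotient is the difference. -/
lemma of_mul_eq (h : HasLead B t n) (h' : HasLead B d m) (heq : s * d = t) :
    HasLead B s (n - m) := by
  have hs : s ≠ 0 := fun h0 => h.ne_zero (by rw [← heq, h0, zero_mul])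
  have h1 := HahnSeries.order_mul hs h'.ne_zero
  rw [heq, h.order_eq, h'.order_eq] at h1
  refine of_order (by omega) ?_
  have h2 := HahnSeries.leadingCoeff_mul s d
  rw [heq, h.leadingCoeff_eq, h'.leadingCoeff_eq] at h2
  have := h.lead.div h'.lead
  rwa [h2, mul_div_assoc, div_self h'.lead.ne_zero, mul_one] at this

/-- `1` leads in degree zero. -/
lemma one : HasLead B 1 0 where
  below i hi := by simp [HahnSeries.coeff_one, hi.ne]
  lead := by simpa using UnitIn.mk' (B := B) (one_mem B) one_ne_zero (by simp [one_mem])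

/-- An inverse series leads in the opposite degree. -/
lemma of_mul_eq_one (h : HasLead B d m) (heq : s * d = 1) : HasLead B s (-m) := by
  simpa using HasLead.one.of_mul_eq h heq

/-- A monomial with unit coefficient leads in its degree. -/
lemma single {c : ℂ} (hc : UnitIn B c) (n : ℤ) : HasLead B (HahnSeries.single n c) n where
  below i hi := by simp [hi.ne]
  lead := by simpa using hc

/-- A series with non-negative leading degree is regular. -/
lemma nonneg_below (h : HasLead B s n) (hn : 0 ≤ n) : ∀ i < 0, s.coeff i = 0 :=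
  fun i hi => h.below i (by omega)

end HasLead

/-- `zetaC L` is an `L`-th root of unity. -/
lemma zeta_pow_self (L : ℕ) [NeZero L] : zetaC L ^ L = 1 := (isPrimitiveRoot_zetaC L).pow_eq_one

/-- `zetaC L` is a unit of any ring containing `zetaRing L`. -/
lemma unitIn_zetaC {L : ℕ} [NeZero L] {B : Subring ℂ} (hB : zetaRing L ≤ B) :
    UnitIn B (zetaC L) := by
  obtain ⟨k, hk⟩ := Nat.exists_eq_add_one.mpr (Nat.pos_of_ne_zero (NeZero.ne L))
  refine ⟨hB (zetaC_mem_zetaRing L), zetaC L ^ k, pow_mem (hB (zetaC_mem_zetaRing L)) _, ?_⟩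
  rw [← pow_succ', ← hk, zeta_pow_self]

/-- Translation by `T ^ y` twists the expansion by `zetaC L ^ y`. -/
lemma expansion_comp_T_zpow {L : ℕ} [NeZero L] {f : ℍ → ℂ} {s : LaurentSeries ℂ} (h : HasExp L f s)
    (y : ℤ) : expansion L (comp f (ModularGroup.T ^ y)) =
      twist (zetaC L ^ y) (zpow_ne_zero y (zetaC_ne_zero L)) s :=
  (h.comp_T_zpow y).expansion_eq

end Fermat.Agent.KummerES
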