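import Fermat.Agent.KummerES.WpSeries

/-!
# Units in `ℤ[ζ_L, 1/L]` and leading coefficients of the torsion series

Differences of two torsion series have a leading coefficient which is a unit of `ℤ[ζ_L, 1/L]`.
-/

set_option autoImplicit false

noncomputable section

open scoped MatrixGroups

namespace Fermat.Agent.KummerES

variable {L : ℕ} [NeZero L]

lemma rootPow_mul_neg (x : ZMod L) : rootPow L x * rootPow L (-x) = 1 := by
  rw [← rootPow_add, add_neg_cancel, rootPow_zero]

lemma rootPow_injective : Function.Injective (rootPow L) := fun x y h =>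
  ZMod.val_injective L ((isPrimitiveRoot_zetaC L).pow_inj (ZMod.val_lt x) (ZMod.val_lt y) h)

variable (L) in
/-- A unit of `ℤ[ζ_L, 1/L]`. -/
def IsZUnit (u : ℂ) : Prop := u ∈ zetaRing L ∧ ∃ w ∈ zetaRing L, u * w = 1

namespace IsZUnit

variable {u u' : ℂ}

omit [NeZero L] in
/-- A product of units is a unit. -/
lemma mul (h : IsZUnit L u) (h' : IsZUnit L u') : IsZUnit L (u * u') := by
  obtain ⟨hu, w, hw, huw⟩ := h
  obtain ⟨hu', w', hw', huw'⟩ := h'
  exact ⟨mul_mem hu hu', w * w', mul_mem hw hw', by rw [mul_mul_mul_comm, huw, huw', one_mul]⟩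

omit [NeZero L] in
/-- The negative of a unit is a unit. -/
lemma neg (h : IsZUnit L u) : IsZUnit L (-u) := by
  obtain ⟨hu, w, hw, huw⟩ := h
  exact ⟨neg_mem hu, -w, neg_mem hw, by rw [neg_mul_neg, huw]⟩

omit [NeZero L] in
/-- The inverse of a unit is a unit. -/
lemma inv (h : IsZUnit L u) : IsZUnit L u⁻¹ := by
  obtain ⟨hu, w, hw, huw⟩ := h
  rw [← eq_inv_of_mul_eq_one_right huw]
  exact ⟨hw, u, hu, by rw [mul_comm, huw]⟩

omit [NeZero L] in
/-- A unit is non-zero. -/
lemma ne_zero (h : IsZUnit L u) : u ≠ 0 := by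
  obtain ⟨-, w, -, huw⟩ := h
  exact left_ne_zero_of_mul_eq_one huw

omit [NeZero L] in
/-- The inverse of a unit lies in `zetaRing L`. -/
lemma inv_mem (h : IsZUnit L u) : u⁻¹ ∈ zetaRing L := h.inv.1

end IsZUnit

lemma isZUnit_rootPow (x : ZMod L) : IsZUnit L (rootPow L x) :=
  ⟨rootPow_mem_zetaRing x, _, rootPow_mem_zetaRing (-x), rootPow_mul_neg x⟩

/-- `1 - rootPow L x` does not vanish for `x ≠ 0`. -/
lemma one_sub_rootPow_ne_zero {x : ZMod L} (hx : x ≠ 0) : 1 - rootPow L x ≠ 0 := fun h =>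
  hx (rootPow_injective (by rw [rootPow_zero]; exact (sub_eq_zero.mp h).symm))

lemma isZUnit_one_sub_rootPow {x : ZMod L} (hx : x ≠ 0) : IsZUnit L (1 - rootPow L x) := by
  have hzL : rootPow L x ^ L = 1 := by
    rw [rootPow, ← pow_mul, mul_comm, pow_mul, zetaC_pow_self L, one_pow]
  have hz1 : rootPow L x ≠ 1 := fun h => one_sub_rootPow_ne_zero hx (by rw [h, sub_self])
  have hmem := rootPow_mem_zetaRing x
  set z := rootPow L x
  refine ⟨sub_mem (one_mem _) hmem,
    -(L : ℂ)⁻¹ * ∑ i ∈ Finset.range L, (i : ℂ) * z ^ i,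
    mul_mem (neg_mem (inv_natCast_mem_zetaRing L))
      (sum_mem fun i _ => mul_mem (natCast_mem _ i) (pow_mem hmem i)), ?_⟩
  have hgeom : ∑ i ∈ Finset.range L, z ^ i = 0 := by
    rw [geom_sum_eq hz1, hzL, sub_self, zero_div]
  have hstep : (z - 1) * ∑ i ∈ Finset.range L, (i : ℂ) * z ^ i + z * ∑ i ∈ Finset.range L, z ^ i =
      (L : ℂ) := by
    rw [Finset.mul_sum, Finset.mul_sum, ← Finset.sum_add_distrib]
    have := Finset.sum_range_sub (fun i : ℕ => (i : ℂ) * z ^ i) L
    simp only [Nat.cast_zero, zero_mul, sub_zero, hzL, mul_one] at this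
    conv_rhs => rw [← this]
    exact Finset.sum_congr rfl fun i _ => by push_cast; ring
  rw [hgeom, mul_zero, add_zero] at hstep
  have hL : (L : ℂ) ≠ 0 := by exact_mod_cast NeZero.ne L
  calc (1 - z) * (-(L : ℂ)⁻¹ * ∑ i ∈ Finset.range L, (i : ℂ) * z ^ i)
      = (L : ℂ)⁻¹ * ((z - 1) * ∑ i ∈ Finset.range L, (i : ℂ) * z ^ i) := by ring
    _ = 1 := by rw [hstep, inv_mul_cancel₀ hL]

lemma isZUnit_rootPow_sub {x y : ZMod L} (h : x ≠ y) :
    IsZUnit L (rootPow L x - rootPow L y) := by
  have : rootPow L x - rootPow L y = rootPow L x * (1 - rootPow L (y - x)) := by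
    rw [mul_sub, mul_one, ← rootPow_add, add_sub_cancel]
  rw [this]
  exact (isZUnit_rootPow x).mul (isZUnit_one_sub_rootPow (sub_ne_zero.mpr h.symm))

/-! ### Pairs -/

namespace IsPair

omit [NeZero L]

variable {v w : Ind L}

/-- Pairs are symmetric. -/
lemma symm (h : IsPair v w) : IsPair w v :=
  ⟨h.right_ne_zero, h.left_ne_zero, h.ne.symm, fun h' => h.ne_neg (by rw [h', neg_neg])⟩

/-- The first vector of a pair may be negated. -/
lemma neg_left (h : IsPair v w) : IsPair (-v) w :=
  ⟨neg_ne_zero.mpr h.left_ne_zero, h.right_ne_zero, fun h' => h.ne_neg (by rw [← h', neg_neg]),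
    fun h' => h.ne (neg_injective h')⟩

/-- The second vector of a pair may be negated. -/
lemma neg_right (h : IsPair v w) : IsPair v (-w) := h.symm.neg_left.symm

end IsPair

/-! ### Coefficients -/

/-- The degree of the leading term of `wpSeries v`. -/
def vOrd (v : Ind L) : ℕ := min (v 0).val (-v 0).val

omit [NeZero L] in
lemma vOrd_neg (v : Ind L) : vOrd (-v) = vOrd v := by simp [vOrd, min_comm]

omit [NeZero L] in
/-- `vOrd v` vanishes exactly when `v 0` does. -/
lemma vOrd_eq_zero_iff {v : Ind L} : vOrd v = 0 ↔ v 0 = 0 := by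
  simp [vOrd, ZMod.val_eq_zero]

lemma two_mul_vOrd_le (v : Ind L) : 2 * vOrd v ≤ L := by
  simp only [vOrd, ZMod.neg_val]
  split_ifs with h
  · simp
  · have := ZMod.val_lt (v 0); omega

lemma isZUnit_wpCoeff_zero {v : Ind L} (hv : v ≠ 0) (h0 : v 0 = 0) :
    IsZUnit L (wpCoeff v 0) := by
  have h1 : v 1 ≠ 0 := fun h1 => hv (funext fun i => by fin_cases i <;> simp [h0, h1])
  simp only [wpCoeff, if_true, h0, div_eq_mul_inv]
  refine (isZUnit_rootPow _).mul ?_
  rw [sq]
  exact ((isZUnit_one_sub_rootPow h1).mul (isZUnit_one_sub_rootPow h1)).inv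

omit [NeZero L] in
/-- `vOrd v` bounds below every representative of `±v 0`. -/
lemma vOrd_le_of_cast_eq {v : Ind L} {j : ℕ} (h : (j : ZMod L) = v 0 ∨ (j : ZMod L) = -v 0) :
    vOrd v ≤ j := by
  rcases h with h | h
  · exact (min_le_left _ _).trans (by rw [← h, ZMod.val_natCast]; exact Nat.mod_le _ _)
  · exact (min_le_right _ _).trans (by rw [← h, ZMod.val_natCast]; exact Nat.mod_le _ _)

/-- The coefficients below `vOrd` vanish. -/
lemma wpCoeff_of_lt {v : Ind L} {m : ℕ} (hm : m < vOrd v) : wpCoeff v m = 0 := by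
  by_cases h : m = 0
  · subst h
    rw [wpCoeff, if_pos rfl, if_neg fun h0 : v 0 = 0 => hm.ne' (vOrd_eq_zero_iff.mpr h0)]
  · rw [wpCoeff, if_neg h]
    refine Finset.sum_eq_zero fun p hp => ?_
    obtain ⟨hp, hm0⟩ := Nat.mem_divisorsAntidiagonal.mp hp
    have hle : p.1 ≤ m := Nat.le_of_dvd (Nat.pos_of_ne_zero hm0) ⟨p.2, hp.symm⟩
    have : ¬ ((p.1 : ZMod L) = v 0 ∨ (p.1 : ZMod L) = -v 0) := fun hh =>
      absurd (vOrd_le_of_cast_eq hh) (by omega)
    push Not at this
    simp [this.1, this.2]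

/-- The leading coefficient when `v 0` is the smaller representative. -/
lemma wpCoeff_val {v : Ind L} (hle : (v 0).val ≤ (-v 0).val) (h0 : v 0 ≠ 0) :
    wpCoeff v (v 0).val =
      rootPow L (v 1) + if v 0 = -v 0 then rootPow L (-v 1) else 0 := by
  have hord : vOrd v = (v 0).val := min_eq_left hle
  have ha : (v 0).val ≠ 0 := by rwa [Ne, ZMod.val_eq_zero]
  rw [wpCoeff, if_neg ha, Finset.sum_eq_single ((v 0).val, 1)]
  · simp
  · intro p hp hne
    obtain ⟨hp, -⟩ := Nat.mem_divisorsAntidiagonal.mp hp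
    have : ¬ ((p.1 : ZMod L) = v 0 ∨ (p.1 : ZMod L) = -v 0) := fun hh => by
      have hle' := vOrd_le_of_cast_eq hh
      rw [hord] at hle'
      have hdvd : p.1 ∣ (v 0).val := ⟨p.2, hp.symm⟩
      have heq : p.1 = (v 0).val := le_antisymm (Nat.le_of_dvd (Nat.pos_of_ne_zero ha) hdvd) hle'
      refine hne (Prod.ext heq ?_)
      rw [heq] at hp
      exact (Nat.mul_eq_left ha).mp hp
    push Not at this
    simp [this.1, this.2]
  · intro h
    exact absurd (Nat.mem_divisorsAntidiagonal.mpr ⟨mul_one _, ha⟩) h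

omit [NeZero L] in
/-- Replace `v` by `-v` if necessary. -/
lemma exists_small_rep (v : Ind L) : ∃ v', (v' = v ∨ v' = -v) ∧ (v' 0).val ≤ (-v' 0).val := by
  rcases le_total (v 0).val (-v 0).val with h | h
  · exact ⟨v, Or.inl rfl, h⟩
  · exact ⟨-v, Or.inr rfl, by simpa using h⟩

/-- The leading coefficient of a difference is a unit, orders being distinct. -/
lemma wpCoeff_leading_of_lt {v w : Ind L} (hv : v ≠ 0) (hlt : vOrd v < vOrd w) :
    IsZUnit L (wpCoeff v (vOrd v) - wpCoeff w (vOrd v)) := by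
  rw [wpCoeff_of_lt hlt, sub_zero]
  by_cases h0 : v 0 = 0
  · rw [vOrd_eq_zero_iff.mpr h0]; exact isZUnit_wpCoeff_zero hv h0
  obtain ⟨v', hv', hle⟩ := exists_small_rep v
  have hord : vOrd v' = vOrd v := by rcases hv' with rfl | rfl <;> simp [vOrd_neg]
  have hc : wpCoeff v' (vOrd v) = wpCoeff v (vOrd v) := by
    rcases hv' with rfl | rfl <;> simp [wpCoeff_neg]
  have h0' : v' 0 ≠ 0 := by rcases hv' with rfl | rfl <;> simpa using h0
  rw [← hc, ← hord, show vOrd v' = (v' 0).val from min_eq_left hle, wpCoeff_val hle h0', if_neg,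
    add_zero]
  · exact isZUnit_rootPow _
  · intro heq
    have h2 : 2 * (v' 0).val = L := by
      have := congrArg ZMod.val heq
      rw [ZMod.neg_val, if_neg h0'] at this
      have := ZMod.val_lt (v' 0)
      omega
    have := two_mul_vOrd_le w
    have : vOrd v' = (v' 0).val := min_eq_left hle
    omega

/-- The leading coefficient of a difference is a unit, orders being equal. -/
lemma wpCoeff_leading_of_eq {v w : Ind L} (h : IsPair v w) (hord : vOrd v = vOrd w) :
    IsZUnit L (wpCoeff v (vOrd v) - wpCoeff w (vOrd v)) := by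
  obtain ⟨v', hv', hlev⟩ := exists_small_rep v
  obtain ⟨w', hw', hlew⟩ := exists_small_rep w
  have hordv : vOrd v' = vOrd v := by rcases hv' with rfl | rfl <;> simp [vOrd_neg]
  have hordw : vOrd w' = vOrd w := by rcases hw' with rfl | rfl <;> simp [vOrd_neg]
  have hcv : wpCoeff v' (vOrd v) = wpCoeff v (vOrd v) := by
    rcases hv' with rfl | rfl <;> simp [wpCoeff_neg]
  have hcw : wpCoeff w' (vOrd v) = wpCoeff w (vOrd v) := by
    rcases hw' with rfl | rfl <;> simp [wpCoeff_neg]
  have hp : IsPair v' w' := by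
    rcases hv' with rfl | rfl <;> rcases hw' with rfl | rfl
    exacts [h, h.neg_right, h.neg_left, h.neg_left.neg_right]
  have hv0 : (v' 0).val = vOrd v := by rw [← hordv]; exact (min_eq_left hlev).symm
  have hw0 : (w' 0).val = vOrd v := by rw [hord, ← hordw]; exact (min_eq_left hlew).symm
  have h00 : w' 0 = v' 0 := ZMod.val_injective L (hw0.trans hv0.symm)
  rw [← hcv, ← hcw]
  clear hcv hcw hv' hw'
  rw [← hv0]
  by_cases h0 : v' 0 = 0
  · rw [show (v' 0).val = 0 by simp [h0]]
    have hw0' : w' 0 = 0 := h00.trans h0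
    have hxy : v' 1 ≠ w' 1 := fun e =>
      hp.ne (funext fun i => by fin_cases i <;> simp [h0, hw0', e])
    have hxy' : v' 1 + w' 1 ≠ 0 := fun e => hp.ne_neg (funext fun i => by
      fin_cases i
      · simp [h0, hw0']
      · simp [eq_neg_of_add_eq_zero_left e])
    have hx : v' 1 ≠ 0 := fun e =>
      hp.left_ne_zero (funext fun i => by fin_cases i <;> simp [h0, e])
    have hy : w' 1 ≠ 0 := fun e =>
      hp.right_ne_zero (funext fun i => by fin_cases i <;> simp [hw0', e])
    have hxne := one_sub_rootPow_ne_zero hx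
    have hyne := one_sub_rootPow_ne_zero hy
    have key : wpCoeff v' 0 - wpCoeff w' 0 =
        (rootPow L (v' 1) - rootPow L (w' 1)) * (1 - rootPow L (v' 1 + w' 1)) *
          (((1 - rootPow L (v' 1)) * (1 - rootPow L (v' 1))) *
            ((1 - rootPow L (w' 1)) * (1 - rootPow L (w' 1))))⁻¹ := by
      simp only [wpCoeff, if_true, h0, hw0', rootPow_add]
      field_simp
      ring
    rw [key]
    exact ((isZUnit_rootPow_sub hxy).mul (isZUnit_one_sub_rootPow hxy')).mul
      (((isZUnit_one_sub_rootPow hx).mul (isZUnit_one_sub_rootPow hx)).mul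
        ((isZUnit_one_sub_rootPow hy).mul (isZUnit_one_sub_rootPow hy))).inv
  · have hw := wpCoeff_val hlew (by rwa [h00])
    rw [h00] at hw
    rw [wpCoeff_val hlev h0, hw]
    have hxy : v' 1 ≠ w' 1 := fun e =>
      hp.ne (funext fun i => by fin_cases i <;> simp [h00, e])
    split_ifs with h2
    · have hxy' : v' 1 + w' 1 ≠ 0 := fun e => hp.ne_neg (funext fun i => by
        fin_cases i
        · simp [h00, ← h2]
        · simp [eq_neg_of_add_eq_zero_left e])
      have key : rootPow L (v' 1) + rootPow L (-v' 1) - (rootPow L (w' 1) + rootPow L (-w' 1)) =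
          (rootPow L (v' 1) - rootPow L (w' 1)) * (1 - rootPow L (-(v' 1 + w' 1))) := by
        simp only [rootPow_neg, rootPow_add]
        have := rootPow_ne_zero (v' 1)
        have := rootPow_ne_zero (w' 1)
        field_simp
        ring
      rw [key]
      exact (isZUnit_rootPow_sub hxy).mul (isZUnit_one_sub_rootPow (neg_ne_zero.mpr hxy'))
    · simpa using isZUnit_rootPow_sub hxy

/-- A difference of two torsion series has a unit leading coefficient. -/
lemma exists_leading {v w : Ind L} (h : IsPair v w) :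
    ∃ a : ℕ, (∀ m < a, wpCoeff v m - wpCoeff w m = 0) ∧
      IsZUnit L (wpCoeff v a - wpCoeff w a) := by
  rcases lt_trichotomy (vOrd v) (vOrd w) with hlt | heq | hgt
  · exact ⟨vOrd v, fun m hm => by simp [wpCoeff_of_lt hm, wpCoeff_of_lt (hm.trans hlt)],
      wpCoeff_leading_of_lt h.left_ne_zero hlt⟩
  · exact ⟨vOrd v, fun m hm => by simp [wpCoeff_of_lt hm, wpCoeff_of_lt (heq ▸ hm)],
      wpCoeff_leading_of_eq h heq⟩
  · refine ⟨vOrd w, fun m hm => by simp [wpCoeff_of_lt hm, wpCoeff_of_lt (hm.trans hgt)], ?_⟩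
    simpa using (wpCoeff_leading_of_lt h.right_ne_zero hgt).neg

/-- A difference of two `wpSeries` has coefficients in `zetaRing L`. -/
lemma wpSeries_sub_mem {v w : Ind L} (hv : v ≠ 0) (hw : w ≠ 0) :
    wpSeries v - wpSeries w ∈ coeffSubring (zetaRing L) :=
  sub_mem (wpSeries_mem hv) (wpSeries_mem hw)

/-- The series attached to a pair differ. -/
lemma wpSeries_sub_ne_zero {v w : Ind L} (h : IsPair v w) : wpSeries v - wpSeries w ≠ 0 := by
  obtain ⟨a, -, ha⟩ := exists_leading h
  intro h0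
  exact ha.ne_zero (by simpa using congrArg (fun s : LaurentSeries ℂ => s.coeff (a : ℤ)) h0)

/-- The inverse of an integral series with unit leading coefficient is integral. -/
lemma inv_mem_coeffSubring {B : Subring ℂ} {s : LaurentSeries ℂ} (hs : s ∈ coeffSubring B) (a : ℤ)
    (hlow : ∀ i < a, s.coeff i = 0) {u : ℂ} (hu : u ∈ B) (hau : s.coeff a * u = 1) :
    s⁻¹ ∈ coeffSubring B := by
  let p : PowerSeries B := PowerSeries.mk fun n => ⟨s.coeff (a + n), hs _⟩
  let u' : Bˣ := ⟨⟨s.coeff a, hs a⟩, ⟨u, hu⟩, Subtype.ext hau,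
    Subtype.ext ((mul_comm _ _).trans hau)⟩
  have hp : IsUnit p := by
    rw [PowerSeries.isUnit_iff_constantCoeff]
    exact ⟨u', Subtype.ext (by simp [u', p])⟩
  obtain ⟨q, hq⟩ := hp.exists_right_inv
  let φ : PowerSeries B →+* LaurentSeries ℂ :=
    (HahnSeries.ofPowerSeries ℤ ℂ).comp (PowerSeries.map B.subtype)
  have hφmem : ∀ r, φ r ∈ coeffSubring B := fun r i => by
    rcases lt_or_ge i 0 with hi | hi
    · simp only [φ, RingHom.comp_apply, HahnSeries.ofPowerSeries_apply]
      rw [HahnSeries.embDomain_of_notMem_range fun ⟨n, hn⟩ => by simp at hn; omega]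
      exact zero_mem _
    · lift i to ℕ using hi
      simp [φ, HahnSeries.ofPowerSeries_apply_coeff]
  have hsp : s = HahnSeries.single a 1 * φ p := by
    ext i
    rw [HahnSeries.coeff_single_mul, one_mul]
    rcases lt_or_ge i a with hi | hi
    · simp only [φ, RingHom.comp_apply, HahnSeries.ofPowerSeries_apply]
      rw [hlow i hi, HahnSeries.embDomain_of_notMem_range fun ⟨n, hn⟩ => by simp at hn; omega]
    · obtain ⟨n, hn⟩ := Int.le.dest hi
      subst hn
      simp [φ, p, HahnSeries.ofPowerSeries_apply_coeff]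
  have hone : s * (HahnSeries.single (-a) 1 * φ q) = 1 := by
    rw [hsp, mul_mul_mul_comm, HahnSeries.single_mul_single, ← map_mul, hq, map_one]
    simp
  rw [inv_eq_of_mul_eq_one_right hone]
  exact mul_mem (single_mem_coeffSubring _ (one_mem _)) (hφmem q)

/-- For a pair, the inverse of the difference has coefficients in `zetaRing L`. -/
lemma wpSeries_sub_inv_mem {v w : Ind L} (h : IsPair v w) :
    (wpSeries v - wpSeries w)⁻¹ ∈ coeffSubring (zetaRing L) := by
  obtain ⟨a, hlow, ha⟩ := exists_leading h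
  refine inv_mem_coeffSubring (wpSeries_sub_mem h.left_ne_zero h.right_ne_zero) a
    (fun i hi => ?_) ha.inv_mem (by simpa using mul_inv_cancel₀ ha.ne_zero)
  rcases lt_or_ge i 0 with hi0 | hi0
  · simp [wpSeries_coeff_of_neg _ hi0]
  · lift i to ℕ using hi0
    simpa using hlow i (by exact_mod_cast hi)

/-! ### Actions on indices -/

omit [NeZero L] in
/-- `vAct` is a right action. -/
lemma vAct_mul (v : Ind L) (γ δ : SL(2, ℤ)) : vAct (vAct v γ) δ = vAct v (γ * δ) := by
  simp only [vAct, Matrix.vecMul_vecMul, Matrix.SpecialLinearGroup.coe_mul, Matrix.map_mul]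

omit [NeZero L] in
/-- The identity acts trivially. -/
@[simp] lemma vAct_one (v : Ind L) : vAct v 1 = v := by simp [vAct]

omit [NeZero L] in
/-- `vAct` commutes with negation. -/
lemma vAct_neg (v : Ind L) (γ : SL(2, ℤ)) : vAct (-v) γ = -vAct v γ := by
  simp [vAct, Matrix.neg_vecMul]

omit [NeZero L] in
/-- `Gamma L` acts trivially on vectors modulo `L`. -/
lemma vAct_of_mem_Gamma (v : Ind L) {γ : SL(2, ℤ)} (h : γ ∈ CongruenceSubgroup.Gamma L) :
    vAct v γ = v := by
  rw [CongruenceSubgroup.Gamma_mem] at h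
  have : ((γ : Matrix (Fin 2) (Fin 2) ℤ).map (Int.castRingHom (ZMod L))) = 1 := by
    ext i j
    fin_cases i <;> fin_cases j <;> simp [h.1, h.2.1, h.2.2.1, h.2.2.2]
  rw [vAct, this, Matrix.vecMul_one]

omit [NeZero L] in
/-- `vAct` preserves pairs. -/
lemma IsPair.vAct {v w : Ind L} (h : IsPair v w) (γ : SL(2, ℤ)) :
    IsPair (KummerES.vAct v γ) (KummerES.vAct w γ) := by
  have hinj : Function.Injective fun u : Ind L => KummerES.vAct u γ := fun x y hxy => by
    simpa [vAct_mul] using congrArg (fun u => KummerES.vAct u γ⁻¹) hxy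
  have h0 : KummerES.vAct (0 : Ind L) γ = 0 := by simp [KummerES.vAct]
  exact ⟨fun e => h.left_ne_zero (hinj (e.trans h0.symm)),
    fun e => h.right_ne_zero (hinj (e.trans h0.symm)), fun e => h.ne (hinj e),
    fun e => h.ne_neg (hinj (e.trans (vAct_neg w γ).symm))⟩

/-- The exponent of a conjugation is prime to `L`. -/
lemma coprime_of_conj {σ : ℂ →+* ℂ} {c : ℕ} (hσ : σ (zetaC L) = zetaC L ^ c) : c.Coprime L := by
  have := (isPrimitiveRoot_zetaC L).map_of_injective σ.injective
  rw [hσ] at this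
  exact ((isPrimitiveRoot_zetaC L).pow_iff_coprime (Nat.pos_of_ne_zero (NeZero.ne L)) c).mp this

omit [NeZero L] in
/-- Diagonal twists by units preserve pairs. -/
lemma IsPair.diagTwist {v w : Ind L} (h : IsPair v w) {c : ZMod L} (hc : IsUnit c) :
    IsPair (KummerES.diagTwist c v) (KummerES.diagTwist c w) := by
  have hinj : Function.Injective (KummerES.diagTwist c) := fun x y hxy => by
    have h0 := congrFun hxy 0
    have h1 := congrFun hxy 1
    simp only [KummerES.diagTwist, Matrix.cons_val_zero, Matrix.cons_val_one,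
      Matrix.cons_val_fin_one] at h0 h1
    funext i
    fin_cases i
    exacts [h0, hc.mul_left_cancel h1]
  have h0 : KummerES.diagTwist c (0 : Ind L) = 0 := by
    funext i; fin_cases i <;> simp [KummerES.diagTwist]
  exact ⟨fun e => h.left_ne_zero (hinj (e.trans h0.symm)),
    fun e => h.right_ne_zero (hinj (e.trans h0.symm)), fun e => h.ne (hinj e),
    fun e => h.ne_neg (hinj (e.trans (diagTwist_neg c w).symm))⟩

end Fermat.Agent.KummerES
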