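import Fermat.Agent.KummerES.BaseFromChart
import Fermat.Agent.KummerES.RatioAlgebra

/-!
# Ratios at `M`-torsion: invariance and orders at the cusps

For quadruples of `M`-torsion vectors, the ratio of differences of Weierstrass values is of level
`M`, is permuted by `SL(2, ℤ)`, and its order at a cusp is computed from the quadruple.
-/

set_option autoImplicit false

noncomputable section

open UpperHalfPlane CongruenceSubgroup
open scoped Real MatrixGroups Manifold

namespace Fermat.Agent.KummerES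

/-- Multiplication by `e`, as a map `ℤ/M → ℤ/eM`. -/
def tmap (L e : ℕ) {M : ℕ} (x : ZMod M) : ZMod L := (e : ZMod L) * (x.val : ZMod L)

/-- A vector at level `M` read at level `L = e M`. -/
def tv (L e : ℕ) {M : ℕ} (v : Ind M) : Ind L := fun i => tmap L e (v i)

section

variable {M L e : ℕ} [NeZero M] [NeZero L] (hL : L = e * M)

omit [NeZero L] in
include hL in
lemma tmap_intCast (n : ℤ) : tmap L e (n : ZMod M) = (e : ZMod L) * (n : ZMod L) := by
  subst hL
  have h : (n : ℤ) = ((n : ZMod M).val : ℤ) + M * (n / M) := by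
    rw [ZMod.val_intCast]; exact (Int.emod_add_mul_ediv n M).symm
  have h0 : (e : ZMod (e * M)) * (M : ZMod (e * M)) = 0 := by
    rw [← Nat.cast_mul, ZMod.natCast_self]
  conv_rhs => rw [h]
  push_cast
  rw [mul_add, ← mul_assoc, h0, zero_mul, add_zero]
  rfl

omit [NeZero L] in
include hL in
lemma tmap_add (x y : ZMod M) : tmap L e (x + y) = tmap L e x + tmap L e y := by
  obtain ⟨a, rfl⟩ := ZMod.intCast_surjective x
  obtain ⟨b, rfl⟩ := ZMod.intCast_surjective y
  rw [← Int.cast_add, tmap_intCast hL, tmap_intCast hL, tmap_intCast hL]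
  push_cast
  ring

omit [NeZero L] in
include hL in
lemma tmap_mul_intCast (x : ZMod M) (n : ℤ) :
    tmap L e (x * (n : ZMod M)) = tmap L e x * (n : ZMod L) := by
  obtain ⟨a, rfl⟩ := ZMod.intCast_surjective x
  rw [← Int.cast_mul, tmap_intCast hL, tmap_intCast hL]
  push_cast
  ring

omit [NeZero L] in
include hL in
lemma tmap_neg (x : ZMod M) : tmap L e (-x) = -tmap L e x := by
  simpa using tmap_mul_intCast hL x (-1)

omit [NeZero L] in
include hL in
lemma tmap_val (x : ZMod M) (he : 0 < e) : (tmap L e x).val = e * x.val := by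
  rw [tmap, ← Nat.cast_mul, ZMod.val_natCast, Nat.mod_eq_of_lt]
  rw [hL]
  exact Nat.mul_lt_mul_of_pos_left (ZMod.val_lt x) he

omit [NeZero L] in
include hL in
lemma tmap_injective (he : 0 < e) : Function.Injective (tmap L e (M := M)) := fun x y h => by
  have := congrArg ZMod.val h
  rw [tmap_val hL x he, tmap_val hL y he] at this
  exact ZMod.val_injective M (Nat.eq_of_mul_eq_mul_left he this)

omit [NeZero L] in
include hL in
lemma tv_vAct (v : Ind M) (g : SL(2, ℤ)) : vAct (tv L e v) g = tv L e (vAct v g) := by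
  funext j
  simp only [vAct, tv, Matrix.vecMul, dotProduct, Fin.sum_univ_two, Matrix.map_apply,
    eq_intCast, tmap_add hL, tmap_mul_intCast hL]

omit [NeZero L] in
include hL in
lemma tv_neg (v : Ind M) : tv L e (-v) = -tv L e v := funext fun i => tmap_neg hL (v i)

omit [NeZero L] in
include hL in
/-- `tv` preserves pairs. -/
lemma isPair_tv {v w : Ind M} (h : IsPair v w) (he : 0 < e) :
    IsPair (tv L e v) (tv L e w) := by
  have hinj : Function.Injective (tv L e (M := M)) := fun x y hxy =>
    funext fun i => tmap_injective hL he (congrFun hxy i)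
  have h0 : tv L e (0 : Ind M) = 0 := funext fun i => by simp [tv, tmap]
  exact ⟨fun e' => h.left_ne_zero (hinj (e'.trans h0.symm)),
    fun e' => h.right_ne_zero (hinj (e'.trans h0.symm)), fun e' => h.ne (hinj e'),
    fun e' => h.ne_neg (hinj (e'.trans (tv_neg hL w).symm))⟩

omit [NeZero L] in
include hL in
lemma vOrd_tv (v : Ind M) (he : 0 < e) : vOrd (tv L e v) = e * vOrd v := by
  rw [vOrd, tv, ← tmap_neg hL, tmap_val hL _ he, tmap_val hL _ he, Nat.mul_min_mul_left]
  rfl

lemma hasLead_wpSeries_sub {v w : Ind L} (h : IsPair v w) :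
    HasLead (zetaRing L) (wpSeries v - wpSeries w) (min (vOrd v) (vOrd w) : ℕ) where
  below i hi := by
    rcases lt_or_ge i 0 with h0 | h0
    · simp [wpSeries_coeff_of_neg _ h0]
    · lift i to ℕ using h0
      have hi' : i < min (vOrd v) (vOrd w) := by exact_mod_cast hi
      simp [wpCoeff_of_lt (lt_min_iff.mp hi').1, wpCoeff_of_lt (lt_min_iff.mp hi').2]
  lead := by
    rw [HahnSeries.coeff_sub, wpSeries_coeff_natCast, wpSeries_coeff_natCast]
    rcases lt_trichotomy (vOrd v) (vOrd w) with hlt | heq | hgt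
    · rw [min_eq_left hlt.le]; exact wpCoeff_leading_of_lt h.left_ne_zero hlt
    · rw [min_eq_left heq.le]; exact wpCoeff_leading_of_eq h heq
    · rw [min_eq_right hgt.le, ← neg_sub]
      exact (wpCoeff_leading_of_lt h.right_ne_zero hgt).neg

end

/-- Four vectors `(v, w, a, b)`, for the ratio `(℘_v - ℘_w) / (℘_a - ℘_b)`. -/
structure Quad (M : ℕ) where
  v : Ind M
  w : Ind M
  a : Ind M
  b : Ind M

namespace Quad

variable {M : ℕ}

/-- Both pairs are admissible. -/
def Valid (q : Quad M) : Prop :=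
  (q.v ≠ 0 ∧ q.w ≠ 0 ∧ q.v ≠ q.w ∧ q.v ≠ -q.w) ∧ (q.a ≠ 0 ∧ q.b ≠ 0 ∧ q.a ≠ q.b ∧ q.a ≠ -q.b)

instance (q : Quad M) : Decidable q.Valid := by unfold Valid; infer_instance

/-- The numerator of a valid quadruple is a pair. -/
lemma Valid.left {q : Quad M} (h : q.Valid) : IsPair q.v q.w :=
  ⟨h.1.1, h.1.2.1, h.1.2.2.1, h.1.2.2.2⟩

/-- The denominator of a valid quadruple is a pair. -/
lemma Valid.right {q : Quad M} (h : q.Valid) : IsPair q.a q.b :=
  ⟨h.2.1, h.2.2.1, h.2.2.2.1, h.2.2.2.2⟩

/-- The order at `∞` of the ratio, in units of the width. -/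
def ord (q : Quad M) : ℤ :=
  (min (vOrd q.v) (vOrd q.w) : ℕ) - (min (vOrd q.a) (vOrd q.b) : ℕ)

/-- Translate by a matrix. -/
def act (q : Quad M) (g : SL(2, ℤ)) : Quad M :=
  ⟨vAct q.v g, vAct q.w g, vAct q.a g, vAct q.b g⟩

/-- The identity fixes every quadruple. -/
@[simp] lemma act_one (q : Quad M) : q.act 1 = q := by simp [act]

/-- A translate of a valid quadruple is valid. -/
lemma Valid.act {q : Quad M} [NeZero M] (h : q.Valid) (g : SL(2, ℤ)) : (q.act g).Valid :=
  ⟨⟨(h.left.vAct g).left_ne_zero, (h.left.vAct g).right_ne_zero, (h.left.vAct g).ne,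
      (h.left.vAct g).ne_neg⟩,
    ⟨(h.right.vAct g).left_ne_zero, (h.right.vAct g).right_ne_zero, (h.right.vAct g).ne,
      (h.right.vAct g).ne_neg⟩⟩

variable {L : ℕ} [NeZero L] (D : RatioData L) (e : ℕ)

/-- The ratio attached to a quadruple. -/
def fn (q : Quad M) : ℍ → ℂ := D.ratio (tv L e q.v) (tv L e q.w) (tv L e q.a) (tv L e q.b)

variable [NeZero M] {e} {D}
variable (hL : L = e * M) (he : 0 < e)

include hL he in
/-- Translating the ratio translates the quadruple. -/
lemma fn_comp {q : Quad M} (h : q.Valid) (g : SL(2, ℤ)) :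
    comp (q.fn D e) g = (q.act g).fn D e := by
  simp only [fn, act, D.comp_eq g (isPair_tv hL h.left he) (isPair_tv hL h.right he), tv_vAct hL]

include hL he in
/-- The ratio of a valid quadruple is weakly holomorphic of level `M`. -/
lemma fn_mem {q : Quad M} (h : q.Valid) : q.fn D e ∈ weak (Gamma M) L (zetaRing L) := by
  obtain ⟨h1, -, h3⟩ := D.mem_weak (isPair_tv hL h.left he) (isPair_tv hL h.right he)
  refine ⟨h1, fun γ hγ => ?_, h3⟩
  rw [fn_comp hL he h]
  simp only [fn, act, vAct_of_mem_Gamma _ hγ]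

include hL he in
/-- The expansion of the ratio of a quadruple leads in degree `e * ord`. -/
lemma fn_lead {q : Quad M} (h : q.Valid)
    (hexp : ∀ {v w a b : Ind L}, IsPair v w → IsPair a b →
      expansion L (D.ratio v w a b) * (wpSeries a - wpSeries b) = wpSeries v - wpSeries w) :
    HasLead (zetaRing L) (expansion L (q.fn D e)) ((e : ℤ) * q.ord) := by
  have hl := isPair_tv hL h.left he
  have hr := isPair_tv hL h.right he
  have := (hasLead_wpSeries_sub hl).of_mul_eq (hasLead_wpSeries_sub hr) (hexp hl hr)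
  rw [vOrd_tv hL _ he, vOrd_tv hL _ he, vOrd_tv hL _ he, vOrd_tv hL _ he, Nat.mul_min_mul_left,
    Nat.mul_min_mul_left] at this
  rw [show q.fn D e = D.ratio (tv L e q.v) (tv L e q.w) (tv L e q.a) (tv L e q.b) from rfl,
    show (e : ℤ) * q.ord = ((e * min (vOrd q.v) (vOrd q.w) : ℕ) : ℤ) -
      ((e * min (vOrd q.a) (vOrd q.b) : ℕ) : ℤ) by simp only [ord]; push_cast; ring]
  exact this

end Quad

end Fermat.Agent.KummerES
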