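import Fermat.Agent.KummerES.ReductionHyp
import Mathlib.RingTheory.DedekindDomain.IntegralClosure
import Mathlib.RingTheory.DedekindDomain.AdicValuation
import Mathlib.RingTheory.DedekindDomain.Dvr
import Mathlib.RingTheory.Ideal.GoingUp
import Mathlib.FieldTheory.IntermediateField.Adjoin.Basic

/-!
# Enlarging the coefficient ring

A discrete valuation ring `B ⊆ ℂ` extends to a discrete valuation ring whose fraction field
contains finitely many given numbers algebraic over `B`.
-/

set_option autoImplicit false

noncomputable section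

namespace Fermat.Agent.KummerES

open IsDedekindDomain

variable {B : Subring ℂ} {π : ℂ} {n : ℕ}

/-- A discrete valuation ring extending `B`, with finitely many given algebraic numbers in its
fraction field. -/
theorem exists_coeffHyp_extend (hB : CoeffHyp B π n) (S : Finset ℂ)
    (hS : ∀ s ∈ S, IsAlgebraic B s) :
    ∃ (B' : Subring ℂ) (π' : ℂ), CoeffHyp B' π' n ∧ B ≤ B' ∧
      (∀ s ∈ S, ∃ a ∈ B', ∃ b ∈ B', b ≠ 0 ∧ b * s = a) ∧
      (∃ z ∈ B', π = π' * z) ∧
      ∀ x ∈ B, (∃ y ∈ B', x = π' * y) → ∃ y ∈ B, x = π * y := by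
  classical
  have := hB.dvr
  let : Algebra (FractionRing B) ℂ := FractionRing.liftAlgebra B ℂ
  have : IsScalarTower B (FractionRing B) ℂ := FractionRing.isScalarTower_liftAlgebra B ℂ
  let F : IntermediateField (FractionRing B) ℂ := IntermediateField.adjoin (FractionRing B) (S : Set ℂ)
  have : FiniteDimensional (FractionRing B) F :=
    IntermediateField.finiteDimensional_adjoin fun s hs =>
      IsAlgebraic.isIntegral ((hS s hs).extendScalars (IsFractionRing.injective B (FractionRing B)))
  have : CharZero (FractionRing B) :=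
    charZero_of_injective_ringHom (IsFractionRing.injective B (FractionRing B))
  let R := integralClosure B F
  have : IsDedekindDomain R := integralClosure.isDedekindDomain B (FractionRing B) F
  have : IsFractionRing R F :=
    integralClosure.isFractionRing_of_finite_extension (FractionRing B) F
  -- a prime of `R` over the maximal ideal
  let p : Ideal B := IsLocalRing.maximalIdeal B
  have hp : p = Ideal.span {(⟨π, hB.mem⟩ : B)} := hB.irred.maximalIdeal_eq
  have hinjF : Function.Injective (algebraMap B F) := fun x y h => by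
    have := congrArg (fun z : F => (z : ℂ)) h
    exact Subtype.ext this
  have hinj : Function.Injective (algebraMap B R) := fun x y h =>
    hinjF (congrArg Subtype.val h)
  obtain ⟨P, hPmax, hPp⟩ := Ideal.exists_ideal_over_maximal_of_isIntegral (S := R) p
    (by rw [(RingHom.injective_iff_ker_eq_bot _).mp hinj]; exact bot_le)
  have hπP : algebraMap B R ⟨π, hB.mem⟩ ∈ P := by
    rw [← Ideal.mem_comap, hPp, hp]
    exact Ideal.mem_span_singleton_self _
  have hPne : P ≠ ⊥ := fun h => hB.irred.ne_zero (hinj (by
    rw [h, Ideal.mem_bot] at hπP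
    rw [hπP, map_zero]))
  let v : HeightOneSpectrum R := ⟨P, hPmax.isPrime, hPne⟩
  let W := HeightOneSpectrum.valuationSubringAtPrime F v
  have hloc : IsLocalization.AtPrime W P :=
    Localization.subalgebra.isLocalization_ofField F v.asIdeal.primeCompl
      v.asIdeal.primeCompl_le_nonZeroDivisors
  have hW : IsDiscreteValuationRing W :=
    IsLocalization.AtPrime.isDiscreteValuationRing_of_dedekind_domain R (P := P) v.ne_bot W
  obtain ⟨w, hw⟩ := IsDiscreteValuationRing.exists_irreducible W
  let B' : Subring ℂ := W.toSubring.map F.val.toRingHom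
  let e : W ≃+* B' := W.toSubring.equivMapOfInjective F.val.toRingHom Subtype.val_injective
  have hmem : ∀ x : F, x ∈ W → (x : ℂ) ∈ B' := fun x hx => ⟨x, hx, rfl⟩
  have hR : ∀ r : R, (r : F) ∈ W := fun r => (algebraMap R W r).2
  have hle : B ≤ B' := fun x hx => hmem _ (hR (algebraMap B R ⟨x, hx⟩))
  refine ⟨B', ((w : F) : ℂ), ⟨?_, hmem _ w.2, ?_, hB.ne_zero, hle hB.unit, hle hB.zeta⟩, hle,
    ?_, ?_, ?_⟩
  · exact IsDiscreteValuationRing.RingEquivClass.isDiscreteValuationRing e
  · exact (MulEquiv.irreducible_iff e).mpr hw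
  · intro s hs
    obtain ⟨a, b, hb, hab⟩ := IsFractionRing.div_surjective (A := R)
      (⟨s, IntermediateField.subset_adjoin _ _ hs⟩ : F)
    refine ⟨_, hmem _ (hR a), _, hmem _ (hR b), ?_, ?_⟩
    · intro h0
      exact nonZeroDivisors.ne_zero hb (Subtype.ext (Subtype.ext h0))
    · have hb' : algebraMap R F b ≠ 0 :=
        IsFractionRing.to_map_ne_zero_of_mem_nonZeroDivisors hb
      rw [div_eq_iff hb'] at hab
      have := congrArg (fun z : F => (z : ℂ)) hab
      simp only [IntermediateField.coe_mul] at this
      rw [mul_comm]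
      exact this.symm
  · have hmax : IsLocalRing.maximalIdeal W = Ideal.span {w} := hw.maximalIdeal_eq
    have hπW : algebraMap R W (algebraMap B R ⟨π, hB.mem⟩) ∈ IsLocalRing.maximalIdeal W :=
      (IsLocalization.AtPrime.to_map_mem_maximal_iff W P _).mpr hπP
    rw [hmax, Ideal.mem_span_singleton'] at hπW
    obtain ⟨z, hz⟩ := hπW
    refine ⟨_, hmem _ z.2, ?_⟩
    have := congrArg (fun t : W => ((t : F) : ℂ)) hz
    rw [mul_comm]
    exact this.symm
  · rintro x hx ⟨y, ⟨y', hy', rfl⟩, hxy⟩
    by_contra hne
    have hu : IsUnit (⟨x, hx⟩ : B) := by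
      rw [← IsLocalRing.notMem_maximalIdeal]
      intro h
      rw [show IsLocalRing.maximalIdeal B = p from rfl, hp, Ideal.mem_span_singleton'] at h
      obtain ⟨a, ha⟩ := h
      exact hne ⟨a, a.2, by rw [mul_comm]; exact (congrArg Subtype.val ha).symm⟩
    have hu' : IsUnit (algebraMap R W (algebraMap B R ⟨x, hx⟩)) :=
      (hu.map (algebraMap B R)).map (algebraMap R W)
    refine hw.not_isUnit (isUnit_of_mul_isUnit_left (y := (⟨y', hy'⟩ : W)) ?_)
    have heq : w * ⟨y', hy'⟩ = algebraMap R W (algebraMap B R ⟨x, hx⟩) :=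
      Subtype.ext (Subtype.ext hxy.symm)
    rwa [heq]

end Fermat.Agent.KummerES
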