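import Fermat.Agent.KummerES.RootExpansion
import Fermat.Agent.KummerES.RatioExp
import Mathlib.Analysis.Complex.RemovableSingularity

/-!
# Division by functions with simple zeros

A holomorphic function vanishing at the simple zeros of another is a multiple of it, and the
cofactor has a Laurent expansion when the two functions have.
-/

set_option autoImplicit false

noncomputable section

open UpperHalfPlane Filter Topology CongruenceSubgroup
open scoped Real MatrixGroups Manifold

namespace Fermat.Agent.KummerES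

/-- A holomorphic function vanishing at the zeros, all simple, of another is a multiple of it. -/
theorem exists_mdiff_mul_eq {u w : ℍ → ℂ} (hu : MDiff u) (hw : MDiff w)
    (hw' : ∀ τ : ℍ, w τ = 0 → deriv (w ∘ ofComplex) τ ≠ 0)
    (hzero : ∀ τ, w τ = 0 → u τ = 0) : ∃ b : ℍ → ℂ, MDiff b ∧ w * b = u := by
  classical
  let b : ℍ → ℂ := fun τ =>
    if w τ = 0 then deriv (u ∘ ofComplex) τ / deriv (w ∘ ofComplex) τ else u τ / w τ
  refine ⟨b, fun τ => ?_, funext fun τ => ?_⟩
  swap
  · by_cases h : w τ = 0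
    · simp [h, hzero τ h]
    · simp only [Pi.mul_apply, b, if_neg h]
      field_simp
  rw [UpperHalfPlane.mdifferentiableAt_iff]
  have hU : IsOpen {z : ℂ | 0 < z.im} := isOpen_upperHalfPlaneSet
  have hU' : {z : ℂ | 0 < z.im} ∈ 𝓝 (τ : ℂ) := hU.mem_nhds τ.im_pos
  have hud := UpperHalfPlane.mdifferentiable_iff.mp hu
  have hwd := UpperHalfPlane.mdifferentiable_iff.mp hw
  by_cases h : w τ = 0
  · set U := u ∘ ofComplex with hUdef
    set W := w ∘ ofComplex with hWdef
    have hU0 : U τ = 0 := by simp [hUdef, ofComplex_apply, hzero τ h]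
    have hW0 : W τ = 0 := by simp [hWdef, ofComplex_apply, h]
    have hW1 : dslope W τ τ ≠ 0 := by rw [dslope_same]; exact hw' τ h
    have hdU : DifferentiableAt ℂ (dslope U τ) τ :=
      ((Complex.differentiableOn_dslope hU').mpr hud).differentiableAt hU'
    have hdW : DifferentiableAt ℂ (dslope W τ) τ :=
      ((Complex.differentiableOn_dslope hU').mpr hwd).differentiableAt hU'
    refine (hdU.div hdW hW1).congr_of_eventuallyEq ?_
    filter_upwards [hdW.continuousAt.eventually_ne hW1, hU'] with z hz hzim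
    rcases eq_or_ne z (τ : ℂ) with rfl | hne
    · simp [b, ofComplex_apply, h, dslope_same, hUdef, hWdef]
    · have hWz := sub_smul_dslope_of_zero hW0 z
      have hUz := sub_smul_dslope_of_zero hU0 z
      rw [smul_eq_mul] at hWz hUz
      have hWne : W z ≠ 0 := by
        rw [← hWz]
        exact mul_ne_zero (sub_ne_zero.mpr hne) hz
      have hWne' : w (ofComplex z) ≠ 0 := hWne
      simp only [Function.comp_apply, b, if_neg hWne']
      show U z / W z = dslope U τ z / dslope W τ z
      rw [← hUz, ← hWz, mul_div_mul_left _ _ (sub_ne_zero.mpr hne)]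
  · have hc : ∀ᶠ z in 𝓝 (τ : ℂ), w (ofComplex z) ≠ 0 :=
      (hwd.differentiableAt hU').continuousAt.eventually_ne (by simpa [ofComplex_apply] using h)
    refine ((hud.differentiableAt hU').div (hwd.differentiableAt hU')
      (by simpa [ofComplex_apply] using h)).congr_of_eventuallyEq ?_
    filter_upwards [hc] with z hz
    simp [b, hz]

/-- If a product has an expansion and one factor has a nonzero one, so does a periodic cofactor. -/
theorem exists_hasExp_of_mul {L : ℕ} [NeZero L] {u w : ℍ → ℂ} {r s : LaurentSeries ℂ}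
    (hu : MDiff u) (hper : comp u (ModularGroup.T ^ (L : ℤ)) = u) (hw : HasExp L w r) (hr : r ≠ 0)
    (hs : HasExp L (w * u) s) : ∃ S, HasExp L u S := by
  set k := r.order with hk
  set j := min s.order 0 with hj
  let v : ℍ → ℂ := (fun τ => (1 : ℂ) * qL L τ ^ (k - j)) * u
  have hw1 : HasExp L ((fun τ => (1 : ℂ) * qL L τ ^ (-k)) * w) (HahnSeries.single (-k) 1 * r) :=
    (HasExp.single (L := L) (-k) 1).mul hw
  have hw1' : Tendsto ((fun τ => (1 : ℂ) * qL L τ ^ (-k)) * w) atImInfty (𝓝 (r.coeff k)) := by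
    have := hw1.tendsto_atImInfty fun i hi => by
      rw [HahnSeries.coeff_single_mul, one_mul]
      exact HahnSeries.coeff_eq_zero_of_lt_order (by omega)
    simpa [HahnSeries.coeff_single_mul] using this
  have hp : HasExp L ((fun τ => (1 : ℂ) * qL L τ ^ (-j)) * (w * u)) (HahnSeries.single (-j) 1 * s) :=
    (HasExp.single (L := L) (-j) 1).mul hs
  have hp' := hp.tendsto_atImInfty fun i hi => by
    rw [HahnSeries.coeff_single_mul, one_mul]
    exact HahnSeries.coeff_eq_zero_of_lt_order (by omega)
  have hr0 : r.coeff k ≠ 0 := HahnSeries.coeff_order_eq_zero.not.mpr hr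
  have hb : IsBoundedAtImInfty v := by
    have h1 := hp'.div hw1' hr0
    refine ((h1.congr' ?_).isBigO_one ℝ)
    filter_upwards [hw1'.eventually_ne hr0] with τ hτ
    simp only [Pi.mul_apply, Pi.div_apply, v, one_mul] at hτ ⊢
    have hq := qL_ne_zero L τ
    rw [div_eq_iff hτ, sub_eq_add_neg, zpow_add₀ hq]
    have : qL L τ ^ k * qL L τ ^ (-k) = 1 := by rw [← zpow_add₀ hq, add_neg_cancel, zpow_zero]
    calc qL L τ ^ (-j) * (w τ * u τ)
        = (qL L τ ^ k * qL L τ ^ (-k)) * (qL L τ ^ (-j) * (w τ * u τ)) := by rw [this, one_mul]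
      _ = qL L τ ^ k * qL L τ ^ (-j) * u τ * (qL L τ ^ (-k) * w τ) := by ring
  have hvd : MDiff v := (HasExp.single (L := L) (k - j) 1).mdiff.mul hu
  have hvper : comp v (ModularGroup.T ^ (L : ℤ)) = v := funext fun τ => by
    show (1 : ℂ) * qL L (ModularGroup.T ^ (L : ℤ) • τ) ^ (k - j) * u (ModularGroup.T ^ (L : ℤ) • τ) = _
    rw [qL_T_zpow_smul, zpow_natCast, (isPrimitiveRoot_zetaC L).pow_eq_one, one_mul,
      show u (ModularGroup.T ^ (L : ℤ) • τ) = u τ from congrFun hper τ]
    simp [v]
  obtain ⟨S, hS⟩ := exists_hasExp_of_bounded hvd hvper hb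
  refine ⟨HahnSeries.single (-(k - j)) 1 * S, ?_⟩
  convert (HasExp.single (L := L) (-(k - j)) 1).mul hS using 1
  funext τ
  simp [v, ← mul_assoc, ← zpow_add₀ (qL_ne_zero L τ)]

end Fermat.Agent.KummerES
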