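import Fermat.Agent.KummerES.ConjugateLevel
import Fermat.Agent.KummerES.RootQuotient
import Mathlib.GroupTheory.Index
import Mathlib.Algebra.Polynomial.Roots
import Mathlib.NumberTheory.ModularForms.ArithmeticSubgroups

/-!
# Homomorphisms of the ring of weakly holomorphic functions

A ring homomorphism `weak (Γ(L)) → ℂ` fixing the constants is the evaluation at a point, and a
function vanishing at a point is, up to a factor nonzero there, divisible by `t - t τ`.
-/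

set_option autoImplicit false

noncomputable section

open UpperHalfPlane CongruenceSubgroup Polynomial
open scoped MatrixGroups Manifold

namespace Fermat.Agent.KummerES

variable {M L : ℕ} [NeZero L]

local notation "𝔸" => weak (Gamma L) L ⊤

/-- The coordinate, viewed at level `L`. -/
lemma t_mem_levelL (B : BaseData M L) (hML : M ∣ L) : B.t ∈ 𝔸 :=
  weak_mono (gamma_le_of_dvd hML) le_top B.t_mem

omit [NeZero L] in
/-- Functions of level `L` are stable under `comp`. -/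
lemma comp_mem_levelL {f : ℍ → ℂ} (hf : f ∈ 𝔸) (γ : SL(2, ℤ)) : comp f γ ∈ 𝔸 :=
  haveI : (Gamma L).Normal := Gamma_normal L
  comp_mem_weak hf γ

/-- The constants. -/
def constHom : ℂ →+* 𝔸 where
  toFun a := ⟨fun _ => a, const_mem_weak trivial⟩
  map_one' := rfl
  map_mul' _ _ := rfl
  map_zero' := rfl
  map_add' _ _ := rfl

omit [NeZero L] in
/-- Underlying function of a constant. -/
@[simp] lemma coe_constHom (a : ℂ) : ((constHom (L := L) a : 𝔸) : ℍ → ℂ) = fun _ => a := rfl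

/-- Evaluation at a point. -/
def evalHom (τ : ℍ) : 𝔸 →+* ℂ := (Pi.evalRingHom (fun _ => ℂ) τ).comp (Subring.subtype _)

omit [NeZero L] in
/-- `evalHom τ` is evaluation at `τ`. -/
@[simp] lemma evalHom_apply (τ : ℍ) (f : 𝔸) : evalHom τ f = (f : ℍ → ℂ) τ := rfl

/-- Products of translates by coset representatives of `Γ(L)` in `Γ(M)` are `Γ(M)`-invariant. -/
lemma exists_norm : ∃ (ι : Type) (_ : Fintype ι) (p : ι → SL(2, ℤ)),
    (∀ i, p i ∈ Gamma M) ∧ (∃ i, p i ∈ Gamma L) ∧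
    ∀ f ∈ 𝔸, (∏ i, comp f (p i)) ∈ weak (Gamma M) L ⊤ := by
  classical
  let H : Subgroup (Gamma M) := (Gamma L).subgroupOf (Gamma M)
  have : (Gamma L).Normal := Gamma_normal L
  have : H.Normal := Subgroup.normal_subgroupOf
  have : (Gamma L).FiniteIndex := by infer_instance
  have : Finite (Gamma M ⧸ H) := inferInstance
  let : Fintype (Gamma M ⧸ H) := Fintype.ofFinite _
  refine ⟨Gamma M ⧸ H, inferInstance, fun q => (q.out : Gamma M), fun q => (q.out : Gamma M).2,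
    ⟨((1 : Gamma M) : Gamma M ⧸ H), ?_⟩, fun f hf => ?_⟩
  · have h : (((1 : Gamma M) : Gamma M ⧸ H).out : Gamma M ⧸ H) = ((1 : Gamma M) : Gamma M ⧸ H) :=
      Quotient.out_eq' _
    exact Subgroup.mem_subgroupOf.mp ((QuotientGroup.eq_one_iff _).mp h)
  have hmem : ∀ q : Gamma M ⧸ H, comp f (q.out : Gamma M) ∈ 𝔸 := fun q => comp_mem_levelL hf _
  have hrep : ∀ g g' : Gamma M, (g : Gamma M ⧸ H) = g' →
      comp f (g : SL(2, ℤ)) = comp f g' := by
    intro g g' h
    have h1 : g' * g⁻¹ ∈ H := by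
      rw [← QuotientGroup.eq_one_iff, QuotientGroup.mk_mul, QuotientGroup.mk_inv, h, mul_inv_cancel]
    rw [Subgroup.mem_subgroupOf] at h1
    calc comp f (g : SL(2, ℤ)) = comp (comp f ((g' * g⁻¹ : Gamma M) : SL(2, ℤ))) g := by
          rw [hf.2.1 _ h1]
      _ = comp f g' := by simp [comp_comp]
  have hP : (∏ q : Gamma M ⧸ H, comp f ((q.out : Gamma M) : SL(2, ℤ))) ∈ 𝔸 :=
    Subring.prod_mem _ fun q _ => hmem q
  refine mem_weak.mpr ⟨(mem_weak.mp hP).1, fun g hg => ?_, (mem_weak.mp hP).2.2⟩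
  funext τ
  simp only [comp_apply, Finset.prod_apply]
  refine Fintype.prod_equiv (Equiv.mulRight ((⟨g, hg⟩ : Gamma M) : Gamma M ⧸ H)) _ _ fun q => ?_
  have := congrFun (hrep ((q * ((⟨g, hg⟩ : Gamma M) : Gamma M ⧸ H)).out) (q.out * ⟨g, hg⟩)
    (by rw [QuotientGroup.out_eq', QuotientGroup.mk_mul, QuotientGroup.out_eq'])) τ
  simp only [comp_apply, Subgroup.coe_mul, mul_smul] at this
  simpa [Equiv.coe_mulRight] using this.symm

/-- A homomorphism fixing constants takes at `t` a value in the image of `t`. -/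
lemma exists_t_eq (B : BaseData M L) (hML : M ∣ L) (e : 𝔸 →+* ℂ)
    (he : ∀ a, e (constHom a) = a) : ∃ τ, B.t τ = e ⟨B.t, t_mem_levelL B hML⟩ := by
  refine B.surj _ fun hmem => ?_
  obtain ⟨u, hu, hu1⟩ := B.inv_mem _ hmem
  have hprod : (⟨B.t, t_mem_levelL B hML⟩ - constHom (e ⟨B.t, t_mem_levelL B hML⟩)) *
      (⟨u, weak_mono (gamma_le_of_dvd hML) le_top hu⟩ : 𝔸) = 1 := Subtype.ext hu1
  have := congrArg e hprod
  rw [map_mul, map_sub, he, sub_self, zero_mul, map_one] at this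
  exact zero_ne_one this

/-- Homomorphisms agreeing at `t` with an evaluation agree with it on invariants. -/
lemma eq_eval_of_invariant (B : BaseData M L) (hML : M ∣ L) (e : 𝔸 →+* ℂ)
    (he : ∀ a, e (constHom a) = a) {τ : ℍ} (hτ : B.t τ = e ⟨B.t, t_mem_levelL B hML⟩)
    {a : ℍ → ℂ} (ha : a ∈ weak (Gamma M) L ⊤) :
    e ⟨a, weak_mono (gamma_le_of_dvd hML) le_rfl ha⟩ = a τ := by
  obtain ⟨n, P, hP⟩ := B.generated ⊤ le_top a ha
  set T : 𝔸 := ⟨B.t, t_mem_levelL B hML⟩ with hT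
  have hid : (⟨a, weak_mono (gamma_le_of_dvd hML) le_rfl ha⟩ : 𝔸) *
      (∏ c ∈ B.bad, (T - constHom c)) ^ n =
      P.eval₂ (constHom.comp (Subring.subtype ⊤)) T := by
    refine Subtype.ext (funext fun z => ?_)
    have h := hP z
    rw [← evalHom_apply (L := L) z, map_mul, map_pow, map_prod]
    rw [← evalHom_apply (L := L) z, Polynomial.hom_eval₂]
    simpa [T, hT, evalHom_apply, RingHom.comp_assoc] using! h
  have h := congrArg e hid
  have hne : ∏ c ∈ B.bad, (B.t τ - c) ≠ 0 := by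
    refine Finset.prod_ne_zero_iff.mpr fun c hc h0 => ?_
    obtain ⟨u, -, hu⟩ := B.inv_mem c hc
    have := congrFun hu τ
    simp [h0] at this
  have hcomp : e.comp (constHom.comp (Subring.subtype (⊤ : Subring ℂ))) =
      (Subring.subtype (⊤ : Subring ℂ)) := RingHom.ext fun x => he _
  rw [map_mul, map_pow, map_prod, Polynomial.hom_eval₂, hcomp, ← hτ] at h
  simp only [map_sub, he, ← hτ] at h
  rw [← hP τ] at h
  exact mul_right_cancel₀ (pow_ne_zero n hne) h

/-- A homomorphism fixing constants is an evaluation, at a point of any prescribed fibre of `t`. -/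
theorem exists_eq_eval (B : BaseData M L) (hML : M ∣ L) {ι : Type} [Fintype ι] {p : ι → SL(2, ℤ)}
    (hp1 : ∃ i, p i ∈ Gamma L)
    (hp : ∀ f ∈ 𝔸, (∏ i, comp f (p i)) ∈ weak (Gamma M) L ⊤)
    (e : 𝔸 →+* ℂ) (he : ∀ a, e (constHom a) = a) {τ : ℍ}
    (hτ : B.t τ = e ⟨B.t, t_mem_levelL B hML⟩) :
    ∃ i, ∀ f : 𝔸, e f = (f : ℍ → ℂ) (p i • τ) := by
  classical
  have h3 : ∀ f : 𝔸, ∃ i, e f = (f : ℍ → ℂ) (p i • τ) := by
    intro f
    set g : 𝔸 := f - constHom (e f) with hg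
    let N : 𝔸 := ∏ i, ⟨comp g.1 (p i), comp_mem_levelL g.2 _⟩
    obtain ⟨i₀, hi₀⟩ := hp1
    have hfac : (⟨comp g.1 (p i₀), comp_mem_levelL g.2 _⟩ : 𝔸) = g := Subtype.ext (g.2.2.1 _ hi₀)
    have heN : e N = 0 := by
      rw [map_prod]
      refine Finset.prod_eq_zero (Finset.mem_univ i₀) ?_
      rw [hfac, hg, map_sub, he, sub_self]
    have hN : N = ⟨_, weak_mono (gamma_le_of_dvd hML) le_rfl (hp g.1 g.2)⟩ :=
      Subtype.ext (by simp [N])
    rw [hN, eq_eval_of_invariant B hML e he hτ (hp g.1 g.2), Finset.prod_apply, Finset.prod_eq_zero_iff] at heN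
    obtain ⟨i, -, hi⟩ := heN
    refine ⟨i, ?_⟩
    have hi' : (f : ℍ → ℂ) (p i • τ) - e f = 0 := hi
    exact (sub_eq_zero.mp hi').symm
  by_contra hcon
  push Not at hcon
  choose a ha using hcon
  obtain ⟨k, ⟨o⟩⟩ := Finite.exists_equiv_fin ι
  let Q : ι → ℂ[X] := fun i => ∑ j : ι, Polynomial.C (e (a j) - (a j : ℍ → ℂ) (p i • τ)) * X ^ (o j : ℕ)
  have hQ : ∀ i, Q i ≠ 0 := by
    intro i h0
    have h := congrArg (fun q => Polynomial.coeff q (o i : ℕ)) h0
    simp only [Q, finsetSum_coeff, coeff_C_mul, coeff_X_pow, coeff_zero] at h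
    rw [Finset.sum_eq_single i] at h
    · simp only [↓reduceIte, mul_one] at h
      exact ha i (sub_eq_zero.mp h)
    · intro j _ hj
      rw [if_neg, mul_zero]
      exact fun hij => hj (o.injective (Fin.ext hij.symm))
    · exact fun h => absurd (Finset.mem_univ i) h
  obtain ⟨T, hT⟩ := Infinite.exists_notMem_finset (∏ i, Q i).roots.toFinset
  let f : 𝔸 := ∑ j, constHom (T ^ (o j : ℕ)) * a j
  obtain ⟨i, hi⟩ := h3 f
  refine hT (Multiset.mem_toFinset.mpr ((mem_roots (Finset.prod_ne_zero_iff.mpr fun i _ => hQ i)).mpr ?_))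
  rw [IsRoot, eval_prod]
  refine Finset.prod_eq_zero (Finset.mem_univ i) ?_
  simp only [f, map_sum, map_mul, he, AddSubmonoidClass.coe_finsetSum, Finset.sum_apply,
    MulMemClass.coe_mul, Pi.mul_apply, coe_constHom] at hi
  simp only [Q, eval_finsetSum, eval_mul, eval_C, eval_pow, eval_X, sub_mul, Finset.sum_sub_distrib]
  rw [sub_eq_zero]
  simpa [mul_comm] using hi

/-- A function vanishing at `τ` is, up to a factor nonzero at `τ`, divisible by `t - t τ`. -/
theorem exists_param (B : BaseData M L) (hML : M ∣ L) {τ : ℍ} {a : ℍ → ℂ} (ha : a ∈ 𝔸)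
    (ha0 : a τ = 0) :
    ∃ s b : ℍ → ℂ, s ∈ 𝔸 ∧ b ∈ 𝔸 ∧ s τ ≠ 0 ∧ s * a = (B.t - fun _ => B.t τ) * b := by
  classical
  obtain ⟨ι, _, p, -, hp1, hp⟩ := exists_norm (M := M) (L := L)
  let I : Finset ι := Finset.univ.filter fun i => ∃ f : 𝔸, (f : ℍ → ℂ) (p i • τ) ≠ (f : ℍ → ℂ) τ
  have hI : ∀ i ∈ I, ∃ f : 𝔸, (f : ℍ → ℂ) (p i • τ) ≠ (f : ℍ → ℂ) τ := fun i hi =>
    (Finset.mem_filter.mp hi).2
  choose f hf using hI
  let S : 𝔸 := ∏ i ∈ I.attach, (f i.1 i.2 - constHom ((f i.1 i.2 : ℍ → ℂ) (p i.1 • τ)))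
  have hS : ∀ z, (S : ℍ → ℂ) z =
      ∏ i ∈ I.attach, ((f i.1 i.2 : ℍ → ℂ) z - (f i.1 i.2 : ℍ → ℂ) (p i.1 • τ)) := fun z => by
    simp [S, Finset.prod_apply]
  have hSτ : (S : ℍ → ℂ) τ ≠ 0 := by
    rw [hS]
    exact Finset.prod_ne_zero_iff.mpr fun i _ => sub_ne_zero.mpr (hf i.1 i.2).symm
  set w : ℍ → ℂ := B.t - fun _ => B.t τ with hw
  have hwd : MDiff w := B.t_mem.1.sub mdifferentiable_const
  have hzero : ∀ z, w z = 0 → ((S : ℍ → ℂ) * a) z = 0 := by
    intro z hz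
    obtain ⟨i, hi⟩ := exists_eq_eval B hML hp1 hp (evalHom z) (fun _ => rfl) (τ := τ)
      (sub_eq_zero.mp hz).symm
    simp only [evalHom_apply] at hi
    show (S : ℍ → ℂ) z * a z = 0
    by_cases hiI : i ∈ I
    · rw [hi S, hS, Finset.prod_eq_zero (Finset.mem_attach I ⟨i, hiI⟩) (sub_self _), zero_mul]
    · rw [show a z = a (p i • τ) from hi ⟨a, ha⟩]
      have : a (p i • τ) = a τ := by
        by_contra h
        exact hiI (Finset.mem_filter.mpr ⟨Finset.mem_univ i, ⟨a, ha⟩, h⟩)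
      rw [this, ha0, mul_zero]
  have hw' : ∀ z : ℍ, w z = 0 → deriv (w ∘ ofComplex) z ≠ 0 := by
    intro z _
    have : w ∘ ofComplex = fun x => (B.t ∘ ofComplex) x - B.t τ := rfl
    rw [this, deriv_sub_const]
    exact B.deriv_ne z
  obtain ⟨b, hb, hwb⟩ := exists_mdiff_mul_eq (S.2.1.mul ha.1) hwd hw' hzero
  refine ⟨S, b, S.2, ?_, hSτ, hwb.symm⟩
  have hwA : w ∈ 𝔸 := sub_mem (t_mem_levelL B hML) (const_mem_weak trivial)
  have hw0 : w ≠ 0 := by
    intro h
    have := deriv_eq_zero_of_eq_zero h τ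
    exact hw' τ (by rw [h]; rfl) this
  have hinv : ∀ γ ∈ Gamma L, comp b γ = b := by
    intro γ hγ
    have h1 : comp (w * b) γ = w * b := by rw [hwb]; exact (mul_mem S.2 ha).2.1 γ hγ
    have h2 : w * (comp b γ - b) = 0 := by
      rw [mul_sub, sub_eq_zero]
      funext z
      have h3 := congrFun h1 z
      have h4 := congrFun (hwA.2.1 γ hγ) z
      simp only [comp_apply, Pi.mul_apply] at h3 h4 ⊢
      rwa [h4] at h3
    exact sub_eq_zero.mp (((UpperHalfPlane.mul_eq_zero_iff hwd ((mdiff_comp hb γ).sub hb)).mp h2).resolve_left hw0)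
  refine ⟨hb, hinv, fun δ => ?_⟩
  have hper : comp (comp b δ) (ModularGroup.T ^ (L : ℤ)) = comp b δ := by
    have hmem : δ * ModularGroup.T ^ (L : ℤ) * δ⁻¹ ∈ Gamma L :=
      (Gamma_normal L).conj_mem _ (by
        rw [Gamma_mem']
        ext i j
        rw [SL_reduction_mod_hom_val, ModularGroup.coe_T_zpow]
        fin_cases i <;> fin_cases j <;> simp) δ
    rw [comp_comp, show δ * ModularGroup.T ^ (L : ℤ) =
      δ * ModularGroup.T ^ (L : ℤ) * δ⁻¹ * δ by group, ← comp_comp, hinv _ hmem]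
  have hr : expansion L (comp w δ) ≠ 0 := by
    intro h0
    have h1 := hasExp_expansion hwA δ
    rw [h0] at h1
    refine hw0 (funext fun z => ?_)
    have := congrFun (h1.fun_eq HasExp.zero) (δ⁻¹ • z)
    simpa using this
  have hs : HasExp L (comp w δ * comp b δ) (expansion L (comp (S.1 * a) δ)) := by
    have h := hasExp_expansion (mul_mem S.2 ha) δ
    rwa [show comp w δ * comp b δ = comp (S.1 * a) δ by rw [← hwb]; rfl]
  obtain ⟨R, hR⟩ := exists_hasExp_of_mul (mdiff_comp hb δ) hper (hasExp_expansion hwA δ) hr hs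
  exact ⟨R, fun i => trivial, hR⟩
where
  deriv_eq_zero_of_eq_zero {w : ℍ → ℂ} (h : w = 0) (τ : ℍ) : deriv (w ∘ ofComplex) τ = 0 := by
    subst h
    exact deriv_const _ (0 : ℂ)

end Fermat.Agent.KummerES
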