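import Fermat.Agent.KummerES.Interface
import Fermat.Agent.KummerES.RootExpansion
import Fermat.Prelude.Thm_ModularCurve_coeffMap_qExpand

/-!
# Conjugation of weakly holomorphic functions by automorphisms of `ℂ`

`IsConj L c σ f f'` says that `f'` is the conjugate of `f` by `σ`, where `σ ζ_L = ζ_L ^ c`: at
every cusp `δ ∞` its expansion is `σ` applied to that of `f` at the twisted cusp.
-/

set_option autoImplicit false

noncomputable section

open UpperHalfPlane CongruenceSubgroup Matrix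
open scoped MatrixGroups Manifold

namespace Fermat.Agent.KummerES

open ModularCurve (coeffMap qExpand)

/-- The reduction modulo `L` of an element of `SL(2, ℤ)`. -/
def redMat (L : ℕ) (δ : SL(2, ℤ)) : Matrix (Fin 2) (Fin 2) (ZMod L) :=
  (δ : Matrix (Fin 2) (Fin 2) ℤ).map (Int.castRingHom (ZMod L))

/-- Reduction modulo `L` is multiplicative. -/
lemma redMat_mul (L : ℕ) (δ ε : SL(2, ℤ)) : redMat L (δ * ε) = redMat L δ * redMat L ε := by
  rw [redMat, Matrix.SpecialLinearGroup.coe_mul, Matrix.map_mul]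
  rfl

/-- Reduction modulo `L` fixes the identity. -/
@[simp] lemma redMat_one (L : ℕ) : redMat L 1 = 1 := by simp [redMat]

/-- `diag (1, c)`. -/
def diagMat (L : ℕ) (c : ℕ) : Matrix (Fin 2) (Fin 2) (ZMod L) := !![1, 0; 0, (c : ZMod L)]

/-- `δ' ≡ D δ D⁻¹` modulo `L`, with `D = diag (1, c)`. -/
def TwistRel (L c : ℕ) (δ δ' : SL(2, ℤ)) : Prop :=
  redMat L δ' * diagMat L c = diagMat L c * redMat L δ

/-- `1` is related to `1`. -/
lemma TwistRel.one (L c : ℕ) : TwistRel L c 1 1 := by simp [TwistRel]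

/-- The twist relation is multiplicative. -/
lemma TwistRel.mul {L c : ℕ} {δ δ' ε ε' : SL(2, ℤ)} (h : TwistRel L c δ δ')
    (h' : TwistRel L c ε ε') : TwistRel L c (δ * ε) (δ' * ε') := by
  rw [TwistRel, redMat_mul, redMat_mul, mul_assoc, h', ← mul_assoc, h, mul_assoc]

/-- The twist relation respects inverses. -/
lemma TwistRel.inv {L c : ℕ} {δ δ' : SL(2, ℤ)} (h : TwistRel L c δ δ') :
    TwistRel L c δ⁻¹ δ'⁻¹ := by
  unfold TwistRel at *
  calc redMat L δ'⁻¹ * diagMat L c
      = redMat L δ'⁻¹ * diagMat L c * (redMat L δ * redMat L δ⁻¹) := by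
        rw [← redMat_mul, mul_inv_cancel, redMat_one, mul_one]
    _ = redMat L δ'⁻¹ * (diagMat L c * redMat L δ) * redMat L δ⁻¹ := by simp only [mul_assoc]
    _ = redMat L δ'⁻¹ * (redMat L δ' * diagMat L c) * redMat L δ⁻¹ := by rw [h]
    _ = diagMat L c * redMat L δ⁻¹ := by
        rw [← mul_assoc (redMat L δ'⁻¹), ← redMat_mul, inv_mul_cancel, redMat_one, one_mul]

/-- The twist relation respects negation. -/
lemma TwistRel.neg {L c : ℕ} {δ δ' : SL(2, ℤ)} (h : TwistRel L c δ δ') :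
    TwistRel L c (-δ) (-δ') := by
  have hneg : ∀ ε : SL(2, ℤ), redMat L (-ε) = -redMat L ε := fun ε => by
    ext i j
    simp [redMat]
  rw [TwistRel, hneg, hneg, Matrix.neg_mul, Matrix.mul_neg, h]

/-- Twists of powers of `T`. -/
lemma TwistRel.T_zpow {L c : ℕ} {x m : ℤ} (h : ((x * c : ℤ) : ZMod L) = (m : ZMod L)) :
    TwistRel L c (ModularGroup.T ^ m) (ModularGroup.T ^ x) := by
  rw [TwistRel, redMat, redMat, ModularGroup.coe_T_zpow, ModularGroup.coe_T_zpow, diagMat]
  push_cast at h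
  ext i j
  fin_cases i <;> fin_cases j <;> simp [Matrix.mul_apply, Fin.sum_univ_two, h]

/-- Twists compose, multiplying the exponents. -/
lemma TwistRel.comp {L c d : ℕ} {δ δ₁ δ₂ : SL(2, ℤ)} (h₁ : TwistRel L c δ δ₁)
    (h₂ : TwistRel L d δ₁ δ₂) : TwistRel L (d * c) δ δ₂ := by
  have hD : diagMat L (d * c) = diagMat L d * diagMat L c := by
    simp [diagMat]
  rw [TwistRel, hD, ← mul_assoc, h₂, mul_assoc, h₁, ← mul_assoc]

/-- The twist relation descends to divisors of the level. -/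
lemma TwistRel.mono {L L' c : ℕ} (hLL' : L ∣ L') {δ δ' : SL(2, ℤ)} (h : TwistRel L' c δ δ') :
    TwistRel L c δ δ' := by
  have hred : ∀ ε, (redMat L' ε).map (ZMod.castHom hLL' (ZMod L)) = redMat L ε := fun ε => by
    ext i j; simp [redMat]
  have hD : (diagMat L' c).map (ZMod.castHom hLL' (ZMod L)) = diagMat L c := by
    ext i j
    fin_cases i <;> fin_cases j <;> simp [diagMat, ZMod.cast_one hLL']
  have := congrArg (fun M => M.map (ZMod.castHom hLL' (ZMod L))) h
  simp only [Matrix.map_mul, hred, hD] at this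
  exact this

/-- Every matrix has a twist by an exponent prime to the level. -/
lemma exists_twistRel_of_coprime {L c : ℕ} (hc : c.Coprime L) (δ : SL(2, ℤ)) :
    ∃ δ', TwistRel L c δ δ' := by
  obtain ⟨x, hx⟩ : ∃ x : ℤ, ((x * c : ℤ) : ZMod L) = 1 := by
    obtain ⟨a, b, hab⟩ := Nat.isCoprime_iff_coprime.mpr hc
    refine ⟨a, ?_⟩
    have := congrArg (Int.cast : ℤ → ZMod L) hab
    simpa using this
  let K : Subgroup SL(2, ℤ) :=
    { carrier := {δ | ∃ δ', TwistRel L c δ δ'}
      one_mem' := ⟨1, TwistRel.one L c⟩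
      mul_mem' := fun ⟨a', ha⟩ ⟨b', hb⟩ => ⟨a' * b', ha.mul hb⟩
      inv_mem' := fun ⟨a', ha⟩ => ⟨a'⁻¹, ha.inv⟩ }
  suffices K = ⊤ by
    have hmem : δ ∈ K := this ▸ Subgroup.mem_top δ
    exact hmem
  rw [eq_top_iff, ← SpecialLinearGroup.SL2Z_generators, Subgroup.closure_le]
  rintro s (rfl | rfl)
  · let lower : SL(2, ℤ) := ⟨!![1, 0; (c : ℤ), 1], by simp [Matrix.det_fin_two]⟩
    refine ⟨ModularGroup.T ^ (-x) * lower * ModularGroup.T ^ (-x), ?_⟩
    push_cast at hx
    rw [TwistRel, redMat_mul, redMat_mul, redMat, redMat, redMat, ModularGroup.coe_T_zpow,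
      ModularGroup.coe_S, diagMat]
    ext i j
    fin_cases i <;> fin_cases j <;>
      simp [lower, Matrix.mul_apply, Fin.sum_univ_two] <;>
      grind
  · refine ⟨ModularGroup.T ^ x, ?_⟩
    simpa using TwistRel.T_zpow (L := L) (c := c) (m := 1) (by simpa using hx)

/-- An automorphism sends `zetaC L` to a power with exponent prime to `L`. -/
lemma exists_pow_zetaC (L : ℕ) [NeZero L] (σ : ℂ →+* ℂ) :
    ∃ c : ℕ, c.Coprime L ∧ σ (zetaC L) = zetaC L ^ c := by
  have h := (isPrimitiveRoot_zetaC L).map_of_injective σ.injective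
  obtain ⟨i, -, hi, hiz⟩ := ((isPrimitiveRoot_zetaC L).isPrimitiveRoot_iff).mp h
  exact ⟨i, hi, hiz.symm⟩

/-- `f'` is the conjugate of `f` by `σ`. -/
def IsConj (L c : ℕ) (σ : ℂ →+* ℂ) (f f' : ℍ → ℂ) : Prop :=
  f ∈ weak (Gamma L) L ⊤ ∧ f' ∈ weak (Gamma L) L ⊤ ∧
    ∀ δ δ' : SL(2, ℤ), TwistRel L c δ δ' →
      expansion L (comp f' δ) = coeffMap σ (expansion L (comp f δ'))

/-- Conjugation exists at level `L`. -/
def HasConj (L : ℕ) : Prop :=
  ∀ (σ : ℂ →+* ℂ) (c : ℕ), σ (zetaC L) = zetaC L ^ c →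
    ∀ f ∈ weak (Gamma L) L ⊤, ∃ f', IsConj L c σ f f'

variable {L c : ℕ} [NeZero L] {σ : ℂ →+* ℂ} {f f' g g' : ℍ → ℂ}

omit [NeZero L] in
/-- The expansion at `∞` of a conjugate is the conjugated expansion. -/
lemma IsConj.expansion_eq (h : IsConj L c σ f f') :
    expansion L f' = coeffMap σ (expansion L f) := by
  simpa using h.2.2 1 1 (TwistRel.one L c)

/-- A function of level `Γ` is determined by its expansion at `∞`. -/
lemma eq_of_expansion_eq {Γ : Subgroup SL(2, ℤ)} (hf : f ∈ weak Γ L ⊤) (hg : g ∈ weak Γ L ⊤)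
    (h : expansion L f = expansion L g) : f = g := by
  have := expAt_injective (Γ := Γ) (L := L) (B := ⊤) 1 (a₁ := ⟨f, hf⟩) (a₂ := ⟨g, hg⟩)
    (by simpa [expAt_apply] using h)
  exact congrArg Subtype.val this

/-- Conjugates are unique. -/
lemma IsConj.unique (h : IsConj L c σ f f') (h' : IsConj L c σ f g') : f' = g' :=
  eq_of_expansion_eq h.2.1 h'.2.1 (h.expansion_eq.trans h'.expansion_eq.symm)

lemma expansion_comp_const (a : ℂ) (δ : SL(2, ℤ)) :
    expansion L (comp (fun _ => a) δ) = HahnSeries.single 0 a :=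
  HasExp.expansion_eq (HasExp.const a)

/-- The conjugate of a constant. -/
lemma IsConj.const (a : ℂ) : IsConj L c σ (fun _ => a) (fun _ => σ a) :=
  ⟨const_mem_weak trivial, const_mem_weak trivial, fun δ δ' _ => by
    rw [expansion_comp_const, expansion_comp_const, ModularCurve.coeffMap_single]⟩

/-- The conjugate of `1` is `1`. -/
lemma IsConj.one : IsConj L c σ 1 1 := by
  have := IsConj.const (L := L) (c := c) (σ := σ) 1
  rwa [map_one] at this

/-- The conjugate of `0` is `0`. -/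
lemma IsConj.zero : IsConj L c σ 0 0 := by
  have := IsConj.const (L := L) (c := c) (σ := σ) 0
  rwa [map_zero] at this

/-- Conjugation is additive. -/
lemma IsConj.add (h : IsConj L c σ f f') (h' : IsConj L c σ g g') :
    IsConj L c σ (f + g) (f' + g') := by
  refine ⟨add_mem h.1 h'.1, add_mem h.2.1 h'.2.1, fun δ δ' hδ => ?_⟩
  change expAt _ L ⊤ δ (⟨f', h.2.1⟩ + ⟨g', h'.2.1⟩) =
    coeffMap σ (expAt _ L ⊤ δ' (⟨f, h.1⟩ + ⟨g, h'.1⟩))
  rw [map_add, map_add, map_add, expAt_apply, expAt_apply, expAt_apply, expAt_apply,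
    h.2.2 δ δ' hδ, h'.2.2 δ δ' hδ]

/-- Conjugation is multiplicative. -/
lemma IsConj.mul (h : IsConj L c σ f f') (h' : IsConj L c σ g g') :
    IsConj L c σ (f * g) (f' * g') := by
  refine ⟨mul_mem h.1 h'.1, mul_mem h.2.1 h'.2.1, fun δ δ' hδ => ?_⟩
  change expAt _ L ⊤ δ (⟨f', h.2.1⟩ * ⟨g', h'.2.1⟩) =
    coeffMap σ (expAt _ L ⊤ δ' (⟨f, h.1⟩ * ⟨g, h'.1⟩))
  rw [map_mul, map_mul, map_mul, expAt_apply, expAt_apply, expAt_apply, expAt_apply,
    h.2.2 δ δ' hδ, h'.2.2 δ δ' hδ]

/-- Conjugation respects negation. -/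
lemma IsConj.neg (h : IsConj L c σ f f') : IsConj L c σ (-f) (-f') := by
  refine ⟨neg_mem h.1, neg_mem h.2.1, fun δ δ' hδ => ?_⟩
  change expAt _ L ⊤ δ (-⟨f', h.2.1⟩) = coeffMap σ (expAt _ L ⊤ δ' (-⟨f, h.1⟩))
  rw [map_neg, map_neg, map_neg, expAt_apply, expAt_apply, h.2.2 δ δ' hδ]

/-- Conjugation respects powers. -/
lemma IsConj.pow (h : IsConj L c σ f f') : ∀ k : ℕ, IsConj L c σ (f ^ k) (f' ^ k)
  | 0 => by simpa using IsConj.one
  | k + 1 => by simpa [pow_succ] using (h.pow k).mul h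

omit [NeZero L] in
/-- Conjugations compose. -/
lemma IsConj.comp_rel {d : ℕ} {τ : ℂ →+* ℂ} {f'' : ℍ → ℂ} (h : IsConj L d τ f f')
    (h' : IsConj L c σ f' f'') (hc : c.Coprime L) :
    IsConj L (d * c) (σ.comp τ) f f'' := by
  refine ⟨h.1, h'.2.1, fun δ δ₂ hδ => ?_⟩
  obtain ⟨δ₁, h₁⟩ := exists_twistRel_of_coprime hc δ
  have h₂ : TwistRel L d δ₁ δ₂ := by
    have hD : diagMat L (d * c) = diagMat L d * diagMat L c := by
      simp [diagMat]
    have hcu : IsUnit (c : ZMod L) := (ZMod.unitOfCoprime c hc).isUnit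
    have hDc : IsUnit (diagMat L c) := by
      rw [Matrix.isUnit_iff_isUnit_det, diagMat, Matrix.det_fin_two_of]
      simpa using hcu
    unfold TwistRel at hδ h₁ ⊢
    refine hDc.mul_right_cancel ?_
    rw [mul_assoc, ← hD, hδ, hD, mul_assoc, ← h₁, mul_assoc]
  rw [h'.2.2 δ δ₁ h₁, h.2.2 δ₁ δ₂ h₂, ModularCurve.coeffMap_coeffMap]

/-- Invariance under a stable group is preserved. -/
lemma IsConj.comp_eq (h : IsConj L c σ f f') {γ γ' : SL(2, ℤ)} (hγ : TwistRel L c γ γ')
    (hinv : comp f γ' = f) : comp f' γ = f' :=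
  haveI : (Gamma L).Normal := Gamma_normal L
  eq_of_expansion_eq (comp_mem_weak h.2.1 γ) h.2.1 (by
    rw [h.2.2 γ γ' hγ, hinv, h.expansion_eq])

/-- A function whose expansion is fixed by `σ` is its own conjugate. -/
lemma IsConj.of_fixed (h : IsConj L c σ f f')
    (hfix : coeffMap σ (expansion L f) = expansion L f) : IsConj L c σ f f := by
  have : f' = f := eq_of_expansion_eq h.2.1 h.1 (h.expansion_eq.trans hfix)
  exact this ▸ h

/-- Conjugation exists as soon as the conjugates of a generating set do. -/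
theorem hasConj_of_generators (G : Set (ℍ → ℂ))
    (hG : ∀ (σ : ℂ →+* ℂ) (c : ℕ), σ (zetaC L) = zetaC L ^ c → ∀ f ∈ G, ∃ f', IsConj L c σ f f')
    (hgen : ∀ f ∈ weak (Gamma L) L ⊤,
      f ∈ Subring.closure ((Set.range fun a : ℂ => fun _ : ℍ => a) ∪ G)) : HasConj L := by
  intro σ c hc f hf
  have key : ∀ x ∈ Subring.closure ((Set.range fun a : ℂ => fun _ : ℍ => a) ∪ G),
      ∃ x', IsConj L c σ x x' := by
    intro x hx
    induction hx using Subring.closure_induction with
    | mem x hx =>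
      rcases hx with ⟨a, rfl⟩ | hx
      · exact ⟨_, IsConj.const a⟩
      · exact hG σ c hc x hx
    | zero => exact ⟨0, IsConj.zero⟩
    | one => exact ⟨1, IsConj.one⟩
    | add x y _ _ ihx ihy => exact ⟨_, ihx.choose_spec.add ihy.choose_spec⟩
    | neg x _ ihx => exact ⟨_, ihx.choose_spec.neg⟩
    | mul x y _ _ ihx ihy => exact ⟨_, ihx.choose_spec.mul ihy.choose_spec⟩
  exact key f (hgen f hf)

/-- Ratios of Weierstrass differences have conjugates. -/
theorem RatioData.isConj_ratio (D : RatioData L) (hσ : σ (zetaC L) = zetaC L ^ c)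
    (hc : c.Coprime L) {v w a b : Ind L} (hvw : IsPair v w) (hab : IsPair a b) :
    IsConj L c σ (D.ratio v w a b)
      (D.ratio (diagTwist c v) (diagTwist c w) (diagTwist c a) (diagTwist c b)) := by
  have hu : IsUnit (c : ZMod L) := (ZMod.unitOfCoprime c hc).isUnit
  have hinj : Function.Injective (diagTwist (L := L) (c : ZMod L)) := fun x y h => by
    ext i
    fin_cases i
    · simpa [diagTwist] using congrFun h 0
    · exact hu.mul_left_cancel (by simpa [diagTwist] using congrFun h 1)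
  have hneg : ∀ x : Ind L, diagTwist (c : ZMod L) (-x) = -diagTwist (c : ZMod L) x := fun x => by
    ext i; fin_cases i <;> simp [diagTwist]
  have hzero : diagTwist (c : ZMod L) (0 : Ind L) = 0 := by
    ext i; fin_cases i <;> simp [diagTwist]
  have htw : ∀ {x y : Ind L}, IsPair x y → IsPair (diagTwist (c : ZMod L) x) (diagTwist c y) :=
    fun h => ⟨fun e => h.left_ne_zero (hinj (e.trans hzero.symm)),
      fun e => h.right_ne_zero (hinj (e.trans hzero.symm)), fun e => h.ne (hinj e),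
      fun e => h.ne_neg (hinj (e.trans (hneg _).symm))⟩
  have hdiag : ∀ x : Ind L, diagTwist (c : ZMod L) x = x ᵥ* diagMat L c := fun x => by
    ext i
    fin_cases i <;> simp [diagTwist, diagMat, vecMul, dotProduct, Fin.sum_univ_two, mul_comm]
  refine ⟨weak_mono le_rfl le_top (D.mem_weak hvw hab),
    weak_mono le_rfl le_top (D.mem_weak (htw hvw) (htw hab)), fun δ δ' hδ => ?_⟩
  have hact : ∀ x : Ind L, vAct (diagTwist (c : ZMod L) x) δ = diagTwist c (vAct x δ') := fun x => by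
    rw [hdiag, hdiag]
    show x ᵥ* diagMat L c ᵥ* redMat L δ = x ᵥ* redMat L δ' ᵥ* diagMat L c
    rw [Matrix.vecMul_vecMul, Matrix.vecMul_vecMul, hδ]
  have hvAct : ∀ {x y : Ind L}, IsPair x y → IsPair (vAct x δ') (vAct y δ') := by
    have hinj' : Function.Injective fun x : Ind L => vAct x δ' := fun x y h => by
      have := congrArg (fun z => vAct z δ'⁻¹) h
      change x ᵥ* redMat L δ' ᵥ* redMat L δ'⁻¹ = y ᵥ* redMat L δ' ᵥ* redMat L δ'⁻¹ at this
      simpa [Matrix.vecMul_vecMul, ← redMat_mul] using this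
    intro x y h
    exact ⟨fun e => h.left_ne_zero (hinj' (e.trans (by simp [vAct]))),
      fun e => h.right_ne_zero (hinj' (e.trans (by simp [vAct]))), fun e => h.ne (hinj' e),
      fun e => h.ne_neg (hinj' (e.trans (by simp [vAct, Matrix.neg_vecMul])))⟩
  rw [D.comp_eq δ (htw hvw) (htw hab), D.comp_eq δ' hvw hab, hact, hact, hact, hact,
    D.conj_eq σ c hσ (hvAct hvw) (hvAct hab)]

end Fermat.Agent.KummerES
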