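import Fermat.Agent.KummerES.RootPow
import Fermat.Agent.KummerES.EisensteinSeries

/-!
# Every parabolic character is the multiplier of a Kummer root

`kummerFun χ = E_χ / Δ`, where `E_χ` is the weight 12 Eisenstein series on bottom rows of `Γ`
twisted by `χ`.
-/

set_option autoImplicit false

noncomputable section

open UpperHalfPlane Filter Topology CongruenceSubgroup EisensteinSeries ModularCurve.Period
open scoped Real MatrixGroups Manifold ModularForm Matrix

namespace Fermat.Agent.KummerES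

variable {Γ : Subgroup SL(2, ℤ)} {n : ℕ} [NeZero n]

/-- The bottom row. -/
def bottomRow (γ : SL(2, ℤ)) : Fin 2 → ℤ := (γ : Matrix (Fin 2) (Fin 2) ℤ) 1

lemma bottomRow_mul (γ δ : SL(2, ℤ)) : bottomRow (γ * δ) = bottomRow γ ᵥ* δ := by
  ext j
  simp [bottomRow, Matrix.mul_apply, Matrix.vecMul, dotProduct, Fin.sum_univ_two]

open Classical in
/-- The weight on bottom rows: `ζ^(-χ γ)` on the row of `γ ∈ Γ`, zero on other vectors. -/
def rowWeight (χ : Additive Γ →+ ZMod n) (v : Fin 2 → ℤ) : ℂ :=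
  if h : ∃ γ : Γ, bottomRow γ = v then rootPow n (-χ (Additive.ofMul h.choose)) else 0

lemma norm_rowWeight_le (χ : Additive Γ →+ ZMod n) (v : Fin 2 → ℤ) : ‖rowWeight χ v‖ ≤ 1 := by
  unfold rowWeight
  split_ifs
  · rw [norm_rootPow]
  · simp

omit [NeZero n] in
lemma eq_of_bottomRow_eq {χ : Additive Γ →+ ZMod n} (hχ : IsParabolicHom Γ χ) {γ δ : Γ}
    (h : bottomRow γ = bottomRow δ) : χ (Additive.ofMul γ) = χ (Additive.ofMul δ) := by
  set α : Γ := γ * δ⁻¹ with hα
  have h1 : bottomRow (α : SL(2, ℤ)) = ![0, 1] := by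
    rw [hα, Subgroup.coe_mul, bottomRow_mul, h, ← bottomRow_mul, Subgroup.coe_inv, mul_inv_cancel]
    ext j
    fin_cases j <;> simp [bottomRow]
  have h10 : (α : SL(2, ℤ)) 1 0 = 0 := congrFun h1 0
  have h11 : (α : SL(2, ℤ)) 1 1 = 1 := congrFun h1 1
  have hdet := (α : SL(2, ℤ)).det_coe
  rw [Matrix.det_fin_two, h10, h11, mul_one, mul_zero, sub_zero] at hdet
  have := hχ α (by rw [Matrix.trace_fin_two, hdet, h11]; norm_num)
  rw [hα, ofMul_mul, map_add, ofMul_inv, map_neg, add_neg_eq_zero] at this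
  exact this

lemma rowWeight_bottomRow {χ : Additive Γ →+ ZMod n} (hχ : IsParabolicHom Γ χ) (γ : Γ) :
    rowWeight χ (bottomRow γ) = rootPow n (-χ (Additive.ofMul γ)) := by
  have h : ∃ δ : Γ, bottomRow δ = bottomRow (γ : SL(2, ℤ)) := ⟨γ, rfl⟩
  rw [rowWeight, dif_pos h, eq_of_bottomRow_eq hχ h.choose_spec]

lemma rowWeight_vecMul {χ : Additive Γ →+ ZMod n} (hχ : IsParabolicHom Γ χ) (α : Γ)
    (v : Fin 2 → ℤ) :
    rowWeight χ (v ᵥ* ((α⁻¹ : Γ) : SL(2, ℤ))) =
      rootPow n (χ (Additive.ofMul α)) * rowWeight χ v := by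
  classical
  by_cases h : ∃ γ : Γ, bottomRow γ = v
  · obtain ⟨γ, rfl⟩ := h
    rw [← bottomRow_mul, ← Subgroup.coe_mul, rowWeight_bottomRow hχ, rowWeight_bottomRow hχ,
      ← rootPow_add, ofMul_mul, map_add, ofMul_inv, map_neg, neg_add, neg_neg, add_comm]
  · have h' : ¬ ∃ γ : Γ, bottomRow γ = v ᵥ* ((α⁻¹ : Γ) : SL(2, ℤ)) := by
      rintro ⟨γ, hγ⟩
      refine h ⟨γ * α, ?_⟩
      rw [Subgroup.coe_mul, bottomRow_mul, hγ, Matrix.vecMul_vecMul,
        ← Matrix.SpecialLinearGroup.coe_mul, Subgroup.coe_inv, inv_mul_cancel,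
        Matrix.SpecialLinearGroup.coe_one, Matrix.vecMul_one]
    rw [rowWeight, rowWeight, dif_neg h, dif_neg h', mul_zero]

/-- The Kummer root `E_χ / Δ`. -/
def kummerFun (χ : Additive Γ →+ ZMod n) : ℍ → ℂ := fun τ =>
  eis12 (rowWeight χ) τ / ModularForm.discriminant τ

lemma comp_kummerFun_eq (χ : Additive Γ →+ ZMod n) (δ : SL(2, ℤ)) :
    comp (kummerFun χ) δ = fun τ =>
      eis12 (fun v => rowWeight χ (v ᵥ* (δ⁻¹ : SL(2, ℤ)))) τ / ModularForm.discriminant τ := by
  funext τ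
  rw [← eis12_slash]
  have hΔ : (ModularForm.discriminant ∣[(12 : ℤ)] δ) τ = ModularForm.discriminant τ :=
    congrFun (SlashInvariantFormClass.slash_action_eq CuspForm.discriminant
      (δ : GL (Fin 2) ℝ) ⟨δ, rfl⟩) τ
  conv_rhs => rw [← hΔ]
  rw [ModularForm.SL_slash_apply, ModularForm.SL_slash_apply, comp_apply, kummerFun,
    mul_div_mul_right _ _ (zpow_ne_zero _ (UpperHalfPlane.denom_ne_zero _ τ))]

lemma comp_kummerFun {χ : Additive Γ →+ ZMod n} (hχ : IsParabolicHom Γ χ) (γ : Γ) :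
    comp (kummerFun χ) γ = fun τ => rootPow n (χ (Additive.ofMul γ)) * kummerFun χ τ := by
  rw [comp_kummerFun_eq]
  funext τ
  have h : (fun v => rowWeight χ (v ᵥ* (((γ : Γ) : SL(2, ℤ))⁻¹ : SL(2, ℤ)))) =
      fun v => rootPow n (χ (Additive.ofMul γ)) * rowWeight χ v :=
    funext fun v => rowWeight_vecMul hχ γ v
  rw [h, kummerFun, ← mul_div_assoc]
  congr 1
  rw [eis12, eis12, ← tsum_mul_left]
  exact tsum_congr fun v => mul_assoc _ _ _

lemma mdiff_kummerFun (χ : Additive Γ →+ ZMod n) : MDiff (kummerFun χ) := by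
  rw [UpperHalfPlane.mdifferentiable_iff]
  exact ((UpperHalfPlane.mdifferentiable_iff.mp (mdiff_eis12 (norm_rowWeight_le χ))).div
    (UpperHalfPlane.mdifferentiable_iff.mp CuspForm.discriminant.holo')
    (fun z _ => ModularForm.discriminant_ne_zero _))

variable {L : ℕ} [NeZero L]

lemma T_zpow_mem_Gamma (L : ℕ) : ModularGroup.T ^ (L : ℤ) ∈ Gamma L := by
  rw [Gamma_mem, ModularGroup.coe_T_zpow]
  simp

lemma qL_pow_self (τ : ℍ) : qL L τ ^ L = Function.Periodic.qParam 1 τ := by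
  have hL : (L : ℂ) ≠ 0 := by exact_mod_cast NeZero.ne L
  rw [qL, Function.Periodic.qParam, Function.Periodic.qParam, ← Complex.exp_nat_mul]
  congr 1
  push_cast
  field_simp

/-- The expansion of the Kummer root at every cusp: at worst a pole of order `L` in `q_L`. -/
lemma exists_hasExp_kummerFun (hΓ : Gamma L ≤ Γ) {χ : Additive Γ →+ ZMod n}
    (hχ : IsParabolicHom Γ χ) (δ : SL(2, ℤ)) :
    ∃ s : LaurentSeries ℂ, HasExp L (comp (kummerFun χ) δ) s ∧
      ∀ i < -(L : ℤ), s.coeff i = 0 := by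
  set F : ℍ → ℂ := fun τ => comp (kummerFun χ) δ τ * qL L τ ^ L with hF
  have hper : comp F (ModularGroup.T ^ (L : ℤ)) = F := by
    let β : Γ := ⟨δ * ModularGroup.T ^ (L : ℤ) * δ⁻¹,
      hΓ ((Gamma_normal L).conj_mem _ (T_zpow_mem_Gamma L) δ)⟩
    have hβ : χ (Additive.ofMul β) = 0 := by
      refine hχ β ?_
      show (((δ * ModularGroup.T ^ (L : ℤ) * δ⁻¹ : SL(2, ℤ)) :
        Matrix (Fin 2) (Fin 2) ℤ).trace) ^ 2 = 4
      rw [Matrix.SpecialLinearGroup.coe_mul, Matrix.trace_mul_comm,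
        ← Matrix.SpecialLinearGroup.coe_mul, inv_mul_cancel_left, ModularGroup.coe_T_zpow,
        Matrix.trace_fin_two]
      simp
    have h1 := comp_kummerFun hχ β
    funext τ
    have h2 := congrFun h1 (δ • τ)
    simp only [hβ, rootPow_zero, one_mul, comp_apply] at h2
    have h3 : (β : SL(2, ℤ)) • δ • τ = δ • ModularGroup.T ^ (L : ℤ) • τ := by
      simp only [← mul_smul, β, inv_mul_cancel_right]
    rw [h3] at h2
    simp only [hF, comp_apply, h2, qL_T_zpow_smul]
    rw [zpow_natCast, (isPrimitiveRoot_zetaC L).pow_eq_one, one_mul]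
  have hq : MDiff (fun τ : ℍ => qL L τ ^ L) := by
    rw [UpperHalfPlane.mdifferentiable_iff]
    refine DifferentiableOn.congr (f := fun z : ℂ => Function.Periodic.qParam L z ^ L) ?_
      fun z hz => by simp [qL, ofComplex_apply_of_im_pos (show 0 < z.im from hz)]
    exact ((Function.Periodic.differentiable_qParam).pow L).differentiableOn
  have hmd : MDiff F := (mdiff_comp (mdiff_kummerFun χ) δ).mul hq
  have hb : IsBoundedAtImInfty F := by
    have h1 : (eis12 fun v => rowWeight χ (v ᵥ* (δ⁻¹ : SL(2, ℤ)))) =O[atImInfty]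
        (1 : ℍ → ℝ) := isBoundedAtImInfty_eis12 fun v => norm_rowWeight_le χ _
    have h2 : (fun τ : ℍ => qL L τ ^ L) =O[atImInfty] ModularForm.discriminant := by
      refine Asymptotics.IsBigO.trans ?_ ModularForm.exp_isBigO_discriminant
      refine Asymptotics.IsBigO.of_bound 1 (Eventually.of_forall fun τ => ?_)
      simp [qL_pow_self, Function.Periodic.norm_qParam, abs_of_pos (Real.exp_pos _)]
    have h3 : (fun τ : ℍ => qL L τ ^ L / ModularForm.discriminant τ) =O[atImInfty]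
        (1 : ℍ → ℝ) := by
      obtain ⟨C, hC⟩ := h2.bound
      refine Asymptotics.IsBigO.of_bound C (hC.mono fun τ hτ => ?_)
      rw [norm_div, Pi.one_apply, norm_one, mul_one,
        div_le_iff₀ (norm_pos_iff.mpr (ModularForm.discriminant_ne_zero τ))]
      exact hτ
    have h4 := h1.mul h3
    simp only [Pi.one_apply, mul_one] at h4
    refine (h4.congr_left fun τ => ?_)
    simp only [hF, comp_kummerFun_eq]
    ring
  refine ⟨HahnSeries.single (-(L : ℤ)) 1 *
    HahnSeries.ofPowerSeries ℤ ℂ (qExpansion (L : ℝ) F), ?_, fun i hi => ?_⟩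
  · have h := (HasExp.single (L := L) (-(L : ℤ)) 1).mul (hasExp_of_bounded hper hmd hb)
    convert h using 1
    funext τ
    simp only [hF, Pi.mul_apply, one_mul, zpow_neg, zpow_natCast]
    field_simp [pow_ne_zero L (qL_ne_zero L τ)]
  · rw [HahnSeries.coeff_single_mul, one_mul, HahnSeries.ofPowerSeries_apply,
      HahnSeries.embDomain_of_notMem_range]
    simp only [Set.mem_range, not_exists]
    intro m hm
    have : (m : ℤ) = i - -(L : ℤ) := hm
    omega

lemma hasSum_axis_weights {χ : Additive Γ →+ ZMod n} (hχ : IsParabolicHom Γ χ) :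
    HasSum (fun v : Fin 2 → ℤ =>
        if v 0 = 0 then rowWeight χ v * ((v 1 : ℂ) ^ (-(12 : ℤ))) else 0)
      (1 + rowWeight χ ![0, -1]) := by
  have h1 : rowWeight χ ![0, 1] = 1 := by
    have h := rowWeight_bottomRow hχ (1 : Γ)
    rw [ofMul_one, map_zero, neg_zero, rootPow_zero] at h
    rw [← h]
    congr 1
    ext j
    fin_cases j <;> simp [bottomRow]
  have key : ∀ v : Fin 2 → ℤ, v ∉ ({![0, 1], ![0, -1]} : Finset (Fin 2 → ℤ)) →
      (if v 0 = 0 then rowWeight χ v * ((v 1 : ℂ) ^ (-(12 : ℤ))) else 0) = 0 := by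
    intro v hv
    split_ifs with h0
    · refine mul_eq_zero_of_left ?_ _
      unfold rowWeight
      rw [dif_neg]
      rintro ⟨γ, hγ⟩
      have h10 : (γ : SL(2, ℤ)) 1 0 = 0 := by rw [← h0, ← hγ]; rfl
      have h11 : (γ : SL(2, ℤ)) 1 1 = v 1 := by rw [← hγ]; rfl
      have hdet := (γ : SL(2, ℤ)).det_coe
      rw [Matrix.det_fin_two, h10, h11, mul_zero, sub_zero] at hdet
      apply hv
      rw [Finset.mem_insert, Finset.mem_singleton]
      rcases Int.eq_one_or_neg_one_of_mul_eq_one (mul_comm _ (v 1) ▸ hdet) with h | h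
      · left; ext j; fin_cases j <;> simp [h0, h]
      · right; ext j; fin_cases j <;> simp [h0, h]
    · rfl
  have hne : (![0, 1] : Fin 2 → ℤ) ∉ ({![0, -1]} : Finset (Fin 2 → ℤ)) := by decide
  have hsum := hasSum_sum_of_ne_finset_zero (L := .unconditional _) key
  rw [Finset.sum_insert hne, Finset.sum_singleton] at hsum
  simpa [h1, Even.neg_one_zpow (show Even (12 : ℤ) by decide)] using hsum

/-- At `i∞` the root has an exact pole of order `L` in `q_L`. -/
lemma exists_hasExp_kummerFun_infty (hΓ : Gamma L ≤ Γ) {χ : Additive Γ →+ ZMod n}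
    (hχ : IsParabolicHom Γ χ) :
    ∃ s : LaurentSeries ℂ, HasExp L (kummerFun χ) s ∧ (∀ i < -(L : ℤ), s.coeff i = 0) ∧
      (s.coeff (-(L : ℤ)) = 1 ∨ s.coeff (-(L : ℤ)) = 2) := by
  obtain ⟨s, hs, hs0⟩ := exists_hasExp_kummerFun hΓ hχ 1
  rw [comp_one] at hs
  refine ⟨s, hs, hs0, ?_⟩
  have hw : rowWeight χ ![0, -1] = 0 ∨ rowWeight χ ![0, -1] = 1 := by
    classical
    by_cases h : ∃ γ : Γ, bottomRow γ = ![0, -1]
    · right
      obtain ⟨γ, hγ⟩ := h
      rw [← hγ, rowWeight_bottomRow hχ, hχ γ, neg_zero, rootPow_zero]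
      have h10 : (γ : SL(2, ℤ)) 1 0 = 0 := congrFun hγ 0
      have h11 : (γ : SL(2, ℤ)) 1 1 = -1 := congrFun hγ 1
      have hdet := (γ : SL(2, ℤ)).det_coe
      rw [Matrix.det_fin_two, h10, h11] at hdet
      rw [Matrix.trace_fin_two, h11, show (γ : SL(2, ℤ)) 0 0 = -1 by linarith]
      norm_num
    · left
      rw [rowWeight, dif_neg h]
  have hax : Tendsto (fun y : ℝ => ofComplex (Complex.I * y)) atTop atImInfty := by
    rw [atImInfty, tendsto_comap_iff]
    refine tendsto_id.congr' ?_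
    filter_upwards [eventually_gt_atTop 0] with y hy
    simp [ofComplex_apply_of_im_pos (show 0 < (Complex.I * (y : ℂ)).im by simpa using hy),
      UpperHalfPlane.im]
  have h1 : Tendsto (fun y : ℝ => (fun τ => kummerFun χ τ * qL L τ ^ L)
      (ofComplex (Complex.I * y))) atTop (𝓝 (1 + rowWeight χ ![0, -1])) := by
    have h2 := tendsto_eis12_axis (norm_rowWeight_le χ) (hasSum_axis_weights hχ)
    have h3 : Tendsto (fun τ : ℍ => qL L τ ^ L / ModularForm.discriminant τ) atImInfty (𝓝 1) := by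
      have h4 := ModularForm.tendsto_atImInfty_tprod_one_sub_eta_q_pow.inv₀ one_ne_zero
      rw [inv_one] at h4
      refine h4.congr fun τ => ?_
      rw [qL_pow_self, ModularForm.discriminant_eq_q_prod,
        div_mul_cancel_left₀ (Function.Periodic.qParam_ne_zero _)]
    have := h2.mul (h3.comp hax)
    rw [mul_one] at this
    refine this.congr fun y => ?_
    simp only [Function.comp_apply, kummerFun]
    ring
  have h2 := (hs.mul (HasExp.single (L := L) (L : ℤ) 1)).tendsto_atImInfty fun i hi => by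
    rw [mul_comm, HahnSeries.coeff_single_mul, one_mul]
    exact hs0 _ (by omega)
  have h3 := h2.comp hax
  rw [mul_comm s, HahnSeries.coeff_single_mul, one_mul, zero_sub] at h3
  have h4 : s.coeff (-(L : ℤ)) = 1 + rowWeight χ ![0, -1] :=
    tendsto_nhds_unique h3 (h1.congr fun y => by simp)
  rcases hw with h | h <;> rw [h4, h] <;> norm_num

/-- `E_χ / Δ` is a Kummer root with multiplier `χ`. -/
theorem isKummer_kummerFun (hΓ : Gamma L ≤ Γ) {χ : Additive Γ →+ ZMod n}
    (hχ : IsParabolicHom Γ χ) : IsKummer L n χ (kummerFun χ) where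
  ne_zero h := by
    obtain ⟨s, hs, -, hlead⟩ := exists_hasExp_kummerFun_infty hΓ hχ
    rw [h] at hs
    simp [hs.eq_zero_of_fun_zero] at hlead
  holo := mdiff_kummerFun χ
  comp_eq := comp_kummerFun hχ
  pow_mem := by
    refine ⟨(mdiff_kummerFun χ).pow n, fun γ hγ => ?_, fun δ => ?_⟩
    · funext τ
      have h := congrFun (comp_kummerFun hχ ⟨γ, hΓ hγ⟩) τ
      simp only [comp_apply] at h
      simp only [comp_apply, Pi.pow_apply, h, mul_pow, rootPow_pow_self, one_mul]
    · obtain ⟨s, hs, -⟩ := exists_hasExp_kummerFun hΓ hχ δ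
      exact ⟨s ^ n, fun _ => trivial, hs.pow n⟩

/-- Every parabolic character is the multiplier of a Kummer root. -/
theorem exists_isKummer (hΓ : Gamma L ≤ Γ) (χ : parabolicHoms ℤ Γ (ZMod n)) :
    ∃ g, IsKummer L n χ.1 g :=
  ⟨_, isKummer_kummerFun hΓ χ.2⟩

end Fermat.Agent.KummerES
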