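import Fermat.Agent.KummerES.ConjugateOrder
import Fermat.Agent.KummerES.RootMultiplier
import Fermat.Agent.KummerES.Eisenstein

/-!
# The action of `Aut ℂ` on parabolic characters

A character is sent to the multiplier of a root of the conjugate of the power of one of its Kummer
roots; this does not depend on the choices.
-/

set_option autoImplicit false

noncomputable section

open UpperHalfPlane CongruenceSubgroup ModularCurve.Period
open scoped MatrixGroups Manifold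

namespace Fermat.Agent.KummerES

open ModularCurve (coeffMap)

/-- A level at which the conjugation of weakly holomorphic functions is available. -/
structure ConjLevel (Γ : Subgroup SL(2, ℤ)) (N L : ℕ) [NeZero L] where
  /-- The auxiliary level. -/
  M : ℕ
  /-- The coordinate. -/
  base : BaseData M L
  dvd_M : M ∣ L
  hasConj : HasConj L
  fixed : ∀ σ : ℂ ≃+* ℂ, coeffMap (σ : ℂ →+* ℂ) (expansion L base.t) = expansion L base.t
  stable : IsDiagStable Γ N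
  dvd_N : N ∣ L

variable {Γ : Subgroup SL(2, ℤ)} {N L n c d : ℕ} [NeZero L] [NeZero n]

omit [NeZero L] in
/-- Conjugation depends only on the exponent modulo `L`. -/
lemma IsConj.congr_exponent {σ : ℂ →+* ℂ} {f f' : ℍ → ℂ} (h : IsConj L c σ f f')
    (hcd : (c : ZMod L) = d) : IsConj L d σ f f' :=
  ⟨h.1, h.2.1, fun δ δ' hδ => h.2.2 δ δ' (by
    unfold TwistRel diagMat at *
    rwa [hcd])⟩

/-- Equal powers of `zetaC L` have exponents congruent modulo `L`. -/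
lemma natCast_eq_of_zetaC_pow (h : zetaC L ^ c = zetaC L ^ d) : (c : ZMod L) = d :=
  (ZMod.natCast_eq_natCast_iff' c d L).mpr (by
    have h1 := pow_eq_pow_mod c (zetaC_pow_self L)
    have h2 := pow_eq_pow_mod d (zetaC_pow_self L)
    exact (isPrimitiveRoot_zetaC L).pow_inj (Nat.mod_lt _ (Nat.pos_of_ne_zero (NeZero.ne L)))
      (Nat.mod_lt _ (Nat.pos_of_ne_zero (NeZero.ne L))) (h1.symm.trans (h.trans h2)))

omit [NeZero L] in
/-- A function of level `L` is its own conjugate by the identity. -/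
lemma IsConj.refl {f : ℍ → ℂ} (hf : f ∈ weak (Gamma L) L ⊤) :
    IsConj L 1 (RingHom.id ℂ) f f := by
  refine ⟨hf, hf, fun δ δ' h => ?_⟩
  have hD : diagMat L 1 = 1 := by
    ext i j; fin_cases i <;> fin_cases j <;> simp [diagMat]
  rw [TwistRel, hD, mul_one, one_mul] at h
  have hmem : δ' * δ⁻¹ ∈ Gamma L := by
    rw [redMat_eq_one_iff, redMat_mul, h, ← redMat_mul, mul_inv_cancel, redMat_one]
  have hc : coeffMap (RingHom.id ℂ) (expansion L (comp f δ')) = expansion L (comp f δ') := by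
    ext i; simp
  rw [hc, show δ' = δ' * δ⁻¹ * δ by group, ← comp_comp, hf.2.1 _ hmem]

/-- `ψ` is the character of a root of the conjugate of the power of a root of `χ`. -/
def IsCharConj (L : ℕ) (σ : ℂ →+* ℂ) (χ ψ : parabolicHoms ℤ Γ (ZMod n)) : Prop :=
  ∃ (c : ℕ) (g g' : ℍ → ℂ), c.Coprime L ∧ σ (zetaC L) = zetaC L ^ c ∧
    IsKummer L n χ.1 g ∧ IsKummer L n ψ.1 g' ∧ IsConj L c σ (g ^ n) (g' ^ n)

/-- Conjugation of characters is additive. -/
lemma IsCharConj.add {σ : ℂ →+* ℂ} {χ ψ χ' ψ' : parabolicHoms ℤ Γ (ZMod n)}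
    (h : IsCharConj L σ χ ψ) (h' : IsCharConj L σ χ' ψ') :
    IsCharConj L σ (χ + χ') (ψ + ψ') := by
  obtain ⟨c, g, g', hc, hσ, hg, hg', hconj⟩ := h
  obtain ⟨d, u, u', -, hσ', hu, hu', hconj'⟩ := h'
  refine ⟨c, g * u, g' * u', hc, hσ, hg.mul_of_mul hu, hg'.mul_of_mul hu', ?_⟩
  rw [mul_pow, mul_pow]
  exact hconj.mul (hconj'.congr_exponent (natCast_eq_of_zetaC_pow (hσ'.symm.trans hσ)))

/-- Conjugations of characters compose. -/
lemma IsCharConj.comp {σ τ : ℂ →+* ℂ} {χ ψ θ : parabolicHoms ℤ Γ (ZMod n)}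
    (hτ : IsCharConj L τ χ ψ) (huniq : ∀ θ', IsCharConj L σ ψ θ' → θ' = θ)
    (hex : ∀ (c : ℕ) (g : ℍ → ℂ), c.Coprime L → σ (zetaC L) = zetaC L ^ c → IsKummer L n ψ.1 g →
      ∃ (θ' : parabolicHoms ℤ Γ (ZMod n)) (g' : ℍ → ℂ),
        IsKummer L n θ'.1 g' ∧ IsConj L c σ (g ^ n) (g' ^ n)) :
    IsCharConj L (σ.comp τ) χ θ := by
  obtain ⟨d, g, g', hd, hτζ, hg, hg', hconj⟩ := hτ
  obtain ⟨c, hc, hσ⟩ := exists_pow_zetaC L σ
  obtain ⟨θ', g'', hg'', hconj'⟩ := hex c g' hc hσ hg'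
  obtain rfl := huniq θ' ⟨c, g', g'', hc, hσ, hg', hg'', hconj'⟩
  refine ⟨d * c, g, g'', Nat.Coprime.mul_left hd hc, ?_, hg, hg'', hconj.comp_rel hconj' hc⟩
  rw [RingHom.comp_apply, hτζ, map_pow, hσ, ← pow_mul, mul_comm]

namespace ConjLevel

variable (S : ConjLevel Γ N L)

include S in
/-- The group contains `Gamma L`. -/
lemma gamma_le : Gamma L ≤ Γ := S.stable.gamma_le S.dvd_N

include S in
/-- Every Kummer root has a conjugate one. -/
theorem exists_conj (σ : ℂ ≃+* ℂ) (hc : c.Coprime L)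
    (hσ : (σ : ℂ →+* ℂ) (zetaC L) = zetaC L ^ c) {χ : parabolicHoms ℤ Γ (ZMod n)} {g : ℍ → ℂ}
    (hg : IsKummer L n χ.1 g) :
    ∃ (ψ : parabolicHoms ℤ Γ (ZMod n)) (g' : ℍ → ℂ),
      IsKummer L n ψ.1 g' ∧ IsConj L c (σ : ℂ →+* ℂ) (g ^ n) (g' ^ n) := by
  obtain ⟨f', hf'⟩ := S.hasConj _ c hσ _ hg.pow_mem
  obtain ⟨g', hg', hg0', rfl⟩ := exists_root_conj S.base S.dvd_M S.hasConj σ hσ (S.fixed σ)
    (NeZero.ne n) hg.holo hg.ne_zero hf'
  obtain ⟨ψ, hψ⟩ := exists_isKummer_conj S.stable S.dvd_N hc hg hg' hg0' hf'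
  exact ⟨ψ, g', hψ, hf'⟩

include S in
/-- The character of the conjugate root does not depend on the choices. -/
theorem charConj_unique {σ : ℂ →+* ℂ} {χ ψ₁ ψ₂ : parabolicHoms ℤ Γ (ZMod n)}
    (h₁ : IsCharConj L σ χ ψ₁) (h₂ : IsCharConj L σ χ ψ₂) : ψ₁ = ψ₂ := by
  obtain ⟨c, g₁, g₁', hc, hσ, hg₁, hg₁', hconj₁⟩ := h₁
  obtain ⟨d, g₂, g₂', -, hσ', hg₂, hg₂', hconj₂⟩ := h₂
  replace hconj₂ := hconj₂.congr_exponent (natCast_eq_of_zetaC_pow (hσ'.symm.trans hσ))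
  have hK := (hg₂.pow_nat (n - 1)).mul_of_mul hg₁
  have hK' := (hg₂'.pow_nat (n - 1)).mul_of_mul hg₁'
  have hz : ∀ x : Additive Γ →+ ZMod n, (n - 1) • x + x = 0 := fun x => by
    rw [← succ_nsmul, Nat.sub_add_cancel (Nat.one_le_iff_ne_zero.mpr (NeZero.ne n))]
    ext γ; simp [nsmul_eq_mul]
  rw [hz] at hK
  set u := g₂ ^ (n - 1) * g₁ with hu
  have huinv : ∀ γ ∈ Γ, comp u γ = u := fun γ hγ => by
    rw [show comp u γ = _ from hK.comp_eq ⟨γ, hγ⟩]
    simp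
  have huw : u ∈ weak (Gamma L) L ⊤ :=
    weak_mono S.gamma_le le_rfl (root_mem_weak (NeZero.ne n) S.gamma_le hK.holo huinv hK.pow_mem)
  obtain ⟨u', hu'⟩ := S.hasConj σ c hσ u huw
  have hu'inv : ∀ γ ∈ Γ, comp u' γ = u' := fun γ hγ =>
    S.stable.comp_eq S.dvd_N hc hu' huinv hγ
  set w := g₂' ^ (n - 1) * g₁' with hw
  have hpow : w ^ n = u' ^ n := by
    have h1 : IsConj L c σ (u ^ n) (w ^ n) := by
      rw [hu, hw, mul_pow, mul_pow, pow_right_comm, pow_right_comm g₂']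
      exact (hconj₂.pow _).mul hconj₁
    exact h1.unique (hu'.pow n)
  obtain ⟨x, hx⟩ := eq_rootPow_mul_of_pow_eq hu'.2.1.1 hK'.holo hpow
  have h0 := multiplier_unique hK'.ne_zero (χ := (n - 1) • ψ₂.1 + ψ₁.1) (ψ := 0) hK'.comp_eq
    fun γ => by
      funext τ
      rw [comp_apply, hx]
      simp only [AddMonoidHom.zero_apply, rootPow_zero, one_mul]
      rw [show u' ((γ : SL(2, ℤ)) • τ) = u' τ from congrFun (hu'inv γ γ.2) τ]
  refine Subtype.ext ?_
  rw [← add_right_inj ((n - 1) • ψ₂.1), h0, hz]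

/-- The conjugate character. -/
def conjChar (σ : ℂ ≃+* ℂ) (χ : parabolicHoms ℤ Γ (ZMod n)) : parabolicHoms ℤ Γ (ZMod n) :=
  (S.exists_conj σ (exists_pow_zetaC L (σ : ℂ →+* ℂ)).choose_spec.1
    (exists_pow_zetaC L (σ : ℂ →+* ℂ)).choose_spec.2
    (exists_isKummer S.gamma_le χ).choose_spec).choose

/-- `conjChar` is a conjugate of the character. -/
lemma isCharConj_conjChar (σ : ℂ ≃+* ℂ) (χ : parabolicHoms ℤ Γ (ZMod n)) :
    IsCharConj L (σ : ℂ →+* ℂ) χ (S.conjChar σ χ) := by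
  obtain ⟨g', h1, h2⟩ := (S.exists_conj σ (exists_pow_zetaC L (σ : ℂ →+* ℂ)).choose_spec.1
    (exists_pow_zetaC L (σ : ℂ →+* ℂ)).choose_spec.2
    (exists_isKummer S.gamma_le χ).choose_spec).choose_spec
  exact ⟨_, _, g', (exists_pow_zetaC L (σ : ℂ →+* ℂ)).choose_spec.1,
    (exists_pow_zetaC L (σ : ℂ →+* ℂ)).choose_spec.2,
    (exists_isKummer S.gamma_le χ).choose_spec, h1, h2⟩

/-- `conjChar` is the only conjugate of the character. -/
lemma conjChar_eq {σ : ℂ ≃+* ℂ} {χ ψ : parabolicHoms ℤ Γ (ZMod n)}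
    (h : IsCharConj L (σ : ℂ →+* ℂ) χ ψ) : S.conjChar σ χ = ψ :=
  S.charConj_unique (S.isCharConj_conjChar σ χ) h

/-- `conjChar σ` is additive. -/
lemma conjChar_add (σ : ℂ ≃+* ℂ) (χ χ' : parabolicHoms ℤ Γ (ZMod n)) :
    S.conjChar σ (χ + χ') = S.conjChar σ χ + S.conjChar σ χ' :=
  S.conjChar_eq ((S.isCharConj_conjChar σ χ).add (S.isCharConj_conjChar σ χ'))

/-- The identity conjugates trivially. -/
lemma conjChar_refl (χ : parabolicHoms ℤ Γ (ZMod n)) : S.conjChar (RingEquiv.refl ℂ) χ = χ := by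
  obtain ⟨g, hg⟩ := exists_isKummer S.gamma_le χ
  exact S.conjChar_eq ⟨1, g, g, Nat.coprime_one_left L, by simp, hg, hg, IsConj.refl hg.pow_mem⟩

/-- `conjChar` is an action of automorphisms. -/
lemma conjChar_trans (σ τ : ℂ ≃+* ℂ) (χ : parabolicHoms ℤ Γ (ZMod n)) :
    S.conjChar (τ.trans σ) χ = S.conjChar σ (S.conjChar τ χ) :=
  S.conjChar_eq ((S.isCharConj_conjChar τ χ).comp
    (fun _ hθ => S.charConj_unique hθ (S.isCharConj_conjChar σ _))
    fun _ _ hc hσ hg => S.exists_conj σ hc hσ hg)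

end ConjLevel

end Fermat.Agent.KummerES
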