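import Mathlib.NumberTheory.ModularForms.QExpansion
import Mathlib.RingTheory.LaurentSeries
import Mathlib.Analysis.Complex.UpperHalfPlane.Manifold
import Mathlib.Analysis.Normed.Group.Tannery
import Fermat.Prelude.Def_ModularCurve_X0

/-!
# Laurent expansions at infinity of functions on the upper half plane

`HasExp L f s` says that `f τ = ∑ i, s i * exp(2πiτ/L) ^ i` absolutely for every `τ`.
-/

set_option autoImplicit false

noncomputable section

open UpperHalfPlane Filter Topology
open scoped Real MatrixGroups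

namespace Fermat.Agent.KummerES

/-- A function vanishing below `n` has support bounded below. -/
lemma bddBelow_support_of_forall_lt {R : Type*} [Zero R] {f : ℤ → R} (n : ℤ)
    (h : ∀ i < n, f i = 0) : BddBelow (Function.support f) :=
  ⟨n, fun i hi => not_lt.1 fun hlt => hi (h i hlt)⟩

/-- The parameter `exp (2πiτ/L)`. -/
def qL (L : ℕ) (τ : ℍ) : ℂ := Function.Periodic.qParam L τ

/-- `qL` does not vanish. -/
lemma qL_ne_zero (L : ℕ) (τ : ℍ) : qL L τ ≠ 0 := Function.Periodic.qParam_ne_zero _

/-- `qL` takes values in the open unit disc. -/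
lemma norm_qL_lt_one (L : ℕ) [NeZero L] (τ : ℍ) : ‖qL L τ‖ < 1 :=
  Function.Periodic.norm_qParam_lt_one (by exact_mod_cast Nat.pos_of_ne_zero (NeZero.ne L))
    τ.im_pos

/-- The `M`-th power of `qL (L * M)` is `qL L`. -/
lemma qL_mul_zpow (L M : ℕ) [NeZero L] [NeZero M] (τ : ℍ) :
    qL (L * M) τ ^ (M : ℤ) = qL L τ := by
  rw [zpow_natCast, qL, qL, Function.Periodic.qParam, Function.Periodic.qParam,
    ← Complex.exp_nat_mul]
  congr 1
  have : (M : ℂ) ≠ 0 := by exact_mod_cast NeZero.ne M
  have : (L : ℂ) ≠ 0 := by exact_mod_cast NeZero.ne L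
  push_cast
  field_simp

/-- `f` has the Laurent expansion `s` in `exp (2πiτ/L)`, valid on the whole upper half plane. -/
def HasExp (L : ℕ) (f : ℍ → ℂ) (s : LaurentSeries ℂ) : Prop :=
  ∀ τ : ℍ, HasSum (fun i : ℤ => s.coeff i * qL L τ ^ i) (f τ)

namespace HasExp

variable {L : ℕ} {f g : ℍ → ℂ} {s t : LaurentSeries ℂ}

/-- A function with an expansion is the sum of its series. -/
lemma eq_tsum (h : HasExp L f s) (τ : ℍ) : f τ = ∑' i : ℤ, s.coeff i * qL L τ ^ i :=
  (h τ).tsum_eq.symm

/-- The series determines the function. -/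
lemma fun_eq (h : HasExp L f s) (h' : HasExp L g s) : f = g :=
  funext fun τ => (h τ).unique (h' τ)

/-- The expansion of a sum. -/
lemma add (h : HasExp L f s) (h' : HasExp L g t) : HasExp L (f + g) (s + t) := fun τ => by
  simpa [add_mul] using (h τ).add (h' τ)

/-- The expansion of a negative. -/
lemma neg (h : HasExp L f s) : HasExp L (-f) (-s) := fun τ => by
  simpa [neg_mul] using (h τ).neg

/-- The expansion of a difference. -/
lemma sub (h : HasExp L f s) (h' : HasExp L g t) : HasExp L (f - g) (s - t) := by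
  simpa [sub_eq_add_neg] using h.add h'.neg

/-- Expansions converge absolutely. -/
lemma summable_norm (h : HasExp L f s) (τ : ℍ) :
    Summable fun i : ℤ => ‖s.coeff i * qL L τ ^ i‖ :=
  summable_norm_iff.mpr (h τ).summable

/-- The expansion of a monomial in `qL`. -/
protected lemma single (i : ℤ) (c : ℂ) :
    HasExp L (fun τ => c * qL L τ ^ i) (HahnSeries.single i c) := fun τ => by
  have : (fun j : ℤ => (HahnSeries.single i c : LaurentSeries ℂ).coeff j * qL L τ ^ j) =
      fun j => if j = i then c * qL L τ ^ i else 0 := by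
    funext j
    rcases eq_or_ne j i with rfl | hj <;> simp [*]
  rw [this]
  exact hasSum_ite_eq i _

/-- The expansion of `0`. -/
protected lemma zero : HasExp L 0 0 := fun τ => by simp

/-- The expansion of a constant. -/
protected lemma const (c : ℂ) : HasExp L (fun _ => c) (HahnSeries.single 0 c) := by
  simpa using HasExp.single (L := L) 0 c

/-- The expansion of `1`. -/
protected lemma one : HasExp L 1 1 := HasExp.const (L := L) 1

/-- The expansion of a product. -/
lemma mul (h : HasExp L f s) (h' : HasExp L g t) : HasExp L (f * g) (s * t) := fun τ => by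
  have hsum := summable_mul_of_summable_norm (h.summable_norm τ) (h'.summable_norm τ)
  have H := (h τ).mul (h' τ) hsum
  let e : ℤ × ℤ ≃ ℤ × ℤ :=
    { toFun := fun p => (p.2, p.1 - p.2)
      invFun := fun p => (p.1 + p.2, p.1)
      left_inv := fun p => by simp
      right_inv := fun p => by simp }
  refine (e.hasSum_iff.mpr H).prod_fiberwise fun n => ?_
  rw [HahnSeries.coeff_mul, Finset.sum_mul]
  classical
  let S := Finset.antidiagonal s.isPWO_support t.isPWO_support n
  have hS : ∀ p ∈ S, p.1 + p.2 = n := fun p hp => (Finset.mem_antidiagonal.mp hp).2.2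
  have hinj : Set.InjOn Prod.fst (S : Set (ℤ × ℤ)) := fun p hp q hq hpq => by
    refine Prod.ext hpq ?_
    have := hS p hp; have := hS q hq; omega
  have : (fun i : ℤ => ((fun x : ℤ × ℤ => s.coeff x.1 * qL L τ ^ x.1 *
      (t.coeff x.2 * qL L τ ^ x.2)) ∘ e) (n, i)) =
      fun i => s.coeff i * t.coeff (n - i) * qL L τ ^ n := by
    funext i
    simp only [Function.comp_apply, e, Equiv.coe_fn_mk]
    rw [mul_mul_mul_comm, ← zpow_add₀ (qL_ne_zero L τ), add_sub_cancel]
  rw [this]
  have key : HasSum (fun i : ℤ => s.coeff i * t.coeff (n - i) * qL L τ ^ n)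
      (∑ i ∈ S.image Prod.fst, s.coeff i * t.coeff (n - i) * qL L τ ^ n) := by
    refine hasSum_sum_of_ne_finset_zero fun i hi => ?_
    by_contra hne
    refine hi (Finset.mem_image.mpr ⟨(i, n - i), Finset.mem_antidiagonal.mpr ⟨?_, ?_, ?_⟩, rfl⟩)
    · exact fun h0 => hne (by simp [h0])
    · exact fun h0 => hne (by simp [h0])
    · omega
  rw [Finset.sum_image (f := fun i => s.coeff i * t.coeff (n - i) * qL L τ ^ n) hinj] at key
  rw [Finset.sum_congr rfl (fun p hp => show s.coeff p.1 * t.coeff (n - p.1) * qL L τ ^ n =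
      s.coeff p.1 * t.coeff p.2 * qL L τ ^ n by
    have : n - p.1 = p.2 := by have := hS p hp; omega
    rw [this])] at key
  exact key

/-- The expansion of a power. -/
lemma pow (h : HasExp L f s) : ∀ n : ℕ, HasExp L (f ^ n) (s ^ n)
  | 0 => by simpa using HasExp.one
  | n + 1 => by simpa [pow_succ] using (h.pow n).mul h

/-- The expansion of a finite sum. -/
lemma finset_sum {ι : Type*} (T : Finset ι) {F : ι → ℍ → ℂ} {S : ι → LaurentSeries ℂ}
    (h : ∀ i ∈ T, HasExp L (F i) (S i)) : HasExp L (∑ i ∈ T, F i) (∑ i ∈ T, S i) := by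
  classical
  induction T using Finset.induction_on with
  | empty => simpa using HasExp.zero
  | insert a T ha ih =>
    rw [Finset.sum_insert ha, Finset.sum_insert ha]
    exact (h a (Finset.mem_insert_self a T)).add (ih fun i hi => h i (Finset.mem_insert_of_mem hi))

/-- A series without terms of negative degree converges, at `i∞`, to its constant term. -/
lemma tendsto_atImInfty [NeZero L] (h : HasExp L f s) (hs : ∀ i < 0, s.coeff i = 0) :
    Tendsto f atImInfty (𝓝 (s.coeff 0)) := by
  have hL : (0 : ℝ) < L := by exact_mod_cast Nat.pos_of_ne_zero (NeZero.ne L)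
  have hf : f = fun τ => ∑' i : ℤ, s.coeff i * qL L τ ^ i := funext h.eq_tsum
  rw [hf]
  have hlim : s.coeff 0 = ∑' i : ℤ, if i = 0 then s.coeff 0 else 0 := by simp
  rw [hlim]
  refine tendsto_tsum_of_dominated_convergence (h.summable_norm UpperHalfPlane.I) (fun i => ?_) ?_
  · rcases lt_trichotomy i 0 with hi | rfl | hi
    · simp [hs i hi, hi.ne]
    · simp
    · rw [if_neg hi.ne', ← mul_zero (s.coeff i)]
      refine Tendsto.const_mul _ ?_
      lift i to ℕ using hi.le
      have hi' : i ≠ 0 := by omega
      simpa [zero_pow hi', qL] using (qParam_tendsto_atImInfty hL).pow i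
  · refine ((atImInfty_mem _).mpr ⟨1, fun τ hτ => ?_⟩ : ∀ᶠ τ in atImInfty, _)
    intro i
    rcases lt_or_ge i 0 with hi | hi
    · simp [hs i hi]
    · lift i to ℕ using hi
      simp only [norm_mul, zpow_natCast, norm_pow]
      gcongr
      simp only [qL, Function.Periodic.norm_qParam, UpperHalfPlane.coe_I, Complex.I_im]
      exact Real.exp_le_exp.mpr (div_le_div_of_nonneg_right
        (mul_le_mul_of_nonpos_left (show (1 : ℝ) ≤ (τ : ℂ).im from hτ)
          (by linarith [Real.pi_pos])) hL.le)

/-- The zero function has only the zero series. -/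
lemma eq_zero_of_fun_zero [NeZero L] (h : HasExp L 0 s) : s = 0 := by
  by_contra hs
  set k := s.order
  have h' := ((HasExp.single (L := L) (-k) 1).mul h)
  rw [mul_zero] at h'
  have hc : ∀ i, (HahnSeries.single (-k) (1 : ℂ) * s).coeff i = s.coeff (i + k) := fun i => by
    rw [HahnSeries.coeff_single_mul, one_mul, sub_neg_eq_add]
  have hneg : ∀ i < 0, (HahnSeries.single (-k) (1 : ℂ) * s).coeff i = 0 := fun i hi => by
    rw [hc]; exact HahnSeries.coeff_eq_zero_of_lt_order (by omega)
  have := tendsto_nhds_unique (h'.tendsto_atImInfty hneg) tendsto_const_nhds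
  rw [hc, zero_add] at this
  exact hs (HahnSeries.coeff_order_eq_zero.mp this)

/-- The function determines the series. -/
lemma series_eq [NeZero L] (h : HasExp L f s) (h' : HasExp L f t) : s = t :=
  sub_eq_zero.mp (eq_zero_of_fun_zero (by simpa using h.sub h'))

/-- Expansion in the finer parameter. -/
lemma dilate (M : ℕ) [NeZero M] [NeZero L] (h : HasExp L f s) :
    HasExp (L * M) f (ModularCurve.qExpand ℂ M s) := fun τ => by
  have hinj : Function.Injective fun i : ℤ => (M : ℤ) * i :=
    mul_right_injective₀ (by exact_mod_cast NeZero.ne M)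
  rw [← hinj.hasSum_iff]
  · convert h τ using 1
    funext i
    simp only [Function.comp_apply, ModularCurve.qExpand_coeff_mul, zpow_mul, qL_mul_zpow]
  · intro x hx
    rw [ModularCurve.qExpand_coeff_of_not_dvd M s (fun ⟨i, hi⟩ => hx ⟨i, hi.symm⟩), zero_mul]

/-- The converse of dilation. -/
lemma of_qExpand [NeZero L] (M : ℕ) [NeZero M]
    (h : HasExp (L * M) f (ModularCurve.qExpand ℂ M t)) : HasExp L f t := fun τ => by
  have hinj : Function.Injective fun i : ℤ => (M : ℤ) * i :=
    mul_right_injective₀ (by exact_mod_cast NeZero.ne M)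
  have h4 := h τ
  rw [← hinj.hasSum_iff] at h4
  · convert h4 using 1
    funext i
    simp only [Function.comp_apply, ModularCurve.qExpand_coeff_mul, zpow_mul, qL_mul_zpow]
  · intro x hx
    rw [ModularCurve.qExpand_coeff_of_not_dvd M t (fun ⟨i, hi⟩ => hx ⟨i, hi.symm⟩), zero_mul]

end HasExp

end Fermat.Agent.KummerES
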