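import Fermat.Agent.KummerES.Gluing
import Fermat.Agent.KummerES.GluingSeries

/-!
# Roots of elements which are locally `n`-th powers

An element of the level `L` ring which is locally a unit times an `n`-th power and congruent to
`h ^ n` modulo `π` has a root congruent to `h`: the roots of its expansions at the cusps glue.
-/

set_option autoImplicit false

noncomputable section

open UpperHalfPlane CongruenceSubgroup
open scoped MatrixGroups

namespace Fermat.Agent.KummerES

/-- **Gluing**: an element which is locally a unit times an `n`-th power and congruent to `h ^ n`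
has a root congruent to `h`. -/
theorem exists_root_of_isLocalPow {M L n : ℕ} [NeZero L] {B : Subring ℂ} {π : ℂ}
    (H : LevelHyp M L B) (hB : CoeffHyp B π n) (hS : SpecialFibre L B π hB.mem)
    (f h : LRing L B) (hloc : IsLocalPow n f) (hfh : constL (L := L) π hB.mem ∣ f - h ^ n)
    (hh : ¬ constL (L := L) π hB.mem ∣ h)
    (hg : ∀ δ, ∃ G : LaurentSeries ℂ, G ^ n = expAt (Gamma L) L B δ f ∧
      ∃ a ∈ B, ∃ b ∈ B, b ≠ 0 ∧ b * G.leadingCoeff = a) :
    ∃ y : LRing L B, y ^ n = f ∧ constL (L := L) π hB.mem ∣ y - h := by
  choose S hS1 hS2 using fun δ => exists_series_root H hB hS hloc hfh hh δ (hg δ)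
  exact exists_root_of_series H hB hS hloc hfh hh S fun δ => ⟨hS1 δ, hS2 δ⟩

end Fermat.Agent.KummerES
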