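import Fermat.Agent.KummerES.RootPow
import Fermat.Agent.HeckeLattice.Transfer
import Mathlib.Analysis.Complex.UpperHalfPlane.Manifold

/-!
# The Hecke transform of a Kummer root

If `g` is a Kummer root with multiplier `χ`, then `∏ x, g (β x • τ)` is a Kummer root with
multiplier the transfer of `χ`, at level `L * ℓ`.
-/

set_option autoImplicit false

noncomputable section

open UpperHalfPlane CongruenceSubgroup
open scoped MatrixGroups Manifold OnePoint Real

namespace Fermat.Agent.KummerES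

open HeckeLattice (CosetSystem Idx rep toGL)

/-- The product of `f` over the representatives of a coset system. -/
def heckeProd {Γ : Subgroup SL(2, ℤ)} {ι : Type*} [Fintype ι] (D : CosetSystem Γ ι)
    (f : ℍ → ℂ) : ℍ → ℂ := fun τ => ∏ x : ι, f (D.β x • τ)

/-- The Hecke product commutes with powers. -/
lemma heckeProd_pow {Γ : Subgroup SL(2, ℤ)} {ι : Type*} [Fintype ι] (D : CosetSystem Γ ι)
    (f : ℍ → ℂ) (n : ℕ) : heckeProd D (f ^ n) = heckeProd D f ^ n :=
  funext fun _ => Finset.prod_pow _ _ _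

/-- `rootPow` turns finite sums into products. -/
lemma rootPow_sum {n : ℕ} [NeZero n] {ι : Type*} (s : Finset ι) (x : ι → ZMod n) :
    rootPow n (∑ i ∈ s, x i) = ∏ i ∈ s, rootPow n (x i) := by
  classical
  induction s using Finset.induction_on with
  | empty => simp
  | insert a s ha ih => rw [Finset.sum_insert ha, Finset.prod_insert ha, rootPow_add, ih]

/-- `toGL` acts as the special linear group. -/
lemma toGL_smul {Γ : Subgroup SL(2, ℤ)} (γ : Γ) (τ : ℍ) : toGL γ • τ = (γ : SL(2, ℤ)) • τ := rfl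

/-- The Hecke product transforms by the transferred character. -/
lemma heckeProd_comp {Γ : Subgroup SL(2, ℤ)} {ι : Type*} [Fintype ι] (D : CosetSystem Γ ι)
    {n : ℕ} [NeZero n] {χ : Additive Γ →+ ZMod n} {g : ℍ → ℂ}
    (hg : ∀ γ : Γ, comp g γ = fun τ => rootPow n (χ (Additive.ofMul γ)) * g τ) (γ : Γ) :
    comp (heckeProd D g) γ
      = fun τ => rootPow n (D.transfer χ (Additive.ofMul γ)) * heckeProd D g τ := by
  funext τ
  have hstep : ∀ x, g (D.β x • ((γ : SL(2, ℤ)) • τ))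
      = rootPow n (χ (Additive.ofMul (D.cocycle γ x))) * g (D.β (D.next γ x) • τ) := by
    intro x
    rw [← toGL_smul, ← mul_smul, D.rep_mul, mul_smul, toGL_smul]
    exact congrFun (hg _) _
  show ∏ x, g (D.β x • ((γ : SL(2, ℤ)) • τ)) = _
  rw [Finset.prod_congr rfl fun x _ => hstep x, Finset.prod_mul_distrib, CosetSystem.transfer_apply,
    rootPow_sum]
  congr 1
  exact Equiv.prod_comp (D.nextPerm γ) (fun y => g (D.β y • τ))

/-- The standard representatives have positive determinant. -/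
lemma det_rep_pos' {ℓ : ℕ} (x : Idx ℓ) : 0 < ((rep ℓ x).det : ℝ) := by
  cases x using OnePoint.rec with
  | infty => exact ModularForm.det_heckeDiagMatrix_pos ℓ
  | coe j => exact ModularForm.det_heckeMatrix_pos ℓ j.val

/-- `q`-parameter at a coset representative. -/
lemma qL_rep {ℓ : ℕ} [hℓ : Fact ℓ.Prime] (L : ℕ) [NeZero L] (y : Idx ℓ) :
    ∃ (c : ℂ) (e : ℕ), c ≠ 0 ∧ e ≠ 0 ∧
      ∀ τ : ℍ, qL L (rep ℓ y • τ) = c * qL (L * ℓ) τ ^ e := by
  have hl : (ℓ : ℂ) ≠ 0 := by exact_mod_cast hℓ.out.ne_zero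
  have hL : (L : ℂ) ≠ 0 := by exact_mod_cast NeZero.ne L
  cases y using OnePoint.rec with
  | infty =>
    refine ⟨1, ℓ ^ 2, one_ne_zero, pow_ne_zero _ hℓ.out.ne_zero, fun τ => ?_⟩
    rw [one_mul]
    show Function.Periodic.qParam L ((ModularForm.heckeDiagMatrix ℓ • τ : ℍ) : ℂ) = _
    rw [ModularForm.coe_heckeDiagMatrix_smul hℓ.out.ne_zero, qL, Function.Periodic.qParam,
      Function.Periodic.qParam, ← Complex.exp_nat_mul]
    congr 1
    push_cast
    field_simp
  | coe j =>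
    refine ⟨zetaC (L * ℓ) ^ j.val, 1, pow_ne_zero _ (zetaC_ne_zero _), one_ne_zero, fun τ => ?_⟩
    show Function.Periodic.qParam L ((ModularForm.heckeMatrix ℓ j.val • τ : ℍ) : ℂ) = _
    rw [ModularForm.coe_heckeMatrix_smul hℓ.out.ne_zero, pow_one, qL, zetaC,
      Function.Periodic.qParam, Function.Periodic.qParam, ← Complex.exp_nat_mul, ← Complex.exp_add]
    congr 1
    push_cast
    field_simp
    ring

/-- Every representative times an element of `SL(2, ℤ)` is, up to `SL(2, ℤ)` on the left, one of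
the standard representatives. -/
lemma exists_rep_mul_SL {ℓ : ℕ} [hℓ : Fact ℓ.Prime] (x : Idx ℓ) (δ : SL(2, ℤ)) :
    ∃ (u : SL(2, ℤ)) (y : Idx ℓ), rep ℓ x * Matrix.SpecialLinearGroup.mapGL ℝ δ
      = Matrix.SpecialLinearGroup.mapGL ℝ u * rep ℓ y := by
  have h1 : ¬ ℓ ∣ 1 := hℓ.out.not_dvd_one
  obtain ⟨q, hq⟩ := HeckeLattice.exists_rep_mul (N := 1) h1 ⟨δ, by
    rw [Gamma0_mem]; exact Subsingleton.elim _ _⟩ x
  exact ⟨q.2, q.1, hq⟩

variable {Γ : Subgroup SL(2, ℤ)} {ℓ : ℕ} [hℓ : Fact ℓ.Prime] (D : CosetSystem Γ (Idx ℓ))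

/-- The representatives of `D` are the standard ones up to `SL(2, ℤ)` on the left. -/
def IsStandard : Prop :=
  ∀ x, ∃ (u : SL(2, ℤ)) (y : Idx ℓ), D.β x = Matrix.SpecialLinearGroup.mapGL ℝ u * rep ℓ y

/-- The system of `Gamma0 N` at `ℓ ∤ N` is standard. -/
lemma isStandard_gamma0 {N : ℕ} (hℓN : ¬ ℓ ∣ N) :
    IsStandard (HeckeLattice.gamma0System N ℓ hℓN) := fun x =>
  ⟨1, x, by rw [map_one, one_mul]; rfl⟩

variable {D}

lemma heckeProd_hasExp (hD : IsStandard D) {L : ℕ} [NeZero L] {f : ℍ → ℂ}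
    (hf : f ∈ weak (Gamma L) L ⊤) (δ : SL(2, ℤ)) :
    ∃ s : LaurentSeries ℂ, (f ≠ 0 → s ≠ 0) ∧ HasExp (L * ℓ) (comp (heckeProd D f) δ) s := by
  classical
  have key : ∀ x, ∃ s : LaurentSeries ℂ, (f ≠ 0 → s ≠ 0) ∧
      HasExp (L * ℓ) (fun τ => f (D.β x • (δ • τ))) s := by
    intro x
    obtain ⟨u, y, hy⟩ := hD x
    obtain ⟨v, z, hv⟩ := exists_rep_mul_SL y δ
    obtain ⟨c, e, hc, he, hq⟩ := qL_rep (ℓ := ℓ) L z
    have : NeZero e := ⟨he⟩
    obtain ⟨s, -, hs⟩ := hf.2.2 (u * v)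
    refine ⟨ModularCurve.qExpand ℂ e (twist c hc s), fun hf0 => ?_, ?_⟩
    · rw [map_ne_zero, map_ne_zero]
      intro h0
      subst h0
      refine hf0 (funext fun τ => ?_)
      have := congrFun (hs.fun_eq HasExp.zero) ((u * v)⁻¹ • τ)
      rw [comp_apply, smul_inv_smul] at this
      exact this
    · have h2 := hs.subst (L' := L * ℓ) (fun τ => rep ℓ z • τ) hc e hq
      have h3 : (fun τ => f (D.β x • (δ • τ))) = comp f (u * v) ∘ fun τ => rep ℓ z • τ := by
        funext τ
        show f (D.β x • (Matrix.SpecialLinearGroup.mapGL ℝ δ • τ))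
          = f (Matrix.SpecialLinearGroup.mapGL ℝ (u * v) • (rep ℓ z • τ))
        rw [← mul_smul, ← mul_smul, hy, mul_assoc, hv, ← mul_assoc, map_mul]
      rw [h3]
      exact h2
  choose s hs0 hs using key
  refine ⟨∏ x, s x, fun hf0 => Finset.prod_ne_zero_iff.mpr fun x _ => hs0 x hf0, ?_⟩
  have hprod : ∀ T : Finset (Idx ℓ),
      HasExp (L * ℓ) (fun τ => ∏ x ∈ T, f (D.β x • (δ • τ))) (∏ x ∈ T, s x) := by
    intro T
    induction T using Finset.induction_on with
    | empty => simpa [Pi.one_def] using (HasExp.one (L := L * ℓ))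
    | insert a T ha ih =>
      simp only [Finset.prod_insert ha]
      exact (hs a).mul ih
  exact hprod Finset.univ

/-- The Hecke product of a holomorphic function is holomorphic. -/
lemma mdiff_heckeProd (hD : IsStandard D) {f : ℍ → ℂ} (hf : MDiff f) :
    MDiff (heckeProd D f) := by
  classical
  have key : ∀ T : Finset (Idx ℓ), MDiff (fun τ => ∏ x ∈ T, f (D.β x • τ)) := by
    intro T
    induction T using Finset.induction_on with
    | empty => simpa using (mdifferentiable_const (c := (1 : ℂ)))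
    | insert a T ha ih =>
      simp only [Finset.prod_insert ha]
      obtain ⟨u, y, hy⟩ := hD a
      have hdet : 0 < ((D.β a).det : ℝ) := by
        rw [hy, map_mul, Units.val_mul]
        refine mul_pos ?_ (det_rep_pos' y)
        simp
      exact (hf.comp (mdifferentiable_smul hdet)).mul ih
  exact key Finset.univ

variable (D)

/-- The `n`-th power of a root is invariant. -/
lemma comp_eq_of_rootPow {n : ℕ} [NeZero n] {χ : Additive Γ →+ ZMod n} {g : ℍ → ℂ}
    (hg : ∀ γ : Γ, comp g γ = fun τ => rootPow n (χ (Additive.ofMul γ)) * g τ) (γ : SL(2, ℤ))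
    (hγ : γ ∈ Γ) : comp (g ^ n) γ = g ^ n := by
  funext τ
  show g ((γ : SL(2, ℤ)) • τ) ^ n = g τ ^ n
  rw [show g (γ • τ) = rootPow n (χ (Additive.ofMul (⟨γ, hγ⟩ : Γ))) * g τ from
    congrFun (hg ⟨γ, hγ⟩) τ, mul_pow, rootPow_pow_self, one_mul]

/-- The Hecke transform of a Kummer root is a Kummer root with the transferred multiplier. -/
theorem isKummer_heckeProd (hD : IsStandard D) {L n : ℕ} [NeZero L] [NeZero n]
    (hL : Gamma L ≤ Γ) {χ : Additive Γ →+ ZMod n} {g : ℍ → ℂ} (hg : IsKummer L n χ g) :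
    IsKummer (L * ℓ) n (D.transfer χ) (heckeProd D g) := by
  have hn : n ≠ 0 := NeZero.ne n
  have hcomp := heckeProd_comp D hg.comp_eq
  refine ⟨fun h0 => ?_, mdiff_heckeProd hD hg.holo, hcomp, ?_⟩
  · have hf0 : g ^ n ≠ 0 := fun h => hg.ne_zero (funext fun τ => by
      simpa [hn] using congrFun h τ)
    obtain ⟨s, hs0, hs⟩ := heckeProd_hasExp hD hg.pow_mem 1
    refine hs0 hf0 (HasExp.eq_zero_of_fun_zero (L := L * ℓ) ?_)
    rwa [comp_one, heckeProd_pow, h0, zero_pow hn] at hs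
  · refine ⟨?_, ?_, fun δ => ?_⟩
    · rw [← heckeProd_pow]
      exact mdiff_heckeProd hD hg.pow_mem.1
    · intro γ hγ
      refine comp_eq_of_rootPow hcomp γ (hL ?_)
      rw [Gamma_mem'] at hγ ⊢
      have hdvd : L ∣ L * ℓ := dvd_mul_right L ℓ
      have := congrArg (Matrix.SpecialLinearGroup.map (ZMod.castHom hdvd (ZMod L))) hγ
      rw [map_one] at this
      rw [← this]
      ext i j
      simp
    · obtain ⟨s, -, hs⟩ := heckeProd_hasExp hD hg.pow_mem δ
      refine ⟨s, fun i => Subring.mem_top _, ?_⟩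
      rwa [← heckeProd_pow]

end Fermat.Agent.KummerES
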