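import Fermat.Agent.KummerES.ReductionHyp

/-!
# Bounded denominators and normalisation

A weakly holomorphic function with coefficients in the fraction field of a discrete valuation ring
`B` has, after multiplication by a scalar, coefficients in `B` and nonzero reduction at `∞`.
-/

set_option autoImplicit false

noncomputable section

open UpperHalfPlane CongruenceSubgroup
open scoped MatrixGroups

namespace Fermat.Agent.KummerES

open LevelHyp (Cong)

variable {M L n : ℕ} [NeZero L] {B K : Subring ℂ} {π : ℂ}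

omit [NeZero L] in
/-- Every element of `weak (Γ L) L K` becomes `B`-integral after multiplication by a power of `π`,
when this holds for the elements of `K`. -/
lemma exists_pow_mul_mem_weak [NeZero L] (H : LevelHyp M L B) (hBK : B ≤ K) (hπ : π ∈ B)
    (hK : ∀ x ∈ K, ∃ r : ℕ, π ^ r * x ∈ B) {f : ℍ → ℂ} (hf : f ∈ weak (Gamma L) L K) :
    ∃ r : ℕ, (fun _ => π ^ r) * f ∈ weak (Gamma L) L B := by
  let H' : LevelHyp M L K :=
    { D := H.D, T := H.T, le := H.le.trans hBK, two_le := H.two_le, dvd := H.dvd }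
  have hc : ∀ r : ℕ, (fun _ => π ^ r) ∈ weak (Gamma L) L B := fun r =>
    const_mem_weak (pow_mem hπ r)
  rw [← H'.genRing_eq] at hf
  have hgen : ∀ g ∈ H.gens, g ∈ weak (Gamma L) L B := fun g hg => H.gens_subset hg
  induction hf using Subring.closure_induction with
  | mem g hg =>
    rcases hg with ⟨c, hcK, rfl⟩ | hg | hg | hg
    · obtain ⟨r, hr⟩ := hK c hcK
      exact ⟨r, by simpa [Pi.mul_def] using const_mem_weak (Γ := Gamma L) (L := L) hr⟩
    · exact ⟨0, by simpa [Pi.mul_def] using hgen g (Or.inr (Or.inl hg))⟩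
    · exact ⟨0, by simpa [Pi.mul_def] using hgen g (Or.inr (Or.inr (Or.inl hg)))⟩
    · exact ⟨0, by simpa [Pi.mul_def] using hgen g (Or.inr (Or.inr (Or.inr hg)))⟩
  | zero => exact ⟨0, by simp⟩
  | one => exact ⟨0, by simpa [Pi.mul_def, Pi.one_def] using hc 0⟩
  | add f g _ _ hf hg =>
    obtain ⟨r, hr⟩ := hf
    obtain ⟨s, hs⟩ := hg
    refine ⟨r + s, ?_⟩
    have : (fun _ : ℍ => π ^ (r + s)) * (f + g)
        = (fun _ => π ^ s) * ((fun _ => π ^ r) * f) + (fun _ => π ^ r) * ((fun _ => π ^ s) * g) := by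
      funext τ; simp only [Pi.mul_apply, Pi.add_apply]; ring
    rw [this]
    exact add_mem (mul_mem (hc s) hr) (mul_mem (hc r) hs)
  | neg f _ hf =>
    obtain ⟨r, hr⟩ := hf
    exact ⟨r, by simpa using neg_mem hr⟩
  | mul f g _ _ hf hg =>
    obtain ⟨r, hr⟩ := hf
    obtain ⟨s, hs⟩ := hg
    refine ⟨r + s, ?_⟩
    have : (fun _ : ℍ => π ^ (r + s)) * (f * g)
        = ((fun _ => π ^ r) * f) * ((fun _ => π ^ s) * g) := by
      funext τ; simp only [Pi.mul_apply]; ring
    rw [this]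
    exact mul_mem hr hs

/-- Scaling to nonzero reduction at `∞`. -/
lemma exists_normalised_aux (hπ : π ∈ B)
    (hspan : ∀ f : LRing L B, kerAt B π 1 f → f ∈ Ideal.span {constL (L := L) π hπ}) (i : ℤ) :
    ∀ (m : ℕ) (f : LRing L B), (expAt (Gamma L) L B 1 f).coeff i ≠ 0 →
      (∀ y ∈ B, (expAt (Gamma L) L B 1 f).coeff i ≠ π ^ m * y) →
      ∃ (r : ℕ) (g : LRing L B), f.1 = (fun _ => π ^ r) * g.1 ∧ ¬ kerAt B π 1 g := by
  intro m
  induction m with
  | zero =>
    intro f _ h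
    exact absurd (by rw [pow_zero, one_mul]; rfl) (h _ (expansion_mem f.2 1 i))
  | succ m ih =>
    intro f hf h
    by_cases hker : kerAt B π 1 f
    swap
    · exact ⟨0, f, by simp [Pi.mul_def], hker⟩
    obtain ⟨g, hg⟩ := Ideal.mem_span_singleton'.mp (hspan f hker)
    have he : (expAt (Gamma L) L B 1 f).coeff i = π * (expAt (Gamma L) L B 1 g).coeff i := by
      rw [← hg, map_mul, mul_comm]
      show (expansion L (comp (fun _ => π) 1) * _).coeff i = _
      rw [show comp (fun _ : ℍ => π) 1 = fun _ => π from comp_one _,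
        (HasExp.const π).expansion_eq, HahnSeries.coeff_single_zero_mul]
    obtain ⟨r, g', hr, hg'⟩ := ih g (fun h0 => hf (by rw [he, h0, mul_zero])) fun y hy hgy =>
      h y hy (by rw [he, hgy, pow_succ]; ring)
    refine ⟨r + 1, g', ?_, hg'⟩
    funext τ
    rw [← hg]
    show g.1 τ * π = π ^ (r + 1) * g'.1 τ
    rw [show g.1 τ = π ^ r * g'.1 τ from congrFun hr τ, pow_succ]
    ring

/-- Every nonzero function with coefficients in `K` has a multiple by an element of `Kˣ` which is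
`B`-integral with nonzero reduction at `∞`. -/
theorem exists_normalised (H : LevelHyp M L B) (hBK : B ≤ K) (hπ : π ∈ B) (hπ0 : π ≠ 0)
    (hπK : π⁻¹ ∈ K) (hK : ∀ x ∈ K, ∃ r : ℕ, π ^ r * x ∈ B)
    (hsep : LevelHyp.IsSeparated B π)
    (hspan : ∀ f : LRing L B, kerAt B π 1 f → f ∈ Ideal.span {constL (L := L) π hπ})
    {f : ℍ → ℂ} (hf : f ∈ weak (Gamma L) L K) (hf0 : f ≠ 0) :
    ∃ a ∈ K, a ≠ 0 ∧ (fun _ => a) * f ∈ weak (Gamma L) L B ∧
      ¬ Cong B π 1 (expansion L ((fun _ => a) * f)) 0 := by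
  obtain ⟨r, hr⟩ := exists_pow_mul_mem_weak H hBK hπ hK hf
  set F : LRing L B := ⟨_, hr⟩
  have hF0 : expAt (Gamma L) L B 1 F ≠ 0 := fun h => hf0 <| by
    have hh := expAt_injective (Γ := Gamma L) (L := L) (B := B) 1 (h.trans (map_zero _).symm)
    funext τ
    have := congrArg (fun G : LRing L B => G.1 τ) hh
    simpa [F, hπ0] using this
  obtain ⟨i, hi⟩ : ∃ i, (expAt (Gamma L) L B 1 F).coeff i ≠ 0 := by
    by_contra! h
    exact hF0 (HahnSeries.ext (funext h))
  obtain ⟨m, hm⟩ : ∃ m : ℕ, ∀ y ∈ B, (expAt (Gamma L) L B 1 F).coeff i ≠ π ^ m * y := by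
    by_contra! h
    exact hi (hsep _ (expansion_mem F.2 1 i) h)
  obtain ⟨s, g, hg, hker⟩ := exists_normalised_aux hπ hspan i m F hi hm
  have hfg : (fun _ : ℍ => π⁻¹ ^ s * π ^ r) * f = g.1 := by
    funext τ
    have := congrFun hg τ
    simp only [F, Pi.mul_apply] at this ⊢
    rw [mul_assoc, this, ← mul_assoc, ← mul_pow, inv_mul_cancel₀ hπ0, one_pow, one_mul]
  refine ⟨π⁻¹ ^ s * π ^ r, mul_mem (pow_mem hπK s) (pow_mem (hBK hπ) r),
    mul_ne_zero (pow_ne_zero _ (inv_ne_zero hπ0)) (pow_ne_zero _ hπ0), hfg ▸ g.2, ?_⟩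
  rw [hfg]
  rwa [kerAt, expAt_apply, comp_one] at hker

end Fermat.Agent.KummerES
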