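import Fermat.Agent.KummerES.ModulesTwist

/-!
# Descending conjugation to a smaller level

Conjugates of functions of level `L₀` invariant under `Γ(L)`, `L ∣ L₀`, have level `L`; hence
conjugation and conjugate Kummer roots exist at every divisor of a level where they exist.
-/

set_option autoImplicit false

noncomputable section

open UpperHalfPlane CongruenceSubgroup ModularCurve.Period
open scoped MatrixGroups Manifold

namespace Fermat.Agent.KummerES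

open ModularCurve (coeffMap qExpand)

variable {L L₀ c : ℕ} [NeZero L] [NeZero L₀]

/-- An invariant function of level `L₀` under `Γ(L)`, `L ∣ L₀`, has level `L`. -/
lemma weak_descend (h : L ∣ L₀) {B : Subring ℂ} {f : ℍ → ℂ} (hf : f ∈ weak (Gamma L₀) L₀ B)
    (hinv : ∀ γ ∈ Gamma L, comp f γ = f) : f ∈ weak (Gamma L) L B := by
  obtain ⟨M, rfl⟩ := h
  have : NeZero M := ⟨right_ne_zero_of_mul (NeZero.ne (L * M))⟩
  refine ⟨hf.1, hinv, fun δ => ?_⟩
  exact exists_hasExp_of_comp_T_pow (hasExp_expansion hf δ) (expansion_mem hf δ)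
    (comp_comp_T_pow hinv δ)

omit [NeZero L] [NeZero L₀] in
lemma isUnit_diagMat (hc : c.Coprime L) : IsUnit (diagMat L c) := by
  rw [Matrix.isUnit_iff_isUnit_det, diagMat, Matrix.det_fin_two_of]
  simpa using (ZMod.unitOfCoprime c hc).isUnit

omit [NeZero L] [NeZero L₀] in
lemma isDiagStable_Gamma (L : ℕ) : IsDiagStable (Gamma L) L := by
  refine ⟨le_rfl, fun c hc γ γ' h hγ => ?_⟩
  rw [redMat_eq_one_iff] at hγ ⊢
  rw [TwistRel, hγ, mul_one] at h
  exact (isUnit_diagMat hc).mul_right_cancel (by rw [h, one_mul])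

/-- Conjugation exists at every divisor of a level where it exists. -/
theorem HasConj.of_dvd (hC : HasConj L₀) (h : L ∣ L₀) : HasConj L := by
  intro σ c hσ f hf
  obtain ⟨c₀, hc₀, hσ₀⟩ := exists_pow_zetaC L₀ σ
  have hcc : (c₀ : ZMod L) = c := by
    refine natCast_eq_of_zetaC_pow ?_
    rw [← hσ, zetaC_pow_of_dvd h, map_pow, hσ₀, ← pow_mul, ← pow_mul, mul_comm]
  have hcL : c₀.Coprime L := hc₀.coprime_dvd_right h
  obtain ⟨f', hf'⟩ := hC σ c₀ hσ₀ f (weak_level h hf)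
  have hinv' : ∀ γ ∈ Gamma L, comp f' γ = f' := fun γ hγ =>
    (isDiagStable_Gamma L).comp_eq h hc₀ hf' hf.2.1 hγ
  refine ⟨f', IsConj.congr_exponent ?_ hcc⟩
  refine ⟨hf, weak_descend h hf'.2.1 hinv', fun δ δ' hδ => ?_⟩
  obtain ⟨δ'', hδ''⟩ := exists_twistRel_of_coprime hc₀ δ
  have hmem : δ'' * δ'⁻¹ ∈ Gamma L := by
    rw [redMat_eq_one_iff, redMat_mul]
    have heq : redMat L δ'' = redMat L δ' :=
      (isUnit_diagMat hcL).mul_right_cancel ((hδ''.mono h).trans hδ.symm)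
    rw [heq, ← redMat_mul, mul_inv_cancel, redMat_one]
  have hcomp : comp f δ'' = comp f δ' := by
    rw [show δ'' = δ'' * δ'⁻¹ * δ' by group, ← comp_comp, hf.2.1 _ hmem]
  obtain ⟨M, rfl⟩ := h
  have : NeZero M := ⟨right_ne_zero_of_mul (NeZero.ne (L * M))⟩
  have h1 := hf'.2.2 δ δ'' hδ''
  rw [hcomp, expansion_level hf, expansion_level (weak_descend (dvd_mul_right L M) hf'.2.1 hinv'),
    ModularCurve.coeffMap_qExpand] at h1
  exact ModularCurve.qExpand_injective M h1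

variable {Γ : Subgroup SL(2, ℤ)} {N n : ℕ} [NeZero n]

/-- A Kummer root of level `L₀` whose character is trivial on nothing smaller than `Γ(L)` has
level `L`. -/
lemma IsKummer.descend (h : L ∣ L₀) (hLΓ : Gamma L ≤ Γ) {χ : Additive Γ →+ ZMod n} {g : ℍ → ℂ}
    (hg : IsKummer L₀ n χ g) : IsKummer L n χ g :=
  ⟨hg.ne_zero, hg.holo, hg.comp_eq,
    weak_descend h hg.pow_mem fun _ hγ => hg.pow_comp_eq (hLΓ hγ)⟩

/-- Conjugate roots at a divisor of the level. -/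
theorem ConjLevel.exists_conj_of_dvd (S : ConjLevel Γ N L₀) (h : L ∣ L₀) (hNL : N ∣ L)
    (σ : ℂ ≃+* ℂ) {χ : parabolicHoms ℤ Γ (ZMod n)} {g : ℍ → ℂ} (hg : IsKummer L n χ.1 g) :
    ∃ (c : ℕ) (g' : ℍ → ℂ), c.Coprime L ∧ (σ : ℂ →+* ℂ) (zetaC L) = zetaC L ^ c ∧
      IsKummer L n (S.conjChar σ χ).1 g' ∧ IsConj L c (σ : ℂ →+* ℂ) (g ^ n) (g' ^ n) := by
  have hLΓ : Gamma L ≤ Γ := S.stable.gamma_le hNL
  obtain ⟨c₀, hc₀, hσ₀⟩ := exists_pow_zetaC L₀ (σ : ℂ →+* ℂ)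
  obtain ⟨c, hc, hσ⟩ := exists_pow_zetaC L (σ : ℂ →+* ℂ)
  have hcc : (c₀ : ZMod L) = c := by
    refine natCast_eq_of_zetaC_pow ?_
    rw [← hσ, zetaC_pow_of_dvd h, map_pow, hσ₀, ← pow_mul, ← pow_mul, mul_comm]
  obtain ⟨ψ, g', hg', hconj⟩ := S.exists_conj σ hc₀ hσ₀ (hg.of_dvd h)
  obtain rfl := S.conjChar_eq ⟨c₀, g, g', hc₀, hσ₀, hg.of_dvd h, hg', hconj⟩
  obtain ⟨f', hf'⟩ := (S.hasConj.of_dvd h) (σ : ℂ →+* ℂ) c hσ _ hg.pow_mem
  have heq : g' ^ n = f' := hconj.unique (hf'.of_dvd h hcc)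
  exact ⟨c, g', hc, hσ, hg'.descend h hLΓ, heq.symm ▸ hf'⟩

end Fermat.Agent.KummerES
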