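import Fermat.Agent.KummerES.Weak
import Fermat.Agent.GaloisBasics.Galois
import Fermat.Prelude.Thm_ModularCurve_coeffMap_qExpand
import Mathlib.RingTheory.DedekindDomain.AdicValuation
import Mathlib.RingTheory.DedekindDomain.Dvr
import Mathlib.NumberTheory.NumberField.Basic
import Mathlib.Algebra.CharP.Lemmas

/-!
# Coefficient rings at a place

For a number field `E ⊆ ℚ̄`, a place `A` of `ℚ̄` and an embedding `ι : ℚ̄ → ℂ`, the ring
`placeRing ι A E = ι (A ∩ E)` is a discrete valuation ring with a reduction map to the residue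
field of `A`, equivariant for the decomposition group.
-/

set_option autoImplicit false

noncomputable section

open scoped NumberField

namespace Fermat.Agent.KummerES

open GaloisBasics (Qbar GalQ)
open ModularCurve (coeffMap)

variable (ι : Qbar →+* ℂ) (A : ValuationSubring Qbar) (E : IntermediateField ℚ Qbar)

/-- The image in `ℂ` of the integers of `E` at `A`. -/
def placeRing : Subring ℂ := (A.toSubring ⊓ E.toSubalgebra.toSubring).map ι

variable {ι A E}

/-- Membership in the place ring. -/
lemma mem_placeRing {z : ℂ} : z ∈ placeRing ι A E ↔ ∃ x : Qbar, (x ∈ A ∧ x ∈ E) ∧ ι x = z :=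
  Subring.mem_map

/-- An algebraic number lies in the place ring iff it lies in `A` and in `E`. -/
lemma map_mem_placeRing_iff {x : Qbar} : ι x ∈ placeRing ι A E ↔ x ∈ A ∧ x ∈ E := by
  rw [mem_placeRing]
  exact ⟨fun ⟨y, hy, h⟩ => ι.injective h ▸ hy, fun h => ⟨x, h, rfl⟩⟩

variable (ι A E)

/-- The preimage of an element of `placeRing`. -/
def placePre : placeRing ι A E →+* A where
  toFun z := ⟨(mem_placeRing.mp z.2).choose, (mem_placeRing.mp z.2).choose_spec.1.1⟩
  map_one' := Subtype.ext (ι.injective (by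
    rw [(mem_placeRing.mp (1 : placeRing ι A E).2).choose_spec.2]; simp))
  map_mul' a b := Subtype.ext (ι.injective (by
    show ι _ = ι (_ * _)
    rw [map_mul, (mem_placeRing.mp (a * b).2).choose_spec.2,
      (mem_placeRing.mp a.2).choose_spec.2, (mem_placeRing.mp b.2).choose_spec.2]
    rfl))
  map_zero' := Subtype.ext (ι.injective (by
    rw [(mem_placeRing.mp (0 : placeRing ι A E).2).choose_spec.2]; simp))
  map_add' a b := Subtype.ext (ι.injective (by
    show ι _ = ι (_ + _)
    rw [map_add, (mem_placeRing.mp (a + b).2).choose_spec.2,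
      (mem_placeRing.mp a.2).choose_spec.2, (mem_placeRing.mp b.2).choose_spec.2]
    rfl))

lemma coe_placePre (z : placeRing ι A E) : ι (placePre ι A E z : Qbar) = z :=
  (mem_placeRing.mp z.2).choose_spec.2

lemma placePre_mem (z : placeRing ι A E) : (placePre ι A E z : Qbar) ∈ E :=
  (mem_placeRing.mp z.2).choose_spec.1.2

/-- Reduction to the residue field of `A`. -/
def placeRed : placeRing ι A E →+* IsLocalRing.ResidueField A :=
  (IsLocalRing.residue A).comp (placePre ι A E)

variable {ι A E}

lemma placeRed_eq_zero_iff_nonunits (z : placeRing ι A E) :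
    placeRed ι A E z = 0 ↔ (placePre ι A E z : Qbar) ∈ A.nonunits := by
  rw [placeRed, RingHom.comp_apply, IsLocalRing.residue_eq_zero_iff,
    ← ValuationSubring.coe_mem_nonunits_iff]

variable (ι A E)

/-- `placeRing` is the valuation ring of `E` under `A`. -/
def placeEquiv : placeRing ι A E ≃+* A.comap (algebraMap E Qbar) where
  toFun z := ⟨⟨placePre ι A E z, placePre_mem ι A E z⟩, (placePre ι A E z).2⟩
  invFun w := ⟨ι (w.1 : Qbar), map_mem_placeRing_iff.mpr ⟨w.2, w.1.2⟩⟩
  left_inv z := Subtype.ext (coe_placePre ι A E z)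
  right_inv w := Subtype.ext (Subtype.ext (ι.injective (coe_placePre ι A E _)))
  map_mul' a b := by ext; simp
  map_add' a b := by ext; simp

variable {ι A E} {ℓ : ℕ}

/-- A place over a prime restricts to a discrete valuation ring of a number field. -/
theorem isDiscreteValuationRing_comap [FiniteDimensional ℚ E] (hℓ : ℓ.Prime)
    (hA : A.LiesOverPrime ℓ) : IsDiscreteValuationRing (A.comap (algebraMap E Qbar)) := by
  set V := A.comap (algebraMap E Qbar) with hV
  have : NumberField E := ⟨⟩
  have hint : ∀ a : 𝓞 E, algebraMap E Qbar (a : E) ∈ A := fun a =>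
    GaloisBasics.mem_of_isIntegral A
      ((NumberField.RingOfIntegers.isIntegral_coe a).map ((algebraMap E Qbar).toIntAlgHom))
  let f : 𝓞 E →+* A :=
    ((algebraMap E Qbar).comp (algebraMap (𝓞 E) E)).codRestrict A hint
  let P : Ideal (𝓞 E) := (IsLocalRing.maximalIdeal A).comap f
  have hP : P.IsPrime := Ideal.comap_isPrime f _
  have hPne : P ≠ ⊥ := by
    intro h
    have : (ℓ : 𝓞 E) ∈ P := by
      rw [Ideal.mem_comap, map_natCast, IsLocalRing.mem_maximalIdeal, mem_nonunits_iff]
      intro hu
      have := ValuationSubring.coe_mem_nonunits_iff.not.mpr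
        (show (ℓ : A) ∉ IsLocalRing.maximalIdeal A by
          rwa [IsLocalRing.mem_maximalIdeal, mem_nonunits_iff, not_not])
      exact this (by simpa [ValuationSubring.LiesOverPrime] using hA)
    rw [h, Ideal.mem_bot, Nat.cast_eq_zero] at this
    exact hℓ.ne_zero this
  let v : IsDedekindDomain.HeightOneSpectrum (𝓞 E) := ⟨P, hP, hPne⟩
  have hle : IsDedekindDomain.HeightOneSpectrum.valuationSubringAtPrime E v ≤ V := by
    rintro x ⟨a, s, hs, rfl⟩
    have hsA : IsUnit (f s) := by
      by_contra hns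
      exact hs (show f s ∈ IsLocalRing.maximalIdeal A from hns)
    obtain ⟨u, hu⟩ := hsA
    show algebraMap E Qbar ((a : E) * (s : E)⁻¹) ∈ A
    have : algebraMap E Qbar ((a : E) * (s : E)⁻¹) = ((f a * ↑u⁻¹ : A) : Qbar) := by
      rw [map_mul, map_inv₀, MulMemClass.coe_mul]
      refine congrArg₂ (· * ·) rfl (inv_eq_of_mul_eq_one_right ?_)
      have h1 : (f s : A) * (↑u⁻¹ : A) = 1 := by rw [← hu, Units.mul_inv]
      exact congrArg Subtype.val h1
    rw [this]
    exact SetLike.coe_mem _
  have hne : V ≠ ⊤ := by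
    intro h
    have hmem : ((ℓ : E))⁻¹ ∈ V := h ▸ ValuationSubring.mem_top _
    have hmem' : ((ℓ : Qbar))⁻¹ ∈ A := by
      have := hmem
      rw [hV, ValuationSubring.mem_comap, map_inv₀, map_natCast] at this
      exact this
    have hl : (ℓ : Qbar) ∈ A.nonunits := hA
    rw [ValuationSubring.mem_nonunits_iff_or] at hl
    rcases hl with hl | hl
    · exact hℓ.ne_zero (by exact_mod_cast hl)
    · exact hl hmem'
  have hVP := ValuationSubring.eq_of_le_of_ne_top (A := IsDedekindDomain.HeightOneSpectrum.valuationSubringAtPrime E v) hle hne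
  rw [← hVP]
  have : IsLocalization v.asIdeal.primeCompl
      (Localization.subalgebra.ofField E v.asIdeal.primeCompl
        v.asIdeal.primeCompl_le_nonZeroDivisors) :=
    Localization.subalgebra.isLocalization_ofField E _ _
  exact IsLocalization.AtPrime.isDiscreteValuationRing_of_dedekind_domain (𝓞 E) v.ne_bot
    (Localization.subalgebra.ofField E v.asIdeal.primeCompl
        v.asIdeal.primeCompl_le_nonZeroDivisors)

/-- The coefficient ring at a place is a discrete valuation ring. -/
theorem isDiscreteValuationRing_placeRing [FiniteDimensional ℚ E] (hℓ : ℓ.Prime)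
    (hA : A.LiesOverPrime ℓ) : IsDiscreteValuationRing (placeRing ι A E) :=
  have := isDiscreteValuationRing_comap (E := E) hℓ hA
  IsDiscreteValuationRing.RingEquivClass.isDiscreteValuationRing (placeEquiv ι A E).symm

/-- The kernel of the reduction is generated by any uniformiser. -/
theorem placeRed_eq_zero_iff [FiniteDimensional ℚ E] (hℓ : ℓ.Prime) (hA : A.LiesOverPrime ℓ)
    {π : placeRing ι A E} (hπ : Irreducible π) (z : placeRing ι A E) :
    placeRed ι A E z = 0 ↔ π ∣ z := by
  have := isDiscreteValuationRing_placeRing (ι := ι) (E := E) hℓ hA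
  have hmax : IsLocalRing.maximalIdeal (placeRing ι A E) = Ideal.span {π} :=
    hπ.maximalIdeal_eq
  have hker : RingHom.ker (placeRed ι A E) = IsLocalRing.maximalIdeal (placeRing ι A E) := by
    have hprime : (RingHom.ker (placeRed ι A E)).IsPrime := RingHom.ker_isPrime _
    have hne : RingHom.ker (placeRed ι A E) ≠ ⊥ := fun h => ?_
    · exact IsLocalRing.eq_maximalIdeal (hprime.isMaximal hne)
    have hmem : ((ℓ : ℕ) : placeRing ι A E) ∈ RingHom.ker (placeRed ι A E) := by
      rw [RingHom.mem_ker, placeRed_eq_zero_iff_nonunits, map_natCast]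
      simpa [ValuationSubring.LiesOverPrime] using hA
    rw [h, Ideal.mem_bot] at hmem
    have := congrArg Subtype.val hmem
    simp [hℓ.ne_zero] at this
  rw [← RingHom.mem_ker, hker, hmax, Ideal.mem_span_singleton]

/-- An integer prime to `ℓ` is invertible in the place ring. -/
lemma inv_natCast_mem_placeRing {m : ℕ} (hA : A.LiesOverPrime ℓ) (hℓ : ℓ.Prime) (hm : ¬ ℓ ∣ m) :
    (m : ℂ)⁻¹ ∈ placeRing ι A E := by
  have hA' : (m : Qbar)⁻¹ ∈ A := by
    by_contra h
    refine hm ((GaloisBasics.natCast_mem_nonunits_iff hA hℓ m).mp ?_)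
    rw [ValuationSubring.mem_nonunits_iff_or]
    exact Or.inr h
  rw [← map_natCast ι, ← map_inv₀]
  exact map_mem_placeRing_iff.mpr ⟨hA', inv_mem (natCast_mem E m)⟩

/-- Roots of unity in `E` lie in the place ring. -/
lemma mem_placeRing_of_pow_eq_one {z : ℂ} {x : Qbar} (hx : x ∈ E) (hxz : ι x = z) {m : ℕ}
    (hm : m ≠ 0) (h : z ^ m = 1) : z ∈ placeRing ι A E := by
  subst hxz
  refine map_mem_placeRing_iff.mpr ⟨GaloisBasics.mem_of_isIntegral A ?_, hx⟩
  rw [← map_pow, map_eq_one_iff _ ι.injective] at h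
  exact IsIntegral.of_pow (Nat.pos_of_ne_zero hm) (h ▸ isIntegral_one)

/-- An extension `σ'` to `ℂ` of an element of the decomposition group stabilising `E`. -/
structure IsPlaceLift (σ : GalQ) (σ' : ℂ →+* ℂ) : Prop where
  comm : ∀ x, σ' (ι x) = ι (σ x)
  decomp : σ ∈ A.decompositionSubgroup ℚ
  stable : ∀ x ∈ E, σ x ∈ E

/-- A lift of a decomposition element preserves the place ring. -/
lemma IsPlaceLift.map_mem {σ : GalQ} {σ' : ℂ →+* ℂ}
    (h : IsPlaceLift (ι := ι) (A := A) (E := E) σ σ') {z : ℂ} (hz : z ∈ placeRing ι A E) :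
    σ' z ∈ placeRing ι A E := by
  obtain ⟨x, ⟨hxA, hxE⟩, rfl⟩ := mem_placeRing.mp hz
  rw [h.comm]
  exact map_mem_placeRing_iff.mpr ⟨(GaloisBasics.apply_mem_iff h.decomp x).mpr hxA, h.stable x hxE⟩

/-- The restriction of an extension of an element of the decomposition group. -/
def placeMap {σ : GalQ} {σ' : ℂ →+* ℂ} (h : IsPlaceLift (ι := ι) (A := A) (E := E) σ σ') :
    placeRing ι A E →+* placeRing ι A E :=
  σ'.restrict _ _ fun _ => h.map_mem

@[simp] lemma coe_placeMap {σ : GalQ} {σ' : ℂ →+* ℂ}
    (h : IsPlaceLift (ι := ι) (A := A) (E := E) σ σ') (z : placeRing ι A E) :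
    (placeMap h z : ℂ) = σ' z := rfl

lemma placeRed_placeMap {σ : GalQ} {σ' : ℂ →+* ℂ}
    (h : IsPlaceLift (ι := ι) (A := A) (E := E) σ σ')
    {φ : IsLocalRing.ResidueField A → IsLocalRing.ResidueField A}
    (hφ : ∀ y, (⟨σ, h.decomp⟩ : A.decompositionSubgroup ℚ) • y = φ y) (z : placeRing ι A E) :
    placeRed ι A E (placeMap h z) = φ (placeRed ι A E z) := by
  rw [← hφ]
  show IsLocalRing.residue A _ = _ • IsLocalRing.residue A _
  rw [← IsLocalRing.ResidueField.residue_smul]
  refine congrArg _ (Subtype.ext (ι.injective ?_))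
  rw [coe_placePre, coe_placeMap, GaloisBasics.coe_smul_decomposition, ← h.comm, coe_placePre]

/-- On the residue field a Frobenius lift acts by the `ℓ`-th power. -/
lemma placeRed_placeMap_frobenius [Fact ℓ.Prime] [CharP (IsLocalRing.ResidueField A) ℓ] {σ : GalQ}
    {σ' : ℂ →+* ℂ} (h : IsPlaceLift (ι := ι) (A := A) (E := E) σ σ')
    (hσ : A.IsFrobeniusAt σ ℓ) :
    (placeRed ι A E).comp (placeMap h) =
      (frobenius (IsLocalRing.ResidueField A) ℓ).comp (placeRed ι A E) :=
  RingHom.ext fun z => by
    simp only [RingHom.comp_apply, frobenius_def]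
    exact placeRed_placeMap h (φ := fun y => y ^ ℓ) hσ.smul_residue_eq z

/-- On the residue field an inertia lift acts trivially. -/
lemma placeRed_placeMap_inertia {σ : GalQ} {σ' : ℂ →+* ℂ}
    (h : IsPlaceLift (ι := ι) (A := A) (E := E) σ σ') (hσ : σ ∈ A.inertiaSubgroupIn ℚ) :
    (placeRed ι A E).comp (placeMap h) = placeRed ι A E :=
  RingHom.ext fun z =>
    placeRed_placeMap h (φ := id) (GaloisBasics.mem_inertiaSubgroupIn_iff_smul.mp hσ).choose_spec z

/-- A series with coefficients in a subring, as a series over it. -/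
def liftSeries {B : Subring ℂ} (s : LaurentSeries ℂ) (hs : s ∈ coeffSubring B) : LaurentSeries B :=
  HahnSeries.ofSuppBddBelow (fun i => (⟨s.coeff i, hs i⟩ : B))
    (bddBelow_support_of_forall_lt s.order fun _i hi =>
      Subtype.ext (HahnSeries.coeff_eq_zero_of_lt_order hi))

/-- Lifting the coefficients and mapping back is the identity. -/
lemma coeffMap_liftSeries {B : Subring ℂ} (s : LaurentSeries ℂ) (hs : s ∈ coeffSubring B) :
    coeffMap B.subtype (liftSeries s hs) = s := by
  ext i; simp [liftSeries]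

end Fermat.Agent.KummerES
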