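import Fermat.Agent.KummerES.ConjugateRep
import Fermat.Agent.KummerES.ModulesPlace
import Fermat.Agent.KummerES.ModulesDenom
import Fermat.Agent.KummerES.ModulesDescend
import Fermat.Agent.KummerES.ReductionSeries

/-!
# Inertia and Frobenius on conjugate characters

At a place `A` over a prime `ℓ` not dividing the level, rigidity of congruences modulo `A` gives
that inertia acts trivially on parabolic characters and that a Frobenius satisfies the
Eichler–Shimura relation.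
-/

set_option autoImplicit false

noncomputable section

open UpperHalfPlane CongruenceSubgroup ModularCurve.Period
open scoped MatrixGroups Manifold

namespace Fermat.Agent.KummerES

open HeckeLattice (CosetSystem Idx)
open LevelHyp (Cong)
open GaloisBasics (Qbar GalQ)
open ModularCurve (coeffMap qExpand)

variable {Γ : Subgroup SL(2, ℤ)} {N L L₀ n M : ℕ} [NeZero L] [NeZero L₀] [NeZero n]

/-- Congruences modulo `π` between powers of Kummer roots at `∞` force trivial characters. -/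
def IsRigid (Γ : Subgroup SL(2, ℤ)) (L n : ℕ) [NeZero L] [NeZero n] (B : Subring ℂ) (π : ℂ) :
    Prop :=
  ∀ (χ : parabolicHoms ℤ Γ (ZMod n)) (w h : ℍ → ℂ), IsKummer L n χ.1 w →
    w ^ n ∈ weak (Gamma L) L B → h ∈ weak (Gamma L) L B → (∀ γ ∈ Γ, comp h γ = h) →
    Cong B π 1 (expansion L (w ^ n)) (expansion L h ^ n) → ¬ Cong B π 1 (expansion L h) 0 → χ = 0

section series

variable {B : Subring ℂ} {k : Type*} [Field k]

/-- Congruence modulo a uniformiser is equality of reductions. -/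
lemma cong_one_iff_red {π : ℂ} (hπ : π ∈ B) (red : B →+* k)
    (hker : ∀ z, red z = 0 ↔ (⟨π, hπ⟩ : B) ∣ z) (hπ0 : π ≠ 0) (s t : LaurentSeries B) :
    Cong B π 1 (coeffMap B.subtype s) (coeffMap B.subtype t) ↔ coeffMap red s = coeffMap red t := by
  rw [cong_iff_dvd hπ, pow_one, ← sub_eq_zero (a := coeffMap red s), ← map_sub]
  constructor
  · rintro ⟨u, hu⟩
    rw [hu, map_mul, HahnSeries.C_apply, ModularCurve.coeffMap_single,
      (hker _).mpr dvd_rfl]
    simp
  · intro hs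
    have hd : ∀ i, ∃ c, (s - t).coeff i = ⟨π, hπ⟩ * c ∧ ((s - t).coeff i = 0 → c = 0) := by
      intro i
      have hi := congrArg (fun z => HahnSeries.coeff z i) hs
      simp only [ModularCurve.coeffMap_coeff, HahnSeries.coeff_zero] at hi
      obtain ⟨c, hc⟩ := (hker _).mp hi
      refine ⟨c, hc, fun h0 => (mul_eq_zero.mp (hc.symm.trans h0)).resolve_left fun h => ?_⟩
      exact hπ0 (congrArg Subtype.val h)
    choose c hc hc0 using hd
    refine ⟨⟨c, (s - t).isPWO_support.mono fun i hi h0 => hi (hc0 i h0)⟩, ?_⟩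
    ext i
    rw [HahnSeries.C_mul_eq_smul, HahnSeries.coeff_smul, smul_eq_mul, hc]

omit [NeZero n] [NeZero L₀] in
/-- Expansion in `q` of a translation invariant function with coefficients in `B`. -/
lemma exists_series_one {f : ℍ → ℂ} (hf : f ∈ weak (Gamma L) L B)
    (hT : comp f ModularGroup.T = f) :
    ∃ S : LaurentSeries B, HasExp 1 f (coeffMap B.subtype S) := by
  have hs : HasExp L f (expansion L f) := by simpa using hasExp_expansion hf 1
  obtain ⟨t, ht, hts⟩ := exists_hasExp_one hs hT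
  have htB : t ∈ coeffSubring B := fun i => by
    have h1 := expansion_mem hf 1 ((L : ℤ) * i)
    rw [comp_one, ← hts, ModularCurve.qExpand_coeff_mul] at h1
    exact h1
  exact ⟨liftSeries t htB, by rwa [coeffMap_liftSeries]⟩

omit [NeZero n] [NeZero L₀] in
lemma expansion_eq_of_hasExp_one {f : ℍ → ℂ} {S : LaurentSeries B}
    (h : HasExp 1 f (coeffMap B.subtype S)) :
    expansion L f = coeffMap B.subtype (qExpand B L S) := by
  rw [ModularCurve.coeffMap_qExpand]
  have key : ∀ K : ℕ, K = 1 * L → HasExp K f (qExpand ℂ L (coeffMap B.subtype S)) := by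
    intro K hK; subst hK; exact h.dilate L
  exact (key L (one_mul L).symm).expansion_eq

omit [NeZero n] [NeZero L₀] in
/-- Congruences at level `L` are equalities of reductions of the series in `q`. -/
lemma cong_expansion_iff {π : ℂ} (hπ : π ∈ B) (red : B →+* k)
    (hker : ∀ z, red z = 0 ↔ (⟨π, hπ⟩ : B) ∣ z) (hπ0 : π ≠ 0) (S : LaurentSeries B)
    {f : ℍ → ℂ} (hf : HasExp 1 f (coeffMap B.subtype S)) (T : LaurentSeries B) :
    Cong B π 1 (expansion L f) (coeffMap B.subtype (qExpand B L T)) ↔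
      coeffMap red S = coeffMap red T := by
  rw [expansion_eq_of_hasExp_one hf, cong_one_iff_red hπ red hker hπ0,
    ModularCurve.coeffMap_qExpand, ModularCurve.coeffMap_qExpand]
  exact (ModularCurve.qExpand_injective L).eq_iff

end series

omit [NeZero L] [NeZero L₀] in
/-- A nonzero constant is a Kummer root of the trivial character. -/
lemma isKummer_const {b : ℂ} (hb : b ≠ 0) :
    IsKummer L n (0 : Additive Γ →+ ZMod n) (fun _ => b) :=
  ⟨fun h => hb (congrFun h UpperHalfPlane.I), mdifferentiable_const,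
    fun γ => by funext τ; simp,
    const_mem_weak (c := b ^ n) (Γ := Gamma L) (L := L) trivial⟩

/-- The data of a place over `ℓ` at a level prime to `ℓ`. -/
structure PlaceHyp (Γ : Subgroup SL(2, ℤ)) (M L n : ℕ) [NeZero L] [NeZero n]
    (A : ValuationSubring Qbar) (E : IntermediateField ℚ Qbar) where
  /-- A uniformiser. -/
  π : placeRing (_root_.complexEmbedding : Qbar →+* ℂ) A E
  irred : Irreducible π
  normal : Normal ℚ E
  dvr : IsDiscreteValuationRing (placeRing (_root_.complexEmbedding : Qbar →+* ℂ) A E)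
  level : LevelHyp M L (placeRing (_root_.complexEmbedding : Qbar →+* ℂ) A E)
  span : ∀ (δ : SL(2, ℤ)) (f : LRing L (placeRing (_root_.complexEmbedding : Qbar →+* ℂ) A E)),
    kerAt _ (π : ℂ) δ f → f ∈ Ideal.span {constL (L := L) (π : ℂ) π.2}
  rigid : IsRigid Γ L n (placeRing (_root_.complexEmbedding : Qbar →+* ℂ) A E) (π : ℂ)
  roots : ∀ χ : parabolicHoms ℤ Γ (ZMod n), ∃ g, IsKummer L n χ.1 g ∧
    g ^ n ∈ weak (Gamma L) L
      ((E.toSubalgebra.toSubring).map (_root_.complexEmbedding : Qbar →+* ℂ))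

local notation "ι₀" => (_root_.complexEmbedding : Qbar →+* ℂ)

namespace PlaceHyp

variable {A : ValuationSubring Qbar} {E : IntermediateField ℚ Qbar} {ℓ : ℕ}
  (P : PlaceHyp Γ M L n A E)

/-- The uniformiser is non-zero. -/
lemma pi_ne_zero : (P.π : ℂ) ≠ 0 := fun h => P.irred.ne_zero (Subtype.ext h)

include P in
lemma ker_red [FiniteDimensional ℚ E] (hℓ : ℓ.Prime) (hA : A.LiesOverPrime ℓ)
    (z : placeRing ι₀ A E) :
    placeRed ι₀ A E z = 0 ↔ (⟨(P.π : ℂ), P.π.2⟩ : placeRing ι₀ A E) ∣ z :=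
  placeRed_eq_zero_iff hℓ hA P.irred z

include P in
/-- A root whose power is integral with nonzero reduction at `∞`. -/
theorem exists_normalised_root (χ : parabolicHoms ℤ Γ (ZMod n)) :
    ∃ g, IsKummer L n χ.1 g ∧ g ^ n ∈ weak (Gamma L) L (placeRing ι₀ A E) ∧
      ¬ Cong (placeRing ι₀ A E) (P.π : ℂ) 1 (expansion L (g ^ n)) 0 := by
  have := P.dvr
  obtain ⟨g, hg, hgK⟩ := P.roots χ
  set K := (E.toSubalgebra.toSubring).map ι₀
  have hBK : placeRing ι₀ A E ≤ K := fun z hz => by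
    obtain ⟨x, ⟨-, hx⟩, rfl⟩ := mem_placeRing.mp hz
    exact Subring.mem_map.mpr ⟨x, hx, rfl⟩
  have hinvK : ∀ z ∈ K, z⁻¹ ∈ K := fun z hz => by
    obtain ⟨x, hx, rfl⟩ := Subring.mem_map.mp hz
    exact Subring.mem_map.mpr ⟨x⁻¹, inv_mem (s := E) hx, map_inv₀ _ _⟩
  have hden : ∀ x ∈ K, ∃ r : ℕ, (P.π : ℂ) ^ r * x ∈ placeRing ι₀ A E := by
    intro x hx
    obtain ⟨e, he, rfl⟩ := Subring.mem_map.mp hx
    rcases A.mem_or_inv_mem e with h | h
    · exact ⟨0, by rw [pow_zero, one_mul]; exact map_mem_placeRing_iff.mpr ⟨h, he⟩⟩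
    rcases eq_or_ne e 0 with rfl | he0
    · exact ⟨0, by simp⟩
    let z : placeRing ι₀ A E :=
      ⟨ι₀ e⁻¹, map_mem_placeRing_iff.mpr ⟨h, inv_mem (s := E) he⟩⟩
    have hz0 : z ≠ 0 := fun h0 => by
      have : ι₀ e⁻¹ = 0 := congrArg Subtype.val h0
      exact he0 (inv_eq_zero.mp (map_eq_zero ι₀ |>.mp this))
    obtain ⟨r, u, hu⟩ := IsDiscreteValuationRing.eq_unit_mul_pow_irreducible hz0 P.irred
    refine ⟨r, ?_⟩
    have hu' : ι₀ e⁻¹ = ((u : placeRing ι₀ A E) : ℂ) * (P.π : ℂ) ^ r := by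
      have := congrArg Subtype.val hu
      simpa [z] using this
    have hval : (P.π : ℂ) ^ r * ι₀ e = ((↑u⁻¹ : placeRing ι₀ A E) : ℂ) := by
      have h1 : ((↑u⁻¹ : placeRing ι₀ A E) : ℂ) * ((u : placeRing ι₀ A E) : ℂ) = 1 :=
        congrArg Subtype.val u.inv_mul
      calc (P.π : ℂ) ^ r * ι₀ e
          = ((↑u⁻¹ : placeRing ι₀ A E) : ℂ) * ((u : placeRing ι₀ A E) : ℂ)
              * ((P.π : ℂ) ^ r * ι₀ e) := by rw [h1, one_mul]
        _ = ((↑u⁻¹ : placeRing ι₀ A E) : ℂ) * (ι₀ e⁻¹ * ι₀ e) := by rw [hu']; ring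
        _ = _ := by rw [← map_mul, inv_mul_cancel₀ he0, map_one, mul_one]
    rw [hval]
    exact SetLike.coe_mem _
  have hB : CoeffHyp (placeRing ι₀ A E) (P.π : ℂ) 1 :=
    { dvr := P.dvr, mem := P.π.2, irred := P.irred, ne_zero := one_ne_zero
      unit := by simp [one_mem], zeta := by simp [zetaC, one_mem] }
  have hg0 : g ^ n ≠ 0 := fun h => hg.ne_zero (funext fun τ => by
    simpa [NeZero.ne n] using congrFun h τ)
  obtain ⟨a, -, ha0, haB, hne⟩ := exists_normalised P.level hBK P.π.2 P.pi_ne_zero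
    (hinvK _ (hBK P.π.2)) hden hB.isSeparated (P.span 1) hgK hg0
  obtain ⟨b, hb⟩ := IsAlgClosed.exists_pow_nat_eq a (Nat.pos_of_ne_zero (NeZero.ne n))
  have hb0 : b ≠ 0 := fun h => ha0 (by rw [← hb, h, zero_pow (NeZero.ne n)])
  have hk := (isKummer_const (Γ := Γ) (L := L) (n := n) hb0).mul_of_mul hg
  rw [zero_add] at hk
  have hpow : ((fun _ : ℍ => b) * g) ^ n = (fun _ => a) * g ^ n := by
    rw [mul_pow]
    funext τ
    simp [hb]
  exact ⟨_, hk, hpow ▸ haB, hpow ▸ hne⟩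

variable (S : ConjLevel Γ N L₀) (hLL₀ : L ∣ L₀) (hNL : N ∣ L)

include P in
lemma isPlaceLift {σ : GalQ} {σ' : ℂ ≃+* ℂ}
    (h : ∀ x, σ' (_root_.complexEmbedding x) = _root_.complexEmbedding (σ x))
    (hσ : σ ∈ A.decompositionSubgroup ℚ) :
    IsPlaceLift (ι := ι₀) (A := A) (E := E) σ (σ' : ℂ →+* ℂ) := by
  have hN : @Normal ℚ E _ _ E.algebra' := by
    convert P.normal
    exact Subsingleton.elim _ _
  refine ⟨fun x => h x, hσ, fun x hx => ?_⟩
  have h1 := AlgHom.fieldRange_of_normal (σ.toAlgHom.comp E.val)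
  exact h1 ▸ ⟨⟨x, hx⟩, rfl⟩

include P hLL₀ hNL in
/-- Conjugates of integral roots are integral, with conjugate series. -/
theorem exists_conj_integral {σ : GalQ} {σ' : ℂ ≃+* ℂ}
    (h : ∀ x, σ' (_root_.complexEmbedding x) = _root_.complexEmbedding (σ x))
    (hσ : σ ∈ A.decompositionSubgroup ℚ) {χ : parabolicHoms ℤ Γ (ZMod n)} {g : ℍ → ℂ}
    (hg : IsKummer L n χ.1 g) (hgB : g ^ n ∈ weak (Gamma L) L (placeRing ι₀ A E)) :
    ∃ (c : ℕ) (g' : ℍ → ℂ), c.Coprime L ∧ IsKummer L n (S.galRep σ χ).1 g' ∧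
      IsConj L c (σ' : ℂ →+* ℂ) (g ^ n) (g' ^ n) ∧
      g' ^ n ∈ weak (Gamma L) L (placeRing ι₀ A E) := by
  obtain ⟨c, g', hc, hσc, hg', hconj⟩ := S.exists_conj_of_dvd hLL₀ hNL σ' hg
  rw [← S.galChar_eq h, ← S.galRep_apply] at hg'
  refine ⟨c, g', hc, hg', hconj, hconj.2.1.1, hconj.2.1.2.1, fun δ => ?_⟩
  obtain ⟨δ', hδ'⟩ := exists_twistRel_of_coprime hc δ
  refine ⟨_, ?_, hasExp_expansion hconj.2.1 δ⟩
  rw [hconj.2.2 δ δ' hδ']
  intro i
  rw [ModularCurve.coeffMap_coeff]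
  exact (P.isPlaceLift h hσ).map_mem (expansion_mem hgB δ' i)

omit [NeZero n] [NeZero L₀] in
lemma series_conj {σ : GalQ} {σ' : ℂ →+* ℂ} {c : ℕ}
    (hl : IsPlaceLift (ι := ι₀) (A := A) (E := E) σ σ') {f f' : ℍ → ℂ}
    (hconj : IsConj L c σ' f f') (hT : comp f ModularGroup.T = f)
    {S : LaurentSeries (placeRing ι₀ A E)}
    (hS : HasExp 1 f (coeffMap (placeRing ι₀ A E).subtype S)) :
    HasExp 1 f' (coeffMap (placeRing ι₀ A E).subtype (coeffMap (placeMap hl) S)) := by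
  obtain ⟨t, ht, ht', -⟩ := hconj.exists_hasExp_one hT
  obtain rfl := ht.series_eq hS
  convert ht' using 1
  ext i
  simp

include P S hLL₀ hNL in
/-- The Eichler–Shimura relation at a Frobenius. -/
theorem galRep_frobenius [FiniteDimensional ℚ E] [Fact ℓ.Prime] (hA : A.LiesOverPrime ℓ)
    (hζ : zetaC (L * ℓ) ∈ placeRing ι₀ A E) {D : CosetSystem Γ (Idx ℓ)} (hD : IsStandard D)
    {δ : SL(2, ℤ)} (hDδ : ∀ F, heckeProd D F = heckePair ℓ F (comp F δ))
    (hδ : IsTwistFixed Γ N δ) (dia : Γ →* Γ)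
    (hdia : ∀ γ : Γ, (dia γ : SL(2, ℤ)) = δ * γ * δ⁻¹) (hT : ModularGroup.T ∈ Γ)
    {σ : GalQ} (hσ : A.IsFrobeniusAt σ ℓ) (x : parabolicHoms ℤ Γ (ZMod n)) :
    (S.galRep σ (S.galRep σ x)).1 - D.transfer (S.galRep σ x).1
      + ℓ • x.1.comp dia.toAdditive = 0 := by
  have hℓ : ℓ.Prime := Fact.out
  have := GaloisBasics.residueField_charP hA hℓ
  have hLΓ : Gamma L ≤ Γ := S.stable.gamma_le hNL
  obtain ⟨σ', hσ', -⟩ := S.exists_isCharConj σ x
  have hl := P.isPlaceLift hσ' hσ.mem_decompositionSubgroup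
  obtain ⟨g, hg, hgB, hgne⟩ := P.exists_normalised_root x
  obtain ⟨c, g', hc, hg', hconj, hg'B⟩ :=
    P.exists_conj_integral S hLL₀ hNL hσ' hσ.mem_decompositionSubgroup hg hgB
  obtain ⟨c', g'', -, hg'', hconj', hg''B⟩ :=
    P.exists_conj_integral S hLL₀ hNL hσ' hσ.mem_decompositionSubgroup hg' hg'B
  set B := placeRing ι₀ A E
  set red := placeRed ι₀ A E
  set φ := frobenius (IsLocalRing.ResidueField A) ℓ
  obtain ⟨Sg, hSg⟩ := exists_series_one hgB (hg.pow_comp_eq hT)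
  have hTδ : comp (comp (g ^ n) δ) ModularGroup.T = comp (g ^ n) δ :=
    (hg.comp_conj δ dia hdia).pow_comp_eq hT
  have : (Gamma L).Normal := Gamma_normal L
  obtain ⟨U, hU⟩ := exists_series_one (comp_mem_weak hgB δ) hTδ
  have hS' := series_conj hl hconj (hg.pow_comp_eq hT) hSg
  have hU' := series_conj hl
    (hδ.isConj_comp hNL hc hconj fun γ hγ => hg.pow_comp_eq hγ) hTδ hU
  have hS'' := series_conj hl hconj' (hg'.pow_comp_eq hT) hS'
  have hred : ∀ s : LaurentSeries B,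
      coeffMap red (coeffMap (placeMap hl) s) = coeffMap φ (coeffMap red s) := fun s => by
    rw [ModularCurve.coeffMap_coeffMap, ModularCurve.coeffMap_coeffMap,
      placeRed_placeMap_frobenius hl hσ]
  obtain ⟨w, h, hw, hwB, hhB, hinv, W, H, hW, hH, hWH, hHU⟩ :=
    exists_kummer_frobenius hD δ hDδ dia hdia hT hLΓ red hζ hg hg' hg'' hgB hg'B hg''B
      hU hS' hU' hS'' (hred U) (hred _)
  have hπ0 := P.pi_ne_zero
  have hker := P.ker_red hℓ hA
  have hcong : Cong B (P.π : ℂ) 1 (expansion L (w ^ n)) (expansion L h ^ n) := by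
    rw [expansion_eq_of_hasExp_one hH, ← map_pow, ← map_pow,
      cong_expansion_iff P.π.2 red hker hπ0 W hW, map_pow]
    exact hWH
  have hne : ¬ Cong B (P.π : ℂ) 1 (expansion L h) 0 := by
    rw [show (0 : LaurentSeries ℂ) = coeffMap B.subtype (qExpand B L 0) by simp,
      cong_expansion_iff P.π.2 red hker hπ0 H hH, map_zero, hHU]
    refine mul_ne_zero ?_ (pow_ne_zero _ fun h0 => hgne ?_)
    · rw [hred, hred]
      refine coeffMap_map_ne_zero φ.injective (coeffMap_map_ne_zero φ.injective fun h0 => hgne ?_)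
      rw [show (0 : LaurentSeries ℂ) = coeffMap B.subtype (qExpand B L 0) by simp,
        cong_expansion_iff P.π.2 red hker hπ0 Sg hSg, map_zero, h0]
    · have hk : kerAt B (P.π : ℂ) δ (⟨g ^ n, hgB⟩ : LRing L B) := by
        show Cong B (P.π : ℂ) 1 (expansion L (comp (g ^ n) δ)) 0
        rw [show (0 : LaurentSeries ℂ) = coeffMap B.subtype (qExpand B L 0) by simp,
          cong_expansion_iff P.π.2 red hker hπ0 U hU, map_zero, h0]
      obtain ⟨u, hu⟩ := Ideal.mem_span_singleton'.mp (P.span δ _ hk)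
      have h1 : kerAt B (P.π : ℂ) 1 (⟨g ^ n, hgB⟩ : LRing L B) := by
        refine ⟨expAt (Gamma L) L B 1 u, expansion_mem u.2 1, ?_⟩
        rw [sub_zero, pow_one, ← hu, map_mul, expAt_constL, mul_comm]
      have h2 : Cong B (P.π : ℂ) 1 (expansion L (comp (g ^ n) 1)) 0 := h1
      rwa [comp_one] at h2
  set χ : parabolicHoms ℤ Γ (ZMod n) :=
    S.galRep σ (S.galRep σ x) + ℓ • conjParChar δ dia hdia x - transferChar D (S.galRep σ x)
    with hχ
  have hval : χ.1 = (S.galRep σ (S.galRep σ x)).1 + ℓ • x.1.comp dia.toAdditive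
      - D.transfer (S.galRep σ x).1 := by
    simp [hχ]
  have h0 : χ = 0 := P.rigid χ w h (by rw [hval]; exact hw) hwB hhB hinv hcong hne
  have h1 := congrArg Subtype.val h0
  rw [hval, Submodule.coe_zero] at h1
  rw [← h1]
  abel

include P S hLL₀ hNL in
/-- Inertia acts trivially. -/
theorem galRep_inertia [FiniteDimensional ℚ E] (hℓ : ℓ.Prime) (hA : A.LiesOverPrime ℓ)
    (hT : ModularGroup.T ∈ Γ) {σ : GalQ} (hσ : σ ∈ A.inertiaSubgroupIn ℚ) :
    S.galRep (n := n) σ = 1 := by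
  refine AddMonoidHom.ext fun x => ?_
  show S.galRep σ x = x
  have hdec := GaloisBasics.inertiaSubgroupIn_le_decompositionSubgroup hσ
  obtain ⟨σ', hσ', -⟩ := S.exists_isCharConj σ x
  have hl := P.isPlaceLift hσ' hdec
  obtain ⟨g, hg, hgB, hgne⟩ := P.exists_normalised_root x
  obtain ⟨c, g', -, hg', hconj, hg'B⟩ := P.exists_conj_integral S hLL₀ hNL hσ' hdec hg hgB
  set B := placeRing ι₀ A E
  set red := placeRed ι₀ A E
  obtain ⟨Sg, hSg⟩ := exists_series_one hgB (hg.pow_comp_eq hT)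
  have hS' := series_conj hl hconj (hg.pow_comp_eq hT) hSg
  obtain ⟨w, hw, hwB, W, hW, hWS⟩ := exists_kummer_inertia red hg hg' hgB hg'B hSg hS'
    (by rw [ModularCurve.coeffMap_coeffMap, placeRed_placeMap_inertia hl hσ])
  have hcong : Cong B (P.π : ℂ) 1 (expansion L (w ^ n)) (expansion L (g ^ n) ^ n) := by
    rw [expansion_eq_of_hasExp_one hSg, ← map_pow, ← map_pow,
      cong_expansion_iff P.π.2 red (P.ker_red hℓ hA) P.pi_ne_zero W hW, map_pow]
    exact hWS
  have h0 : S.galRep σ x - x = 0 :=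
    P.rigid _ w (g ^ n) hw hwB hgB (fun γ hγ => hg.pow_comp_eq hγ) hcong hgne
  exact sub_eq_zero.mp h0

end PlaceHyp

end Fermat.Agent.KummerES
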