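import Fermat.Agent.KummerES.ModulesCongr
import Fermat.Agent.KummerES.ConjugateField
import Fermat.Agent.KummerES.Base
import Fermat.Agent.KummerES.SpecialFibreMain

/-!
# Places of good reduction

Rigidity of congruences between powers of Kummer roots (`RigidityProp`) gives the data `PlaceHyp`
at every place over a prime not dividing the level.
-/

set_option autoImplicit false

noncomputable section

open UpperHalfPlane CongruenceSubgroup ModularCurve.Period
open scoped MatrixGroups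

namespace Fermat.Agent.KummerES

open GaloisBasics (Qbar GalQ)

local notation "ι₀" => (_root_.complexEmbedding : Qbar →+* ℂ)

/-- Rigidity at every level and place for `Γ`. -/
def RigidityProp (Γ : Subgroup SL(2, ℤ)) : Prop :=
  ∀ (M L n : ℕ) [NeZero L] [NeZero n] (B : Subring ℂ) (π : ℂ),
    LevelHyp M L B → CoeffHyp B π n → Gamma L ≤ Γ → IsRigid Γ L n B π

variable {Γ : Subgroup SL(2, ℤ)} {N L₀ n : ℕ} [NeZero L₀] [NeZero n]

/-- A normal number field carrying the roots and a given root of unity. -/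
theorem exists_field_roots (S : ConjLevel Γ N L₀) (m : ℕ) [NeZero m] :
    ∃ E : IntermediateField ℚ Qbar, FiniteDimensional ℚ E ∧ Normal ℚ E ∧
      (∀ χ : parabolicHoms ℤ Γ (ZMod n), ∃ g, IsKummer L₀ n χ.1 g ∧
        g ^ n ∈ weak (Gamma L₀) L₀ (E.toSubalgebra.toSubring.map ι₀)) ∧
      ∃ x ∈ E, ι₀ x = zetaC m := by
  obtain ⟨E₁, hfd, -, hroots⟩ := S.exists_numberField_roots (n := n)
  obtain ⟨x, hx⟩ := mem_range_complexEmbedding (z := zetaC m) (IsIntegral.isAlgebraic
    ⟨Polynomial.X ^ m - 1, Polynomial.monic_X_pow_sub_C 1 (NeZero.ne m), by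
      simp [zetaC_pow_self]⟩)
  have : FiniteDimensional ℚ (IntermediateField.adjoin ℚ {x}) :=
    IntermediateField.adjoin.finiteDimensional
      ((AlgebraicClosure.isAlgebraic ℚ).isAlgebraic x).isIntegral
  let E₀ := E₁ ⊔ IntermediateField.adjoin ℚ {x}
  have : FiniteDimensional ℚ E₀ := IntermediateField.finiteDimensional_sup _ _
  have : Algebra.IsAlgebraic ℚ Qbar := AlgebraicClosure.isAlgebraic ℚ
  have : IsAlgClosure ℚ Qbar := ⟨inferInstance, inferInstance⟩
  have : Normal ℚ Qbar := IsAlgClosure.normal ℚ _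
  refine ⟨IntermediateField.normalClosure ℚ E₀ Qbar, inferInstance,
    by convert normalClosure.normal ℚ E₀ Qbar; exact Subsingleton.elim _ _, fun χ => ?_,
    x, IntermediateField.le_normalClosure E₀
      ((le_sup_right : _ ≤ E₀) (IntermediateField.mem_adjoin_simple_self ℚ x)), hx⟩
  obtain ⟨g, hg, hgE⟩ := hroots χ
  refine ⟨g, hg, weak_mono le_rfl ?_ hgE⟩
  rintro z hz
  obtain ⟨y, hy, rfl⟩ := Subring.mem_map.mp hz
  exact Subring.mem_map.mpr
    ⟨y, IntermediateField.le_normalClosure E₀ ((le_sup_left : _ ≤ E₀) hy), rfl⟩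

lemma zetaC_eq_pow {d m : ℕ} [NeZero m] (hdm : d ∣ m) : zetaC d = zetaC m ^ (m / d) := by
  have : NeZero d := ⟨fun h => NeZero.ne m (Nat.eq_zero_of_zero_dvd (h ▸ hdm))⟩
  exact zetaC_pow_of_dvd hdm

omit [NeZero L₀] [NeZero n] in
lemma zetaC_mem_placeRing {A : ValuationSubring Qbar} {E : IntermediateField ℚ Qbar} {d m : ℕ}
    [NeZero m] (hdm : d ∣ m) {x : Qbar} (hx : x ∈ E) (hxm : ι₀ x = zetaC m) :
    zetaC d ∈ placeRing ι₀ A E := by
  rw [zetaC_eq_pow hdm]
  exact pow_mem (mem_placeRing_of_pow_eq_one hx hxm (NeZero.ne m) (zetaC_pow_self m)) _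

omit [NeZero n] in
lemma zetaRing_le_placeRing {A : ValuationSubring Qbar} {E : IntermediateField ℚ Qbar}
    {L m ℓ : ℕ} [NeZero m] (hLm : L ∣ m) {x : Qbar} (hx : x ∈ E) (hxm : ι₀ x = zetaC m)
    (hℓ : ℓ.Prime) (hA : A.LiesOverPrime ℓ) (hℓL : ¬ ℓ ∣ L) :
    zetaRing L ≤ placeRing ι₀ A E := by
  rw [zetaRing, Subring.closure_le]
  rintro z (rfl | rfl)
  · exact zetaC_mem_placeRing hLm hx hxm
  · exact inv_natCast_mem_placeRing hA hℓ hℓL

/-- Rigidity gives the hypotheses at a place. -/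
theorem exists_placeHyp (S : ConjLevel Γ N L₀) (hrig : RigidityProp Γ) {M L : ℕ} [NeZero L]
    (hM : M = 2 ∨ M = 3) (hML : M ∣ L) (hNL : N ∣ L) (hLL₀ : L ∣ L₀) {ℓ : ℕ} (hℓ : ℓ.Prime)
    (hℓL : ¬ ℓ ∣ L) (hℓn : ¬ ℓ ∣ n) {A : ValuationSubring Qbar} (hA : A.LiesOverPrime ℓ) :
    ∃ (E : IntermediateField ℚ Qbar) (_ : FiniteDimensional ℚ E) (_ : PlaceHyp Γ M L n A E),
      zetaC (L * ℓ) ∈ placeRing ι₀ A E := by
  have : NeZero ℓ := ⟨hℓ.ne_zero⟩
  obtain ⟨E, hfd, hnormal, hroots, x, hx, hxm⟩ :=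
    exists_field_roots (n := n) S (L * ℓ * n)
  have hLm : L ∣ L * ℓ * n := dvd_mul_of_dvd_left (dvd_mul_right L ℓ) n
  have hdvr : IsDiscreteValuationRing (placeRing ι₀ A E) :=
    isDiscreteValuationRing_placeRing hℓ hA
  obtain ⟨π, hπ⟩ := IsDiscreteValuationRing.exists_irreducible (placeRing ι₀ A E)
  let H : LevelHyp M L (placeRing ι₀ A E) :=
    { D := ratioData L
      T := baseData M L hM hML
      le := zetaRing_le_placeRing hLm hx hxm hℓ hA hℓL
      two_le := by rcases hM with rfl | rfl <;> norm_num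
      dvd := hML }
  have hB : CoeffHyp (placeRing ι₀ A E) (π : ℂ) n :=
    { dvr := hdvr
      mem := π.2
      irred := hπ
      ne_zero := NeZero.ne n
      unit := inv_natCast_mem_placeRing hA hℓ hℓn
      zeta := zetaC_mem_placeRing (dvd_mul_left n (L * ℓ)) hx hxm }
  have hLΓ : Gamma L ≤ Γ := S.stable.gamma_le hNL
  refine ⟨E, hfd,
    { π := π
      irred := hπ
      normal := hnormal
      dvr := hdvr
      level := H
      span := (H.specialFibre hB).mem_span
      rigid := hrig M L n _ _ H hB hLΓ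
      roots := fun χ => ?_ }, zetaC_mem_placeRing (dvd_mul_right (L * ℓ) n) hx hxm⟩
  obtain ⟨g, hg, hgE⟩ := hroots χ
  exact ⟨g, hg.descend hLL₀ hLΓ, weak_descend hLL₀ hgE fun γ hγ => hg.pow_comp_eq (hLΓ hγ)⟩

end Fermat.Agent.KummerES
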