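import Fermat.Agent.KummerES.Interface

/-!
# The expansions of Weierstrass values at torsion points

`wpSeries v` is the expansion of `℘_v / (2πi)²` in `exp (2πiτ/L)`, up to a term independent of `v`.
-/

set_option autoImplicit false

noncomputable section

namespace Fermat.Agent.KummerES

/-- Coefficient of `exp (2πiτ/L) ^ m` in the expansion of `℘_v / (2πi)²`, up to a common term. -/
def wpCoeff {L : ℕ} [NeZero L] (v : Ind L) (m : ℕ) : ℂ :=
  if m = 0 then (if v 0 = 0 then rootPow L (v 1) / (1 - rootPow L (v 1)) ^ 2 else 0)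
  else ∑ p ∈ m.divisorsAntidiagonal, (p.2 : ℂ) *
    ((if (p.1 : ZMod L) = v 0 then rootPow L ((p.2 : ZMod L) * v 1) else 0) +
      (if (p.1 : ZMod L) = -v 0 then rootPow L (-((p.2 : ZMod L) * v 1)) else 0))

/-- The Laurent series with coefficients `wpCoeff v`. -/
def wpSeries {L : ℕ} [NeZero L] (v : Ind L) : LaurentSeries ℂ :=
  HahnSeries.ofPowerSeries ℤ ℂ (PowerSeries.mk (wpCoeff v))

/-- Coefficients of `wpSeries` in non-negative degree. -/
@[simp] lemma wpSeries_coeff_natCast {L : ℕ} [NeZero L] (v : Ind L) (m : ℕ) :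
    (wpSeries v).coeff (m : ℤ) = wpCoeff v m := by
  simp [wpSeries, HahnSeries.ofPowerSeries_apply_coeff]

/-- `wpSeries` has no terms of negative degree. -/
lemma wpSeries_coeff_of_neg {L : ℕ} [NeZero L] (v : Ind L) {i : ℤ} (hi : i < 0) :
    (wpSeries v).coeff i = 0 := by
  rw [wpSeries, HahnSeries.ofPowerSeries_apply]
  exact HahnSeries.embDomain_of_notMem_range fun ⟨a, ha⟩ => by simp at ha; omega

end Fermat.Agent.KummerES
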