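import Fermat.Agent.KummerES.Interface
import Mathlib.RingTheory.RootsOfUnity.Lemmas

/-!
# Basic properties of `rootPow n x = ζ_n ^ x`

Additivity, injectivity, Galois action and integrality of `1 / (1 - ζ_n ^ x)` away from `n`.
-/

set_option autoImplicit false

noncomputable section

namespace Fermat.Agent.KummerES

variable {n : ℕ} [NeZero n]

/-- `zetaC n` is an `n`-th root of unity. -/
lemma zetaC_pow_self (n : ℕ) [NeZero n] : zetaC n ^ n = 1 := (isPrimitiveRoot_zetaC n).pow_eq_one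

/-- `rootPow` at a natural number. -/
lemma rootPow_natCast (k : ℕ) : rootPow n (k : ZMod n) = zetaC n ^ k := by
  rw [rootPow, ZMod.val_natCast]
  exact (pow_eq_pow_mod k (zetaC_pow_self n)).symm

/-- `rootPow` at zero. -/
@[simp] lemma rootPow_zero : rootPow n 0 = 1 := by simp [rootPow]

/-- `rootPow` turns sums into products. -/
lemma rootPow_add (x y : ZMod n) : rootPow n (x + y) = rootPow n x * rootPow n y := by
  conv_lhs => rw [← ZMod.natCast_zmod_val x, ← ZMod.natCast_zmod_val y, ← Nat.cast_add]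
  rw [rootPow_natCast, pow_add]
  rfl

/-- `rootPow` does not vanish. -/
lemma rootPow_ne_zero (x : ZMod n) : rootPow n x ≠ 0 := pow_ne_zero _ (zetaC_ne_zero n)

/-- `rootPow` of a negative. -/
lemma rootPow_neg (x : ZMod n) : rootPow n (-x) = (rootPow n x)⁻¹ := by
  refine eq_inv_of_mul_eq_one_left ?_
  rw [← rootPow_add, neg_add_cancel, rootPow_zero]

/-- `rootPow` of a natural multiple. -/
lemma rootPow_natCast_mul (k : ℕ) (x : ZMod n) : rootPow n (k * x) = rootPow n x ^ k := by
  rw [← ZMod.natCast_zmod_val x, ← Nat.cast_mul, rootPow_natCast, mul_comm, pow_mul,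
    ← rootPow_natCast]

/-- `rootPow` takes values in the `n`-th roots of unity. -/
lemma rootPow_pow_self (x : ZMod n) : rootPow n x ^ n = 1 := by
  rw [← rootPow_natCast_mul, ZMod.natCast_self, zero_mul, rootPow_zero]

/-- `rootPow n` has trivial kernel. -/
lemma rootPow_eq_one_iff (x : ZMod n) : rootPow n x = 1 ↔ x = 0 := by
  refine ⟨fun h => ?_, fun h => h ▸ rootPow_zero⟩
  have hdvd := (isPrimitiveRoot_zetaC n).dvd_of_pow_eq_one _ h
  rw [← ZMod.natCast_zmod_val x]
  exact (ZMod.natCast_eq_zero_iff ..).mpr hdvd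

/-- `rootPow` takes values in `zetaRing n`. -/
lemma rootPow_mem_zetaRing (x : ZMod n) : rootPow n x ∈ zetaRing n :=
  pow_mem (zetaC_mem_zetaRing n) _

/-- Automorphisms act on `rootPow` through the exponent. -/
lemma map_rootPow {σ : ℂ →+* ℂ} {c : ℕ} (h : σ (zetaC n) = zetaC n ^ c) (x : ZMod n) :
    σ (rootPow n x) = rootPow n (c * x) := by
  rw [rootPow_natCast_mul, rootPow, map_pow, h, ← pow_mul, ← pow_mul, mul_comm]

/-- `rootPow` takes values on the unit circle. -/
lemma norm_rootPow (x : ZMod n) : ‖rootPow n x‖ = 1 := by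
  rw [rootPow, norm_pow, Complex.norm_eq_one_of_pow_eq_one (zetaC_pow_self n) (NeZero.ne n),
    one_pow]

/-- `1 / (1 - ζ_n ^ x)` is integral away from `n`. -/
lemma inv_one_sub_rootPow_mem {x : ZMod n} (hx : x ≠ 0) :
    (1 - rootPow n x)⁻¹ ∈ zetaRing n := by
  have hz := isPrimitiveRoot_zetaC n
  obtain ⟨m, rfl⟩ : ∃ m, n = m + 1 := ⟨n - 1, by have := NeZero.ne n; omega⟩
  have hv : x.val ≠ 0 := fun h => hx ((ZMod.val_eq_zero x).mp h)
  have hlt : x.val - 1 ∈ Finset.range m := by
    have := ZMod.val_lt x; simp only [Finset.mem_range]; omega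
  have hprod := hz.prod_one_sub_pow_eq_order
  rw [← Finset.mul_prod_erase _ _ hlt, Nat.sub_add_cancel (by omega : 1 ≤ x.val)] at hprod
  have hne : (1 - rootPow (m + 1) x) ≠ 0 := sub_ne_zero.mpr fun h =>
    hx ((rootPow_eq_one_iff x).mp h.symm)
  have : (1 - rootPow (m + 1) x)⁻¹ =
      (∏ i ∈ (Finset.range m).erase (x.val - 1), (1 - zetaC (m + 1) ^ (i + 1))) *
        (((m + 1 : ℕ) : ℂ))⁻¹ := by
    rw [eq_mul_inv_iff_mul_eq₀ (by exact_mod_cast (Nat.succ_ne_zero m)), inv_mul_eq_iff_eq_mul₀ hne]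
    push_cast
    exact hprod.symm
  rw [this]
  exact mul_mem (prod_mem fun i _ => sub_mem (one_mem _) (pow_mem (zetaC_mem_zetaRing _) _))
    (inv_natCast_mem_zetaRing _)

end Fermat.Agent.KummerES
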