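import Fermat.Agent.KummerES.WpSeries
import Mathlib.Analysis.SpecialFunctions.Elliptic.Weierstrass

/-!
# Weierstrass values at torsion points, as functions of `τ`

`wp v τ = ℘(τ; (v₀ τ + v₁) / L)` for the lattice `ℤ τ + ℤ`.
-/

set_option autoImplicit false

noncomputable section

open UpperHalfPlane hiding I
open scoped MatrixGroups

namespace Fermat.Agent.KummerES

/-- The lattice `ℤ τ + ℤ`. -/
def latticePair (τ : ℍ) : PeriodPair where
  ω₁ := τ
  ω₂ := 1
  indep := by
    rw [LinearIndependent.pair_iff]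
    intro s t h
    have him := congrArg Complex.im h
    simp [τ.im_ne_zero] at him
    exact ⟨him, by simpa [him] using congrArg Complex.re h⟩

/-- Membership in `ℤ τ + ℤ`. -/
lemma mem_latticePair {τ : ℍ} {z : ℂ} :
    z ∈ (latticePair τ).lattice ↔ ∃ m n : ℤ, (m : ℂ) * τ + n = z := by
  simp [PeriodPair.mem_lattice, latticePair]

variable {L : ℕ}

/-- The torsion point attached to integers `a, b`. -/
def rawPt (L : ℕ) (a b : ℤ) (τ : ℍ) : ℂ := ((a : ℂ) * τ + b) / L

/-- The torsion point attached to `v`. -/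
def torsPt (v : Ind L) (τ : ℍ) : ℂ := rawPt L ((v 0).val) ((v 1).val) τ

/-- `℘` at the torsion point `v`. -/
def wp (v : Ind L) (τ : ℍ) : ℂ := (latticePair τ).weierstrassP (torsPt v τ)

variable [NeZero L]

/-- Torsion points agree modulo the lattice exactly when their indices agree modulo `L`. -/
lemma rawPt_sub_mem_iff {a b a' b' : ℤ} (τ : ℍ) :
    rawPt L a b τ - rawPt L a' b' τ ∈ (latticePair τ).lattice ↔
      (a : ZMod L) = a' ∧ (b : ZMod L) = b' := by
  rw [mem_latticePair]
  have hL : (L : ℂ) ≠ 0 := by exact_mod_cast NeZero.ne L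
  simp only [ZMod.intCast_eq_intCast_iff_dvd_sub, rawPt]
  constructor
  · rintro ⟨m, n, h⟩
    field_simp at h
    have him := congrArg Complex.im h
    have hre := congrArg Complex.re h
    simp at him hre
    have h1 : ((L : ℤ) * m : ℝ) = (a - a' : ℤ) := by
      refine mul_right_cancel₀ τ.im_ne_zero ?_
      push_cast; linarith
    have h2 : ((L : ℤ) * n : ℝ) = (b - b' : ℤ) := by
      have : ((L : ℝ) * m) * τ.re = ((a : ℝ) - a') * τ.re := by push_cast at h1; rw [h1]
      push_cast; linarith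
    exact ⟨dvd_sub_comm.mp ⟨m, by exact_mod_cast h1.symm⟩, dvd_sub_comm.mp ⟨n, by exact_mod_cast h2.symm⟩⟩
  · rintro ⟨⟨m, hm⟩, ⟨n, hn⟩⟩
    refine ⟨-m, -n, ?_⟩
    have hm' : (a' : ℂ) - a = L * m := by exact_mod_cast hm
    have hn' : (b' : ℂ) - b = L * n := by exact_mod_cast hn
    field_simp
    push_cast
    linear_combination (τ : ℂ) * hm' + hn'

/-- `torsPt` represents `rawPt` modulo the lattice. -/
lemma rawPt_eq_torsPt_add (a b : ℤ) (τ : ℍ) :
    rawPt L a b τ - torsPt ![(a : ZMod L), (b : ZMod L)] τ ∈ (latticePair τ).lattice := by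
  rw [torsPt, rawPt_sub_mem_iff (L := L)]
  simp [ZMod.natCast_val]

lemma weierstrassP_rawPt (a b : ℤ) (τ : ℍ) :
    (latticePair τ).weierstrassP (rawPt L a b τ) = wp ![(a : ZMod L), (b : ZMod L)] τ := by
  have := (latticePair τ).weierstrassP_add_coe (torsPt ![(a : ZMod L), (b : ZMod L)] τ)
    ⟨_, rawPt_eq_torsPt_add (L := L) a b τ⟩
  rwa [show torsPt ![(a : ZMod L), (b : ZMod L)] τ +
    (rawPt L a b τ - torsPt ![(a : ZMod L), (b : ZMod L)] τ) = rawPt L a b τ by ring] at this

/-- Only the zero torsion point lies in the lattice. -/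
lemma torsPt_mem_iff (v : Ind L) (τ : ℍ) : torsPt v τ ∈ (latticePair τ).lattice ↔ v = 0 := by
  have h0 : rawPt L 0 0 τ = 0 := by simp [rawPt]
  have := rawPt_sub_mem_iff (L := L) (a := (v 0).val) (b := (v 1).val) (a' := 0) (b' := 0) τ
  rw [h0, sub_zero] at this
  rw [torsPt, this]
  simp [ZMod.natCast_val, funext_iff, Fin.forall_fin_two]

/-- `wp` is even in the vector. -/
lemma wp_neg (v : Ind L) (τ : ℍ) : wp (-v) τ = wp v τ := by
  conv_rhs => rw [wp, ← PeriodPair.weierstrassP_neg]
  rw [show -torsPt v τ = rawPt L (-(v 0).val) (-(v 1).val) τ by simp [torsPt, rawPt]; ring,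
    weierstrassP_rawPt]
  congr 1
  funext i
  fin_cases i <;> simp [ZMod.natCast_val]

/-- Homogeneity of `℘`. -/
lemma weierstrassP_smul (P Q : PeriodPair) (c : ℂ) (hc : c ≠ 0)
    (h : ∀ x, x ∈ Q.lattice ↔ c * x ∈ P.lattice) (z : ℂ) :
    Q.weierstrassP z = c ^ 2 * P.weierstrassP (c * z) := by
  let e : Q.lattice ≃ P.lattice :=
    { toFun := fun x => ⟨c * x, (h x).mp x.2⟩
      invFun := fun y => ⟨c⁻¹ * y, (h _).mpr (by rw [mul_inv_cancel_left₀ hc]; exact y.2)⟩
      left_inv := fun x => by ext; simp [hc]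
      right_inv := fun y => by ext; simp [hc] }
  have hsum := (P.hasSum_weierstrassP (c * z)).mul_left (c ^ 2)
  rw [← e.hasSum_iff] at hsum
  refine (Q.hasSum_weierstrassP z).unique ?_
  refine hsum.congr_fun fun x => ?_
  simp only [Function.comp_apply, e, Equiv.coe_fn_mk, ← mul_sub, mul_pow]
  field_simp

/-- The transformation law of `wp`. -/
lemma wp_smul (γ : SL(2, ℤ)) (v : Ind L) (τ : ℍ) :
    wp v (γ • τ) = ((γ 1 0 : ℂ) * τ + γ 1 1) ^ 2 * wp (vAct v γ) τ := by
  set a := γ 0 0
  set b := γ 0 1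
  set c := γ 1 0
  set d := γ 1 1
  have hdet : a * d - b * c = 1 := (Matrix.det_fin_two γ.1).symm.trans γ.2
  have hdetC : (a : ℂ) * d - b * c = 1 := by exact_mod_cast hdet
  set u : ℂ := (c : ℂ) * τ + d
  have hu : u ≠ 0 := by
    intro h
    have him := congrArg Complex.im h
    have hre := congrArg Complex.re h
    simp [u, τ.im_ne_zero] at him
    simp [u, him] at hre
    simp [him, hre] at hdet
  have hτ : ((γ • τ : ℍ) : ℂ) = ((a : ℂ) * τ + b) / u := by
    rw [UpperHalfPlane.coe_specialLinearGroup_apply]; simp [a, b, c, d, u]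
  have hlat : ∀ x, x ∈ (latticePair (γ • τ)).lattice ↔ u * x ∈ (latticePair τ).lattice := by
    intro x
    simp only [mem_latticePair, hτ]
    constructor
    · rintro ⟨m, n, rfl⟩
      refine ⟨m * a + n * c, m * b + n * d, ?_⟩
      field_simp; push_cast; ring_nf; simp [u]; ring
    · rintro ⟨m, n, h⟩
      refine ⟨m * d - n * c, -m * b + n * a, ?_⟩
      field_simp
      rw [← h]
      push_cast
      simp only [u]
      linear_combination ((m : ℂ) * τ + n) * hdetC
  rw [wp, weierstrassP_smul _ _ u hu hlat]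
  congr 1
  rw [show u * torsPt v (γ • τ) = rawPt L ((v 0).val * a + (v 1).val * c)
    ((v 0).val * b + (v 1).val * d) τ by
      simp only [torsPt, rawPt, hτ]; field_simp; push_cast; simp only [u]; ring, weierstrassP_rawPt]
  congr 1
  funext i
  fin_cases i <;> simp [vAct, Matrix.vecMul, dotProduct, Fin.sum_univ_two, ZMod.natCast_val, a, b, c, d]

end Fermat.Agent.KummerES
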