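import Fermat.Agent.KummerES.RootPow
import Fermat.Agent.KummerES.RatioSeries

/-!
# The `q`-series attached to `℘` at a torsion point

Symmetry, integrality and twisting of `wpSeries v`, the expansion in `exp (2πiτ/L)` of `∑ₘ ∑ₙ (2πi)⁻² (z + mτ + n)⁻²` at
`z = (v₀ τ + v₁)/L`; it differs from `(2πi)⁻² ℘(z)` by a series independent of `v`.
-/

set_option autoImplicit false

noncomputable section

open Finset

namespace Fermat.Agent.KummerES

variable {L : ℕ} [NeZero L]

/-- The contribution of `(j, k)`. -/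
def wpTerm (v : Ind L) (j k : ℕ) : ℂ :=
  if (j : ZMod L) = v 0 then rootPow L ((k : ZMod L) * v 1) else 0

/-- The constant term. -/
def wpConst (v : Ind L) : ℂ :=
  if v 0 = 0 then rootPow L (v 1) / (1 - rootPow L (v 1)) ^ 2 else 0

/-- `wpCoeff` through `wpConst` and `wpTerm`. -/
lemma wpCoeff_eq (v : Ind L) (n : ℕ) : wpCoeff v n = if n = 0 then wpConst v
    else ∑ p ∈ n.divisorsAntidiagonal, (p.2 : ℂ) * (wpTerm v p.1 p.2 + wpTerm (-v) p.1 p.2) := by
  simp only [wpCoeff, wpConst, wpTerm, Pi.neg_apply, mul_neg]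

lemma wpConst_neg (v : Ind L) : wpConst (-v) = wpConst v := by
  unfold wpConst
  simp only [Pi.neg_apply, neg_eq_zero, rootPow_neg]
  split_ifs with h
  · have h1 := rootPow_ne_zero (v 1)
    rw [show (1 - (rootPow L (v 1))⁻¹) ^ 2 = (1 - rootPow L (v 1)) ^ 2 / rootPow L (v 1) ^ 2 by
      field_simp; ring, div_div_eq_mul_div, pow_two, inv_mul_cancel_left₀ h1]
  · rfl

/-- The coefficients are even in the vector. -/
lemma wpCoeff_neg (v : Ind L) (n : ℕ) : wpCoeff (-v) n = wpCoeff v n := by
  simp only [wpCoeff_eq]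
  split_ifs
  · exact wpConst_neg v
  · exact sum_congr rfl fun p _ => by rw [neg_neg, add_comm]

lemma wpConst_mem {v : Ind L} (hv : v ≠ 0) : wpConst v ∈ zetaRing L := by
  unfold wpConst
  split_ifs with h
  · have h1 : v 1 ≠ 0 := fun h1 => hv (funext fun i => by fin_cases i <;> assumption)
    rw [div_eq_mul_inv, ← inv_pow]
    exact mul_mem (rootPow_mem_zetaRing _) (pow_mem (inv_one_sub_rootPow_mem h1) 2)
  · exact zero_mem _

lemma wpTerm_mem (v : Ind L) (j k : ℕ) : wpTerm v j k ∈ zetaRing L := by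
  unfold wpTerm
  split_ifs
  exacts [rootPow_mem_zetaRing _, zero_mem _]

lemma wpCoeff_mem {v : Ind L} (hv : v ≠ 0) (n : ℕ) : wpCoeff v n ∈ zetaRing L := by
  simp only [wpCoeff_eq]
  split_ifs
  · exact wpConst_mem hv
  · exact sum_mem fun p _ => mul_mem (natCast_mem _ _) (add_mem (wpTerm_mem _ _ _) (wpTerm_mem _ _ _))

/-- `wpSeries` has coefficients in `zetaRing L`. -/
lemma wpSeries_mem {v : Ind L} (hv : v ≠ 0) : wpSeries v ∈ coeffSubring (zetaRing L) := fun i => by
  rcases lt_or_ge i 0 with hi | hi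
  · rw [wpSeries_coeff_of_neg v hi]; exact zero_mem _
  · lift i to ℕ using hi
    rw [wpSeries_coeff_natCast]; exact wpCoeff_mem hv i

section map

variable {σ : ℂ →+* ℂ} {c : ℕ}

omit [NeZero L] in
@[simp] lemma diagTwist_zero_apply (a : ZMod L) (v : Ind L) : diagTwist a v 0 = v 0 := rfl

omit [NeZero L] in
@[simp] lemma diagTwist_one_apply (a : ZMod L) (v : Ind L) : diagTwist a v 1 = a * v 1 := rfl

omit [NeZero L] in
/-- Diagonal twists commute with negation. -/
lemma diagTwist_neg (a : ZMod L) (v : Ind L) : diagTwist a (-v) = -diagTwist a v := by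
  funext i; fin_cases i <;> simp

lemma map_wpTerm (h : σ (zetaC L) = zetaC L ^ c) (v : Ind L) (j k : ℕ) :
    σ (wpTerm v j k) = wpTerm (diagTwist (c : ZMod L) v) j k := by
  simp only [wpTerm, apply_ite σ, map_zero, map_rootPow h, diagTwist_zero_apply,
    diagTwist_one_apply, mul_left_comm]

lemma map_wpConst (h : σ (zetaC L) = zetaC L ^ c) (v : Ind L) :
    σ (wpConst v) = wpConst (diagTwist (c : ZMod L) v) := by
  simp only [wpConst, apply_ite σ, map_zero, map_div₀, map_pow, map_sub, map_one, map_rootPow h,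
    diagTwist_zero_apply, diagTwist_one_apply]

lemma map_wpCoeff (h : σ (zetaC L) = zetaC L ^ c) (v : Ind L) (n : ℕ) :
    σ (wpCoeff v n) = wpCoeff (diagTwist (c : ZMod L) v) n := by
  simp only [wpCoeff_eq, apply_ite σ, map_sum, map_mul, map_natCast, map_add, map_wpTerm h,
    map_wpConst h, diagTwist_neg]

/-- Automorphisms act on `wpSeries` through the diagonal twist. -/
lemma map_wpSeries (h : σ (zetaC L) = zetaC L ^ c) (v : Ind L) :
    ModularCurve.coeffMap σ (wpSeries v) = wpSeries (diagTwist (c : ZMod L) v) := by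
  ext i
  rw [ModularCurve.coeffMap_coeff]
  rcases lt_or_ge i 0 with hi | hi
  · rw [wpSeries_coeff_of_neg v hi, wpSeries_coeff_of_neg _ hi, map_zero]
  · lift i to ℕ using hi
    rw [wpSeries_coeff_natCast, wpSeries_coeff_natCast, map_wpCoeff h]

end map

end Fermat.Agent.KummerES
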